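import Fermat.Agent.DeligneSerre.GroupBasic
import Fermat.Agent.Galois.Frobenius
import Mathlib.RingTheory.RootsOfUnity.AlgebraicallyClosed
import Mathlib.RingTheory.Valuation.LocalSubring

/-!
# Residue fields of the places of `ℚ̄`
-/

set_option autoImplicit false

namespace Fermat.Agent.DeligneSerre

open Polynomial IsLocalRing

local notation "ℚbar" => AlgebraicClosure ℚ

variable {A : ValuationSubring (AlgebraicClosure ℚ)}

/-- The element of `A` given by an algebraic integer. -/
def intMem (A : ValuationSubring ℚbar) {x : ℚbar} (hx : IsIntegral ℤ x) : A :=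
  ⟨x, Galois.mem_valuationSubring_of_isIntegral A hx⟩

@[simp] theorem coe_intMem {x : ℚbar} (hx : IsIntegral ℤ x) : (intMem A hx : ℚbar) = x := rfl

/-- The residue field of a place of `ℚ̄` is algebraically closed. -/
theorem isAlgClosed_residueField (A : ValuationSubring ℚbar) : IsAlgClosed (ResidueField A) := by
  refine IsAlgClosed.of_exists_root _ fun p hp hirr => ?_
  obtain ⟨q, hqmap, hqdeg, hq⟩ := Polynomial.lifts_and_degree_eq_and_monic
    (Polynomial.map_surjective _ residue_surjective p) hp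
  have hdeg : (q.map A.subtype).degree ≠ 0 := by
    rw [hq.degree_map, hqdeg]; exact (degree_pos_of_irreducible hirr).ne'
  obtain ⟨z, hz⟩ := IsAlgClosed.exists_root _ hdeg
  obtain ⟨y, hy⟩ := IsIntegrallyClosed.algebraMap_eq_of_integral
    (show IsIntegral A z from ⟨q, hq, by rw [← eval_map]; exact hz⟩)
  refine ⟨residue A y, ?_⟩
  have hroot : q.eval y = 0 := by
    apply Subtype.val_injective (p := (· ∈ A))
    have : A.subtype (q.eval y) = (q.map A.subtype).eval z := by
      rw [← hy, ← Polynomial.eval_map_apply]; rfl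
    rw [hz] at this
    exact this
  rw [← hqmap, eval_map_apply, hroot, map_zero]

theorem natCast_residueField_ne_zero {ℓ : ℕ} (hℓ : ℓ.Prime) (hA : A.LiesOverPrime ℓ) {n : ℕ}
    (hn : ¬ ℓ ∣ n) : (n : ResidueField A) ≠ 0 := by
  intro h
  rw [← map_natCast (residue A), residue_eq_zero_iff,
    ← ValuationSubring.coe_mem_nonunits_iff] at h
  have h' : ((n : ℤ) : ℚbar) ∈ A.nonunits := by simpa using h
  exact hn (Int.natCast_dvd_natCast.mp ((Galois.intCast_mem_nonunits_iff hℓ hA _).mp h'))

/-- A non-zero algebraic integer is a unit at all places above almost all primes. -/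
theorem exists_finset_residue_ne_zero {x : ℚbar} (hx : IsIntegral ℤ x) (hx0 : x ≠ 0) :
    ∃ S : Finset ℕ, ∀ ℓ : ℕ, ℓ.Prime → ℓ ∉ S → ∀ A : ValuationSubring ℚbar, A.LiesOverPrime ℓ →
      residue A (intMem A hx) ≠ 0 := by
  obtain ⟨y, hy⟩ : ∃ y : ℚbar, y = x⁻¹ := ⟨_, rfl⟩
  set f := minpoly ℤ x with hf
  have hc : f.coeff 0 ≠ 0 := by
    have h1 : (minpoly ℚ x).coeff 0 ≠ 0 :=
      minpoly.coeff_zero_ne_zero (hx.tower_top (A := ℚ)) hx0
    rw [minpoly.isIntegrallyClosed_eq_field_fractions' ℚ hx, coeff_map] at h1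
    exact fun h => h1 (by rw [← hf, h, map_zero])
  refine ⟨(f.coeff 0).natAbs.divisors, fun ℓ hℓ hℓS A hA h => hℓS ?_⟩
  rw [Nat.mem_divisors]
  refine ⟨?_, Int.natAbs_ne_zero.mpr hc⟩
  rw [residue_eq_zero_iff, ← ValuationSubring.coe_mem_nonunits_iff] at h
  have hmem : ((f.coeff 0 : ℤ) : A) ∈ maximalIdeal A := by
    have h0 : aeval (intMem A hx) f = 0 := by
      apply Subtype.val_injective (p := (· ∈ A))
      have : A.subtype (aeval (intMem A hx) f) = aeval x f := by
        rw [aeval_def, aeval_def, Polynomial.hom_eval₂]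
        congr 1
      rw [minpoly.aeval] at this
      exact this
    rw [← X_mul_divX_add f, map_add, map_mul, aeval_X, aeval_C, algebraMap_int_eq,
      eq_intCast] at h0
    rw [eq_neg_of_add_eq_zero_right h0, neg_mem_iff]
    exact Ideal.mul_mem_right _ _ (ValuationSubring.coe_mem_nonunits_iff.mp h)
  rw [← ValuationSubring.coe_mem_nonunits_iff] at hmem
  have h' : ((f.coeff 0 : ℤ) : ℚbar) ∈ A.nonunits := by simpa using hmem
  exact Int.natCast_dvd.mp ((Galois.intCast_mem_nonunits_iff hℓ hA _).mp h')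

/-- Roots of unity of order prime to `ℓ` lift. -/
theorem exists_root_lift {ℓ : ℕ} (hℓ : ℓ.Prime) (hA : A.LiesOverPrime ℓ) {m : ℕ} (hm : ¬ ℓ ∣ m)
    {u : ResidueField A} (hu : u ^ m = 1) :
    ∃ z : A, z ^ m = 1 ∧ residue A z = u := by
  classical
  have hm0 : 0 < m := Nat.pos_of_ne_zero fun h => hm (h ▸ dvd_zero ℓ)
  have hmk := natCast_residueField_ne_zero hℓ hA hm
  haveI : NeZero m := ⟨hm0.ne'⟩
  obtain ⟨ζ, hζ⟩ := HasEnoughRootsOfUnity.exists_primitiveRoot ℚbar m
  have hζA : IsIntegral ℤ ζ := hζ.isIntegral hm0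
  let zA : A := intMem A hζA
  have hzA : zA ^ m = 1 := Subtype.ext hζ.pow_eq_one
  have hprim : IsPrimitiveRoot zA m :=
    IsPrimitiveRoot.of_map_of_injective (f := A.subtype) hζ Subtype.val_injective
  have hprimk : IsPrimitiveRoot (residue A zA) m := by
    refine ⟨by rw [← map_pow, hzA, map_one], fun l hl => hprim.dvd_of_pow_eq_one l ?_⟩
    refine eq_of_map_eq_of_pow_eq_one (residue A) hmk ?_ (one_pow m) ?_
    · rw [← pow_mul, mul_comm, pow_mul, hzA, one_pow]
    · rw [map_pow, map_one, hl]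
  obtain ⟨i, -, hi⟩ := hprimk.eq_pow_of_pow_eq_one hu
  exact ⟨zA ^ i, by rw [← pow_mul, mul_comm, pow_mul, hzA, one_pow], by rw [map_pow, hi]⟩

open Matrix in
/-- A matrix with two distinct characteristic roots is diagonalisable. -/
theorem exists_conj_diag {k : Type*} [Field k] (x : Matrix (Fin 2) (Fin 2) k) {u v : k}
    (huv : u ≠ v) (ht : x.trace = u + v) (hd : x.det = u * v) :
    ∃ P : GL (Fin 2) k, (P⁻¹).val * x * P.val = diagonal ![u, v] := by
  obtain ⟨w, hw0, hw⟩ := exists_eigenvector x ht hd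
  obtain ⟨w', hw0', hw'⟩ := exists_eigenvector x (u := v) (v := u) (by rw [ht, add_comm])
    (by rw [hd, mul_comm])
  let M : Matrix (Fin 2) (Fin 2) k := !![w 0, w' 0; w 1, w' 1]
  have hMd : M.det ≠ 0 := by
    intro h
    obtain ⟨z, hz0, hz⟩ := exists_mulVec_eq_zero_iff.mpr h
    have h0 : z 0 • w + z 1 • w' = 0 := by
      ext i
      fin_cases i
      · have := congrFun hz 0
        simp [M, mulVec, dotProduct, Fin.sum_univ_two] at this ⊢
        linear_combination this
      · have := congrFun hz 1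
        simp [M, mulVec, dotProduct, Fin.sum_univ_two] at this ⊢
        linear_combination this
    have h1 : z 0 • (u • w) + z 1 • (v • w') = 0 := by
      rw [← hw, ← hw', ← mulVec_smul, ← mulVec_smul, ← mulVec_add, h0, mulVec_zero]
    have h2 : ((u - v) * z 0) • w = 0 := by
      calc ((u - v) * z 0) • w
          = (z 0 • (u • w) + z 1 • (v • w')) - v • (z 0 • w + z 1 • w') := by module
        _ = 0 := by rw [h1, h0, smul_zero, sub_zero]
    have hz00 : z 0 = 0 :=
      (mul_eq_zero.mp ((smul_eq_zero.mp h2).resolve_right hw0)).resolve_left (sub_ne_zero.mpr huv)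
    rw [hz00, zero_smul, zero_add, smul_eq_zero] at h0
    exact hz0 (funext fun i => by fin_cases i <;> simp [hz00, h0.resolve_right hw0'])
  refine ⟨GeneralLinearGroup.mkOfDetNeZero M hMd, ?_⟩
  have hxM : x * M = M * diagonal ![u, v] := by
    ext i j
    have e0 := congrFun hw i
    have e1 := congrFun hw' i
    simp [mulVec, dotProduct, Fin.sum_univ_two] at e0 e1
    fin_cases j <;> simp [M, Matrix.mul_apply, Fin.sum_univ_two] <;> fin_cases i <;>
      simp at e0 e1 ⊢ <;> first
      | linear_combination e0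
      | linear_combination e1
  set P := GeneralLinearGroup.mkOfDetNeZero M hMd with hP
  have hPM : P.val = M := rfl
  rw [Matrix.mul_assoc, hPM, hxM, ← Matrix.mul_assoc, ← hPM, Units.inv_mul, Matrix.one_mul]

end Fermat.Agent.DeligneSerre
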