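import Mathlib.LinearAlgebra.Matrix.Charpoly.Coeff
import Mathlib.LinearAlgebra.Matrix.GeneralLinearGroup.Defs
import Mathlib.LinearAlgebra.Matrix.ToLinearEquiv
import Mathlib.LinearAlgebra.Matrix.Notation
import Mathlib.FieldTheory.IsAlgClosed.Basic
import Mathlib.RingTheory.RootsOfUnity.CyclotomicUnits

/-!
# Elementary facts on `2 × 2` matrices and roots of unity
-/

set_option autoImplicit false

namespace Fermat.Agent.DeligneSerre

open Matrix

section CommRing

variable {R : Type*} [CommRing R]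

/-- Cayley–Hamilton in size two. -/
theorem mul_self_eq (x : Matrix (Fin 2) (Fin 2) R) :
    x * x = x.trace • x - x.det • (1 : Matrix (Fin 2) (Fin 2) R) := by
  ext i j
  fin_cases i <;> fin_cases j <;>
    simp [Matrix.mul_apply, Fin.sum_univ_two, Matrix.det_fin_two, Matrix.trace_fin_two,
      Matrix.one_apply] <;> ring

/-- If `u + v` is the trace and `u v` the determinant, then `(x - u) (x - v) = 0`. -/
theorem sub_mul_sub_eq_zero (x : Matrix (Fin 2) (Fin 2) R) {u v : R} (ht : x.trace = u + v)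
    (hd : x.det = u * v) :
    (x - u • (1 : Matrix (Fin 2) (Fin 2) R)) * (x - v • (1 : Matrix (Fin 2) (Fin 2) R)) = 0 := by
  have h := mul_self_eq x
  rw [ht, hd] at h
  simp only [sub_mul, mul_sub, Matrix.smul_mul, Matrix.mul_smul, one_mul, mul_one, h, smul_smul]
  module

/-- If the characteristic roots of `x` are `B`-th roots of unity, `x ^ B - 1` squares to zero. -/
theorem pow_sub_one_sq_eq_zero (x : Matrix (Fin 2) (Fin 2) R) {u v : R} {B : ℕ}
    (hu : u ^ B = 1) (hv : v ^ B = 1) (ht : x.trace = u + v) (hd : x.det = u * v) :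
    (x ^ B - 1) * (x ^ B - 1) = 0 := by
  have key : ∀ w : R, w ^ B = 1 →
      x ^ B - 1 = (∑ i ∈ Finset.range B, x ^ i * (w • (1 : Matrix (Fin 2) (Fin 2) R)) ^ (B - 1 - i))
        * (x - w • 1) := by
    intro w hw
    have hc : Commute x (w • (1 : Matrix (Fin 2) (Fin 2) R)) :=
      (Commute.one_right x).smul_right w
    rw [hc.geom_sum₂_mul, smul_pow, one_pow, hw, one_smul]
  have hc : ∀ (w : R) (y : Matrix (Fin 2) (Fin 2) R), Commute (x - w • 1) y ↔ Commute x y := by
    intro w y
    simp [commute_iff_eq, sub_mul, mul_sub]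
  set q₁ := ∑ i ∈ Finset.range B, x ^ i * (u • (1 : Matrix (Fin 2) (Fin 2) R)) ^ (B - 1 - i)
    with hq₁
  set q₂ := ∑ i ∈ Finset.range B, x ^ i * (v • (1 : Matrix (Fin 2) (Fin 2) R)) ^ (B - 1 - i)
    with hq₂
  have hcom : Commute (x - u • 1) q₂ := by
    rw [hc, hq₂]
    refine Commute.sum_right _ _ _ fun i _ => ?_
    exact ((Commute.refl x).pow_right i).mul_right (((Commute.one_right x).smul_right v).pow_right _)
  calc (x ^ B - 1) * (x ^ B - 1) = (q₁ * (x - u • 1)) * (q₂ * (x - v • 1)) := by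
        rw [← key u hu, ← key v hv]
    _ = q₁ * q₂ * ((x - u • 1) * (x - v • 1)) := by
        rw [mul_assoc q₁, ← mul_assoc (x - u • 1), hcom.eq]
        simp [mul_assoc]
    _ = 0 := by rw [sub_mul_sub_eq_zero x ht hd, mul_zero]

/-- A matrix with zero off-diagonal and equal diagonal entries is a scalar. -/
theorem eq_smul_one_of_offdiag {x : Matrix (Fin 2) (Fin 2) R} (h₁ : x 0 1 = 0) (h₂ : x 1 0 = 0)
    (h₃ : x 0 0 = x 1 1) : x = x 0 0 • (1 : Matrix (Fin 2) (Fin 2) R) := by
  ext i j
  fin_cases i <;> fin_cases j <;> simp [h₁, h₂, h₃]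

end CommRing

section Field

variable {k : Type*} [Field k]

/-- The centraliser of a non-scalar `2 × 2` matrix is commutative. -/
theorem commute_of_commute_nonscalar {x y z : Matrix (Fin 2) (Fin 2) k}
    (hx : ∀ c : k, x ≠ c • 1) (hy : Commute y x) (hz : Commute z x) : Commute y z := by
  have e := fun (w : Matrix (Fin 2) (Fin 2) k) (h : Commute w x) (i j : Fin 2) =>
    congrFun (congrFun h.eq i) j
  have y00 := e y hy 0 0; have y01 := e y hy 0 1; have y10 := e y hy 1 0
  have z00 := e z hz 0 0; have z01 := e z hz 0 1; have z10 := e z hz 1 0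
  simp [Matrix.mul_apply, Fin.sum_univ_two] at y00 y01 y10 z00 z01 z10
  have key : y 0 1 * z 1 0 = y 1 0 * z 0 1 ∧
      y 0 1 * (z 0 0 - z 1 1) = z 0 1 * (y 0 0 - y 1 1) ∧
      y 1 0 * (z 0 0 - z 1 1) = z 1 0 * (y 0 0 - y 1 1) := by
    by_cases hb : x 0 1 = 0
    · by_cases hc : x 1 0 = 0
      · by_cases ha : x 0 0 = x 1 1
        · exact absurd (eq_smul_one_of_offdiag hb hc ha) (hx _)
        · have ha' : x 0 0 - x 1 1 ≠ 0 := sub_ne_zero.mpr ha
          simp [hb, hc] at y01 y10 z01 z10
          have hy1 : y 0 1 = 0 := (mul_eq_zero.mp (show y 0 1 * (x 0 0 - x 1 1) = 0 by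
            linear_combination -y01)).resolve_right ha'
          have hy2 : y 1 0 = 0 := (mul_eq_zero.mp (show y 1 0 * (x 0 0 - x 1 1) = 0 by
            linear_combination y10)).resolve_right ha'
          have hz1 : z 0 1 = 0 := (mul_eq_zero.mp (show z 0 1 * (x 0 0 - x 1 1) = 0 by
            linear_combination -z01)).resolve_right ha'
          have hz2 : z 1 0 = 0 := (mul_eq_zero.mp (show z 1 0 * (x 0 0 - x 1 1) = 0 by
            linear_combination z10)).resolve_right ha'
          simp [hy1, hy2, hz1, hz2]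
      · refine ⟨mul_left_cancel₀ (pow_ne_zero 2 hc) ?_, mul_left_cancel₀ (pow_ne_zero 2 hc) ?_,
          mul_left_cancel₀ (pow_ne_zero 2 hc) ?_⟩ <;> simp [hb] at * <;> grind
    · refine ⟨mul_left_cancel₀ (pow_ne_zero 2 hb) ?_, mul_left_cancel₀ (pow_ne_zero 2 hb) ?_,
          mul_left_cancel₀ (pow_ne_zero 2 hb) ?_⟩ <;> grind
  obtain ⟨k1, k2, k3⟩ := key
  ext i j
  fin_cases i <;> fin_cases j <;> simp [Matrix.mul_apply, Fin.sum_univ_two]
  · linear_combination k1
  · linear_combination -k2
  · linear_combination k3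
  · linear_combination -k1

/-- A unipotent element of finite order prime to the characteristic is trivial. -/
theorem eq_one_of_sq_eq_zero {n : ℕ} {x : Matrix (Fin 2) (Fin 2) k} (hn : (n : k) ≠ 0)
    (hx : (x - 1) * (x - 1) = 0) (hxn : x ^ n = 1) : x = 1 := by
  have hpow : ∀ i : ℕ, x ^ i = 1 + (i : k) • (x - 1) := by
    intro i
    induction i with
    | zero => simp
    | succ i ih =>
      have h2 : (x - 1) * x = x - 1 := by
        have := hx; rw [mul_sub, mul_one, sub_eq_zero] at this; exact this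
      rw [pow_succ, ih, add_mul, one_mul, Matrix.smul_mul, h2, Nat.cast_succ]
      module
  have h := hpow n
  rw [hxn, left_eq_add, smul_eq_zero] at h
  rcases h with h | h
  · exact absurd h hn
  · exact sub_eq_zero.mp h

/-- An element of finite order prime to the characteristic with a double characteristic root
is a scalar. -/
theorem eq_smul_one_of_sq_root {n : ℕ} {x : Matrix (Fin 2) (Fin 2) k} {u : k} (hn : (n : k) ≠ 0)
    (hu : u ^ n = 1) (ht : x.trace = u + u) (hd : x.det = u * u) (hxn : x ^ n = 1) :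
    x = u • 1 := by
  have hu0 : u ≠ 0 := by
    rintro rfl
    rcases Nat.eq_zero_or_pos n with h | h
    · simp [h] at hn
    · simp [zero_pow h.ne'] at hu
  have h := sub_mul_sub_eq_zero x ht hd
  have h1 : u⁻¹ • x = 1 := by
    refine eq_one_of_sq_eq_zero hn ?_ ?_
    · have e : u⁻¹ • x - 1 = u⁻¹ • (x - u • 1) := by
        rw [smul_sub, smul_smul, inv_mul_cancel₀ hu0, one_smul]
      rw [e, Matrix.smul_mul, Matrix.mul_smul, h, smul_zero, smul_zero]
    · rw [smul_pow, inv_pow, hu, hxn, inv_one, one_smul]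
  rw [← h1, smul_smul, mul_inv_cancel₀ hu0, one_smul]

variable [IsAlgClosed k]

/-- Over an algebraically closed field a `2 × 2` matrix has two characteristic roots. -/
theorem exists_charRoots (x : Matrix (Fin 2) (Fin 2) k) :
    ∃ u v : k, x.trace = u + v ∧ x.det = u * v := by
  obtain ⟨u, hu⟩ := IsAlgClosed.exists_root x.charpoly (by simp [Matrix.charpoly_degree_eq_dim])
  refine ⟨u, x.trace - u, by ring, ?_⟩
  rw [Polynomial.IsRoot, Matrix.charpoly_fin_two] at hu
  simp at hu
  linear_combination hu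

omit [IsAlgClosed k] in
/-- A characteristic root is an eigenvalue. -/
theorem exists_eigenvector (x : Matrix (Fin 2) (Fin 2) k) {u v : k} (ht : x.trace = u + v)
    (hd : x.det = u * v) : ∃ w : Fin 2 → k, w ≠ 0 ∧ x *ᵥ w = u • w := by
  have hdet : (x - u • (1 : Matrix (Fin 2) (Fin 2) k)).det = 0 := by
    simp [Matrix.det_fin_two, Matrix.trace_fin_two] at ht hd ⊢
    linear_combination hd - u * ht
  obtain ⟨w, hw0, hw⟩ := Matrix.exists_mulVec_eq_zero_iff.mpr hdet
  exact ⟨w, hw0, by simpa [Matrix.sub_mulVec, Matrix.smul_mulVec, sub_eq_zero] using hw⟩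

end Field

section Unity

variable {A k : Type*} [CommRing A] [IsDomain A] [CommRing k] (φ : A →+* k)

/-- Roots of unity of order prime to the characteristic stay distinct under a ring
homomorphism. -/
theorem eq_of_map_eq_of_pow_eq_one {m : ℕ} (hm : (m : k) ≠ 0) {u v : A} (hu : u ^ m = 1)
    (hv : v ^ m = 1) (h : φ u = φ v) : u = v := by
  have hm1 : 1 ≤ m := by
    rcases Nat.eq_zero_or_pos m with h | h
    · simp [h] at hm
    · exact h
  by_contra hne
  set z := u * v ^ (m - 1) with hz
  have hvm : v ^ (m - 1) * v = 1 := by rw [← pow_succ, Nat.sub_add_cancel hm1, hv]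
  have hzm : z ^ m = 1 := by
    rw [hz, mul_pow, hu, one_mul, ← pow_mul, mul_comm, pow_mul, hv, one_pow]
  have hz1 : z ≠ 1 := by
    intro h1
    apply hne
    calc u = u * (v ^ (m - 1) * v) := by rw [hvm, mul_one]
      _ = z * v := by rw [hz, mul_assoc]
      _ = v := by rw [h1, one_mul]
  have hφz : φ (z - 1) = 0 := by
    rw [map_sub, map_one, hz, map_mul, h, ← map_mul, mul_comm, hvm, map_one, sub_self]
  have := map_dvd φ (sub_one_dvd_natCast_of_pow_eq_one hzm hz1)
  rw [hφz, zero_dvd_iff, map_natCast] at this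
  exact hm this

end Unity

end Fermat.Agent.DeligneSerre
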