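import Fermat.Agent.DeligneSerre.GroupBasic
import Mathlib.LinearAlgebra.Dimension.Constructions
import Mathlib.LinearAlgebra.Matrix.Module
import Mathlib.LinearAlgebra.FiniteDimensional.Basic
import Mathlib.GroupTheory.OrderOfElement
import Mathlib.RingTheory.IntegralDomain
import Mathlib.Tactic.NoncommRing
import Mathlib.Tactic.FieldSimp

/-!
# Semisimplification and a bound for groups with few traces
-/

set_option autoImplicit false

namespace Fermat.Agent.DeligneSerre

open Matrix

variable {k : Type*} [Field k]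

/-- `w` is an eigenvector of all the matrices `r g`. -/
def IsCommonEigenvector {H : Type*} (r : H → Matrix (Fin 2) (Fin 2) k) (w : Fin 2 → k) : Prop :=
  w ≠ 0 ∧ ∀ g, ∃ c : k, r g *ᵥ w = c • w

theorem exists_smul_of_mulVec_eq_zero {D : Matrix (Fin 2) (Fin 2) k} (hD : D ≠ 0)
    {v w : Fin 2 → k} (hv : v ≠ 0) (hDv : D *ᵥ v = 0) (hDw : D *ᵥ w = 0) :
    ∃ c : k, w = c • v := by
  have e0 := congrFun hDv 0; have e1 := congrFun hDv 1
  have f0 := congrFun hDw 0; have f1 := congrFun hDw 1
  simp only [mulVec, dotProduct, Fin.sum_univ_two, Pi.zero_apply] at e0 e1 f0 f1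
  by_cases hdet : v 0 * w 1 - v 1 * w 0 = 0
  · by_cases h0 : v 0 = 0
    · have h1 : v 1 ≠ 0 := fun h1 => hv (funext fun i => by fin_cases i <;> simp [h0, h1])
      refine ⟨w 1 / v 1, funext fun i => ?_⟩
      fin_cases i
      · simp [h0] at hdet ⊢; exact hdet.resolve_left h1
      · simp [h1]
    · refine ⟨w 0 / v 0, funext fun i => ?_⟩
      fin_cases i
      · simp [h0]
      · simp only [Fin.mk_one, Pi.smul_apply, smul_eq_mul]
        field_simp
        linear_combination hdet
  · exfalso
    apply hD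
    ext i j
    fin_cases i <;> fin_cases j <;> refine (mul_eq_zero.mp (?_ : _ * (v 0 * w 1 - v 1 * w 0) = 0)).resolve_right hdet <;>
      simp only [Fin.zero_eta, Fin.mk_one]
    · linear_combination w 1 * e0 - v 1 * f0
    · linear_combination v 0 * f0 - w 0 * e0
    · linear_combination w 1 * e1 - v 1 * f1
    · linear_combination v 0 * f1 - w 0 * e1

/-- Burnside: without a common eigenvector, an element of a group of matrices is determined by
the traces of its translates. -/
theorem eq_of_trace_mul_eq {G : Type*} [Group G] (r : G →* Matrix (Fin 2) (Fin 2) k)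
    (h2 : (2 : k) ≠ 0) (hirr : ∀ w, ¬ IsCommonEigenvector r w) {x y : G}
    (h : ∀ g : G, (r x * r g).trace = (r y * r g).trace) : r x = r y := by
  by_contra hne
  set D := r x - r y with hD
  have hD0 : D ≠ 0 := sub_ne_zero.mpr hne
  have htr : ∀ g : G, (D * r g).trace = 0 := fun g => by rw [hD, sub_mul, trace_sub, h, sub_self]
  have hnil : ∀ g : G, (D * r g) * (D * r g) = 0 := by
    intro g
    have hdet : (D * r g).det = 0 := by
      have h3 : ((D * r g) * (D * r g)).trace = 0 := by
        have : (D * r g) * (D * r g) = D * r (g * x * g) - D * r (g * y * g) := by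
          simp only [map_mul, hD]; noncomm_ring
        rw [this, trace_sub, htr, htr, sub_self]
      rw [mul_self_eq, htr, zero_smul, zero_sub, trace_neg, trace_smul, trace_one, smul_eq_mul,
        Fintype.card_fin] at h3
      simpa [h2] using h3
    rw [mul_self_eq, htr, hdet]; simp
  have hDD : D * D = 0 := by simpa using hnil 1
  have hdetD : D.det = 0 := by
    have := congrArg Matrix.det hDD
    rw [det_mul, det_zero] at this
    exact mul_self_eq_zero.mp this
  obtain ⟨v, hv0, hDv⟩ := exists_mulVec_eq_zero_iff.mpr hdetD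
  refine hirr v ⟨hv0, fun g => ?_⟩
  obtain ⟨c, hc⟩ := exists_smul_of_mulVec_eq_zero hD0 hv0 hDv
    (w := (D * r g) *ᵥ v) (by rw [mulVec_mulVec, ← mul_assoc, hDD, zero_mul, zero_mulVec])
  have hc0 : c = 0 := by
    have := congrArg (· *ᵥ v) (hnil g)
    simp only [← mulVec_mulVec, hc, mulVec_smul, zero_mulVec, smul_smul, smul_eq_zero] at this
    exact mul_self_eq_zero.mp (this.resolve_right hv0)
  rw [hc0, zero_smul, ← mulVec_mulVec] at hc
  exact exists_smul_of_mulVec_eq_zero hD0 hv0 hDv hc

open scoped Classical in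
/-- A finite group of matrices without common eigenvector, whose traces take at most `t` values,
has at most `(t + 1) ^ 4` elements. -/
theorem card_le_of_trace_mem {G : Type*} [Group G] [Fintype G]
    (r : G →* Matrix (Fin 2) (Fin 2) k) (hr : Function.Injective r) (h2 : (2 : k) ≠ 0)
    (hirr : ∀ w, ¬ IsCommonEigenvector r w) (T : Finset k) (hT : ∀ g, (r g).trace ∈ T) :
    Fintype.card G ≤ T.card ^ 4 := by
  obtain ⟨b, hb, hspan, hli⟩ := exists_linearIndependent k (Set.range r)
  have hbfin : b.Finite := (Set.finite_range r).subset hb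
  haveI := hbfin.fintype
  have hb4 : Fintype.card b ≤ 4 := by
    refine hli.fintype_card_le_finrank.trans ?_
    simp [Module.finrank_matrix]
  have hTne : 0 < T.card := Finset.card_pos.mpr ⟨_, hT 1⟩
  let f : G → (b → T) := fun g z => ⟨(r g * z.1).trace, by
    obtain ⟨h, hh⟩ := hb z.2
    rw [← hh, ← map_mul]
    exact hT _⟩
  have hinj : Function.Injective f := by
    intro x y hxy
    apply hr
    refine eq_of_trace_mul_eq r h2 hirr fun g => ?_
    have hmem : r g ∈ Submodule.span k b := hspan ▸ Submodule.subset_span ⟨g, rfl⟩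
    refine Submodule.span_induction ?_ ?_ ?_ ?_ hmem
    · intro z hz
      exact congrArg Subtype.val (congrFun hxy ⟨z, hz⟩)
    · simp
    · intro z w _ _ hz hw; simp [mul_add, hz, hw]
    · intro c z _ hz; simp [hz]
  calc Fintype.card G ≤ Fintype.card (b → T) := Fintype.card_le_of_injective f hinj
    _ = T.card ^ Fintype.card b := by simp
    _ ≤ T.card ^ 4 := Nat.pow_le_pow_right hTne hb4

/-- Every representation has a semisimplification which, when reducible, is diagonal; it
factors through the same quotient and has the same trace and determinant. -/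
theorem exists_semisimplification {H : Type*} [Group H] (ρ : H →* GL (Fin 2) k) :
    ∃ ρ' : H →* GL (Fin 2) k,
      (∀ h, ρ h = 1 → ρ' h = 1) ∧
      (∀ h, (ρ' h).val.trace = (ρ h).val.trace ∧ (ρ' h).val.det = (ρ h).val.det) ∧
      ((∀ w, ¬ IsCommonEigenvector (fun h => (ρ' h).val) w) ∨
        ∀ h, (ρ' h).val 0 1 = 0 ∧ (ρ' h).val 1 0 = 0) := by
  by_cases hw : ∃ w, IsCommonEigenvector (fun h => (ρ h).val) w
  swap
  · exact ⟨ρ, fun h e => e, fun h => ⟨rfl, rfl⟩, Or.inl fun w hw' => hw ⟨w, hw'⟩⟩
  obtain ⟨w, hw0, hw⟩ := hw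
  choose χ hχ' using hw
  have hχ : ∀ h, (ρ h).val *ᵥ w = χ h • w := hχ'
  have huniq : ∀ {c c' : k}, c • w = c' • w → c = c' := fun h => smul_left_injective k hw0 h
  have hχ1 : χ 1 = 1 := huniq (by rw [← hχ, map_one, Units.val_one, one_mulVec, one_smul])
  have hχmul : ∀ g h, χ (g * h) = χ g * χ h := fun g h => huniq (by
    rw [← hχ, map_mul, Units.val_mul, ← mulVec_mulVec, hχ, mulVec_smul, hχ, smul_smul, mul_comm])
  let ψ : H →* k := { toFun := χ, map_one' := hχ1, map_mul' := hχmul }
  let ψ' : H →* k :=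
    { toFun := fun h => (ρ h).val.det * χ h⁻¹
      map_one' := by simp [hχ1]
      map_mul' := fun g h => by simp [hχmul, Units.val_mul]; ring }
  have hinv : ∀ h, χ h * χ h⁻¹ = 1 := fun h => by rw [← hχmul, mul_inv_cancel, hχ1]
  let M : H →* Matrix (Fin 2) (Fin 2) k :=
    (diagonalRingHom (Fin 2) k).toMonoidHom.comp (MonoidHom.pi ![ψ, ψ'])
  have hM : ∀ h, M h = diagonal ![χ h, (ρ h).val.det * χ h⁻¹] := by
    intro h
    show diagonal _ = _
    congr 1
    funext i; fin_cases i <;> rfl
  refine ⟨M.toHomUnits, fun h hh => ?_, fun h => ?_, Or.inr fun h => ?_⟩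
  · have hc : χ h = 1 := huniq (by rw [← hχ, hh, Units.val_one, one_mulVec, one_smul])
    have hc' : χ h⁻¹ = 1 := by simpa [hc] using hinv h
    ext i j
    simp only [MonoidHom.coe_toHomUnits, hM, hh, hc, hc']
    fin_cases i <;> fin_cases j <;> simp
  · constructor
    · simp only [MonoidHom.coe_toHomUnits, hM, trace_fin_two, diagonal_apply_eq]
      have hd : ((ρ h).val - χ h • (1 : Matrix (Fin 2) (Fin 2) k)).det = 0 :=
        exists_mulVec_eq_zero_iff.mp ⟨w, hw0, by rw [sub_mulVec, smul_mulVec, one_mulVec, hχ, sub_self]⟩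
      simp [det_fin_two, one_apply] at hd ⊢
      linear_combination χ h⁻¹ * hd - (χ h - (ρ h).val 0 0 - (ρ h).val 1 1) * hinv h
    · simp only [MonoidHom.coe_toHomUnits, hM, det_diagonal, Fin.prod_univ_two]
      simp only [cons_val_zero, cons_val_one]
      linear_combination (ρ h).val.det * hinv h
  · simp [hM]

open scoped Classical in
/-- A finite semisimple group of `2 × 2` matrices all of whose characteristic roots are `B`-th
roots of unity has order at most `B ^ 8`. -/
theorem card_le_of_roots {G : Type*} [Group G] [Fintype G]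
    (r : G →* Matrix (Fin 2) (Fin 2) k) (hr : Function.Injective r) (h2 : (2 : k) ≠ 0)
    {B : ℕ} (hB : 0 < B)
    (hroots : ∀ g, ∃ u v : k, u ^ B = 1 ∧ v ^ B = 1 ∧ (r g).trace = u + v ∧ (r g).det = u * v)
    (hss : (∀ w, ¬ IsCommonEigenvector r w) ∨ ∀ g, r g 0 1 = 0 ∧ r g 1 0 = 0) :
    Fintype.card G ≤ B ^ 8 := by
  let μ := Polynomial.nthRootsFinset B (1 : k)
  have hμ : ∀ u : k, u ^ B = 1 → u ∈ μ := fun u hu => (Polynomial.mem_nthRootsFinset hB 1).mpr hu
  have hμcard : μ.card ≤ B := by
    classical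
    rw [show μ = (Polynomial.nthRoots B (1 : k)).toFinset from by
      ext; simp [μ, Polynomial.nthRootsFinset]]
    exact (Multiset.toFinset_card_le _).trans (Polynomial.card_nthRoots B 1)
  rcases hss with hirr | hdiag
  · refine (card_le_of_trace_mem r hr h2 hirr ((μ ×ˢ μ).image fun t => t.1 + t.2) ?_).trans ?_
    · intro g
      obtain ⟨u, v, hu, hv, ht, -⟩ := hroots g
      exact Finset.mem_image.mpr ⟨(u, v), Finset.mk_mem_product (hμ u hu) (hμ v hv), ht.symm⟩
    · calc _ ≤ (B * B) ^ 4 := Nat.pow_le_pow_left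
            (Finset.card_image_le.trans (by rw [Finset.card_product]; exact Nat.mul_le_mul hμcard hμcard)) 4
        _ = B ^ 8 := by ring
  · have hmem : ∀ g, r g 0 0 ^ B = 1 ∧ r g 1 1 ^ B = 1 := by
      intro g
      obtain ⟨u, v, hu, hv, ht, hd⟩ := hroots g
      rw [trace_fin_two] at ht
      rw [det_fin_two, (hdiag g).1, (hdiag g).2, mul_zero, sub_zero] at hd
      have : (r g 0 0 - u) * (r g 0 0 - v) = 0 := by linear_combination r g 0 0 * ht - hd
      rcases mul_eq_zero.mp this with h | h <;> rw [sub_eq_zero] at h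
      · have h' : r g 1 1 = v := by linear_combination ht - h
        exact ⟨h ▸ hu, h' ▸ hv⟩
      · have h' : r g 1 1 = u := by linear_combination ht - h
        exact ⟨h ▸ hv, h' ▸ hu⟩
    have hinj : Function.Injective fun g : G =>
        ((⟨r g 0 0, hμ _ (hmem g).1⟩ : μ), (⟨r g 1 1, hμ _ (hmem g).2⟩ : μ)) := by
      intro x y h
      simp only [Prod.mk.injEq, Subtype.mk.injEq] at h
      apply hr
      ext i j
      fin_cases i <;> fin_cases j <;>
        simp [h.1, h.2, (hdiag x).1, (hdiag x).2, (hdiag y).1, (hdiag y).2]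
    calc Fintype.card G ≤ Fintype.card (μ × μ) := Fintype.card_le_of_injective _ hinj
      _ ≤ B * B := by simpa using Nat.mul_le_mul hμcard hμcard
      _ = B ^ 2 := by ring
      _ ≤ B ^ 8 := Nat.pow_le_pow_right hB (by norm_num)

end Fermat.Agent.DeligneSerre
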