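import Mathlib.GroupTheory.SpecificGroups.Cyclic
import Mathlib.GroupTheory.Index
import Mathlib.Tactic.Linarith
import Mathlib.Tactic.Ring
import Mathlib.Algebra.Order.Field.Basic

/-!
# Counting elements of a prescribed order

In a finite group in which the centraliser of every element outside a central subgroup `Z` is
commutative, the elements outside `Z` of order exactly `n` form at most a fraction `2 φ(m) / m`
of the group, for a divisor `m` of `n` such that each of these centralisers has at most `m`
elements killed by `m`.
-/

set_option autoImplicit false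

namespace Fermat.Agent.DeligneSerre

open Finset

open scoped Classical in
/-- See the module documentation. -/
theorem card_orderOf_eq_le {G : Type*} [Group G] [Fintype G] (Z : Subgroup G)
    (hZ : ∀ z ∈ Z, ∀ x : G, Commute z x)
    (hcomm : ∀ x y w : G, x ∉ Z → Commute y x → Commute w x → Commute y w)
    (n m : ℕ) (hn : 0 < n) (hmn : m ∣ n)
    (hroot : ∀ g : G, g ∉ Z → orderOf g = n →
      (univ.filter fun x : G => Commute x g ∧ x ^ m = 1).card ≤ m) :
    m * (univ.filter fun g : G => orderOf g = n ∧ g ∉ Z).card
      ≤ 2 * Nat.totient m * Fintype.card G := by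
  have hm : 0 < m := Nat.pos_of_dvd_of_pos hmn hn
  set S := univ.filter fun g : G => orderOf g = n ∧ g ∉ Z with hS
  have memS : ∀ g, g ∈ S ↔ orderOf g = n ∧ g ∉ Z := fun g => by simp [hS]
  let A : G → Finset G := fun x => univ.filter fun y => Commute y x
  have memA : ∀ x y, y ∈ A x ↔ Commute y x := fun x y => by simp [A]
  -- centralisers of commuting elements outside `Z` coincide
  have hAeq : ∀ x g, x ∉ Z → g ∉ Z → Commute g x → A g = A x := by
    intro x g hx hg hgx
    ext y
    simp only [memA]
    exact ⟨fun h => hcomm g y x hg h hgx.symm, fun h => hcomm x y g hx h hgx⟩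
  -- the estimate inside one centraliser
  have hA : ∀ g ∈ S, m * (S ∩ A g).card ≤ Nat.totient m * (A g).card := by
    intro g hg
    obtain ⟨hgn, hgZ⟩ := (memS g).mp hg
    set w := g ^ (n / m) with hw
    have hordw : orderOf w = m := by
      have h := orderOf_pow_orderOf_div (x := g) (n := m) (hgn ▸ hn.ne') (hgn ▸ hmn)
      rwa [hgn, ← hw] at h
    have hwg : Commute w g := (Commute.refl g).pow_left _
    have hsub : (Finset.range m).image (w ^ ·) = univ.filter fun x : G => Commute x g ∧ x ^ m = 1 := by
      refine Finset.eq_of_subset_of_card_le ?_ ?_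
      · intro x hx
        simp only [Finset.mem_image, Finset.mem_range] at hx
        obtain ⟨i, _, rfl⟩ := hx
        simp only [mem_filter, mem_univ, true_and]
        exact ⟨hwg.pow_left i, by rw [← pow_mul, mul_comm, pow_mul, ← hordw, pow_orderOf_eq_one,
          one_pow]⟩
      · refine (hroot g hgZ hgn).trans (le_of_eq ?_)
        rw [Finset.card_image_of_injOn, Finset.card_range]
        intro i hi i' hi' h
        exact pow_injOn_Iio_orderOf (by simpa [hordw] using hi) (by simpa [hordw] using hi') h
    let O := univ.filter fun x : G => orderOf x = m ∧ x ∈ Subgroup.zpowers w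
    have hOcard : O.card ≤ Nat.totient m := by
      refine le_of_eq ?_
      have h1 := IsCyclic.card_orderOf_eq_totient (α := Subgroup.zpowers w)
        (show m ∣ Fintype.card (Subgroup.zpowers w) by rw [Fintype.card_zpowers, hordw])
      rw [← h1]
      refine Finset.card_bij' (fun x hx => ⟨x, (Finset.mem_filter.mp hx).2.2⟩) (fun x _ => x.1)
        ?_ ?_ ?_ ?_
      · intro x hx
        simp only [O, mem_filter, mem_univ, true_and] at hx
        simp [Subgroup.orderOf_mk, hx.1]
      · intro x hx
        simp only [mem_filter, mem_univ, true_and] at hx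
        simp [O, hx, x.2]
      · intro x hx; rfl
      · intro x hx; rfl
    calc m * (S ∩ A g).card = ((S ∩ A g) ×ˢ Finset.range m).card := by
          rw [card_product, card_range, mul_comm]
      _ ≤ (A g ×ˢ O).card := by
          refine Finset.card_le_card_of_injOn (fun t => (t.1 * g ^ t.2, t.1 ^ (n / m))) ?_ ?_
          · intro t ht
            simp only [coe_product, Set.mem_prod, mem_coe, mem_inter, mem_range] at ht
            obtain ⟨⟨htS, htA⟩, hti⟩ := ht
            obtain ⟨htn, -⟩ := (memS _).mp htS
            have htc := (memA _ _).mp htA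
            simp only [coe_product, Set.mem_prod, mem_coe]
            refine ⟨(memA _ _).mpr (htc.mul_left ((Commute.refl g).pow_left _)), ?_⟩
            have hord : orderOf (t.1 ^ (n / m)) = m := by
              have h := orderOf_pow_orderOf_div (x := t.1) (n := m) (htn ▸ hn.ne') (htn ▸ hmn)
              rwa [htn] at h
            refine mem_filter.mpr ⟨mem_univ _, hord, ?_⟩
            have hmem : t.1 ^ (n / m) ∈ (Finset.range m).image (w ^ ·) := by
              rw [hsub]
              exact mem_filter.mpr ⟨mem_univ _, htc.pow_left _,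
                by rw [← pow_mul, Nat.div_mul_cancel hmn, ← htn, pow_orderOf_eq_one]⟩
            obtain ⟨i, -, hi⟩ := Finset.mem_image.mp hmem
            exact hi ▸ Subgroup.npow_mem_zpowers w i
          · intro t ht t' ht' heq
            simp only [coe_product, Set.mem_prod, mem_coe, mem_inter, mem_range] at ht ht'
            simp only [Prod.mk.injEq] at heq
            obtain ⟨h1, h2⟩ := heq
            have c1 : Commute t.1 (g ^ t.2) := ((memA _ _).mp ht.1.2).pow_right _
            have c2 : Commute t'.1 (g ^ t'.2) := ((memA _ _).mp ht'.1.2).pow_right _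
            have h3 := congrArg (· ^ (n / m)) h1
            simp only [c1.mul_pow, c2.mul_pow, h2, mul_left_cancel_iff] at h3
            rw [← pow_mul, ← pow_mul, mul_comm t.2, mul_comm t'.2, pow_mul, pow_mul, ← hw] at h3
            have h4 : t.2 = t'.2 :=
              pow_injOn_Iio_orderOf (by simpa [hordw] using ht.2) (by simpa [hordw] using ht'.2) h3
            rw [h4] at h1
            exact Prod.ext (mul_right_cancel h1) h4
      _ ≤ Nat.totient m * (A g).card := by
          rw [card_product, mul_comm]
          exact Nat.mul_le_mul_right _ hOcard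
  -- `Z` is a small part of each centraliser
  set Zf := univ.filter fun x : G => x ∈ Z with hZf
  have hZA : ∀ g ∈ S, 2 * Zf.card ≤ (A g).card ∧ Zf ⊆ A g := by
    intro g hg
    obtain ⟨-, hgZ⟩ := (memS g).mp hg
    have hsub : Zf ⊆ A g := fun z hz => (memA _ _).mpr (hZ z (mem_filter.mp hz).2 g)
    refine ⟨?_, hsub⟩
    have himg : (Zf.image (g * ·)) ⊆ A g := by
      intro y hy
      obtain ⟨z, hz, rfl⟩ := Finset.mem_image.mp hy
      exact (memA _ _).mpr ((Commute.refl g).mul_left (hZ z (mem_filter.mp hz).2 g))
    have hdisj : Disjoint Zf (Zf.image (g * ·)) := by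
      refine Finset.disjoint_left.mpr fun y hy hy' => ?_
      obtain ⟨z, hz, rfl⟩ := Finset.mem_image.mp hy'
      exact hgZ (by simpa using mul_mem (mem_filter.mp hy).2 (inv_mem (mem_filter.mp hz).2))
    have := Finset.card_le_card (Finset.union_subset hsub himg)
    rw [Finset.card_union_of_disjoint hdisj,
      Finset.card_image_of_injective _ (mul_right_injective g)] at this
    omega
  -- double counting
  set T := univ.filter fun x : G => x ∉ Z with hT
  let wt : G → ℚ := fun g => (1 : ℚ) / (A g).card
  have hpos : ∀ g, (0 : ℚ) < (A g).card := fun g => by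
    exact_mod_cast Finset.card_pos.mpr ⟨g, (memA g g).mpr (Commute.refl g)⟩
  have hlow : ∀ g ∈ S, (1 / 2 : ℚ) ≤ (T.filter fun x => Commute x g).card * wt g := by
    intro g hg
    obtain ⟨h2, hsub⟩ := hZA g hg
    have : (T.filter fun x => Commute x g) = A g \ Zf := by
      ext x; simp [hT, hZf, memA]; tauto
    rw [this, Finset.card_sdiff_of_subset hsub, Nat.cast_sub (Finset.card_le_card hsub)]
    have h2' : 2 * (Zf.card : ℚ) ≤ (A g).card := by exact_mod_cast h2
    rw [mul_one_div, div_le_div_iff₀ two_pos (hpos g)]
    linarith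
  have hup : ∀ x ∈ T, (∑ g ∈ S.filter (fun g => Commute x g), wt g) ≤ (Nat.totient m : ℚ) / m := by
    intro x hx
    have hxZ : x ∉ Z := (mem_filter.mp hx).2
    rcases (S.filter (fun g => Commute x g)).eq_empty_or_nonempty with h | ⟨g₀, hg₀⟩
    · rw [h, sum_empty]; positivity
    · obtain ⟨hg₀S, hg₀x⟩ := mem_filter.mp hg₀
      have hAx : A g₀ = A x := hAeq x g₀ hxZ ((memS _).mp hg₀S).2 hg₀x.symm
      have hset : S.filter (fun g => Commute x g) = S ∩ A g₀ := by
        ext g; simp [hAx, memA]; exact fun _ => ⟨fun h => h.symm, fun h => h.symm⟩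
      have hconst : ∀ g ∈ S.filter (fun g => Commute x g), wt g = wt g₀ := by
        intro g hg
        obtain ⟨hgS, hgx⟩ := mem_filter.mp hg
        simp only [wt, hAx, hAeq x g hxZ ((memS _).mp hgS).2 hgx.symm]
      rw [Finset.sum_congr rfl hconst, sum_const, hset, nsmul_eq_mul, mul_one_div,
        div_le_div_iff₀ (hpos g₀) (by exact_mod_cast hm)]
      exact_mod_cast (mul_comm _ _).trans_le (hA g₀ hg₀S)
  have hkey : (S.card : ℚ) / 2 ≤ Fintype.card G * ((Nat.totient m : ℚ) / m) :=
    calc (S.card : ℚ) / 2 = ∑ g ∈ S, (1 / 2 : ℚ) := by rw [sum_const, nsmul_eq_mul]; ring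
      _ ≤ ∑ g ∈ S, ∑ x ∈ T.filter (fun x => Commute x g), wt g := by
          refine sum_le_sum fun g hg => (hlow g hg).trans_eq ?_
          rw [sum_const, nsmul_eq_mul]
      _ = ∑ x ∈ T, ∑ g ∈ S.filter (fun g => Commute x g), wt g := by
          simp only [sum_filter]; exact sum_comm
      _ ≤ ∑ _x ∈ T, (Nat.totient m : ℚ) / m := sum_le_sum hup
      _ ≤ Fintype.card G * ((Nat.totient m : ℚ) / m) := by
          rw [sum_const, nsmul_eq_mul]
          gcongr
          exact_mod_cast Finset.card_le_univ T
  rw [mul_div_assoc', div_le_div_iff₀ two_pos (by exact_mod_cast hm)] at hkey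
  have : ((m * S.card : ℕ) : ℚ) ≤ ((2 * Nat.totient m * Fintype.card G : ℕ) : ℚ) := by
    push_cast; linarith
  exact_mod_cast this

end Fermat.Agent.DeligneSerre
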