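import Fermat.Prelude.Def_GaloisRep_Residual
import Fermat.Agent.Galois.Frobenius
import Fermat.Agent.Density.Main
import Mathlib.Analysis.SpecialFunctions.Log.Basic
import Mathlib.Analysis.SpecialFunctions.Pow.Real

/-!
# Densities of sets of primes and Frobenius elements

`UpperDensityLE c R` says that `∑_p c p * p ^ (-s) ≤ (R + o(1)) log (1 / (s - 1))` as `s → 1⁺`
(all finite partial sums over primes). The two theorems `upperDensityLE_of_frobenius` and
`mean_le_of_frobenius` are Frobenius' density theorem for functions on a finite quotient of the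
absolute Galois group which depend only on the conjugacy class of the cyclic subgroup generated.
-/

set_option autoImplicit false

namespace Fermat.Agent.DeligneSerre

open Finset

local notation "ℚbar" => AlgebraicClosure ℚ
local notation "Γℚ" => AlgebraicClosure ℚ ≃ₐ[ℚ] AlgebraicClosure ℚ

/-- `∑_p c p * p ^ (-s) ≤ (R + o(1)) log (1 / (s - 1))`. -/
def UpperDensityLE (c : ℕ → ℝ) (R : ℝ) : Prop :=
  ∀ ε : ℝ, 0 < ε → ∃ s₀ : ℝ, 1 < s₀ ∧ ∀ s : ℝ, 1 < s → s < s₀ →
    ∀ T : Finset ℕ, (∀ p ∈ T, p.Prime) →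
      ∑ p ∈ T, c p * (p : ℝ) ^ (-s) ≤ (R + ε) * Real.log (1 / (s - 1))

/-- For `s` close to `1`, `log (1 / (s - 1))` exceeds any given bound. -/
theorem exists_log_ge (K : ℝ) : ∃ s₀ : ℝ, 1 < s₀ ∧ s₀ ≤ 2 ∧
    ∀ s : ℝ, 1 < s → s < s₀ → K ≤ Real.log (1 / (s - 1)) := by
  refine ⟨1 + min 1 (Real.exp (-K)), by linarith [lt_min zero_lt_one (Real.exp_pos (-K))],
    by linarith [min_le_left 1 (Real.exp (-K))], fun s hs hs' => ?_⟩
  have h1 : s - 1 ≤ Real.exp (-K) := by linarith [min_le_right 1 (Real.exp (-K))]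
  rw [one_div, Real.log_inv]
  have := Real.log_le_log (by linarith) h1
  rw [Real.log_exp] at this
  linarith

theorem UpperDensityLE.mono {c c' : ℕ → ℝ} {R : ℝ} (h : UpperDensityLE c R)
    (hle : ∀ p : ℕ, p.Prime → c' p ≤ c p) : UpperDensityLE c' R := by
  intro ε hε
  obtain ⟨s₀, h1, h2⟩ := h ε hε
  refine ⟨s₀, h1, fun s hs hs' T hT => le_trans (sum_le_sum fun p hp => ?_) (h2 s hs hs' T hT)⟩
  exact mul_le_mul_of_nonneg_right (hle p (hT p hp)) (Real.rpow_nonneg (Nat.cast_nonneg p) _)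

theorem UpperDensityLE.of_le {c : ℕ → ℝ} {R : ℝ}
    (h : ∀ R' : ℝ, R < R' → UpperDensityLE c R') : UpperDensityLE c R := by
  intro ε hε
  obtain ⟨s₀, h1, h2⟩ := h (R + ε / 2) (by linarith) (ε / 2) (by linarith)
  refine ⟨s₀, h1, fun s hs hs' T hT => ?_⟩
  have := h2 s hs hs' T hT
  rwa [show R + ε / 2 + ε / 2 = R + ε by ring] at this

theorem UpperDensityLE.weaken {c : ℕ → ℝ} {R R' : ℝ} (h : UpperDensityLE c R) (hR : R ≤ R') :
    UpperDensityLE c R' := by
  intro ε hε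
  obtain ⟨s₁, h1, h2⟩ := h ε hε
  obtain ⟨s₀, h3, -, h4⟩ := exists_log_ge 0
  refine ⟨min s₁ s₀, lt_min h1 h3, fun s hs hs' T hT => (h2 s hs (hs'.trans_le (min_le_left _ _))
    T hT).trans (mul_le_mul_of_nonneg_right (by linarith) (h4 s hs (hs'.trans_le (min_le_right _ _))))⟩

theorem UpperDensityLE.add {c c' : ℕ → ℝ} {R R' : ℝ} (h : UpperDensityLE c R)
    (h' : UpperDensityLE c' R') : UpperDensityLE (fun p => c p + c' p) (R + R') := by
  intro ε hε
  obtain ⟨s₀, h1, h2⟩ := h (ε / 2) (by linarith)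
  obtain ⟨s₁, h3, h4⟩ := h' (ε / 2) (by linarith)
  refine ⟨min s₀ s₁, lt_min h1 h3, fun s hs hs' T hT => ?_⟩
  have e1 := h2 s hs (hs'.trans_le (min_le_left _ _)) T hT
  have e2 := h4 s hs (hs'.trans_le (min_le_right _ _)) T hT
  simp only [add_mul, sum_add_distrib]
  linarith

theorem UpperDensityLE.const_mul {c : ℕ → ℝ} {R : ℝ} (h : UpperDensityLE c R) {a : ℝ}
    (ha : 0 < a) : UpperDensityLE (fun p => a * c p) (a * R) := by
  intro ε hε
  obtain ⟨s₀, h1, h2⟩ := h (ε / a) (div_pos hε ha)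
  refine ⟨s₀, h1, fun s hs hs' T hT => ?_⟩
  have := mul_le_mul_of_nonneg_left (h2 s hs hs' T hT) ha.le
  rw [mul_sum] at this
  calc ∑ p ∈ T, a * c p * (p : ℝ) ^ (-s) = ∑ p ∈ T, a * (c p * (p : ℝ) ^ (-s)) :=
        sum_congr rfl fun p _ => by ring
    _ ≤ a * ((R + ε / a) * Real.log (1 / (s - 1))) := this
    _ = (a * R + ε) * Real.log (1 / (s - 1)) := by field_simp

theorem UpperDensityLE.zero : UpperDensityLE (fun _ => 0) 0 := by
  intro ε hε
  obtain ⟨s₀, h1, -, h2⟩ := exists_log_ge 0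
  refine ⟨s₀, h1, fun s hs hs' T _ => ?_⟩
  simp only [zero_mul, sum_const_zero, zero_add]
  exact mul_nonneg hε.le (h2 s hs hs')

theorem UpperDensityLE.finsetSum {ι : Type*} (I : Finset ι) {c : ι → ℕ → ℝ} {R : ι → ℝ}
    (h : ∀ i ∈ I, UpperDensityLE (c i) (R i)) :
    UpperDensityLE (fun p => ∑ i ∈ I, c i p) (∑ i ∈ I, R i) := by
  classical
  induction I using Finset.induction_on with
  | empty => simpa using UpperDensityLE.zero
  | insert i I hi ih =>
    simp only [sum_insert hi]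
    exact (h i (mem_insert_self i I)).add (ih fun j hj => h j (mem_insert_of_mem hj))

theorem UpperDensityLE.of_log_bound {c : ℕ → ℝ} {R C : ℝ} {s₁ : ℝ} (hs₁ : 1 < s₁)
    (h : ∀ s : ℝ, 1 < s → s ≤ s₁ → ∀ T : Finset ℕ, (∀ p ∈ T, p.Prime) →
      ∑ p ∈ T, c p * (p : ℝ) ^ (-s) ≤ R * Real.log (1 / (s - 1)) + C) :
    UpperDensityLE c R := by
  intro ε hε
  obtain ⟨s₀, h1, -, h2⟩ := exists_log_ge (C / ε)
  refine ⟨min s₀ s₁, lt_min h1 hs₁, fun s hs hs' T hT => ?_⟩
  have e1 := h s hs (hs'.trans_le (min_le_right _ _)).le T hT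
  have e2 := h2 s hs (hs'.trans_le (min_le_left _ _))
  rw [div_le_iff₀ hε] at e2
  nlinarith

/-- A finite set of primes has density zero. -/
theorem upperDensityLE_indicator_finset (S : Finset ℕ) :
    UpperDensityLE (fun p => if p ∈ S then 1 else 0) 0 := by
  refine UpperDensityLE.of_log_bound (C := S.card) one_lt_two fun s hs _ T hT => ?_
  rw [zero_mul, zero_add]
  calc ∑ p ∈ T, (if p ∈ S then (1 : ℝ) else 0) * (p : ℝ) ^ (-s)
      ≤ ∑ p ∈ T, (if p ∈ S then (1 : ℝ) else 0) := by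
        refine sum_le_sum fun p hp => ?_
        split_ifs
        · rw [one_mul]
          exact Real.rpow_le_one_of_one_le_of_nonpos (by exact_mod_cast (hT p hp).one_le)
            (by linarith)
        · simp
    _ = ((T.filter (· ∈ S)).card : ℝ) := by rw [sum_boole]
    _ ≤ S.card := Nat.cast_le.mpr (card_le_card fun p hp => (mem_filter.mp hp).2)

variable {G : Type} [Group G] [Fintype G]

/-- A function invariant under conjugation which only depends on the cyclic subgroup generated. -/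
def IsDivisionFunction (g : G → ℝ) : Prop :=
  (∀ x y : G, g (y * x * y⁻¹) = g x) ∧
    ∀ x y : G, Subgroup.zpowers x = Subgroup.zpowers y → g x = g y

omit [Fintype G] in
/-- A homomorphism of finite level factors through a finite Galois extension of `ℚ`. -/
theorem exists_factor_galois (φ : Γℚ →* G) (hlevel : GaloisFactorsThroughFiniteLevel φ) :
    ∃ (F : IntermediateField ℚ ℚbar) (_ : FiniteDimensional ℚ F) (_ : Normal ℚ F)
      (ψ : (F ≃ₐ[ℚ] F) →* G), ∀ σ : Γℚ, ψ (AlgEquiv.restrictNormalHom F σ) = φ σ := by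
  obtain ⟨L, hL, h⟩ := hlevel
  have hfin : FiniteDimensional ℚ L := hL
  let F : IntermediateField ℚ ℚbar := IntermediateField.normalClosure ℚ L ℚbar
  have hF1 : FiniteDimensional ℚ F := normalClosure.is_finiteDimensional ℚ L ℚbar
  have hF2 : Normal ℚ F := normalClosure.normal ℚ L ℚbar
  refine ⟨F, hF1, hF2, ?_⟩
  have hker : (AlgEquiv.restrictNormalHom F : Γℚ →* (F ≃ₐ[ℚ] F)).ker ≤ φ.ker := by
    intro σ hσ
    refine h σ fun x hx => ?_
    have hxF : x ∈ F := L.le_normalClosure hx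
    have h1 := AlgEquiv.restrictNormal_commutes σ F ⟨x, hxF⟩
    have h2 : AlgEquiv.restrictNormalHom F σ = 1 := hσ
    rw [show σ.restrictNormal F = 1 from h2] at h1
    exact h1.symm
  exact ⟨(AlgEquiv.restrictNormalHom F).liftOfSurjective
      (AlgEquiv.restrictNormalHom_surjective (F := ℚ) (K₁ := F) ℚbar) ⟨φ, hker⟩,
    fun σ => MonoidHom.liftOfRightInverse_comp_apply _ _ _ ⟨φ, hker⟩ σ⟩

omit [Fintype G] in
/-- Frobenius' density theorem for a function on a finite quotient. -/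
theorem exists_frobenius_hasDensity [Fintype G] (φ : Γℚ →* G) (hφ : Function.Surjective φ)
    (hlevel : GaloisFactorsThroughFiniteLevel φ) (g : G → ℝ) (hg : IsDivisionFunction g) :
    ∃ (A : Nat.Primes → ValuationSubring ℚbar) (τ : Nat.Primes → Γℚ),
      (∀ ℓ : Nat.Primes, (A ℓ).LiesOverPrime ℓ ∧ (A ℓ).IsFrobeniusAt (τ ℓ) ℓ) ∧
      Density.HasDensity (fun ℓ => g (φ (τ ℓ))) ((∑ x, g x) / Fintype.card G) := by
  classical
  obtain ⟨F, hF1, hF2, ψ, hψ⟩ := exists_factor_galois φ hlevel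
  choose A τ hA hτ using fun ℓ : Nat.Primes =>
    Galois.exists_valuationSubring_isFrobeniusAt ℓ.2
  refine ⟨A, τ, fun ℓ => ⟨hA ℓ, hτ ℓ⟩, ?_⟩
  have hsurj : Function.Surjective ψ := fun x => by
    obtain ⟨σ, rfl⟩ := hφ x
    exact ⟨_, hψ σ⟩
  have hd := Density.hasDensity_classFun_qbar F hA hτ (fun x => g (ψ x))
    (fun x y => by simp only [map_mul, map_inv]; exact hg.1 _ _)
    (fun x y h => hg.2 _ _ (by rw [← MonoidHom.map_zpowers, h, MonoidHom.map_zpowers]))
  simp only [hψ] at hd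
  convert hd using 1
  -- all fibres of `ψ` have the same number of elements
  set q := Nat.card ψ.ker with hq
  have hfib : ∀ y : G, (Finset.univ.filter fun x => ψ x = y).card = q := by
    intro y
    obtain ⟨x₀, rfl⟩ := hsurj y
    rw [hq, Nat.card_eq_fintype_card, ← Finset.card_univ]
    refine Finset.card_bij' (fun x hx => ⟨x₀⁻¹ * x, by
        simp [MonoidHom.mem_ker, (Finset.mem_filter.mp hx).2]⟩) (fun x _ => x₀ * x.1)
      (fun x hx => Finset.mem_univ _) (fun x _ => by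
        simp [Finset.mem_filter, MonoidHom.mem_ker.mp x.2]) (fun x hx => by simp)
      (fun x hx => Subtype.ext (by simp))
  have hsum : ∑ x, g (ψ x) = (q : ℝ) * ∑ y, g y := by
    rw [← Finset.sum_fiberwise Finset.univ ψ, Finset.mul_sum]
    refine Finset.sum_congr rfl fun y _ => ?_
    rw [Finset.sum_congr rfl fun x hx => by rw [(Finset.mem_filter.mp hx).2], Finset.sum_const,
      hfib, nsmul_eq_mul]
  have hcard : Nat.card (F ≃ₐ[ℚ] F) = q * Fintype.card G := by
    rw [Nat.card_eq_fintype_card, ← Finset.card_univ,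
      Finset.card_eq_sum_card_fiberwise (f := ψ) (t := Finset.univ) (fun x _ => Finset.mem_univ _),
      Finset.sum_congr rfl fun y _ => hfib y, Finset.sum_const, Finset.card_univ, smul_eq_mul,
      mul_comm]
  have hq0 : (q : ℝ) ≠ 0 := by exact_mod_cast Nat.card_pos.ne'
  rw [hsum, hcard, Nat.cast_mul, mul_div_mul_left _ _ hq0]

theorem logPole_eq (s : ℝ) : Real.log (1 / (s - 1)) = Density.logPole s := by
  rw [one_div, Real.log_inv]; rfl

/-- Frobenius' density theorem, upper bound. -/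
theorem upperDensityLE_of_frobenius (φ : Γℚ →* G) (hφ : Function.Surjective φ)
    (hlevel : GaloisFactorsThroughFiniteLevel φ) (g : G → ℝ) (hg0 : ∀ x, 0 ≤ g x)
    (hg : IsDivisionFunction g) (c : ℕ → ℝ) {C : ℝ} (hC : ∀ p, c p ≤ C) (S : Finset ℕ)
    (hc : ∀ p : ℕ, p.Prime → p ∉ S → ∀ A : ValuationSubring ℚbar, A.LiesOverPrime p →
      ∀ σ : Γℚ, A.IsFrobeniusAt σ p → c p ≤ g (φ σ)) :
    UpperDensityLE c ((∑ x, g x) / Fintype.card G) := by
  classical
  obtain ⟨A, τ, hAτ, hbd, htend⟩ := exists_frobenius_hasDensity φ hφ hlevel g hg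
  set μ := (∑ x, g x) / Fintype.card G
  intro ε hε
  obtain ⟨s₁, h1, hS⟩ := ((upperDensityLE_indicator_finset S).const_mul
    (a := |C| + 1) (by positivity)) (ε / 2) (by linarith)
  have hev := (htend.eventually (gt_mem_nhds (show μ < μ + ε / 2 by linarith))).and
    (Density.tendsto_logPole.eventually_gt_atTop 0)
  obtain ⟨s₂, h2, h2'⟩ := (nhdsGT_basis (1 : ℝ)).eventually_iff.mp hev
  refine ⟨min s₁ s₂, lt_min h1 h2, fun s hs hs' T hT => ?_⟩
  obtain ⟨hlt, hpos⟩ := h2' ⟨hs, hs'.trans_le (min_le_right _ _)⟩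
  have hsum := Density.summable_of_bounded hbd hs
  have hterm : ∀ p ∈ T, c p * (p : ℝ) ^ (-s) ≤
      (if h : p.Prime then g (φ (τ ⟨p, h⟩)) * (p : ℝ) ^ (-s) else 0) +
        (|C| + 1) * (if p ∈ S then 1 else 0) * (p : ℝ) ^ (-s) := by
    intro p hp
    have hp' := hT p hp
    rw [dif_pos hp', ← add_mul]
    refine mul_le_mul_of_nonneg_right ?_ (Real.rpow_nonneg (Nat.cast_nonneg p) _)
    by_cases hpS : p ∈ S
    · rw [if_pos hpS, mul_one]
      have := hg0 (φ (τ ⟨p, hp'⟩))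
      linarith [hC p, le_abs_self C]
    · rw [if_neg hpS, mul_zero, add_zero]
      exact hc p hp' hpS _ (hAτ ⟨p, hp'⟩).1 _ (hAτ ⟨p, hp'⟩).2
  have hmain : ∑ p ∈ T, (if h : p.Prime then g (φ (τ ⟨p, h⟩)) * (p : ℝ) ^ (-s) else 0) ≤
      ∑' ℓ : Nat.Primes, g (φ (τ ℓ)) * (ℓ : ℝ) ^ (-s) := by
    let T' : Finset Nat.Primes := T.subtype Nat.Prime
    have hT' : ∑ p ∈ T, (if h : p.Prime then g (φ (τ ⟨p, h⟩)) * (p : ℝ) ^ (-s) else 0) =
        ∑ ℓ ∈ T', g (φ (τ ℓ)) * (ℓ : ℝ) ^ (-s) := by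
      refine Finset.sum_bij' (fun p hp => ⟨p, hT p hp⟩) (fun ℓ _ => ℓ.1)
        (fun p hp => Finset.mem_subtype.mpr hp) (fun ℓ hℓ => Finset.mem_subtype.mp hℓ)
        (fun _ _ => rfl) (fun _ _ => rfl) (fun p hp => dif_pos (hT p hp))
    rw [hT']
    exact hsum.sum_le_tsum T' fun ℓ _ => mul_nonneg (hg0 _) (Real.rpow_nonneg (Nat.cast_nonneg _) _)
  rw [div_lt_iff₀ hpos] at hlt
  have h3 := hS s hs (hs'.trans_le (min_le_left _ _)) T hT
  rw [logPole_eq, mul_zero, zero_add] at h3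
  rw [logPole_eq]
  calc ∑ p ∈ T, c p * (p : ℝ) ^ (-s)
      ≤ ∑ p ∈ T, ((if h : p.Prime then g (φ (τ ⟨p, h⟩)) * (p : ℝ) ^ (-s) else 0) +
          (|C| + 1) * (if p ∈ S then 1 else 0) * (p : ℝ) ^ (-s)) := Finset.sum_le_sum hterm
    _ ≤ (μ + ε / 2) * Density.logPole s + ε / 2 * Density.logPole s := by
        rw [Finset.sum_add_distrib]
        exact add_le_add (hmain.trans hlt.le) h3
    _ = (μ + ε) * Density.logPole s := by ring

/-- Frobenius' density theorem, lower bound. -/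
theorem mean_le_of_frobenius (φ : Γℚ →* G) (hφ : Function.Surjective φ)
    (hlevel : GaloisFactorsThroughFiniteLevel φ) (g : G → ℝ) (hg0 : ∀ x, 0 ≤ g x)
    (hg : IsDivisionFunction g) (c : ℕ → ℝ) (hc0 : ∀ p, 0 ≤ c p) (S : Finset ℕ)
    (hc : ∀ p : ℕ, p.Prime → p ∉ S → ∀ A : ValuationSubring ℚbar, A.LiesOverPrime p →
      ∀ σ : Γℚ, A.IsFrobeniusAt σ p → g (φ σ) ≤ c p) {R : ℝ} (hR : UpperDensityLE c R) :
    (∑ x, g x) / Fintype.card G ≤ R := by
  classical
  obtain ⟨A, τ, hAτ, hbd, htend⟩ := exists_frobenius_hasDensity φ hφ hlevel g hg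
  obtain ⟨B, hB⟩ := hbd
  set μ := (∑ x, g x) / Fintype.card G
  refine le_of_forall_pos_le_add fun ε hε => ?_
  by_contra hcon
  push Not at hcon
  have hnum := (hR.add ((upperDensityLE_indicator_finset S).const_mul
    (a := |B| + 1) (by positivity))) (ε / 2) (by linarith)
  obtain ⟨s₁, h1, hnum⟩ := hnum
  have hev := (htend.eventually (lt_mem_nhds (show μ - ε / 2 < μ by linarith))).and
    (Density.tendsto_logPole.eventually_gt_atTop 0)
  obtain ⟨s₂, h2, h2'⟩ := (nhdsGT_basis (1 : ℝ)).eventually_iff.mp hev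
  obtain ⟨s, hs, hs'⟩ := exists_between (lt_min h1 h2)
  obtain ⟨hgt, hpos⟩ := h2' ⟨hs, hs'.trans_le (min_le_right _ _)⟩
  have hupper : ∑' ℓ : Nat.Primes, g (φ (τ ℓ)) * (ℓ : ℝ) ^ (-s) ≤
      (R + ε / 2) * Density.logPole s := by
    refine Real.tsum_le_of_sum_le (fun ℓ => mul_nonneg (hg0 _)
      (Real.rpow_nonneg (Nat.cast_nonneg _) _)) fun T' => ?_
    have h3 := hnum s hs (hs'.trans_le (min_le_left _ _)) (T'.image Subtype.val) (fun p hp => by
      obtain ⟨ℓ, -, rfl⟩ := Finset.mem_image.mp hp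
      exact ℓ.2)
    rw [Finset.sum_image (fun x _ y _ h => Subtype.ext h), mul_zero, add_zero, logPole_eq] at h3
    refine le_trans (Finset.sum_le_sum fun ℓ _ => ?_) h3
    refine mul_le_mul_of_nonneg_right ?_ (Real.rpow_nonneg (Nat.cast_nonneg _) _)
    show g (φ (τ ℓ)) ≤ c ℓ + (|B| + 1) * (if (ℓ : ℕ) ∈ S then 1 else 0)
    by_cases hℓS : (ℓ : ℕ) ∈ S
    · rw [if_pos hℓS, mul_one]
      linarith [le_abs_self B, hc0 (ℓ : ℕ), hB ℓ, le_abs_self (g (φ (τ ℓ)))]
    · rw [if_neg hℓS, mul_zero, add_zero]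
      exact hc ℓ ℓ.2 hℓS _ (hAτ ℓ).1 _ (hAτ ℓ).2
  rw [lt_div_iff₀ hpos] at hgt
  have : (μ - ε / 2) * Density.logPole s < (R + ε / 2) * Density.logPole s :=
    hgt.trans_le hupper
  have := lt_of_mul_lt_mul_right this hpos.le
  linarith

/-- A property of the elements of a finite quotient, stable under conjugation and powers, which
holds at the Frobenius elements of the primes outside a set of density zero holds everywhere. -/
theorem forall_of_upperDensity_zero (φ : Γℚ →* G) (hφ : Function.Surjective φ)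
    (hlevel : GaloisFactorsThroughFiniteLevel φ) (P : G → Prop)
    (hconj : ∀ x y : G, P x → P (y * x * y⁻¹)) (hpow : ∀ (x : G) (i : ℕ), P x → P (x ^ i))
    (c : ℕ → ℝ) (hc0 : ∀ p, 0 ≤ c p) (hR : UpperDensityLE c 0) (S : Finset ℕ)
    (hc : ∀ p : ℕ, p.Prime → p ∉ S → c p < 1 → ∀ A : ValuationSubring ℚbar, A.LiesOverPrime p →
      ∀ σ : Γℚ, A.IsFrobeniusAt σ p → P (φ σ)) (x : G) : P x := by
  classical
  by_contra hx
  let g : G → ℝ := fun y => if P y then 0 else 1
  have hg0 : ∀ y, 0 ≤ g y := fun y => by simp only [g]; split_ifs <;> norm_num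
  have hg : IsDivisionFunction g := by
    constructor
    · intro y z
      have h : P (z * y * z⁻¹) ↔ P y :=
        ⟨fun h => by simpa [mul_assoc] using hconj _ z⁻¹ h, hconj y z⟩
      simp only [g, h]
    · intro y z h
      have key : ∀ a b : G, Subgroup.zpowers a = Subgroup.zpowers b → P a → P b := by
        intro a b hab ha
        have hb : b ∈ Submonoid.powers a :=
          (isOfFinOrder_of_finite a).mem_powers_iff_mem_zpowers.mpr (hab ▸ Subgroup.mem_zpowers b)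
        obtain ⟨i, hi⟩ := hb
        exact hi ▸ hpow a i ha
      have : P y ↔ P z := ⟨key y z h, key z y h.symm⟩
      simp only [g, this]
  have := mean_le_of_frobenius φ hφ hlevel g hg0 hg c hc0 S (fun p hp hpS A hA σ hσ => by
    simp only [g]
    split_ifs with h
    · exact hc0 p
    · by_contra hlt
      exact h (hc p hp hpS (not_le.mp hlt) A hA σ hσ)) hR
  have hpos : 0 < (∑ y, g y) / Fintype.card G := by
    refine div_pos ?_ (by exact_mod_cast Fintype.card_pos)
    exact lt_of_lt_of_le (by simp [g, hx]) (single_le_sum (fun y _ => hg0 y) (mem_univ x))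
  linarith

/-- The image of a homomorphism of finite level is finite. -/
theorem finite_range_of_finiteLevel {M : Type} [Group M] (φ : Γℚ →* M)
    (hlevel : GaloisFactorsThroughFiniteLevel φ) : Finite φ.range := by
  obtain ⟨L, hL, h⟩ := hlevel
  let r : Γℚ → (L →ₐ[ℚ] ℚbar) := fun σ => (σ : ℚbar →ₐ[ℚ] ℚbar).comp L.val
  have key : ∀ σ τ : Γℚ, r σ = r τ → φ σ = φ τ := by
    intro σ τ hr
    have h1 := h (σ⁻¹ * τ) fun x hx => by
      have := DFunLike.congr_fun hr ⟨x, hx⟩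
      replace this : σ x = τ x := this
      rw [AlgEquiv.mul_apply, ← this]
      exact σ.symm_apply_apply x
    rwa [map_mul, map_inv, inv_mul_eq_one] at h1
  haveI : Finite (L →ₐ[ℚ] ℚbar) := inferInstance
  choose σ hσ using fun y : φ.range => y.2
  refine Finite.of_injective (fun y => r (σ y)) fun y z hyz => Subtype.ext ?_
  rw [← hσ y, ← hσ z, key _ _ hyz]

omit [Fintype G] in
/-- Composition preserves finite level. -/
theorem finiteLevel_of_ker_le {M : Type} [Group M] (φ : Γℚ →* G) (ψ : Γℚ →* M)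
    (h : ∀ σ, φ σ = 1 → ψ σ = 1) (hlevel : GaloisFactorsThroughFiniteLevel φ) :
    GaloisFactorsThroughFiniteLevel ψ := by
  obtain ⟨L, hL, hφ⟩ := hlevel
  exact ⟨L, hL, fun σ hσ => h σ (hφ σ hσ)⟩

end Fermat.Agent.DeligneSerre
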