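import Fermat.Prelude.Def_GaloisRep_Residual
import Fermat.Agent.DeligneSerre.GroupBound
import Fermat.Agent.DeligneSerre.GroupDensity
import Fermat.Agent.DeligneSerre.GroupPlaces

/-!
# The families of Hecke eigenvalues considered, and their reductions modulo `ℓ`
-/

set_option autoImplicit false

namespace Fermat.Agent.DeligneSerre

open Matrix IsLocalRing

local notation "ℚbar" => AlgebraicClosure ℚ
local notation "Γℚ" => AlgebraicClosure ℚ ≃ₐ[ℚ] AlgebraicClosure ℚ

/-- Data of the argument of Deligne–Serre: the eigenvalues `a p`, the values `e p` of the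
character, Rankin's bound and the representations modulo `ℓ`. -/
structure Family where
  /-- the level -/
  N : ℕ
  hN : N ≠ 0
  /-- the eigenvalues -/
  a : ℕ → ℚbar
  /-- the values of the character -/
  e : ℕ → ℚbar
  ha : ∀ p : ℕ, p.Prime → ¬ p ∣ N → IsIntegral ℤ (a p)
  hfin : ∃ L : IntermediateField ℚ ℚbar, FiniteDimensional ℚ L ∧
    ∀ p : ℕ, p.Prime → ¬ p ∣ N → a p ∈ L
  /-- the order of the character -/
  d : ℕ
  hd : 0 < d
  he : ∀ p : ℕ, p.Prime → ¬ p ∣ N → e p ^ d = 1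
  hR : ∀ σ : ℚbar →+* ℂ, UpperDensityLE (fun p => if p ∣ N then 0 else ‖σ (a p)‖ ^ 2) 1
  /-- the exceptional primes `ℓ` -/
  S₀ : Finset ℕ
  hM : ∀ ℓ : ℕ, ℓ.Prime → ℓ ∉ S₀ → ∀ A : ValuationSubring ℚbar, A.LiesOverPrime ℓ →
    ∃ ρ : Γℚ →* GL (Fin 2) (ResidueField A), GaloisFactorsThroughFiniteLevel ρ ∧
      ∀ p : ℕ, p.Prime → ¬ p ∣ N → p ≠ ℓ →
        ∀ B : ValuationSubring ℚbar, B.LiesOverPrime p →
          (∀ σ ∈ B.inertiaSubgroupIn ℚ, ρ σ = 1) ∧
          ∀ σ : Γℚ, B.IsFrobeniusAt σ p →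
            (∀ x : A, (x : ℚbar) = a p → (ρ σ).val.trace = residue A x) ∧
            (∀ x : A, (x : ℚbar) = e p → (ρ σ).val.det = residue A x)

/-- The reduction of the family at a place: a semisimple representation of finite image. -/
structure Family.Reduction (F : Family) (ℓ : ℕ) (A : ValuationSubring ℚbar) where
  /-- the image -/
  G : Type
  [instGroup : Group G]
  [instFintype : Fintype G]
  /-- the map onto the image -/
  φ : Γℚ →* G
  hφ : Function.Surjective φ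
  hlevel : GaloisFactorsThroughFiniteLevel φ
  /-- the faithful representation -/
  r : G →* GL (Fin 2) (ResidueField A)
  hr : Function.Injective r
  hss : (∀ w, ¬ IsCommonEigenvector (fun g => (r g).val) w) ∨
    ∀ g, (r g).val 0 1 = 0 ∧ (r g).val 1 0 = 0
  hunram : ∀ p : ℕ, p.Prime → ¬ p ∣ F.N → p ≠ ℓ →
    ∀ B : ValuationSubring ℚbar, B.LiesOverPrime p → ∀ σ ∈ B.inertiaSubgroupIn ℚ, φ σ = 1
  htrace : ∀ p : ℕ, p.Prime → ¬ p ∣ F.N → p ≠ ℓ → ∀ B : ValuationSubring ℚbar, B.LiesOverPrime p →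
    ∀ σ : Γℚ, B.IsFrobeniusAt σ p → ∀ x : A, (x : ℚbar) = F.a p →
      (r (φ σ)).val.trace = residue A x
  hdet : ∀ p : ℕ, p.Prime → ¬ p ∣ F.N → p ≠ ℓ → ∀ B : ValuationSubring ℚbar, B.LiesOverPrime p →
    ∀ σ : Γℚ, B.IsFrobeniusAt σ p → ∀ x : A, (x : ℚbar) = F.e p →
      (r (φ σ)).val.det = residue A x

attribute [instance] Family.Reduction.instGroup Family.Reduction.instFintype

namespace Family

variable (F : Family)

theorem isIntegral_e {p : ℕ} (hp : p.Prime) (hpN : ¬ p ∣ F.N) : IsIntegral ℤ (F.e p) :=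
  IsIntegral.of_pow F.hd (by rw [F.he p hp hpN]; exact isIntegral_one)

theorem exists_reduction {ℓ : ℕ} (hℓ : ℓ.Prime) (hS : ℓ ∉ F.S₀) {A : ValuationSubring ℚbar}
    (hA : A.LiesOverPrime ℓ) : Nonempty (F.Reduction ℓ A) := by
  obtain ⟨ρ₀, hlev, hρ⟩ := F.hM ℓ hℓ hS A hA
  obtain ⟨ρ, hker, htd, hss⟩ := exists_semisimplification ρ₀
  have hlev' : GaloisFactorsThroughFiniteLevel ρ := finiteLevel_of_ker_le ρ₀ ρ hker hlev
  haveI := finite_range_of_finiteLevel ρ hlev'
  letI : Fintype ρ.range := Fintype.ofFinite _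
  obtain ⟨L, hL, hρL⟩ := hlev'
  refine ⟨{
    G := ρ.range
    φ := ρ.rangeRestrict
    hφ := ρ.rangeRestrict_surjective
    hlevel := ⟨L, hL, fun σ hσ => Subtype.ext (hρL σ hσ)⟩
    r := ρ.range.subtype
    hr := Subtype.val_injective
    hss := ?_
    hunram := fun p hp hpN hpℓ B hB σ hσ => Subtype.ext (hker σ ((hρ p hp hpN hpℓ B hB).1 σ hσ))
    htrace := fun p hp hpN hpℓ B hB σ hσ x hx =>
      (htd σ).1.trans (((hρ p hp hpN hpℓ B hB).2 σ hσ).1 x hx)
    hdet := fun p hp hpN hpℓ B hB σ hσ x hx =>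
      (htd σ).2.trans (((hρ p hp hpN hpℓ B hB).2 σ hσ).2 x hx) }⟩
  rcases hss with h | h
  · refine Or.inl fun w hw => h w ⟨hw.1, fun σ => hw.2 ⟨ρ σ, σ, rfl⟩⟩
  · exact Or.inr fun g => by
      obtain ⟨σ, hσ⟩ := g.2
      have := h σ
      rw [hσ] at this
      exact this

variable {F}

/-- The finite set of primes to be avoided. -/
def Reduction.exceptions {ℓ : ℕ} {A : ValuationSubring ℚbar} (_ : F.Reduction ℓ A) : Finset ℕ :=
  insert ℓ F.N.primeFactors

theorem Reduction.not_dvd {ℓ p : ℕ} {A : ValuationSubring ℚbar} (R : F.Reduction ℓ A)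
    (hp : p.Prime) (h : p ∉ R.exceptions) : ¬ p ∣ F.N ∧ p ≠ ℓ := by
  simp only [Reduction.exceptions, Finset.mem_insert, Nat.mem_primeFactors, not_or, not_and] at h
  exact ⟨fun hd => h.2 hp hd F.hN, h.1⟩

/-- The determinant takes values in the `d`-th roots of unity. -/
theorem Reduction.det_pow {ℓ : ℕ} {A : ValuationSubring ℚbar} (R : F.Reduction ℓ A) (g : R.G) :
    (R.r g).val.det ^ F.d = 1 := by
  refine forall_of_upperDensity_zero R.φ R.hφ R.hlevel
    (fun g => (R.r g).val.det ^ F.d = 1) ?_ ?_ (fun _ => 0) (fun _ => le_rfl)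
    UpperDensityLE.zero R.exceptions ?_ g
  · intro x y h
    simp only [map_mul, map_inv, Units.val_mul, Matrix.det_units_conj, h]
  · intro x i h
    rw [map_pow, Units.val_pow_eq_pow_val, Matrix.det_pow, ← pow_mul, mul_comm i, pow_mul, h,
      one_pow]
  · intro p hp hpS _ B hB σ hσ
    obtain ⟨hpN, hpℓ⟩ := R.not_dvd hp hpS
    rw [R.hdet p hp hpN hpℓ B hB σ hσ (intMem A (F.isIntegral_e hp hpN)) rfl, ← map_pow]
    rw [show intMem A (F.isIntegral_e hp hpN) ^ F.d = 1 from Subtype.ext (F.he p hp hpN), map_one]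

end Family

end Fermat.Agent.DeligneSerre
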