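import Fermat.Agent.DeligneSerre.GroupBasic
import Fermat.Agent.Galois.Frobenius
import Fermat.Agent.Density.Main
import Mathlib.NumberTheory.NumberField.Units.DirichletTheorem
import Mathlib.FieldTheory.KummerPolynomial
import Mathlib.NumberTheory.SumPrimeReciprocals
import Mathlib.FieldTheory.Galois.Infinite
import Mathlib.RingTheory.Polynomial.Cyclotomic.Roots
import Mathlib.Data.Nat.Totient
import Mathlib.RingTheory.RootsOfUnity.AlgebraicallyClosed

/-!
# Places at which a given unit has an order divisible by many primes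

For an algebraic unit `α` which is not a root of unity we find, by Kummer theory and Frobenius'
density theorem, infinitely many places at which the multiplicative order of the reduction of `α`
is divisible by all the primes of a set `R` with `∏ (1 - 1 / r)` as small as we like.
-/

set_option autoImplicit false

namespace Fermat.Agent.DeligneSerre

open Polynomial IntermediateField

local notation "ℚbar" => AlgebraicClosure ℚ
local notation "Γℚ" => AlgebraicClosure ℚ ≃ₐ[ℚ] AlgebraicClosure ℚ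

/-- Sums of reciprocals of large primes are unbounded, hence `∏ (1 - 1 / r)` gets small. -/
theorem exists_primes_totient_le {δ : ℝ} (hδ : 0 < δ) (R₀ : ℕ) :
    ∃ R : Finset ℕ, R.Nonempty ∧ (∀ r ∈ R, r.Prime ∧ R₀ < r) ∧
      (Nat.totient (∏ r ∈ R, r) : ℝ) ≤ δ * (∏ r ∈ R, r : ℕ) := by
  classical
  obtain ⟨T, hT⟩ : ∃ T : Finset ℕ, -Real.log δ + R₀ + 1 <
      ∑ n ∈ T, Set.indicator {p | p.Prime} (fun n : ℕ => (1 : ℝ) / n) n := by
    by_contra hcon
    push Not at hcon
    exact not_summable_one_div_on_primes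
      (summable_of_sum_le (fun n => Set.indicator_nonneg (fun p _ => by positivity) n) hcon)
  obtain ⟨r₁, hr₁, hr₁p⟩ := Nat.exists_infinite_primes (R₀ + 1)
  let R := insert r₁ (T.filter fun n => n.Prime ∧ R₀ < n)
  have hR : ∀ r ∈ R, r.Prime ∧ R₀ < r := by
    intro r hr
    rcases Finset.mem_insert.mp hr with rfl | hr
    · exact ⟨hr₁p, by omega⟩
    · exact (Finset.mem_filter.mp hr).2
  refine ⟨R, ⟨r₁, Finset.mem_insert_self _ _⟩, hR, ?_⟩
  have hsum : -Real.log δ ≤ ∑ r ∈ R, (1 : ℝ) / r := by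
    have h1 : ∑ n ∈ T, Set.indicator {p | p.Prime} (fun n : ℕ => (1 : ℝ) / n) n ≤
        ∑ r ∈ R, (1 : ℝ) / r + R₀ := by
      rw [← Finset.sum_filter_add_sum_filter_not T (fun n => n.Prime ∧ R₀ < n)]
      refine add_le_add ?_ ?_
      · refine (Finset.sum_congr rfl fun n hn => ?_).trans_le
          (Finset.sum_le_sum_of_subset_of_nonneg (Finset.subset_insert r₁ _)
            fun n _ _ => by positivity)
        exact Set.indicator_of_mem (Finset.mem_filter.mp hn).2.1 _
      · calc _ ≤ ∑ n ∈ T.filter (fun n => ¬ (n.Prime ∧ R₀ < n)),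
              (if n.Prime then (1 : ℝ) else 0) := by
              refine Finset.sum_le_sum fun n _ => ?_
              by_cases hp : n.Prime
              · rw [if_pos hp, Set.indicator_of_mem (show n ∈ {p | p.Prime} from hp)]
                rw [div_le_one (by exact_mod_cast hp.pos)]; exact_mod_cast hp.one_le
              · rw [if_neg hp, Set.indicator_of_notMem (show n ∉ {p | p.Prime} from hp)]
          _ = ((T.filter (fun n => ¬ (n.Prime ∧ R₀ < n))).filter Nat.Prime).card := by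
              rw [Finset.sum_boole]
          _ ≤ ((Finset.Icc 1 R₀).card : ℝ) := by
              refine Nat.cast_le.mpr (Finset.card_le_card fun n hn => ?_)
              simp only [Finset.mem_filter] at hn
              exact Finset.mem_Icc.mpr ⟨hn.2.one_le, not_lt.mp fun h => hn.1.2 ⟨hn.2, h⟩⟩
          _ = R₀ := by simp
    linarith
  have key : ∀ U : Finset ℕ, (∀ r ∈ U, r.Prime) →
      (Nat.totient (∏ r ∈ U, r) : ℝ) ≤ Real.exp (-∑ r ∈ U, (1 : ℝ) / r) * (∏ r ∈ U, r : ℕ) := by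
    intro U
    induction U using Finset.induction_on with
    | empty => intro _; simp
    | insert r U hrU ih =>
      intro h
      have hr := h r (Finset.mem_insert_self r U)
      have hU := fun s hs => h s (Finset.mem_insert_of_mem hs)
      rw [Finset.prod_insert hrU, Finset.sum_insert hrU, Nat.totient_mul, Nat.totient_prime hr,
        neg_add, Real.exp_add]
      · push_cast [Nat.cast_sub hr.one_le]
        have h1 : (r : ℝ) - 1 ≤ Real.exp (-((1 : ℝ) / r)) * r := by
          have hr0 : (0 : ℝ) < r := by exact_mod_cast hr.pos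
          have := mul_le_mul_of_nonneg_right (Real.add_one_le_exp (-((1 : ℝ) / r))) hr0.le
          rw [add_mul, neg_mul, div_mul_cancel₀ _ hr0.ne', one_mul] at this
          linarith
        have h2 := ih hU
        push_cast at h2
        have h3 : (0 : ℝ) ≤ r - 1 := by
          have : (1 : ℝ) ≤ r := by exact_mod_cast hr.one_le
          linarith
        calc ((r : ℝ) - 1) * (Nat.totient (∏ r ∈ U, r) : ℝ)
            ≤ (Real.exp (-((1 : ℝ) / r)) * r) *
              (Real.exp (-∑ s ∈ U, (1 : ℝ) / s) * ∏ s ∈ U, (s : ℝ)) :=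
              mul_le_mul h1 h2 (Nat.cast_nonneg _) (h3.trans h1)
          _ = _ := by ring
      · exact Nat.Coprime.prod_right fun s hs => (Nat.coprime_primes hr (hU s hs)).mpr
          fun e => hrU (e ▸ hs)
  refine (key R fun r hr => (hR r hr).1).trans (mul_le_mul_of_nonneg_right ?_ (Nat.cast_nonneg _))
  calc Real.exp (-∑ r ∈ R, (1 : ℝ) / r) ≤ Real.exp (Real.log δ) :=
        Real.exp_le_exp.mpr (by linarith)
    _ = δ := Real.exp_log hδ

/-- A unit of infinite order of a number field is an `r`-th power for only finitely many `r`. -/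
theorem exists_not_pow {M : Type*} [Field M] [NumberField M] (u : (NumberField.RingOfIntegers M)ˣ)
    (hu : u ∉ NumberField.Units.torsion M) :
    ∃ R₀ : ℕ, ∀ r : ℕ, R₀ < r → ∀ g : (NumberField.RingOfIntegers M)ˣ, g ^ r ≠ u := by
  obtain ⟨⟨z, e⟩, he, huniq⟩ := NumberField.Units.exist_unique_eq_mul_prod M u
  obtain ⟨i, hi⟩ : ∃ i, e i ≠ 0 := by
    by_contra hcon
    push Not at hcon
    exact hu (by rw [he]; simp [hcon])
  refine ⟨(e i).natAbs, fun r hr g hg => ?_⟩
  obtain ⟨⟨z', e'⟩, he', -⟩ := NumberField.Units.exist_unique_eq_mul_prod M g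
  have : (z' ^ r, fun j => e' j * r) = (z, e) := huniq _ (by
    show u = _
    rw [← hg, he', mul_pow, ← Finset.prod_pow]
    simp [zpow_mul])
  have hei : e i = e' i * r := (congrFun (congrArg Prod.snd this) i).symm
  have hne : e' i ≠ 0 := fun h => hi (by rw [hei, h, zero_mul])
  have : r ≤ (e i).natAbs := by
    rw [hei, Int.natAbs_mul, Int.natAbs_natCast]
    exact Nat.le_mul_of_pos_left r (Int.natAbs_pos.mpr hne)
  omega

/-- An element outside a subfield is moved by an automorphism fixing the subfield. -/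
theorem exists_moving_of_notMem (F : IntermediateField ℚ ℚbar) {y : ℚbar} (hy : y ∉ F) :
    ∃ σ : Γℚ, (∀ x ∈ F, σ x = x) ∧ σ y ≠ y := by
  by_contra hcon
  push Not at hcon
  refine hy ?_
  rw [← InfiniteGalois.fixedField_fixingSubgroup F, IntermediateField.mem_fixedField_iff]
  intro σ hσ
  exact hcon σ ((IntermediateField.mem_fixingSubgroup_iff F σ).mp hσ)

/-- Kummer theory: for all large primes `r`, an `r`-th root of `α` does not lie in a field
obtained from `α` by adjoining roots of unity. -/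
theorem exists_kummer_bound (α : ℚbar) (hα : IsIntegral ℤ α) (hαinv : IsIntegral ℤ α⁻¹)
    (hα0 : α ≠ 0) (hnt : ∀ n : ℕ, 0 < n → α ^ n ≠ 1) :
    ∃ R₀ : ℕ, ∀ r : ℕ, r.Prime → R₀ < r → ∀ β : ℚbar, β ^ r = α →
      ∀ (m : ℕ) (ζ : ℚbar), r ∣ m → IsPrimitiveRoot ζ m → 0 < m →
        β ∉ IntermediateField.adjoin ℚ ({α, ζ} : Set ℚbar) := by
  classical
  set M := ℚ⟮α⟯ with hM
  haveI : FiniteDimensional ℚ M :=
    IntermediateField.adjoin.finiteDimensional (hα.tower_top (A := ℚ))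
  haveI : NumberField M := {}
  let a : M := ⟨α, mem_adjoin_simple_self ℚ α⟩
  have hint : ∀ x : M, IsIntegral ℤ (x : ℚbar) → IsIntegral ℤ x := fun x h =>
    (isIntegral_algHom_iff ((IntermediateField.val M).restrictScalars ℤ)
      Subtype.val_injective).mp h
  let u : (NumberField.RingOfIntegers M)ˣ :=
    { val := ⟨a, hint a hα⟩
      inv := ⟨a⁻¹, hint a⁻¹ (by simpa [a] using hαinv)⟩
      val_inv := NumberField.RingOfIntegers.ext (mul_inv_cancel₀ (Subtype.coe_ne_coe.mp hα0))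
      inv_val := NumberField.RingOfIntegers.ext (inv_mul_cancel₀ (Subtype.coe_ne_coe.mp hα0)) }
  have hu : u ∉ NumberField.Units.torsion M := by
    intro h
    obtain ⟨n, hn, hn1⟩ := isOfFinOrder_iff_pow_eq_one.mp ((CommGroup.mem_torsion _).mp h)
    apply hnt n hn
    have h2 : a ^ n = 1 := by
      have := congrArg (fun x : (NumberField.RingOfIntegers M)ˣ => (x.val : M)) hn1
      simp only [Units.val_pow_eq_pow_val, Units.val_one, map_pow, map_one] at this
      exact this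
    simpa [a] using congrArg (fun x : M => (x : ℚbar)) h2
  obtain ⟨R₁, hR₁⟩ := exists_not_pow u hu
  refine ⟨max R₁ (Module.finrank ℚ M + 2), fun r hr hrR β hβ m ζ hrm hζ hm hmem => ?_⟩
  have hrR₁ : R₁ < r := lt_of_le_of_lt (le_max_left _ _) hrR
  have hrM : Module.finrank ℚ M + 2 < r := lt_of_le_of_lt (le_max_right _ _) hrR
  haveI : NeZero r := ⟨hr.ne_zero⟩
  -- `α` is not an `r`-th power in `M`
  have hnp : ∀ b : M, b ^ r ≠ a := by
    intro b hb
    have hbi : IsIntegral ℤ b := IsIntegral.of_pow hr.pos (hb ▸ hint a hα)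
    have hb0 : b ≠ 0 := by
      rintro rfl
      rw [zero_pow hr.ne_zero] at hb
      exact hα0 (congrArg Subtype.val hb).symm
    have hbi' : IsIntegral ℤ b⁻¹ :=
      IsIntegral.of_pow hr.pos (by rw [inv_pow, hb]; exact hint _ (by simpa [a] using hαinv))
    let g : (NumberField.RingOfIntegers M)ˣ :=
      { val := ⟨b, hbi⟩
        inv := ⟨b⁻¹, hbi'⟩
        val_inv := NumberField.RingOfIntegers.ext (mul_inv_cancel₀ hb0)
        inv_val := NumberField.RingOfIntegers.ext (inv_mul_cancel₀ hb0) }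
    exact hR₁ r hrR₁ g (Units.ext (NumberField.RingOfIntegers.ext (by simpa [g, u] using hb)))
  set z := ζ ^ (m / r) with hzdef
  have hz : IsPrimitiveRoot z r := hζ.pow hm (Nat.div_mul_cancel hrm).symm
  -- `z` does not lie in `M`
  have hzM : z ∉ M := by
    intro h
    have hdeg : (minpoly ℚ z).natDegree = r - 1 := by
      rw [← Polynomial.cyclotomic_eq_minpoly_rat hz hr.pos, Polynomial.natDegree_cyclotomic,
        Nat.totient_prime hr]
    have h1 : (minpoly ℚ (⟨z, h⟩ : M)).natDegree = r - 1 := by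
      rw [← hdeg, ← minpoly.algebraMap_eq (algebraMap M ℚbar).injective]; rfl
    have h2 : (minpoly ℚ (⟨z, h⟩ : M)).natDegree ≤ Module.finrank ℚ M := minpoly.natDegree_le _
    omega
  -- `β` has degree `r` over `M`, so is not in `M(z)`
  have hirr : Irreducible (X ^ r - C a : M[X]) := X_pow_sub_C_irreducible_of_prime hr hnp
  have hβM : minpoly M β = X ^ r - C a :=
    (minpoly.eq_of_irreducible_of_monic hirr (by simp [hβ, a])
      (monic_X_pow_sub_C _ hr.ne_zero)).symm
  have hβz : β ∉ M⟮z⟯ := by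
    intro h
    haveI : FiniteDimensional M M⟮z⟯ :=
      IntermediateField.adjoin.finiteDimensional ((hz.isIntegral hr.pos).tower_top)
    have h1 : (minpoly M (⟨β, h⟩ : M⟮z⟯)).natDegree = r := by
      rw [← minpoly.algebraMap_eq (algebraMap M⟮z⟯ ℚbar).injective]
      show (minpoly M β).natDegree = r
      rw [hβM, natDegree_X_pow_sub_C]
    have h2 := minpoly.natDegree_le (A := M) (⟨β, h⟩ : M⟮z⟯)
    have h3 : Module.finrank M M⟮z⟯ ≤ r - 1 := by
      rw [IntermediateField.adjoin.finrank ((hz.isIntegral hr.pos).tower_top)]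
      have hdvd : minpoly M z ∣ Polynomial.cyclotomic r M := by
        apply minpoly.dvd
        rw [aeval_def, ← eval_map, Polynomial.map_cyclotomic]
        exact hz.isRoot_cyclotomic hr.pos
      refine (Polynomial.natDegree_le_of_dvd hdvd (Polynomial.cyclotomic_ne_zero r M)).trans ?_
      rw [Polynomial.natDegree_cyclotomic, Nat.totient_prime hr]
    have := hr.pos
    omega
  -- two automorphisms over `M` not commuting on `β`
  obtain ⟨σ, hσfix, hσβ⟩ := exists_moving_of_notMem (M⟮z⟯.restrictScalars ℚ) hβz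
  obtain ⟨τ, hτfix, hτz⟩ := exists_moving_of_notMem M hzM
  have hσα : σ α = α := hσfix α (IntermediateField.algebraMap_mem M⟮z⟯ a)
  have hσz : σ z = z := hσfix z (mem_adjoin_simple_self M z)
  have hτα : τ α = α := hτfix α (mem_adjoin_simple_self ℚ α)
  have hβ0 : β ≠ 0 := fun h => hα0 (by rw [← hβ, h, zero_pow hr.ne_zero])
  have hsmul : ∀ φ : Γℚ, φ α = α → ∃ i : ℕ, φ β = z ^ i * β := by
    intro φ hφ
    obtain ⟨i, -, hi⟩ := hz.eq_pow_of_pow_eq_one (ξ := φ β / β)
      (by rw [div_pow, ← map_pow, hβ, hφ, div_self hα0])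
    exact ⟨i, by rw [hi, div_mul_cancel₀ _ hβ0]⟩
  obtain ⟨s, hs⟩ := hsmul σ hσα
  obtain ⟨i, hi⟩ := hsmul τ hτα
  have hrs : ¬ r ∣ s := fun h => hσβ (by rw [hs, (hz.pow_eq_one_iff_dvd s).mpr h, one_mul])
  -- they commute on the field generated by `α` and `ζ`
  haveI : NeZero m := ⟨hm.ne'⟩
  have hζσ : ∀ φ : Γℚ, ∃ i : ℕ, φ ζ = ζ ^ i := fun φ => by
    obtain ⟨i, -, hi⟩ := hζ.eq_pow_of_pow_eq_one (ξ := φ ζ)
      (by rw [← map_pow, hζ.pow_eq_one, map_one])
    exact ⟨i, hi.symm⟩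
  have hcommute : σ (τ β) = τ (σ β) := by
    refine IntermediateField.adjoin_induction ℚ (p := fun x _ => σ (τ x) = τ (σ x)) ?_ ?_ ?_ ?_ ?_
      hmem
    · rintro x (rfl | rfl)
      · rw [hτα, hσα, hτα]
      · obtain ⟨i, hi⟩ := hζσ σ
        obtain ⟨j, hj⟩ := hζσ τ
        rw [hj, map_pow, hi, map_pow, hj, ← pow_mul, ← pow_mul, mul_comm]
    · intro q; simp
    · intro x y _ _ hx hy; simp [hx, hy]
    · intro x _ hx; simp [hx]
    · intro x y _ _ hx hy; simp [hx, hy]
  rw [hi, hs, map_mul, map_mul, map_pow, hσz, hs, hi, ← mul_assoc, ← mul_assoc] at hcommute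
  have h2 : τ (z ^ s) = z ^ s := by
    have h3 := mul_right_cancel₀ hβ0 hcommute
    have hz0 : z ^ i ≠ 0 := pow_ne_zero _ (hz.ne_zero hr.ne_zero)
    rw [mul_comm] at h3
    exact (mul_right_cancel₀ hz0 h3).symm
  obtain ⟨t, -, ht⟩ := (hz.pow_of_coprime s (hr.coprime_iff_not_dvd.mpr hrs).symm)
    |>.eq_pow_of_pow_eq_one hz.pow_eq_one
  exact hτz (by rw [← ht, map_pow, h2])

/-- Kummer theory for several primes: some automorphism fixes the roots of unity and moves all
the chosen roots of `α`. -/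
theorem exists_moving_all (α : ℚbar) (hα0 : α ≠ 0) (m : ℕ) (hm : 0 < m) (ζ : ℚbar)
    (hζ : IsPrimitiveRoot ζ m) (R : Finset ℕ) (hR : ∀ r ∈ R, r.Prime) (hmR : m = ∏ r ∈ R, r)
    (β : ℕ → ℚbar) (hβ : ∀ r ∈ R, β r ^ r = α)
    (hout : ∀ r ∈ R, β r ∉ IntermediateField.adjoin ℚ ({α, ζ} : Set ℚbar)) :
    ∃ τ : Γℚ, τ α = α ∧ τ ζ = ζ ∧ ∀ r ∈ R, τ (β r) ≠ β r := by
  classical
  suffices ∀ U : Finset ℕ, U ⊆ R → ∃ τ : Γℚ, τ α = α ∧ τ ζ = ζ ∧
      (∀ r ∈ U, τ (β r) ≠ β r) ∧ ∀ r ∈ R, r ∉ U → τ (β r) = β r by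
    obtain ⟨τ, h1, h2, h3, -⟩ := this R subset_rfl
    exact ⟨τ, h1, h2, h3⟩
  intro U hU
  induction U using Finset.induction_on with
  | empty => exact ⟨1, by simp⟩
  | insert r U hrU ih =>
    obtain ⟨τ, hτα, hτζ, hmove, hfix⟩ := ih fun x hx => hU (Finset.mem_insert_of_mem hx)
    have hrR := hU (Finset.mem_insert_self r U)
    obtain ⟨τ₁, hτ₁, hτ₁β⟩ := exists_moving_of_notMem _ (hout r hrR)
    have h1α : τ₁ α = α := hτ₁ α (subset_adjoin ℚ _ (Set.mem_insert _ _))
    have h1ζ : τ₁ ζ = ζ := hτ₁ ζ (subset_adjoin ℚ _ (Set.mem_insert_of_mem _ rfl))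
    have haction : ∀ q ∈ R, ∃ s : ℕ, (∀ n : ℕ, (τ₁ ^ n) (β q) = (ζ ^ (m / q)) ^ (s * n) * β q) ∧
        IsPrimitiveRoot (ζ ^ (m / q)) q := by
      intro q hq
      haveI : NeZero q := ⟨(hR q hq).ne_zero⟩
      have hqm : q ∣ m := hmR ▸ Finset.dvd_prod_of_mem id hq
      have hz : IsPrimitiveRoot (ζ ^ (m / q)) q := hζ.pow hm (Nat.div_mul_cancel hqm).symm
      have hβ0 : β q ≠ 0 := fun h => hα0 (by rw [← hβ q hq, h, zero_pow (hR q hq).ne_zero])
      obtain ⟨s, -, hs⟩ := hz.eq_pow_of_pow_eq_one (ξ := τ₁ (β q) / β q)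
        (by rw [div_pow, ← map_pow, hβ q hq, h1α, div_self hα0])
      refine ⟨s, fun n => ?_, hz⟩
      induction n with
      | zero => simp
      | succ n ihn =>
        rw [pow_succ', AlgEquiv.mul_apply, ihn, map_mul, map_pow, map_pow, h1ζ,
          show τ₁ (β q) = (ζ ^ (m / q)) ^ s * β q from by rw [hs, div_mul_cancel₀ _ hβ0],
          Nat.mul_succ, pow_add, mul_assoc]
    have hpowfix : ∀ (x : ℚbar), τ₁ x = x → ∀ n : ℕ, (τ₁ ^ n) x = x := by
      intro x hx n
      induction n with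
      | zero => simp
      | succ n ihn => rw [pow_succ', AlgEquiv.mul_apply, ihn, hx]
    have hother : ∀ q ∈ R, q ≠ r → (τ₁ ^ (m / r)) (β q) = β q := by
      intro q hq hne
      obtain ⟨s, hs, hz⟩ := haction q hq
      have hdvd : q ∣ m / r := by
        have : (m / r) * r = m := Nat.div_mul_cancel (hmR ▸ Finset.dvd_prod_of_mem id hrR)
        exact ((Nat.coprime_primes (hR q hq) (hR r hrR)).mpr hne).dvd_of_dvd_mul_right
          (this.symm ▸ hmR ▸ Finset.dvd_prod_of_mem id hq)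
      rw [hs, (hz.pow_eq_one_iff_dvd _).mpr (hdvd.mul_left s), one_mul]
    have hself : (τ₁ ^ (m / r)) (β r) ≠ β r ∧ ∃ w : ℚbar, τ w = w ∧
        (τ₁ ^ (m / r)) (β r) = w * β r := by
      obtain ⟨s, hs, hz⟩ := haction r hrR
      refine ⟨fun h => ?_, _, by rw [map_pow, map_pow, hτζ], hs _⟩
      have hβ0 : β r ≠ 0 := fun h => hα0 (by rw [← hβ r hrR, h, zero_pow (hR r hrR).ne_zero])
      rw [hs] at h
      rcases (hR r hrR).dvd_mul.mp ((hz.pow_eq_one_iff_dvd _).mp
        (mul_right_cancel₀ hβ0 (h.trans (one_mul _).symm))) with hd | hd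
      · refine hτ₁β ?_
        have := hs 1
        rw [pow_one, mul_one, (hz.pow_eq_one_iff_dvd _).mpr hd, one_mul] at this
        exact this
      · rw [hmR, ← Finset.mul_prod_erase R (fun x => x) hrR, Nat.mul_div_cancel_left _
          (hR r hrR).pos] at hd
        obtain ⟨q, hq, hrq⟩ := ((hR r hrR).prime.dvd_finsetProd_iff _).mp hd
        obtain ⟨hne, hqR⟩ := Finset.mem_erase.mp hq
        exact hne (((Nat.prime_dvd_prime_iff_eq (hR r hrR) (hR q hqR)).mp hrq).symm)
    refine ⟨τ * τ₁ ^ (m / r), ?_, ?_, fun q hq => ?_, fun q hq hqU => ?_⟩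
    · rw [AlgEquiv.mul_apply, hpowfix α h1α, hτα]
    · rw [AlgEquiv.mul_apply, hpowfix ζ h1ζ, hτζ]
    · rw [AlgEquiv.mul_apply]
      rcases Finset.mem_insert.mp hq with rfl | hqU
      · obtain ⟨h1, w, hw, h2⟩ := hself
        rw [h2, map_mul, hw, hfix q hrR hrU]
        rwa [h2] at h1
      · have hne : q ≠ r := fun e => hrU (e ▸ hqU)
        rw [hother q (hU hq) hne]
        exact hmove q hqU
    · rw [Finset.mem_insert, not_or] at hqU
      rw [AlgEquiv.mul_apply, hother q hq hqU.1, hfix q hq hqU.2]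

/-- The place we are looking for. -/
theorem exists_place_dvd_orderOf (α : ℚbar) (hα : IsIntegral ℤ α) (hαinv : IsIntegral ℤ α⁻¹)
    (hα0 : α ≠ 0) (hnt : ∀ n : ℕ, 0 < n → α ^ n ≠ 1) (d : ℕ) {δ : ℝ} (hδ : 0 < δ)
    (S : Finset ℕ) :
    ∃ m : ℕ, 1 < m ∧ Nat.Coprime m d.succ ∧ Odd m ∧ (Nat.totient m : ℝ) ≤ δ * m ∧
      ∃ ℓ : ℕ, ℓ.Prime ∧ ℓ ∉ S ∧ ∃ A : ValuationSubring ℚbar, A.LiesOverPrime ℓ ∧
        ∀ x : A, (x : ℚbar) = α → m ∣ orderOf (IsLocalRing.residue A x) := by
  classical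
  obtain ⟨R₁, hR₁⟩ := exists_kummer_bound α hα hαinv hα0 hnt
  obtain ⟨R, hRne, hR, hδR⟩ := exists_primes_totient_le hδ (max R₁ (d + 3))
  set m := ∏ r ∈ R, r with hm
  have hm0 : 0 < m := Finset.prod_pos fun r hr => (hR r hr).1.pos
  haveI : NeZero m := ⟨hm0.ne'⟩
  have hbig : ∀ r ∈ R, R₁ < r ∧ d + 3 < r := fun r hr => by
    have := (hR r hr).2
    omega
  have hm1 : 1 < m := by
    obtain ⟨r, hr⟩ := hRne
    exact (hR r hr).1.one_lt.trans_le (Nat.le_of_dvd hm0 (Finset.dvd_prod_of_mem id hr))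
  have hcop : Nat.Coprime m d.succ := Nat.Coprime.prod_left fun r hr =>
    (hR r hr).1.coprime_iff_not_dvd.mpr fun h => by
      have := Nat.le_of_dvd d.succ_pos h
      have := (hbig r hr).2
      omega
  have hodd : Odd m := by
    rw [← Nat.coprime_two_left]
    exact (Nat.Coprime.prod_left fun r hr =>
      (Nat.coprime_primes (hR r hr).1 Nat.prime_two).mpr (by have := (hbig r hr).2; omega)).symm
  refine ⟨m, hm1, hcop, hodd, hδR, ?_⟩
  obtain ⟨ζ, hζ⟩ := HasEnoughRootsOfUnity.exists_primitiveRoot ℚbar m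
  have hex : ∀ r : ℕ, ∃ b : ℚbar, 0 < r → b ^ r = α := fun r => by
    rcases Nat.eq_zero_or_pos r with h | h
    · exact ⟨0, fun h' => absurd h h'.ne'⟩
    · obtain ⟨b, hb⟩ := IsAlgClosed.exists_pow_nat_eq α h
      exact ⟨b, fun _ => hb⟩
  choose β hβ using hex
  have hβR : ∀ r ∈ R, β r ^ r = α := fun r hr => hβ r (hR r hr).1.pos
  have hout : ∀ r ∈ R, β r ∉ IntermediateField.adjoin ℚ ({α, ζ} : Set ℚbar) := fun r hr =>
    hR₁ r (hR r hr).1 (hbig r hr).1 _ (hβR r hr) m ζ (Finset.dvd_prod_of_mem id hr) hζ hm0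
  obtain ⟨σ, hσα, hσζ, hσβ⟩ :=
    exists_moving_all α hα0 m hm0 ζ hζ R (fun r hr => (hR r hr).1) hm β hβR hout
  set L := IntermediateField.adjoin ℚ (({α, ζ} : Set ℚbar) ∪ β '' (R : Set ℕ)) with hL
  have hβint : ∀ r ∈ R, IsIntegral ℤ (β r) := fun r hr =>
    IsIntegral.of_pow (hR r hr).1.pos (by rw [hβR r hr]; exact hα)
  haveI : FiniteDimensional ℚ L := by
    haveI : Finite (({α, ζ} : Set ℚbar) ∪ β '' (R : Set ℕ) : Set ℚbar) :=
      ((Set.toFinite _).union (R.finite_toSet.image β)).to_subtype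
    refine IntermediateField.finiteDimensional_adjoin fun x hx => ?_
    exact (Algebra.IsAlgebraic.isAlgebraic x).isIntegral
  obtain ⟨ℓ, hℓ, hℓS, A, hA, F, hF, ⟨k, hk⟩, k', hk'⟩ :=
    Fermat.Agent.Density.exists_frobenius_pow σ L (S ∪ R)
  rw [Finset.mem_union, not_or] at hℓS
  refine ⟨ℓ, hℓ, hℓS.1, A, hA, fun x hx => ?_⟩
  have hmemL : ∀ y ∈ ({α, ζ} : Set ℚbar) ∪ β '' (R : Set ℕ), y ∈ L := fun y hy =>
    subset_adjoin ℚ _ hy
  have powfix : ∀ (φ : Γℚ) (y : ℚbar), φ y = y → ∀ n : ℕ, (φ ^ n) y = y := by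
    intro φ y hy n
    induction n with
    | zero => simp
    | succ n ihn => rw [pow_succ', AlgEquiv.mul_apply, ihn, hy]
  have hFα : F α = α := by
    rw [hk' α (hmemL _ (Or.inl (Set.mem_insert _ _))), powfix σ α hσα]
  have hFζ : F ζ = ζ := by
    rw [hk' ζ (hmemL _ (Or.inl (Set.mem_insert_of_mem _ rfl))), powfix σ ζ hσζ]
  have hFβ : ∀ r ∈ R, F (β r) ≠ β r := fun r hr h => hσβ r hr (by
    rw [hk _ (hmemL _ (Or.inr ⟨r, hr, rfl⟩)), powfix F _ h])
  have hfrob : ∀ y : A, ∀ (hy : F y ∈ A),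
      IsLocalRing.residue A ⟨F y, hy⟩ = IsLocalRing.residue A y ^ ℓ := by
    intro y hy
    rw [← hF.smul_residue_eq, ← IsLocalRing.ResidueField.residue_smul]
    rfl
  have hmem := fun {y : ℚbar} (hy : IsIntegral ℤ y) =>
    Galois.mem_valuationSubring_of_isIntegral A hy
  set a := IsLocalRing.residue A x with ha
  have hℓk : ∀ n : ℕ, (n : IsLocalRing.ResidueField A) = 0 → ℓ ∣ n := by
    intro n hn
    rw [← map_natCast (IsLocalRing.residue A), IsLocalRing.residue_eq_zero_iff,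
      ← ValuationSubring.coe_mem_nonunits_iff] at hn
    have hn' : ((n : ℤ) : ℚbar) ∈ A.nonunits := by simpa using hn
    exact Int.natCast_dvd_natCast.mp ((Galois.intCast_mem_nonunits_iff hℓ hA _).mp hn')
  have ha0 : a ≠ 0 := by
    intro h
    have hinvmem : α⁻¹ ∈ A := hmem hαinv
    have h1 : x * ⟨α⁻¹, hinvmem⟩ = 1 := Subtype.ext (by simp [hx, hα0])
    have := congrArg (IsLocalRing.residue A) h1
    rw [map_mul, ← ha, h, zero_mul, map_one] at this
    exact zero_ne_one this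
  have ha1 : a ^ (ℓ - 1) = 1 := by
    have hy : F x ∈ A := by rw [hx, hFα, ← hx]; exact x.2
    have h1 := hfrob x hy
    rw [show (⟨F x, hy⟩ : A) = x from Subtype.ext (show F (x : ℚbar) = x from
      (congrArg F hx).trans (hFα.trans hx.symm))] at h1
    refine mul_right_cancel₀ ha0 ?_
    rw [← pow_succ, Nat.sub_add_cancel hℓ.one_le, ← h1, one_mul]
  rw [hm]
  refine Finset.prod_primes_dvd _ (fun r hr => (hR r hr).1.prime) fun r hr => ?_
  have hrp := (hR r hr).1
  haveI : NeZero r := ⟨hrp.ne_zero⟩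
  have hrℓ : (r : IsLocalRing.ResidueField A) ≠ 0 := fun h => hℓS.2 (by
    rwa [(Nat.prime_dvd_prime_iff_eq hℓ hrp).mp (hℓk r h)])
  set z := ζ ^ (m / r) with hzdef
  have hz : IsPrimitiveRoot z r :=
    hζ.pow hm0 (Nat.div_mul_cancel (Finset.dvd_prod_of_mem id hr)).symm
  have hzint : IsIntegral ℤ z := hz.isIntegral hrp.pos
  let zA : A := ⟨z, hmem hzint⟩
  let bA : A := ⟨β r, hmem (hβint r hr)⟩
  have hzA : zA ^ r = 1 := Subtype.ext hz.pow_eq_one
  have hzne : IsLocalRing.residue A zA ≠ 1 := fun h => hz.ne_one hrp.one_lt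
    (congrArg Subtype.val (eq_of_map_eq_of_pow_eq_one (IsLocalRing.residue A) hrℓ hzA (one_pow r)
      (by rw [h, map_one])))
  have hβ0 : β r ≠ 0 := fun h => hα0 (by rw [← hβR r hr, h, zero_pow hrp.ne_zero])
  obtain ⟨j, -, hj⟩ := hz.eq_pow_of_pow_eq_one (ξ := F (β r) / β r)
    (by rw [div_pow, ← map_pow, hβR r hr, hFα, div_self hα0])
  have hj' : F (β r) = z ^ j * β r := by rw [hj, div_mul_cancel₀ _ hβ0]
  have hrj : ¬ r ∣ j := fun h => hFβ r hr (by rw [hj', (hz.pow_eq_one_iff_dvd j).mpr h, one_mul])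
  have hordz : orderOf (IsLocalRing.residue A zA) = r :=
    haveI := Fact.mk hrp
    orderOf_eq_prime (by rw [← map_pow, hzA, map_one]) hzne
  have hrdvd : r ∣ ℓ - 1 := by
    rw [← hordz]
    apply orderOf_dvd_of_pow_eq_one
    have hy : F zA ∈ A := by rw [show F zA = z from by simp [zA, hzdef, hFζ]]; exact zA.2
    have h1 := hfrob zA hy
    rw [show (⟨F zA, hy⟩ : A) = zA from Subtype.ext (by simp [zA, hzdef, hFζ])] at h1
    have hz0 : IsLocalRing.residue A zA ≠ 0 := fun h => by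
      have := congrArg (IsLocalRing.residue A) hzA
      rw [map_pow, h, zero_pow hrp.ne_zero, map_one] at this
      exact zero_ne_one this
    refine mul_right_cancel₀ hz0 ?_
    rw [← pow_succ, Nat.sub_add_cancel hℓ.one_le, ← h1, one_mul]
  set b := IsLocalRing.residue A bA with hb
  have hba : b ^ r = a := by
    rw [hb, ha, ← map_pow]
    exact congrArg _ (Subtype.ext (by simp [bA, hx, hβR r hr]))
  have hb0 : b ≠ 0 := fun h => ha0 (by rw [← hba, h, zero_pow hrp.ne_zero])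
  by_contra hcon
  have hy : F bA ∈ A := by
    rw [show F bA = z ^ j * β r from hj']; exact mul_mem (pow_mem zA.2 j) bA.2
  have h1 := hfrob bA hy
  rw [show (⟨F bA, hy⟩ : A) = zA ^ j * bA from Subtype.ext (by simp [zA, bA, hj']), map_mul,
    map_pow, ← hb] at h1
  have hb1 : b ^ (ℓ - 1) = IsLocalRing.residue A zA ^ j := by
    refine mul_right_cancel₀ hb0 ?_
    rw [← pow_succ, Nat.sub_add_cancel hℓ.one_le, h1]
  obtain ⟨q, hq⟩ := hrdvd
  have hdiv : orderOf a ∣ q := by
    refine Nat.Coprime.dvd_of_dvd_mul_left ?_ (hq ▸ orderOf_dvd_of_pow_eq_one ha1)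
    exact ((Nat.coprime_comm.mp (hrp.coprime_iff_not_dvd.mpr hcon)))
  have : IsLocalRing.residue A zA ^ j = 1 := by
    rw [← hb1, hq, pow_mul, hba, orderOf_dvd_iff_pow_eq_one.mp hdiv]
  exact hrj (hordz ▸ orderOf_dvd_of_pow_eq_one this)

end Fermat.Agent.DeligneSerre
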