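import Mathlib.LinearAlgebra.Matrix.Charpoly.Coeff
import Mathlib.LinearAlgebra.Matrix.GeneralLinearGroup.Defs
import Mathlib.LinearAlgebra.Matrix.NonsingularInverse
import Mathlib.FieldTheory.IsAlgClosed.Basic
import Mathlib.RingTheory.Valuation.ValuationSubring
import Mathlib.RingTheory.LocalRing.ResidueField.Basic
import Mathlib.RingTheory.IntegralClosure.IntegrallyClosed
import Mathlib.RingTheory.Valuation.LocalSubring
import Mathlib.Tactic.Module

/-!
# Lifting representations of groups of order prime to the residue characteristic

For a valuation subring `A` of an algebraically closed field, a representation over the residue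
field of a finite group whose order is invertible there lifts to `A`: the projection of the free
module on the regular representation onto the representation is lifted to an idempotent by
splitting the characteristic polynomial of an arbitrary lift.
-/

set_option autoImplicit false

namespace Fermat.Agent.DeligneSerre

open Matrix Polynomial IsLocalRing

variable {Ω : Type*} [Field Ω] [IsAlgClosed Ω] (A : ValuationSubring Ω)

/-- A monic polynomial over `A` is a product of linear factors. -/
theorem exists_roots_valuationSubring (f : A[X]) (hf : f.Monic) :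
    ∃ R : Multiset A, f = (R.map fun x => X - C x).prod := by
  classical
  set g := f.map A.subtype with hg
  have hroots : ∀ z ∈ g.roots, z ∈ A := by
    intro z hz
    have hz' : g.IsRoot z := isRoot_of_mem_roots hz
    have hi : IsIntegral A z := ⟨f, hf, by rw [← Polynomial.eval_map]; exact hz'⟩
    obtain ⟨y, hy⟩ := IsIntegrallyClosed.algebraMap_eq_of_integral hi
    exact hy ▸ y.2
  refine ⟨g.roots.attach.map fun z => ⟨z.1, hroots z.1 z.2⟩, ?_⟩
  refine Polynomial.map_injective A.subtype Subtype.val_injective ?_
  rw [Polynomial.map_multiset_prod, Multiset.map_map, Multiset.map_map]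
  refine ((IsAlgClosed.splits g).eq_prod_roots_of_monic (hf.map _)).trans ?_
  conv_lhs => rw [← Multiset.attach_map_val g.roots, Multiset.map_map]
  exact congrArg Multiset.prod (Multiset.map_congr rfl fun z _ => by simp)

variable {ι : Type*} [Fintype ι] [DecidableEq ι]

/-- For an idempotent `e` and `c ≠ 0, 1` the matrix `c - e` is invertible. -/
theorem scalar_sub_idempotent_mul {K : Type*} [Field K] (e : Matrix ι ι K)
    (he : IsIdempotentElem e) {c : K} (h0 : c ≠ 0) (h1 : c ≠ 1) :
    (Matrix.scalar ι c - e) * (c⁻¹ • 1 + (c * (c - 1))⁻¹ • e) = 1 := by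
  have hc1 : c - 1 ≠ 0 := sub_ne_zero.mpr h1
  rw [Matrix.scalar_apply, ← Matrix.smul_one_eq_diagonal]
  simp only [sub_mul, mul_add, Matrix.smul_mul, Matrix.mul_smul, one_mul, mul_one, he.eq,
    smul_smul]
  have h2 : c * c⁻¹ = 1 := mul_inv_cancel₀ h0
  have h3 : c * (c * (c - 1))⁻¹ - (c⁻¹ + (c * (c - 1))⁻¹) = 0 := by field_simp; ring
  calc _ = (c * c⁻¹) • (1 : Matrix ι ι K) +
        (c * (c * (c - 1))⁻¹ - (c⁻¹ + (c * (c - 1))⁻¹)) • e := by module
    _ = 1 := by rw [h2, h3, one_smul, zero_smul, add_zero]

/-- An idempotent matrix over the residue field is the reduction of an idempotent matrix, which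
moreover commutes with whatever commutes with a given lift. -/
theorem exists_idempotent_lift (E : Matrix ι ι A)
    (he : IsIdempotentElem ((residue A).mapMatrix E)) :
    ∃ P : Matrix ι ι A, IsIdempotentElem P ∧ (residue A).mapMatrix P = (residue A).mapMatrix E ∧
      ∀ Y : Matrix ι ι A, Commute Y E → Commute Y P := by
  classical
  obtain ⟨R, hR⟩ := exists_roots_valuationSubring A E.charpoly E.charpoly_monic
  set e := (residue A).mapMatrix E with he'
  have hroot : ∀ x ∈ R, residue A x = 0 ∨ residue A x = 1 := by
    intro x hx
    have h0 : E.charpoly.eval x = 0 := by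
      rw [hR, eval_multiset_prod, Multiset.map_map]
      exact Multiset.prod_eq_zero (Multiset.mem_map.mpr ⟨x, hx, by simp⟩)
    rw [Matrix.eval_charpoly] at h0
    have h1 : (Matrix.scalar ι (residue A x) - e).det = 0 := by
      rw [← map_zero (residue A), ← h0, RingHom.map_det, map_sub, he']
      congr 1
      ext i j
      by_cases h : i = j <;> simp [Matrix.scalar_apply, Matrix.diagonal, h]
    by_contra hcon
    push Not at hcon
    obtain ⟨hx0, hx1⟩ := hcon
    set c := residue A x
    have hinv := scalar_sub_idempotent_mul e he hx0 hx1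
    have := congrArg Matrix.det hinv
    rw [det_mul, h1, zero_mul, det_one] at this
    exact zero_ne_one this
  set R₀ := R.filter fun x => residue A x = 0
  set R₁ := R.filter fun x => ¬ residue A x = 0
  set f₀ := (R₀.map fun x => X - C x).prod with hf₀
  set f₁ := (R₁.map fun x => X - C x).prod with hf₁
  have hf : f₀ * f₁ = E.charpoly := by
    rw [hR, hf₀, hf₁, ← Multiset.prod_add, ← Multiset.map_add, Multiset.filter_add_not]
  have hcop : IsCoprime f₀ f₁ := by
    have key : ∀ x ∈ R₀, ∀ y ∈ R₁, IsCoprime (X - C x) (X - C y) := by
      intro x hx y hy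
      obtain ⟨_, hx0⟩ := Multiset.mem_filter.mp hx
      obtain ⟨hyR, hy0⟩ := Multiset.mem_filter.mp hy
      refine Polynomial.isCoprime_X_sub_C_of_isUnit_sub ((IsLocalRing.residue_ne_zero_iff_isUnit _).mp ?_)
      rw [map_sub, hx0, (hroot y hyR).resolve_left hy0, zero_sub]
      exact neg_ne_zero.mpr one_ne_zero
    have prodR : ∀ (q : A[X]) (S : Multiset A), (∀ y ∈ S, IsCoprime q (X - C y)) →
        IsCoprime q (S.map fun y => X - C y).prod := by
      intro q S
      induction S using Multiset.induction_on with
      | empty => intro _; simpa using isCoprime_one_right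
      | cons a t ih =>
        intro h
        rw [Multiset.map_cons, Multiset.prod_cons]
        exact (h a (Multiset.mem_cons_self a t)).mul_right (ih fun y hy => h y (Multiset.mem_cons_of_mem hy))
    refine prodR _ _ fun y hy => (prodR _ _ fun x hx => (key x hx y hy).symm).symm
  obtain ⟨a, b, hab⟩ := hcop
  have hCH : aeval E f₀ * aeval E f₁ = 0 := by
    rw [← map_mul, hf]; exact Matrix.aeval_self_charpoly E
  have hsum : aeval E (a * f₀) + aeval E (b * f₁) = 1 := by rw [← map_add, hab, map_one]
  have hprod : aeval E (a * f₀) * aeval E (b * f₁) = 0 := by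
    rw [← map_mul, show a * f₀ * (b * f₁) = a * b * (f₀ * f₁) by ring, map_mul, map_mul (aeval E) f₀,
      hCH, mul_zero]
  refine ⟨aeval E (a * f₀), ?_, ?_, fun Y hY => ?_⟩
  · have := congrArg (aeval E (a * f₀) * ·) hsum
    simp only [mul_add, hprod, add_zero, mul_one] at this
    exact this
  · -- reduction: for an idempotent `e`, a polynomial acts through its values at `0` and `1`
    have hee : e * e = e := he
    have hred : ∀ q : A[X], (residue A).mapMatrix (aeval E q) = aeval e (q.map (residue A)) := by
      intro q
      refine Polynomial.induction_on' q (fun q r hq hr => by rw [map_add, map_add, Polynomial.map_add, map_add, hq, hr]) fun n c => ?_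
      rw [Polynomial.map_monomial, aeval_monomial, aeval_monomial, map_mul, map_pow]
      congr 1
      ext i j
      by_cases h : i = j <;> simp [Matrix.algebraMap_matrix_apply, h]
    have hidem : ∀ q : (ResidueField A)[X],
        aeval e q = q.eval 0 • (1 - e) + q.eval 1 • e := by
      intro q
      induction q using Polynomial.induction_on with
      | C c => simp only [aeval_C, eval_C, Algebra.algebraMap_eq_smul_one, smul_sub]; abel
      | add q r hq hr => simp only [map_add, eval_add, hq, hr, add_smul]; abel
      | monomial n c _ =>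
        rw [map_mul, aeval_C, map_pow, aeval_X, (show IsIdempotentElem e from hee).pow_succ_eq]
        simp [Algebra.algebraMap_eq_smul_one]
    have hR₁ : ∀ x ∈ R₁, residue A x = 1 := fun x hx =>
      (hroot x (Multiset.mem_filter.mp hx).1).resolve_left (Multiset.mem_filter.mp hx).2
    have hR₀ : ∀ x ∈ R₀, residue A x = 0 := fun x hx => (Multiset.mem_filter.mp hx).2
    have hev : ∀ (S : Multiset A) (c : ResidueField A),
        (((S.map fun x => X - C x).prod).map (residue A)).eval c =
          (S.map fun x => c - residue A x).prod := by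
      intro S c
      rw [Polynomial.map_multiset_prod, Multiset.map_map, eval_multiset_prod, Multiset.map_map]
      congr 1
      exact Multiset.map_congr rfl fun x _ => by simp
    have hCH' : aeval e (f₀.map (residue A)) * aeval e (f₁.map (residue A)) = 0 := by
      rw [← hred, ← hred, ← map_mul, hCH, map_zero]
    rw [hred, hidem]
    set q := (a * f₀).map (residue A) with hq
    have h0 : q.eval 0 • (1 - e) = 0 := by
      by_cases hne : R₀ = 0
      · -- all the roots reduce to `1`, so that `e = 1`
        have h1 : aeval e (f₁.map (residue A)) = 0 := by simpa [hf₀, hne] using hCH'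
        have h2 : (f₁.map (residue A)).eval 0 ≠ 0 := by
          rw [hf₁, hev]
          refine Multiset.prod_ne_zero fun h => ?_
          obtain ⟨x, hx, hx'⟩ := Multiset.mem_map.mp h
          rw [hR₁ x hx] at hx'
          simp at hx'
        rw [hidem] at h1
        have h3 := congrArg (fun M => M * (1 - e)) h1
        simp only [zero_mul, add_mul, Matrix.smul_mul] at h3
        simp only [sub_mul, mul_sub, one_mul, mul_one, hee, sub_self, sub_zero, smul_zero,
          add_zero] at h3
        rw [(smul_eq_zero.mp h3).resolve_left h2, smul_zero]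
      · obtain ⟨x, hx⟩ := Multiset.exists_mem_of_ne_zero hne
        have : (f₀.map (residue A)).eval 0 = 0 := by
          rw [hf₀, hev]
          exact Multiset.prod_eq_zero (Multiset.mem_map.mpr ⟨x, hx, by simp [hR₀ x hx]⟩)
        rw [hq, Polynomial.map_mul, eval_mul, this, mul_zero, zero_smul]
    have h1 : q.eval 1 • e = e := by
      have hq' : q = 1 - (b * f₁).map (residue A) := by
        rw [hq, eq_sub_iff_add_eq, ← Polynomial.map_add, hab, Polynomial.map_one]
      by_cases hne : R₁ = 0
      · -- all the roots reduce to `0`, so that `e = 0`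
        have h1 : aeval e (f₀.map (residue A)) = 0 := by simpa [hf₁, hne] using hCH'
        have h2 : (f₀.map (residue A)).eval 1 ≠ 0 := by
          rw [hf₀, hev]
          refine Multiset.prod_ne_zero fun h => ?_
          obtain ⟨x, hx, hx'⟩ := Multiset.mem_map.mp h
          rw [hR₀ x hx] at hx'
          simp at hx'
        rw [hidem] at h1
        have h3 := congrArg (fun M => M * e) h1
        simp only [zero_mul, add_mul, Matrix.smul_mul] at h3
        simp only [sub_mul, one_mul, hee, sub_self, smul_zero, zero_add] at h3
        rw [(smul_eq_zero.mp h3).resolve_left h2, smul_zero]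
      · obtain ⟨x, hx⟩ := Multiset.exists_mem_of_ne_zero hne
        have : (f₁.map (residue A)).eval 1 = 0 := by
          rw [hf₁, hev]
          exact Multiset.prod_eq_zero (Multiset.mem_map.mpr ⟨x, hx, by simp [hR₁ x hx]⟩)
        rw [hq', eval_sub, Polynomial.map_mul, eval_mul, this, mul_zero, eval_one, sub_zero,
          one_smul]
    rw [h0, h1, zero_add]
  · exact Algebra.commute_of_mem_adjoin_singleton_of_commute (aeval_mem_adjoin_singleton A E) hY

/-- A representation over the residue field of a finite group of order invertible there lifts. -/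
theorem exists_lift {G : Type*} [Group G] [Fintype G] (hG : (Fintype.card G : ResidueField A) ≠ 0)
    (r : G →* GL (Fin 2) (ResidueField A)) :
    ∃ ρ : G →* GL (Fin 2) A, ∀ g, Matrix.GeneralLinearGroup.map (residue A) (ρ g) = r g := by
  classical
  set red := residue A with hred
  let rr : G → Matrix (Fin 2) (Fin 2) (ResidueField A) := fun g => (r g).val
  have hrr : ∀ g h, rr (g * h) = rr g * rr h := fun g h => by simp [rr]
  have hrr1 : rr 1 = 1 := by simp [rr]
  -- the projection from the sum of two regular representations, and an equivariant section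
  let pi : Matrix (Fin 2) (G × Fin 2) (ResidueField A) := fun a t => rr t.1 a t.2
  let se : Matrix (G × Fin 2) (Fin 2) (ResidueField A) :=
    fun t b => (Fintype.card G : ResidueField A)⁻¹ * rr t.1⁻¹ t.2 b
  have hpise : pi * se = 1 := by
    ext a b
    have hh : ∀ h : G, ∑ i, rr h a i * rr h⁻¹ i b = (1 : Matrix _ _ (ResidueField A)) a b :=
      fun h => by rw [← Matrix.mul_apply, ← hrr, mul_inv_cancel, hrr1]
    rw [Matrix.mul_apply, Fintype.sum_prod_type]
    simp only [pi, se]
    calc ∑ x : G, ∑ i : Fin 2, rr x a i * ((Fintype.card G : ResidueField A)⁻¹ * rr x⁻¹ i b)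
        = ∑ x : G, (Fintype.card G : ResidueField A)⁻¹ * ∑ i : Fin 2, rr x a i * rr x⁻¹ i b := by
          refine Finset.sum_congr rfl fun x _ => ?_
          rw [Finset.mul_sum]
          exact Finset.sum_congr rfl fun i _ => by ring
      _ = (1 : Matrix (Fin 2) (Fin 2) (ResidueField A)) a b := by
          simp only [hh, Finset.sum_const, Finset.card_univ, nsmul_eq_mul, ← mul_assoc,
            mul_inv_cancel₀ hG, one_mul]
  choose lift hlift using (residue_surjective (R := A))
  let K : G → Matrix (Fin 2) (Fin 2) A :=
    fun g => Matrix.of fun i i' => lift ((Fintype.card G : ResidueField A)⁻¹ * rr g i i')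
  let E : Matrix (G × Fin 2) (G × Fin 2) A := fun t t' => K (t.1⁻¹ * t'.1) t.2 t'.2
  let T : Matrix (Fin 2) (G × Fin 2) A := pi.map lift
  let S : Matrix (G × Fin 2) (Fin 2) A := se.map lift
  let perm : G → Matrix (G × Fin 2) (G × Fin 2) A :=
    fun g t t' => if t = (g * t'.1, t'.2) then 1 else 0
  have hpermE : ∀ g, Commute (perm g) E := by
    intro g
    have h1 : ∀ t x : G × Fin 2, (t = (g * x.1, x.2)) ↔ x = (g⁻¹ * t.1, t.2) := fun t x => by
      constructor <;> rintro rfl <;> simp
    ext t t'
    simp only [Matrix.mul_apply, perm, ite_mul, one_mul, zero_mul, mul_ite, mul_one, mul_zero]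
    simp only [h1 t]
    simp [E, mul_assoc]
  have hperm1 : perm 1 = 1 := by
    ext t t'
    simp [perm, Matrix.one_apply]
  have hpermmul : ∀ g h, perm (g * h) = perm g * perm h := by
    intro g h
    ext t t'
    simp only [Matrix.mul_apply, perm, mul_ite, mul_one, mul_zero]
    simp [mul_assoc]
  have he : red.mapMatrix E = se * pi := by
    ext t t'
    simp only [RingHom.mapMatrix_apply, Matrix.map_apply, E, K, Matrix.of_apply, hlift, hred]
    rw [Matrix.mul_apply, hrr]
    simp only [Matrix.mul_apply, se, pi, Finset.mul_sum, mul_assoc]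
  have hidem : IsIdempotentElem (red.mapMatrix E) := by
    rw [he, IsIdempotentElem, Matrix.mul_assoc, ← Matrix.mul_assoc pi, hpise, Matrix.one_mul]
  obtain ⟨P, hP, hPE, hPcomm⟩ := exists_idempotent_lift A E hidem
  have hPred : P.map red = se * pi := by
    rw [← he]; exact hPE
  have hTred : T.map red = pi := by ext; simp [T, hlift, hred]
  have hSred : S.map red = se := by ext; simp [S, hlift, hred]
  set U := T * P * S with hU
  have hUred : U.map red = 1 := by
    rw [hU, Matrix.map_mul, Matrix.map_mul, hTred, hPred, hSred, ← Matrix.mul_assoc pi, hpise,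
      Matrix.one_mul, hpise]
  have hUunit : IsUnit U.det := by
    refine (residue_ne_zero_iff_isUnit _).mp ?_
    rw [← hred, RingHom.map_det, RingHom.mapMatrix_apply, hUred, det_one]
    exact one_ne_zero
  set S' := P * S * U⁻¹ with hS'
  have hTS' : T * S' = 1 := by
    rw [hS', ← Matrix.mul_assoc, ← Matrix.mul_assoc, ← hU, Matrix.mul_nonsing_inv _ hUunit]
  have hPS' : P * S' = S' := by rw [hS', ← Matrix.mul_assoc, ← Matrix.mul_assoc, hP.eq]
  have hS'red : S'.map red = se := by
    have hUi : (U⁻¹).map red = 1 := by
      have h := congrArg (fun M => M.map red) (Matrix.nonsing_inv_mul U hUunit)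
      simp only [Matrix.map_mul, hUred, Matrix.mul_one] at h
      rw [h]; simp
    rw [hS', Matrix.map_mul, Matrix.map_mul, hPred, hSred, hUi, Matrix.mul_one, Matrix.mul_assoc,
      hpise, Matrix.mul_one]
  -- `S' T P = P`, the difference being an idempotent which reduces to zero
  set Q := P - S' * T * P with hQ
  have hQQ : Q * Q = Q := by
    have e1 : P * (S' * T * P) = S' * T * P := by
      rw [Matrix.mul_assoc S', ← Matrix.mul_assoc P, hPS']
    have e2 : S' * T * P * (S' * T * P) = S' * T * P := by
      rw [Matrix.mul_assoc (S' * T), e1]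
      simp only [← Matrix.mul_assoc]
      rw [Matrix.mul_assoc S' T S', hTS', Matrix.mul_one]
    rw [hQ, Matrix.sub_mul, Matrix.mul_sub, Matrix.mul_sub, hP.eq, e1, e2,
      Matrix.mul_assoc (S' * T), hP.eq]
    abel
  have hQ0 : Q = 0 := by
    have hQred : Q.map red = 0 := by
      rw [hQ, Matrix.map_sub _ (map_sub red), Matrix.map_mul, Matrix.map_mul, hPred, hS'red, hTred,
        Matrix.mul_assoc se pi, ← Matrix.mul_assoc pi se, hpise, Matrix.one_mul, sub_self]
    have hunit : IsUnit (1 - Q).det := by
      refine (residue_ne_zero_iff_isUnit _).mp ?_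
      rw [← hred, RingHom.map_det, map_sub, map_one, RingHom.mapMatrix_apply, hQred, sub_zero,
        det_one]
      exact one_ne_zero
    have h : Q * (1 - Q) = 0 := by rw [Matrix.mul_sub, Matrix.mul_one, hQQ, sub_self]
    calc Q = Q * ((1 - Q) * (1 - Q)⁻¹) := by rw [Matrix.mul_nonsing_inv _ hunit, Matrix.mul_one]
      _ = 0 := by rw [← Matrix.mul_assoc, h, Matrix.zero_mul]
  let M : G →* Matrix (Fin 2) (Fin 2) A :=
    { toFun := fun g => T * perm g * S'
      map_one' := by rw [hperm1, Matrix.mul_one, hTS']
      map_mul' := fun g h => by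
        have hc : perm h * S' = S' * T * (perm h * S') := by
          have h1 : perm h * S' = P * (perm h * S') := by
            calc perm h * S' = perm h * (P * S') := by rw [hPS']
            _ = (perm h * P) * S' := by rw [Matrix.mul_assoc]
            _ = (P * perm h) * S' := by rw [(hPcomm _ (hpermE h)).eq]
            _ = P * (perm h * S') := by rw [Matrix.mul_assoc]
          calc perm h * S' = P * (perm h * S') := h1
            _ = S' * T * P * (perm h * S') := by rw [← sub_eq_zero.mp hQ0]
            _ = S' * T * (perm h * S') := by rw [Matrix.mul_assoc (S' * T), ← h1]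
        rw [hpermmul, ← Matrix.mul_assoc T, Matrix.mul_assoc (T * perm g) (perm h) S', hc]
        simp only [Matrix.mul_assoc] }
  refine ⟨M.toHomUnits, fun g => Units.ext ?_⟩
  show (T * perm g * S').map red = rr g
  have hpermred : pi * (perm g).map red = rr g * pi := by
    ext a t
    simp only [Matrix.mul_apply, Matrix.map_apply, perm]
    simp only [apply_ite red, map_one, map_zero, mul_ite, mul_one, mul_zero, Finset.sum_ite_eq',
      Finset.mem_univ, if_true]
    simp [pi, hrr, Matrix.mul_apply]
  rw [Matrix.map_mul, Matrix.map_mul, hTred, hS'red, hpermred, Matrix.mul_assoc, hpise,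
    Matrix.mul_one]

end Fermat.Agent.DeligneSerre
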