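import Fermat.Agent.DeligneSerre.GroupFamily
import Fermat.Agent.DeligneSerre.GroupCount
import Fermat.Agent.DeligneSerre.GroupKummer
import Mathlib.NumberTheory.NumberField.InfinitePlace.Embeddings

/-!
# Almost all Frobenius polynomials have roots of unity as roots
-/

set_option autoImplicit false

namespace Fermat.Agent.DeligneSerre

open Matrix IsLocalRing

local notation "ℚbar" => AlgebraicClosure ℚ
local notation "Γℚ" => AlgebraicClosure ℚ ≃ₐ[ℚ] AlgebraicClosure ℚ

/-- `X ^ 2 - a X + b` has roots of unity as roots. -/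
def IsCyclotomicPair (a b : ℚbar) : Prop :=
  ∃ u v : ℚbar, ∃ M : ℕ, 0 < M ∧ u ^ M = 1 ∧ v ^ M = 1 ∧ a = u + v ∧ b = u * v

/-- The scalar elements of a group of matrices. -/
def scalarSubgroup {G : Type*} [Group G] {k : Type*} [Field k] (r : G →* GL (Fin 2) k) :
    Subgroup G where
  carrier := {g | ∃ c : k, (r g).val = c • (1 : Matrix (Fin 2) (Fin 2) k)}
  one_mem' := ⟨1, by simp⟩
  mul_mem' := by
    rintro x y ⟨c, hc⟩ ⟨c', hc'⟩
    exact ⟨c * c', by rw [map_mul, Units.val_mul, hc, hc', Matrix.smul_mul, Matrix.one_mul, smul_smul]⟩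
  inv_mem' := by
    rintro x ⟨c, hc⟩
    refine ⟨c⁻¹, ?_⟩
    have h : (r x⁻¹).val * (r x).val = 1 := by
      rw [← Units.val_mul, ← map_mul, inv_mul_cancel, map_one, Units.val_one]
    rw [hc, Matrix.mul_smul, Matrix.mul_one] at h
    rcases eq_or_ne c 0 with rfl | hc0
    · simp at h
    · conv_rhs => rw [← h, smul_smul, inv_mul_cancel₀ hc0, one_smul]

open scoped Classical in
/-- The number of elements of a given order in a group with few traces: the estimate at the
heart of the argument. -/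
theorem card_filter_order_le {G : Type} [Group G] [Fintype G] {k : Type*} [Field k] [IsAlgClosed k]
    (r : G →* GL (Fin 2) k) (hr : Function.Injective r) {d : ℕ}
    (hdet : ∀ g, (r g).val.det ^ d = 1) {n m : ℕ} (hn : 0 < n) (hnk : (n : k) ≠ 0) (hmn : m ∣ n)
    (hmd : Nat.Coprime m d) :
    m * (Finset.univ.filter fun g : G => orderOf g = n ∧ g ∉ scalarSubgroup r).card
      ≤ 2 * Nat.totient m * Fintype.card G := by
  have hm : 0 < m := Nat.pos_of_dvd_of_pos hmn hn
  have hval : ∀ x y : G, Commute (r x).val (r y).val → Commute x y := fun x y h =>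
    hr (by rw [map_mul, map_mul]; exact Units.ext h)
  have hcomval : ∀ x y : G, Commute x y → Commute (r x).val (r y).val := fun x y h => by
    have := congrArg (fun z => (r z).val) h.eq
    simpa [commute_iff_eq] using this
  refine card_orderOf_eq_le (scalarSubgroup r) ?_ ?_ n m hn hmn ?_
  · rintro z ⟨c, hc⟩ x
    exact hval _ _ (by rw [hc]; exact (Commute.one_left _).smul_left c)
  · intro x y w hx hy hw
    exact hval _ _ (commute_of_commute_nonscalar (fun c h => hx ⟨c, h⟩) (hcomval _ _ hy)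
      (hcomval _ _ hw))
  · intro g hg hgn
    obtain ⟨u, v, ht, hd⟩ := exists_charRoots (r g).val
    have hgpow : (r g).val ^ n = 1 := by
      rw [← Units.val_pow_eq_pow_val, ← map_pow, ← hgn, pow_orderOf_eq_one, map_one, Units.val_one]
    have huv : u ≠ v := by
      rintro rfl
      obtain ⟨w, hw0, hw⟩ := exists_eigenvector _ ht hd
      have hpw : ∀ i : ℕ, ((r g).val ^ i) *ᵥ w = u ^ i • w := by
        intro i
        induction i with
        | zero => simp
        | succ i ih => rw [pow_succ', ← mulVec_mulVec, ih, mulVec_smul, hw, smul_smul, pow_succ]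
      have hun : u ^ n = 1 := smul_left_injective k hw0 (by
        simp only; rw [← hpw, hgpow, one_mulVec, one_smul])
      exact hg ⟨u, eq_smul_one_of_sq_root hnk hun ht hd hgpow⟩
    obtain ⟨P, hP⟩ := exists_conj_diag _ huv ht hd
    let c : G → Matrix (Fin 2) (Fin 2) k := fun x => (P⁻¹).val * (r x).val * P.val
    have hc1 : c 1 = 1 := by simp [c]
    have hcmul : ∀ x y, c (x * y) = c x * c y := fun x y => by
      simp [c, Matrix.mul_assoc]
    have hcinj : ∀ x y, c x = c y → x = y := fun x y h => hr (Units.ext (by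
      have := congrArg (fun M => P.val * M * (P⁻¹).val) h
      simpa [c, Matrix.mul_assoc] using this))
    have hdiag : ∀ x : G, Commute x g → c x 0 1 = 0 ∧ c x 1 0 = 0 := by
      intro x hx
      have h : c x * diagonal ![u, v] = diagonal ![u, v] * c x := by
        rw [← hP]; show c x * c g = c g * c x
        rw [← hcmul, ← hcmul, hx.eq]
      have h01 := congrFun (congrFun h 0) 1
      have h10 := congrFun (congrFun h 1) 0
      simp [Matrix.mul_diagonal, Matrix.diagonal_mul] at h01 h10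
      exact ⟨(mul_eq_zero.mp (show c x 0 1 * (v - u) = 0 by linear_combination h01)).resolve_right
          (sub_ne_zero.mpr huv.symm),
        (mul_eq_zero.mp (show c x 1 0 * (u - v) = 0 by linear_combination h10)).resolve_right
          (sub_ne_zero.mpr huv)⟩
    set X := Finset.univ.filter fun x : G => Commute x g ∧ x ^ m = 1
    have hentry : ∀ x ∈ X, c x 0 0 ^ m = 1 ∧ c x 0 0 * c x 1 1 = 1 := by
      intro x hx
      obtain ⟨-, hxg, hxm⟩ := Finset.mem_filter.mp hx
      obtain ⟨h01, h10⟩ := hdiag x hxg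
      have hpow : ∀ i : ℕ, c (x ^ i) 0 0 = c x 0 0 ^ i := by
        intro i
        induction i with
        | zero => simp [hc1]
        | succ i ih =>
          rw [pow_succ, hcmul, Matrix.mul_apply, Fin.sum_univ_two, h10, mul_zero, add_zero, ih,
            pow_succ]
      refine ⟨by rw [← hpow, hxm, hc1, one_apply_eq], ?_⟩
      have hdm : (r x).val.det ^ m = 1 := by
        rw [← Matrix.det_pow, ← Units.val_pow_eq_pow_val, ← map_pow, hxm, map_one, Units.val_one,
          det_one]
      have h1 : (r x).val.det = 1 := by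
        simpa [hmd.gcd_eq_one] using (pow_gcd_eq_one (a := (r x).val.det)).mpr ⟨hdm, hdet x⟩
      have h2 : (c x).det = 1 := by rw [Matrix.det_units_conj', h1]
      rw [det_fin_two, h01, h10, mul_zero, sub_zero] at h2
      exact h2
    calc X.card ≤ (Polynomial.nthRootsFinset m (1 : k)).card := by
          refine Finset.card_le_card_of_injOn (fun x => c x 0 0) ?_ ?_
          · intro x hx
            exact (Polynomial.mem_nthRootsFinset hm 1).mpr (hentry x hx).1
          · intro x hx y hy hxy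
            simp only at hxy
            obtain ⟨-, hxg, -⟩ := Finset.mem_filter.mp hx
            obtain ⟨-, hyg, -⟩ := Finset.mem_filter.mp hy
            have e0 := (hentry x hx).2
            have e1 := (hentry y hy).2
            rw [hxy] at e0
            refine hcinj x y ?_
            ext i j
            fin_cases i <;> fin_cases j
            · exact hxy
            · simp [(hdiag x hxg).1, (hdiag y hyg).1]
            · simp [(hdiag x hxg).2, (hdiag y hyg).2]
            · refine mul_left_cancel₀ (left_ne_zero_of_mul_eq_one e1) (e0.trans e1.symm)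
      _ ≤ m := by
          rw [show Polynomial.nthRootsFinset m (1 : k) = (Polynomial.nthRoots m (1 : k)).toFinset
            from by ext; simp [Polynomial.nthRootsFinset]]
          exact (Multiset.toFinset_card_le _).trans (Polynomial.card_nthRoots m 1)

open scoped Classical in
theorem isDivisionFunction_order {G : Type} [Group G] [Fintype G] {k : Type*} [Field k]
    (r : G →* GL (Fin 2) k) (n : ℕ) :
    IsDivisionFunction fun g : G =>
      if orderOf g = n ∧ g ∉ scalarSubgroup r then (1 : ℝ) else 0 := by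
  constructor
  · intro x y
    have hord : orderOf (y * x * y⁻¹) = orderOf x := by
      rw [← MulAut.conj_apply]; exact MulEquiv.orderOf_eq _ x
    have key : ∀ a b : G, a ∈ scalarSubgroup r → b * a * b⁻¹ ∈ scalarSubgroup r := by
      rintro a b ⟨c, hc⟩
      refine ⟨c, ?_⟩
      rw [map_mul, map_mul, map_inv, Units.val_mul, Units.val_mul, hc]
      simp
    have hmem : y * x * y⁻¹ ∈ scalarSubgroup r ↔ x ∈ scalarSubgroup r :=
      ⟨fun h => by simpa [mul_assoc] using key _ y⁻¹ h, key x y⟩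
    simp only [hord, hmem]
  · intro x y h
    have hord : orderOf x = orderOf y := by rw [← Nat.card_zpowers, h, Nat.card_zpowers]
    have hmem : x ∈ scalarSubgroup r ↔ y ∈ scalarSubgroup r := by
      rw [← Subgroup.zpowers_le, h, Subgroup.zpowers_le]
    simp only [hord, hmem]

variable (F : Family)

open scoped Classical in
/-- A pair whose roots are not roots of unity occurs on a set of primes of density zero. -/
theorem upperDensityLE_seed {a₀ b₀ : ℚbar} (ha₀ : IsIntegral ℤ a₀) (hb₀ : b₀ ^ F.d = 1)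
    (hbad : ¬ IsCyclotomicPair a₀ b₀) :
    UpperDensityLE (fun p => if ¬ p ∣ F.N ∧ F.a p = a₀ ∧ F.e p = b₀ then 1 else 0) 0 := by
  obtain ⟨α, hα⟩ := IsAlgClosed.exists_root
    (Polynomial.X ^ 2 - Polynomial.C a₀ * Polynomial.X + Polynomial.C b₀ : Polynomial ℚbar) (by
      rw [Polynomial.degree_eq_natDegree]
      · rw [show (Polynomial.X ^ 2 - Polynomial.C a₀ * Polynomial.X + Polynomial.C b₀ :
          Polynomial ℚbar).natDegree = 2 by compute_degree!]
        norm_num
      · intro h
        have := congrArg (fun q => Polynomial.coeff q 2) h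
        simp [Polynomial.coeff_X, Polynomial.coeff_C] at this)
  replace hα : α ^ 2 - a₀ * α + b₀ = 0 := by simpa using hα
  set β := a₀ - α with hβdef
  have hsum : α + β = a₀ := by rw [hβdef]; ring
  have hprod : α * β = b₀ := by rw [hβdef]; linear_combination -hα
  have hb₀int : IsIntegral ℤ b₀ := IsIntegral.of_pow F.hd (by rw [hb₀]; exact isIntegral_one)
  have hb₀0 : b₀ ≠ 0 := fun h => by simp [h, zero_pow F.hd.ne'] at hb₀
  have hαint : IsIntegral ℤ α := by
    haveI : Algebra.IsIntegral ℤ (integralClosure ℤ ℚbar) := integralClosure.AlgebraIsIntegral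
    refine isIntegral_trans (A := integralClosure ℤ ℚbar) α ⟨Polynomial.X ^ 2 -
      Polynomial.C (⟨a₀, ha₀⟩ : integralClosure ℤ ℚbar) * Polynomial.X +
      Polynomial.C ⟨b₀, hb₀int⟩, by monicity!, ?_⟩
    simp only [Polynomial.eval₂_add, Polynomial.eval₂_sub, Polynomial.eval₂_mul,
      Polynomial.eval₂_X_pow, Polynomial.eval₂_C, Polynomial.eval₂_X]
    exact hα
  have hβint : IsIntegral ℤ β := ha₀.sub hαint
  have hα0 : α ≠ 0 := left_ne_zero_of_mul (hprod.trans_ne hb₀0)
  have hαinv : IsIntegral ℤ α⁻¹ := by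
    rw [show α⁻¹ = β * b₀ ^ (F.d - 1) from inv_eq_of_mul_eq_one_right (by
      rw [← mul_assoc, hprod, ← pow_succ', Nat.sub_add_cancel F.hd, hb₀])]
    exact hβint.mul (hb₀int.pow _)
  have hnt : ∀ n : ℕ, 0 < n → α ^ n ≠ 1 := by
    intro n hn h
    refine hbad ⟨α, β, n * F.d, Nat.mul_pos hn F.hd, by rw [pow_mul, h, one_pow], ?_, hsum.symm,
      hprod.symm⟩
    have := congrArg (· ^ (n * F.d)) hprod
    simp only [mul_pow] at this
    rw [pow_mul α, h, one_pow, one_mul, mul_comm n, pow_mul b₀, hb₀, one_pow] at this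
    rw [mul_comm n]
    exact this
  refine UpperDensityLE.of_le fun δ hδ => ?_
  obtain ⟨m, hm1, hmd, hmodd, hmδ, ℓ, hℓ, hℓS, A, hA, hord⟩ :=
    exists_place_dvd_orderOf α hαint hαinv hα0 hnt (F.d - 1) (δ := δ / 2) (by linarith) F.S₀
  rw [Nat.succ_eq_add_one, Nat.sub_add_cancel F.hd] at hmd
  obtain ⟨R⟩ := F.exists_reduction hℓ hℓS hA
  haveI := isAlgClosed_residueField A
  set u := residue A (intMem A hαint) with hu
  set v := residue A (intMem A hβint) with hv
  have huv_mul : u * v = residue A (intMem A hb₀int) := by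
    rw [hu, hv, ← map_mul]; exact congrArg _ (Subtype.ext hprod)
  have huv_add : u + v = residue A (intMem A ha₀) := by
    rw [hu, hv, ← map_add]; exact congrArg _ (Subtype.ext hsum)
  have hbd : (u * v) ^ F.d = 1 := by
    rw [huv_mul, ← map_pow, show intMem A hb₀int ^ F.d = 1 from Subtype.ext hb₀, map_one]
  have hmu : m ∣ orderOf u := hord _ rfl
  have huv : u ≠ v := by
    intro h
    rw [← h, ← sq, ← pow_mul] at hbd
    have h1 : m ∣ 2 * F.d := hmu.trans (orderOf_dvd_of_pow_eq_one hbd)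
    have h2 : m ∣ F.d := (Nat.Coprime.dvd_of_dvd_mul_left hmodd.coprime_two_right h1)
    exact hm1.ne' (Nat.Coprime.eq_one_of_dvd hmd h2)
  set n := Nat.lcm (orderOf u) (orderOf v) with hn
  have hmn : m ∣ n := hmu.trans (Nat.dvd_lcm_left _ _)
  set S := Finset.univ.filter fun g : R.G => orderOf g = n ∧ g ∉ scalarSubgroup R.r
  have hS : ∀ g : R.G, (R.r g).val.trace = u + v → (R.r g).val.det = u * v → g ∈ S := by
    intro g ht hd
    obtain ⟨P, hP⟩ := exists_conj_diag _ huv ht hd
    refine Finset.mem_filter.mpr ⟨Finset.mem_univ _, ?_, fun ⟨c, hc⟩ => ?_⟩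
    · have hdiag : ∀ i : ℕ, (P⁻¹).val * (R.r (g ^ i)).val * P.val = diagonal ![u ^ i, v ^ i] := by
        intro i
        rw [map_pow, Units.val_pow_eq_pow_val, ← Units.conj_pow', hP, Matrix.diagonal_pow]
        congr 1
        funext j
        fin_cases j <;> rfl
      have key : ∀ i : ℕ, g ^ i = 1 ↔ n ∣ i := by
        intro i
        rw [hn, Nat.lcm_dvd_iff, orderOf_dvd_iff_pow_eq_one, orderOf_dvd_iff_pow_eq_one]
        have h := hdiag i
        constructor
        · intro hg
          rw [hg, map_one, Units.val_one, Matrix.mul_one, Units.inv_mul] at h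
          have e0 := congrFun (congrFun h 0) 0
          have e1 := congrFun (congrFun h 1) 1
          simp at e0 e1
          exact ⟨e0.symm, e1.symm⟩
        · rintro ⟨hu', hv'⟩
          refine R.hr ?_
          rw [map_one]
          refine Units.ext ?_
          have h' := congrArg (fun M => P.val * M * (P⁻¹).val) h
          have hone : diagonal ![u ^ i, v ^ i] = (1 : Matrix (Fin 2) (Fin 2) (ResidueField A)) := by
            rw [hu', hv', ← Matrix.diagonal_one]
            congr 1
            funext j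
            fin_cases j <;> rfl
          simp only [hone, Matrix.mul_one, Units.mul_inv] at h'
          simpa [Matrix.mul_assoc] using h'
      exact Nat.dvd_antisymm (orderOf_dvd_of_pow_eq_one ((key n).mpr dvd_rfl))
        ((key _).mp (pow_orderOf_eq_one g))
    · rw [hc] at hP
      rw [Matrix.mul_smul, Matrix.mul_one, Matrix.smul_mul, Units.inv_mul] at hP
      have e0 := congrFun (congrFun hP 0) 0
      have e1 := congrFun (congrFun hP 1) 1
      simp at e0 e1
      exact huv (e0.symm.trans e1)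
  have hu0 : u ≠ 0 := fun h => by
    rw [h, zero_mul, zero_pow F.hd.ne'] at hbd; exact zero_ne_one hbd
  have hfin : ∀ w : ResidueField A, w ≠ 0 → ∀ g : R.G, ((R.r g).val.trace = u + v ∧
      (R.r g).val.det = u * v) → (w = u ∨ w = v) → w ^ orderOf g = 1 := by
    intro w _ g ⟨ht, hd⟩ hw
    obtain ⟨z, hz0, hz⟩ : ∃ z, z ≠ 0 ∧ (R.r g).val *ᵥ z = w • z := by
      rcases hw with rfl | rfl
      · exact exists_eigenvector _ ht hd
      · exact exists_eigenvector _ (by rw [ht, add_comm]) (by rw [hd, mul_comm])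
    have hpw : ∀ i : ℕ, ((R.r g).val ^ i) *ᵥ z = w ^ i • z := by
      intro i
      induction i with
      | zero => simp
      | succ i ih => rw [pow_succ', ← mulVec_mulVec, ih, mulVec_smul, hz, smul_smul, pow_succ]
    refine smul_left_injective (ResidueField A) hz0 ?_
    simp only
    rw [← hpw, ← Units.val_pow_eq_pow_val, ← map_pow, pow_orderOf_eq_one, map_one, Units.val_one,
      one_mulVec, one_smul]
  -- transfer of densities
  by_cases hSne : S = ∅
  · -- then the pair occurs only at exceptional primes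
    refine ((upperDensityLE_indicator_finset R.exceptions).weaken hδ.le).mono fun p hp => ?_
    by_cases hpS : p ∈ R.exceptions
    · rw [if_pos hpS]; split_ifs <;> norm_num
    · rw [if_neg hpS, if_neg]
      rintro ⟨hpN, hap, hep⟩
      obtain ⟨B, σ, hB, hσ⟩ := Galois.exists_valuationSubring_isFrobeniusAt hp
      have h := hS (R.φ σ)
        ((R.htrace p hp hpN (R.not_dvd hp hpS).2 B hB σ hσ (intMem A ha₀) hap.symm).trans huv_add.symm)
        ((R.hdet p hp hpN (R.not_dvd hp hpS).2 B hB σ hσ (intMem A hb₀int) hep.symm).trans huv_mul.symm)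
      rw [hSne] at h
      exact absurd h (Finset.notMem_empty _)
  obtain ⟨g₀, hg₀⟩ := Finset.nonempty_of_ne_empty hSne
  have hn0 : 0 < n := (Finset.mem_filter.mp hg₀).2.1 ▸ orderOf_pos g₀
  have hord_coprime : ∀ w : ResidueField A, 0 < orderOf w → ¬ ℓ ∣ orderOf w := by
    intro w hw hdvd
    obtain ⟨q, hq⟩ := hdvd
    haveI : CharP (ResidueField A) ℓ := by
      have h0 : (ℓ : ResidueField A) = 0 := by
        rw [← map_natCast (residue A), residue_eq_zero_iff, ← ValuationSubring.coe_mem_nonunits_iff]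
        exact hA
      exact (CharP.charP_iff_prime_eq_zero hℓ).mpr h0
    haveI := Fact.mk hℓ
    have h1 : (w ^ q) ^ ℓ = 1 ^ ℓ := by rw [one_pow, ← pow_mul, mul_comm, ← hq, pow_orderOf_eq_one]
    have h2 : orderOf w ∣ q :=
      orderOf_dvd_of_pow_eq_one (frobenius_inj (ResidueField A) ℓ h1)
    rw [hq] at h2
    have hq0 : 0 < q := by
      rcases Nat.eq_zero_or_pos q with h | h
      · rw [h, mul_zero] at hq; omega
      · exact h
    have := Nat.le_of_dvd hq0 h2
    have := hℓ.two_le
    nlinarith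
  have hnk : (n : ResidueField A) ≠ 0 := by
    refine natCast_residueField_ne_zero hℓ hA fun h => ?_
    have hou : 0 < orderOf u := Nat.pos_of_ne_zero fun h0 => by simp [hn, h0] at hn0
    have hov : 0 < orderOf v := Nat.pos_of_ne_zero fun h0 => by simp [hn, h0] at hn0
    rcases hℓ.dvd_mul.mp (h.trans (Nat.lcm_dvd_mul _ _)) with h' | h'
    · exact hord_coprime u hou h'
    · exact hord_coprime v hov h'
  have hcount := card_filter_order_le R.r R.hr R.det_pow hn0 hnk hmn hmd
  have hdiv := isDivisionFunction_order R.r n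
  have hmain := upperDensityLE_of_frobenius R.φ R.hφ R.hlevel _
    (fun g => by split_ifs <;> norm_num) hdiv
    (fun p => if ¬ p ∣ F.N ∧ F.a p = a₀ ∧ F.e p = b₀ then (1 : ℝ) else 0) (C := 1)
    (fun p => by split_ifs <;> norm_num) R.exceptions (by
      intro p hp hpS B hB σ hσ
      by_cases h : ¬ p ∣ F.N ∧ F.a p = a₀ ∧ F.e p = b₀
      · obtain ⟨hpN, hap, hep⟩ := h
        have hmem := hS (R.φ σ)
          ((R.htrace p hp hpN (R.not_dvd hp hpS).2 B hB σ hσ (intMem A ha₀) hap.symm).trans huv_add.symm)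
          ((R.hdet p hp hpN (R.not_dvd hp hpS).2 B hB σ hσ (intMem A hb₀int) hep.symm).trans huv_mul.symm)
        rw [if_pos ⟨hpN, hap, hep⟩, if_pos (Finset.mem_filter.mp hmem).2]
      · rw [if_neg h]; split_ifs <;> norm_num)
  refine hmain.weaken ?_
  rw [Finset.sum_boole, div_le_iff₀ (by exact_mod_cast Fintype.card_pos)]
  have hm0 : (0 : ℝ) < m := by exact_mod_cast (zero_lt_one.trans hm1)
  have h1 : (m : ℝ) * S.card ≤ 2 * Nat.totient m * Fintype.card R.G := by exact_mod_cast hcount
  have h2 : (m : ℝ) * S.card ≤ (m : ℝ) * (δ * Fintype.card R.G) := by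
    calc (m : ℝ) * S.card ≤ 2 * Nat.totient m * Fintype.card R.G := h1
      _ ≤ 2 * (δ / 2 * m) * Fintype.card R.G := by gcongr
      _ = _ := by ring
  exact le_of_mul_le_mul_left h2 hm0

/-- The algebraic integers of a number field `L ⊆ ℚ̄` all whose conjugates are bounded by `K` form a
finite set. -/
theorem finite_bounded_conjugates (L : IntermediateField ℚ ℚbar) [FiniteDimensional ℚ L] (K : ℝ) :
    ∃ Y : Finset ℚbar, ∀ x : ℚbar, x ∈ L → IsIntegral ℤ x →
      (∀ σ : ℚbar →+* ℂ, ‖σ x‖ ≤ K) → x ∈ Y := by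
  classical
  haveI : NumberField L := {}
  refine ⟨((NumberField.Embeddings.finite_of_norm_le L ℂ K).image Subtype.val).toFinset,
    fun x hxL hx hb => ?_⟩
  rw [Set.Finite.mem_toFinset]
  refine ⟨⟨x, hxL⟩, ⟨(isIntegral_algHom_iff ((IntermediateField.val L).restrictScalars ℤ)
    Subtype.val_injective).mp hx, fun φ => ?_⟩, rfl⟩
  letI : Algebra L ℂ := φ.toAlgebra
  haveI : Algebra.IsAlgebraic L ℚbar := Algebra.IsAlgebraic.tower_top (K := ℚ) L
  let σ : ℚbar →ₐ[L] ℂ := IsAlgClosed.lift
  have h := hb σ.toRingHom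
  rwa [show σ.toRingHom x = φ ⟨x, hxL⟩ from σ.commutes ⟨x, hxL⟩] at h

open scoped Classical in
/-- The finite set of cyclotomic pairs occurring, whose roots are roots of unity of a common
order `B`; the other primes form a set of density zero. -/
theorem exists_good_exponent :
    ∃ B : ℕ, 0 < B ∧ ∃ c : ℕ → ℝ, (∀ p, 0 ≤ c p) ∧ UpperDensityLE c 0 ∧
      ∀ p : ℕ, p.Prime → ¬ p ∣ F.N → c p < 1 →
        ∃ u v : ℚbar, u ^ B = 1 ∧ v ^ B = 1 ∧ F.a p = u + v ∧ F.e p = u * v := by
  obtain ⟨L, hL, haL⟩ := F.hfin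
  let μ := (Polynomial.nthRootsFinset F.d (1 : ℚbar))
  have hμ : ∀ p : ℕ, p.Prime → ¬ p ∣ F.N → F.e p ∈ μ := fun p hp hpN =>
    (Polynomial.mem_nthRootsFinset F.hd 1).mpr (F.he p hp hpN)
  -- cyclotomic pairs occurring in `L`
  obtain ⟨Y₂, hY₂⟩ := finite_bounded_conjugates L 2
  have hexp : ∀ t : ℚbar × ℚbar, ∃ M : ℕ, 0 < M ∧ (IsCyclotomicPair t.1 t.2 →
      ∃ u v : ℚbar, u ^ M = 1 ∧ v ^ M = 1 ∧ t.1 = u + v ∧ t.2 = u * v) := by
    intro t
    by_cases h : IsCyclotomicPair t.1 t.2
    · obtain ⟨u, v, M, hM, h1, h2, h3, h4⟩ := h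
      exact ⟨M, hM, fun _ => ⟨u, v, h1, h2, h3, h4⟩⟩
    · exact ⟨1, one_pos, fun h' => absurd h' h⟩
  choose M hM0 hM using hexp
  set B := ∏ t ∈ Y₂ ×ˢ μ, M t with hB
  refine ⟨B, Finset.prod_pos fun t _ => hM0 t, fun p => if ¬ p ∣ F.N ∧ p.Prime ∧
    ¬ IsCyclotomicPair (F.a p) (F.e p) then 1 else 0, fun p => by dsimp only; split_ifs <;> norm_num, ?_, ?_⟩
  · -- density zero
    haveI : NumberField L := {}
    refine UpperDensityLE.of_le fun δ hδ => ?_
    set r := Fintype.card (L →+* ℂ) with hr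
    obtain ⟨K, hK0, hKδ⟩ : ∃ K : ℝ, 0 < K ∧ (r : ℝ) / K ^ 2 ≤ δ := by
      refine ⟨Real.sqrt ((r + 1) / δ), Real.sqrt_pos.mpr (div_pos (by positivity) hδ), ?_⟩
      rw [Real.sq_sqrt (div_nonneg (by positivity) hδ.le), div_div_eq_mul_div,
        div_le_iff₀ (by positivity)]
      nlinarith
    obtain ⟨Y, hY⟩ := finite_bounded_conjugates L K
    have hext : ∀ φ : L →+* ℂ, ∃ σ : ℚbar →+* ℂ, ∀ x : L, σ x = φ x := by
      intro φ
      letI : Algebra L ℂ := φ.toAlgebra
      haveI : Algebra.IsAlgebraic L ℚbar := Algebra.IsAlgebraic.tower_top (K := ℚ) L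
      let σ : ℚbar →ₐ[L] ℂ := IsAlgClosed.lift
      exact ⟨σ.toRingHom, σ.commutes⟩
    choose σ hσ using hext
    set bad := (Y ×ˢ μ).filter fun t => IsIntegral ℤ t.1 ∧ ¬ IsCyclotomicPair t.1 t.2
    have h1 : UpperDensityLE (fun p => ∑ t ∈ bad,
        if ¬ p ∣ F.N ∧ F.a p = t.1 ∧ F.e p = t.2 then (1 : ℝ) else 0) (∑ t ∈ bad, (0 : ℝ)) :=
      UpperDensityLE.finsetSum bad fun t ht => by
        obtain ⟨htm, hti, htc⟩ := Finset.mem_filter.mp ht
        exact upperDensityLE_seed F hti
          ((Polynomial.mem_nthRootsFinset F.hd 1).mp (Finset.mem_product.mp htm).2) htc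
    have h2 : UpperDensityLE (fun p => (K ^ 2)⁻¹ * ∑ φ : L →+* ℂ,
        if p ∣ F.N then 0 else ‖σ φ (F.a p)‖ ^ 2) ((K ^ 2)⁻¹ * ∑ _φ : L →+* ℂ, (1 : ℝ)) :=
      (UpperDensityLE.finsetSum Finset.univ fun φ _ => F.hR (σ φ)).const_mul (by positivity)
    refine ((h1.add h2).weaken ?_).mono fun p hp => ?_
    · simp only [Finset.sum_const_zero, zero_add, Finset.sum_const, Finset.card_univ,
        nsmul_eq_mul, mul_one]
      rw [inv_mul_eq_div]
      exact hKδ
    · have hn1 : (0 : ℝ) ≤ ∑ t ∈ bad, if ¬ p ∣ F.N ∧ F.a p = t.1 ∧ F.e p = t.2 then 1 else 0 :=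
        Finset.sum_nonneg fun t _ => by split_ifs <;> norm_num
      have hn2 : (0 : ℝ) ≤ (K ^ 2)⁻¹ * ∑ φ : L →+* ℂ,
          if p ∣ F.N then 0 else ‖σ φ (F.a p)‖ ^ 2 :=
        mul_nonneg (by positivity) (Finset.sum_nonneg fun φ _ => by split_ifs <;> positivity)
      by_cases h : ¬ p ∣ F.N ∧ p.Prime ∧ ¬ IsCyclotomicPair (F.a p) (F.e p)
      swap
      · rw [if_neg h]; linarith
      rw [if_pos h]
      obtain ⟨hpN, -, hcyc⟩ := h
      by_cases hmem : F.a p ∈ Y
      · have : (1 : ℝ) ≤ ∑ t ∈ bad, if ¬ p ∣ F.N ∧ F.a p = t.1 ∧ F.e p = t.2 then 1 else 0 := by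
          refine le_trans ?_ (Finset.single_le_sum
            (fun t _ => by split_ifs <;> norm_num) (a := (F.a p, F.e p)) ?_)
          · rw [if_pos ⟨hpN, rfl, rfl⟩]
          · exact Finset.mem_filter.mpr ⟨Finset.mk_mem_product hmem (hμ p hp hpN),
              F.ha p hp hpN, hcyc⟩
        linarith
      · obtain ⟨τ, hτ⟩ : ∃ τ : ℚbar →+* ℂ, K < ‖τ (F.a p)‖ := by
          by_contra hcon
          push Not at hcon
          exact hmem (hY _ (haL p hp hpN) (F.ha p hp hpN) hcon)
        let φ₀ : L →+* ℂ := τ.comp (algebraMap L ℚbar)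
        have hval : σ φ₀ (F.a p) = τ (F.a p) := hσ φ₀ ⟨F.a p, haL p hp hpN⟩
        have : (1 : ℝ) ≤ (K ^ 2)⁻¹ * ∑ φ : L →+* ℂ,
            if p ∣ F.N then 0 else ‖σ φ (F.a p)‖ ^ 2 := by
          rw [inv_mul_eq_div, one_le_div (by positivity)]
          refine le_trans ?_ (Finset.single_le_sum (fun φ _ => by split_ifs <;> positivity)
            (Finset.mem_univ φ₀))
          rw [if_neg hpN, hval]
          nlinarith
        linarith
  · intro p hp hpN hc
    have hcyc : IsCyclotomicPair (F.a p) (F.e p) := by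
      by_contra h
      simp only at hc
      rw [if_pos ⟨hpN, hp, h⟩] at hc
      exact lt_irrefl _ hc
    have hmem : (F.a p, F.e p) ∈ Y₂ ×ˢ μ := by
      refine Finset.mk_mem_product (hY₂ _ (haL p hp hpN) (F.ha p hp hpN) fun σ => ?_) (hμ p hp hpN)
      obtain ⟨u, v, M, hM, hu, hv, hsum, -⟩ := hcyc
      have hnorm : ∀ z : ℚbar, z ^ M = 1 → ‖σ z‖ = 1 := fun z hz =>
        Complex.norm_eq_one_of_pow_eq_one (by rw [← map_pow, hz, map_one]) hM.ne'
      rw [hsum, map_add]
      exact (norm_add_le _ _).trans (by rw [hnorm u hu, hnorm v hv]; norm_num)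
    obtain ⟨u, v, hu, hv, h1, h2⟩ := hM (F.a p, F.e p) hcyc
    obtain ⟨q, hq⟩ : M (F.a p, F.e p) ∣ B := Finset.dvd_prod_of_mem M hmem
    exact ⟨u, v, by rw [hq, pow_mul, hu, one_pow], by rw [hq, pow_mul, hv, one_pow], h1, h2⟩

open scoped Classical in
/-- The images of the reductions have bounded order. -/
theorem exists_card_bound :
    ∃ A₀ : ℕ, 0 < A₀ ∧ ∀ ℓ : ℕ, ℓ.Prime → 2 < ℓ → ℓ ∉ F.S₀ → ∀ A : ValuationSubring ℚbar,
      A.LiesOverPrime ℓ → ∀ R : F.Reduction ℓ A, Fintype.card R.G ≤ A₀ := by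
  obtain ⟨B, hB, c, hc0, hc, hgood⟩ := exists_good_exponent F
  refine ⟨B ^ 8, pow_pos hB 8, fun ℓ hℓ hℓ2 hS A hA R => ?_⟩
  haveI := isAlgClosed_residueField A
  have h2 : (2 : ResidueField A) ≠ 0 := by
    exact_mod_cast natCast_residueField_ne_zero hℓ hA (n := 2)
      (fun h => by have := Nat.le_of_dvd two_pos h; omega)
  let r' : R.G →* Matrix (Fin 2) (Fin 2) (ResidueField A) := (Units.coeHom _).comp R.r
  have hr' : Function.Injective r' := fun x y h => R.hr (Units.ext h)
  have hP : ∀ g : R.G, (r' g ^ B - 1) * (r' g ^ B - 1) = 0 := by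
    intro g
    refine forall_of_upperDensity_zero R.φ R.hφ R.hlevel
      (fun g => (r' g ^ B - 1) * (r' g ^ B - 1) = 0) ?_ ?_ c hc0 hc R.exceptions ?_ g
    · intro x y h
      have hconj : ∀ M : Matrix (Fin 2) (Fin 2) (ResidueField A),
          r' y * M * r' y⁻¹ - 1 = r' y * (M - 1) * r' y⁻¹ := fun M => by
        rw [mul_sub, sub_mul, mul_one, ← map_mul r', mul_inv_cancel, map_one]
      rw [← map_pow, conj_pow, map_mul, map_mul, map_pow, hconj]
      calc r' y * (r' x ^ B - 1) * r' y⁻¹ * (r' y * (r' x ^ B - 1) * r' y⁻¹)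
          = r' y * (r' x ^ B - 1) * (r' y⁻¹ * r' y) * (r' x ^ B - 1) * r' y⁻¹ := by
            simp only [mul_assoc]
        _ = r' y * ((r' x ^ B - 1) * (r' x ^ B - 1)) * r' y⁻¹ := by
            rw [← map_mul r', inv_mul_cancel, map_one, mul_one]; simp only [mul_assoc]
        _ = 0 := by rw [h, mul_zero, zero_mul]
    · intro x i h
      rw [map_pow, ← pow_mul, mul_comm, pow_mul]
      have hdvd : ∃ q, (r' x ^ B) ^ i - 1 = (r' x ^ B - 1) * q ∧ Commute (r' x ^ B - 1) q := by
        refine ⟨∑ j ∈ Finset.range i, (r' x ^ B) ^ j, (mul_geom_sum _ _).symm, ?_⟩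
        exact Commute.sum_right _ _ _ fun j _ =>
          (((Commute.refl _).pow_right j).sub_left (Commute.one_left _))
      obtain ⟨q, hq, hqc⟩ := hdvd
      rw [hq, mul_assoc, ← mul_assoc q, ← hqc.eq, mul_assoc, ← mul_assoc, h, zero_mul]
    · intro p hp hpS hcp B' hB' σ hσ
      obtain ⟨hpN, hpℓ⟩ := R.not_dvd hp hpS
      obtain ⟨u, v, hu, hv, ha, he⟩ := hgood p hp hpN hcp
      have hui : IsIntegral ℤ u := IsIntegral.of_pow hB (by rw [hu]; exact isIntegral_one)
      have hvi : IsIntegral ℤ v := IsIntegral.of_pow hB (by rw [hv]; exact isIntegral_one)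
      refine pow_sub_one_sq_eq_zero _ (u := residue A (intMem A hui))
        (v := residue A (intMem A hvi)) ?_ ?_ ?_ ?_
      · rw [← map_pow, show intMem A hui ^ B = 1 from Subtype.ext hu, map_one]
      · rw [← map_pow, show intMem A hvi ^ B = 1 from Subtype.ext hv, map_one]
      · rw [← map_add]
        exact R.htrace p hp hpN hpℓ B' hB' σ hσ _ ha.symm
      · rw [← map_mul]
        exact R.hdet p hp hpN hpℓ B' hB' σ hσ _ he.symm
  refine card_le_of_roots r' hr' h2 hB (fun g => ?_) R.hss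
  obtain ⟨u, v, ht, hd⟩ := exists_charRoots (r' g)
  have key : ∀ w w' : ResidueField A, (r' g).trace = w + w' → (r' g).det = w * w' → w ^ B = 1 := by
    intro w w' ht hd
    obtain ⟨z, hz0, hz⟩ := exists_eigenvector _ ht hd
    have hpw : ∀ i : ℕ, (r' g ^ i) *ᵥ z = w ^ i • z := by
      intro i
      induction i with
      | zero => simp
      | succ i ih => rw [pow_succ', ← mulVec_mulVec, ih, mulVec_smul, hz, smul_smul, pow_succ]
    have h0 := congrArg (· *ᵥ z) (hP g)
    have h1 : (r' g ^ B - 1) *ᵥ z = (w ^ B - 1) • z := by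
      rw [sub_mulVec, hpw, one_mulVec, sub_smul, one_smul]
    simp only [← mulVec_mulVec, h1, mulVec_smul, smul_smul, zero_mulVec] at h0
    exact sub_eq_zero.mp (mul_self_eq_zero.mp ((smul_eq_zero.mp h0).resolve_right hz0))
  exact ⟨u, v, key u v ht hd, key v u (by rw [ht, add_comm]) (by rw [hd, mul_comm]), ht, hd⟩

end Fermat.Agent.DeligneSerre
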