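import Fermat.Prelude.Def_GaloisRep_Residual
import Fermat.Agent.DeligneSerre.GroupSeeds
import Fermat.Agent.DeligneSerre.GroupLift
import Fermat.Prelude.Def_Deformations_MatrixRepresentation
import Mathlib.NumberTheory.NumberField.Basic
import Mathlib.RepresentationTheory.Irreducible
import Mathlib.RingTheory.Polynomial.Cyclotomic.Roots
import Mathlib.Analysis.SpecialFunctions.Log.Basic
import Mathlib.Analysis.SpecialFunctions.Pow.Real

/-!
# Deligne–Serre: from mod `ℓ` representations to a complex representation of finite image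

The input is
* algebraic numbers `a p`, `e p` (`p` a prime not dividing `N`) in a number field, with `e p` a
  `d`-th root of unity,
* Rankin's bound for every conjugate of the family `a`,
* for all but finitely many primes `ℓ` and all places above `ℓ`, a representation modulo `ℓ`
  unramified outside `N ℓ` with the reduction of `X ^ 2 - a p X + e p` as Frobenius polynomials.

The output is the complex representation attached to the family.
-/

set_option autoImplicit false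

namespace Fermat.Agent.DeligneSerre

local notation "ℚbar" => AlgebraicClosure ℚ
local notation "Γℚ" => AlgebraicClosure ℚ ≃ₐ[ℚ] AlgebraicClosure ℚ

/-- Rankin's bound for a family indexed by the primes not dividing `N`, in finite-sum form. -/
def RankinBound (N : ℕ) (c : ℕ → ℝ) : Prop :=
  ∃ C : ℝ, ∀ s : ℝ, 1 < s → s ≤ 2 → ∀ T : Finset ℕ, (∀ p ∈ T, p.Prime ∧ ¬ p ∣ N) →
    ∑ p ∈ T, c p * (p : ℝ) ^ (-s) ≤ Real.log (1 / (s - 1)) + C

/-- A two-dimensional mod `ℓ` representation (values in the residue field of the place `A`) with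
Frobenius polynomials the reductions of `X ^ 2 - a p X + e p` for `p` prime to `N ℓ`. -/
def HasReductionAt (N : ℕ) (a e : ℕ → ℚbar) (ℓ : ℕ) (A : ValuationSubring ℚbar) : Prop :=
  ∃ ρ : Γℚ →* GL (Fin 2) (IsLocalRing.ResidueField A), GaloisFactorsThroughFiniteLevel ρ ∧
    ∀ p : ℕ, p.Prime → ¬ p ∣ N → p ≠ ℓ →
      ∀ B : ValuationSubring ℚbar, B.LiesOverPrime p →
        (∀ σ ∈ B.inertiaSubgroupIn ℚ, ρ σ = 1) ∧
        ∀ σ : Γℚ, B.IsFrobeniusAt σ p →
          (∀ x : A, (x : ℚbar) = a p →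
            (ρ σ).val.trace = IsLocalRing.residue A x) ∧
          (∀ x : A, (x : ℚbar) = e p →
            (ρ σ).val.det = IsLocalRing.residue A x)

/-- The set of pairs `(u + v, u v)` with `u`, `v` roots of unity of order `m`. -/
noncomputable def seedSet (m : ℕ) : Finset (ℚbar × ℚbar) :=
  letI := Classical.decEq ℚbar
  (Polynomial.nthRootsFinset m (1 : ℚbar) ×ˢ Polynomial.nthRootsFinset m (1 : ℚbar)).image
    fun t => (t.1 + t.2, t.1 * t.2)

theorem mem_seedSet {m : ℕ} (hm : 0 < m) {t : ℚbar × ℚbar} :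
    t ∈ seedSet m ↔ ∃ u v : ℚbar, u ^ m = 1 ∧ v ^ m = 1 ∧ t.1 = u + v ∧ t.2 = u * v := by
  classical
  simp only [seedSet, Finset.mem_image, Finset.mem_product, Polynomial.mem_nthRootsFinset hm]
  constructor
  · rintro ⟨⟨u, v⟩, ⟨hu, hv⟩, rfl⟩
    exact ⟨u, v, hu, hv, rfl, rfl⟩
  · rintro ⟨u, v, hu, hv, h1, h2⟩
    exact ⟨(u, v), ⟨hu, hv⟩, Prod.ext h1.symm h2.symm⟩

/-- The characteristic roots of a matrix of finite order are roots of unity. -/
theorem exists_roots_of_pow_eq_one {k : Type*} [Field k] [IsAlgClosed k]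
    (x : Matrix (Fin 2) (Fin 2) k) {m : ℕ} (hx : x ^ m = 1) :
    ∃ u v : k, u ^ m = 1 ∧ v ^ m = 1 ∧ x.trace = u + v ∧ x.det = u * v := by
  obtain ⟨u, v, ht, hd⟩ := exists_charRoots x
  have key : ∀ w w' : k, x.trace = w + w' → x.det = w * w' → w ^ m = 1 := by
    intro w w' ht hd
    obtain ⟨z, hz0, hz⟩ := exists_eigenvector x ht hd
    have hpw : ∀ i : ℕ, Matrix.mulVec (x ^ i) z = w ^ i • z := by
      intro i
      induction i with
      | zero => simp
      | succ i ih =>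
        rw [pow_succ', ← Matrix.mulVec_mulVec, ih, Matrix.mulVec_smul, hz, smul_smul, pow_succ]
    refine smul_left_injective k hz0 ?_
    simp only
    rw [← hpw, hx, Matrix.one_mulVec, one_smul]
  exact ⟨u, v, key u v ht hd, key v u (by rw [ht, add_comm]) (by rw [hd, mul_comm]), ht, hd⟩

variable (F : Family)

/-- All Frobenius polynomials have roots of unity of a common order as roots. -/
theorem Family.exists_seeds (A₀ : ℕ) (hA₀ : ∀ ℓ : ℕ, ℓ.Prime → 2 < ℓ → ℓ ∉ F.S₀ →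
      ∀ A : ValuationSubring ℚbar, A.LiesOverPrime ℓ → ∀ R : F.Reduction ℓ A,
        Fintype.card R.G ≤ A₀)
    {p : ℕ} (hp : p.Prime) (hpN : ¬ p ∣ F.N) :
    (F.a p, F.e p) ∈ seedSet A₀.factorial := by
  classical
  set m₀ := A₀.factorial with hm₀
  have hm₀0 : 0 < m₀ := Nat.factorial_pos A₀
  by_contra hcon
  have hne : ∀ t ∈ seedSet m₀, ∃ x : ℚbar, x ≠ 0 ∧ IsIntegral ℤ x ∧
      (x = F.a p - t.1 ∨ x = F.e p - t.2) := by
    intro t ht
    obtain ⟨u, v, hu, hv, h1, h2⟩ := (mem_seedSet hm₀0).mp ht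
    have hui : IsIntegral ℤ u := IsIntegral.of_pow hm₀0 (by rw [hu]; exact isIntegral_one)
    have hvi : IsIntegral ℤ v := IsIntegral.of_pow hm₀0 (by rw [hv]; exact isIntegral_one)
    by_cases h : F.a p = t.1
    · refine ⟨F.e p - t.2, fun h' => hcon ?_, h2 ▸ (F.isIntegral_e hp hpN).sub (hui.mul hvi),
        Or.inr rfl⟩
      rwa [show (F.a p, F.e p) = t from Prod.ext h (sub_eq_zero.mp h')]
    · exact ⟨F.a p - t.1, sub_ne_zero.mpr h, h1 ▸ (F.ha p hp hpN).sub (hui.add hvi), Or.inl rfl⟩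
  choose x hx0 hxi hxcase using hne
  have hS : ∀ t : {t // t ∈ seedSet m₀}, ∃ S : Finset ℕ, ∀ ℓ : ℕ, ℓ.Prime → ℓ ∉ S →
      ∀ A : ValuationSubring ℚbar, A.LiesOverPrime ℓ →
        IsLocalRing.residue A (intMem A (hxi t.1 t.2)) ≠ 0 :=
    fun t => exists_finset_residue_ne_zero _ (hx0 t.1 t.2)
  choose S hS using hS
  obtain ⟨ℓ, hℓ, hℓp⟩ : ∃ ℓ, ℓ ∉ F.S₀ ∪ Finset.range (A₀ + p + 3) ∪
      Finset.univ.biUnion S ∧ ℓ.Prime := by
    obtain ⟨ℓ, h1, h2⟩ := Nat.exists_infinite_primes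
      ((F.S₀ ∪ Finset.range (A₀ + p + 3) ∪ Finset.univ.biUnion S).sup id + 1)
    exact ⟨ℓ, fun h => by
      have := Finset.le_sup (f := id) h
      simp only [id_eq] at this
      omega, h2⟩
  simp only [Finset.mem_union, Finset.mem_biUnion, Finset.mem_univ, true_and, Finset.mem_range,
    not_or, not_exists] at hℓ
  obtain ⟨⟨hℓS, hℓbig⟩, hℓx⟩ := hℓ
  obtain ⟨A, hA⟩ := Galois.exists_liesOverPrime hℓp
  haveI := isAlgClosed_residueField A
  obtain ⟨R⟩ := F.exists_reduction hℓp hℓS hA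
  obtain ⟨B, σ, hB, hσ⟩ := Galois.exists_valuationSubring_isFrobeniusAt hp
  have hdvd : Fintype.card R.G ∣ m₀ := Nat.dvd_factorial Fintype.card_pos
    (hA₀ ℓ hℓp (by omega) hℓS A hA R)
  obtain ⟨q, hq⟩ := hdvd
  have hpow : ((R.r (R.φ σ)).val) ^ m₀ = 1 := by
    rw [← Units.val_pow_eq_pow_val, ← map_pow, hq, pow_mul, pow_card_eq_one, one_pow, map_one,
      Units.val_one]
  obtain ⟨u, v, hu, hv, ht, hd⟩ := exists_roots_of_pow_eq_one _ hpow
  have hℓm : ¬ ℓ ∣ m₀ := fun h => by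
    have := (hℓp.dvd_factorial).mp h
    omega
  obtain ⟨U, hU, hUu⟩ := exists_root_lift hℓp hA hℓm hu
  obtain ⟨V, hV, hVv⟩ := exists_root_lift hℓp hA hℓm hv
  have htmem : ((U : ℚbar) + V, (U : ℚbar) * V) ∈ seedSet m₀ :=
    (mem_seedSet hm₀0).mpr ⟨U, V, congrArg Subtype.val hU, congrArg Subtype.val hV, rfl, rfl⟩
  have hℓp' : p ≠ ℓ := by omega
  refine hS ⟨_, htmem⟩ ℓ hℓp (hℓx _) A hA ?_
  rcases hxcase _ htmem with h | h
  · have e : intMem A (hxi _ htmem) = intMem A (F.ha p hp hpN) - (U + V) := Subtype.ext (by simp [h])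
    rw [e, map_sub, map_add, hUu, hVv, ← R.htrace p hp hpN hℓp' B hB σ hσ _ rfl, ht, sub_self]
  · have e : intMem A (hxi _ htmem) = intMem A (F.isIntegral_e hp hpN) - U * V :=
      Subtype.ext (by simp [h])
    rw [e, map_sub, map_mul, hUu, hVv, ← R.hdet p hp hpN hℓp' B hB σ hσ _ rfl, hd, sub_self]

/-- The lifted representations over `ℚ̄`, for all large `ℓ`. -/
theorem Family.exists_lifted :
    ∃ S : Finset ℕ, ∀ ℓ : ℕ, ℓ.Prime → ℓ ∉ S →
      ∃ ρ : Γℚ →* GL (Fin 2) ℚbar, GaloisFactorsThroughFiniteLevel ρ ∧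
        ∀ p : ℕ, p.Prime → ¬ p ∣ F.N → p ≠ ℓ →
          ∀ B : ValuationSubring ℚbar, B.LiesOverPrime p →
            (∀ σ ∈ B.inertiaSubgroupIn ℚ, ρ σ = 1) ∧
            ∀ σ : Γℚ, B.IsFrobeniusAt σ p →
              (ρ σ).val.trace = F.a p ∧ (ρ σ).val.det = F.e p := by
  classical
  obtain ⟨A₀, -, hA₀⟩ := exists_card_bound F
  set m₀ := A₀.factorial with hm₀
  have hm₀0 : 0 < m₀ := Nat.factorial_pos A₀
  -- the primes at which two seeds collide
  have hne : ∀ q : {q : (ℚbar × ℚbar) × (ℚbar × ℚbar) //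
      q ∈ seedSet m₀ ×ˢ seedSet m₀ ∧ q.1 ≠ q.2},
      ∃ S : Finset ℕ, ∀ ℓ : ℕ, ℓ.Prime → ℓ ∉ S → ∀ A : ValuationSubring ℚbar, A.LiesOverPrime ℓ →
        ∀ x y z w : A, (x : ℚbar) = q.1.1.1 → (y : ℚbar) = q.1.1.2 → (z : ℚbar) = q.1.2.1 →
          (w : ℚbar) = q.1.2.2 → IsLocalRing.residue A x = IsLocalRing.residue A z →
          IsLocalRing.residue A y = IsLocalRing.residue A w → False := by
    rintro ⟨⟨s, t⟩, hst, hne⟩
    obtain ⟨hs, ht⟩ := Finset.mem_product.mp hst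
    obtain ⟨u, v, hu, hv, h1, h2⟩ := (mem_seedSet hm₀0).mp hs
    obtain ⟨u', v', hu', hv', h1', h2'⟩ := (mem_seedSet hm₀0).mp ht
    have hint : ∀ z : ℚbar, z ^ m₀ = 1 → IsIntegral ℤ z := fun z hz =>
      IsIntegral.of_pow hm₀0 (by rw [hz]; exact isIntegral_one)
    by_cases h : s.1 = t.1
    · have hne' : s.2 - t.2 ≠ 0 := sub_ne_zero.mpr fun h' => hne (Prod.ext h h')
      obtain ⟨S, hS⟩ := exists_finset_residue_ne_zero (x := s.2 - t.2)
        (h2 ▸ h2' ▸ ((hint u hu).mul (hint v hv)).sub ((hint u' hu').mul (hint v' hv'))) hne'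
      refine ⟨S, fun ℓ hℓ hℓS A hA x y z w _ hy _ hw _ hyw => hS ℓ hℓ hℓS A hA ?_⟩
      rw [show intMem A _ = y - w from Subtype.ext (by simp [hy, hw]), map_sub, hyw, sub_self]
    · obtain ⟨S, hS⟩ := exists_finset_residue_ne_zero (x := s.1 - t.1)
        (h1 ▸ h1' ▸ ((hint u hu).add (hint v hv)).sub ((hint u' hu').add (hint v' hv')))
        (sub_ne_zero.mpr h)
      refine ⟨S, fun ℓ hℓ hℓS A hA x y z w hx _ hz _ hxz _ => hS ℓ hℓ hℓS A hA ?_⟩
      rw [show intMem A _ = x - z from Subtype.ext (by simp [hx, hz]), map_sub, hxz, sub_self]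
  choose S hS using hne
  haveI : Finite {q : (ℚbar × ℚbar) × (ℚbar × ℚbar) //
      q ∈ seedSet m₀ ×ˢ seedSet m₀ ∧ q.1 ≠ q.2} :=
    Finite.of_injective (fun q => (⟨q.1, q.2.1⟩ : {q // q ∈ seedSet m₀ ×ˢ seedSet m₀}))
      fun a b h => by simpa [Subtype.ext_iff] using h
  haveI := Fintype.ofFinite {q : (ℚbar × ℚbar) × (ℚbar × ℚbar) //
      q ∈ seedSet m₀ ×ˢ seedSet m₀ ∧ q.1 ≠ q.2}
  refine ⟨F.S₀ ∪ Finset.range (A₀ + 3) ∪ Finset.univ.biUnion S, fun ℓ hℓp hℓ => ?_⟩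
  simp only [Finset.mem_union, Finset.mem_biUnion, Finset.mem_univ, true_and, Finset.mem_range,
    not_or, not_exists] at hℓ
  obtain ⟨⟨hℓS, hℓbig⟩, hℓx⟩ := hℓ
  obtain ⟨A, hA⟩ := Galois.exists_liesOverPrime hℓp
  haveI := isAlgClosed_residueField A
  obtain ⟨R⟩ := F.exists_reduction hℓp hℓS hA
  have hcard := hA₀ ℓ hℓp (by omega) hℓS A hA R
  have hG : (Fintype.card R.G : IsLocalRing.ResidueField A) ≠ 0 := by
    refine natCast_residueField_ne_zero hℓp hA fun h => ?_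
    have := Nat.le_of_dvd Fintype.card_pos h
    omega
  obtain ⟨L, hL⟩ := exists_lift A hG R.r
  let ρ : Γℚ →* GL (Fin 2) ℚbar := ((Matrix.GeneralLinearGroup.map A.subtype).comp L).comp R.φ
  refine ⟨ρ, finiteLevel_of_ker_le R.φ ρ (fun σ hσ => by simp [ρ, hσ]) R.hlevel,
    fun p hp hpN hpℓ B hB => ⟨fun σ hσ => by simp [ρ, R.hunram p hp hpN hpℓ B hB σ hσ],
      fun σ hσ => ?_⟩⟩
  obtain ⟨q, hq⟩ : Fintype.card R.G ∣ m₀ := Nat.dvd_factorial Fintype.card_pos hcard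
  have hpow : (ρ σ).val ^ m₀ = 1 := by
    rw [← Units.val_pow_eq_pow_val]
    simp only [ρ, MonoidHom.comp_apply, ← map_pow]
    rw [map_pow R.φ, hq, pow_mul, pow_card_eq_one, one_pow, map_one, map_one, Units.val_one]
  obtain ⟨u, v, hu, hv, ht, hd⟩ := exists_roots_of_pow_eq_one _ hpow
  have hs : ((ρ σ).val.trace, (ρ σ).val.det) ∈ seedSet m₀ :=
    (mem_seedSet hm₀0).mpr ⟨u, v, hu, hv, ht, hd⟩
  have ht' : (F.a p, F.e p) ∈ seedSet m₀ := F.exists_seeds A₀ hA₀ hp hpN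
  by_cases hne : ((ρ σ).val.trace, (ρ σ).val.det) = (F.a p, F.e p)
  · exact ⟨congrArg Prod.fst hne, congrArg Prod.snd hne⟩
  exfalso
  let X : Matrix (Fin 2) (Fin 2) A := (L (R.φ σ)).val
  have hρX : (ρ σ).val = X.map A.subtype := rfl
  have hred : X.map (IsLocalRing.residue A) = (R.r (R.φ σ)).val := by
    rw [← hL]; rfl
  refine hS ⟨(_, _), Finset.mk_mem_product hs ht', hne⟩ ℓ hℓp (hℓx _) A hA X.trace X.det
    (intMem A (F.ha p hp hpN)) (intMem A (F.isIntegral_e hp hpN)) ?_ ?_ rfl rfl ?_ ?_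
  · show (X.trace : ℚbar) = (ρ σ).val.trace
    rw [hρX]; exact (AddMonoidHom.map_trace A.subtype.toAddMonoidHom X)
  · show (X.det : ℚbar) = (ρ σ).val.det
    rw [hρX]; exact RingHom.map_det A.subtype X
  · rw [← R.htrace p hp hpN hpℓ B hB σ hσ (intMem A (F.ha p hp hpN)) rfl, ← hred]
    exact AddMonoidHom.map_trace (IsLocalRing.residue A).toAddMonoidHom X
  · rw [← R.hdet p hp hpN hpℓ B hB σ hσ (intMem A (F.isIntegral_e hp hpN)) rfl, ← hred]
    exact RingHom.map_det (IsLocalRing.residue A) X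

/-- Two representations of finite level with the same Frobenius polynomials almost everywhere
have the same kernel and the same characteristic polynomials. -/
theorem agree_of_frobenius (ρ₁ ρ₂ : Γℚ →* GL (Fin 2) ℚbar)
    (h₁ : GaloisFactorsThroughFiniteLevel ρ₁) (h₂ : GaloisFactorsThroughFiniteLevel ρ₂)
    (S : Finset ℕ)
    (h : ∀ p : ℕ, p.Prime → p ∉ S → ∀ A : ValuationSubring ℚbar, A.LiesOverPrime p →
      ∀ σ : Γℚ, A.IsFrobeniusAt σ p →
        (ρ₁ σ).val.trace = (ρ₂ σ).val.trace ∧ (ρ₁ σ).val.det = (ρ₂ σ).val.det) :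
    (∀ σ, (ρ₁ σ).val.trace = (ρ₂ σ).val.trace ∧ (ρ₁ σ).val.det = (ρ₂ σ).val.det) ∧
      ∀ σ, ρ₂ σ = 1 → ρ₁ σ = 1 := by
  classical
  let ρ := ρ₁.prod ρ₂
  have hlev : GaloisFactorsThroughFiniteLevel ρ := by
    obtain ⟨L₁, hL₁, e₁⟩ := h₁
    obtain ⟨L₂, hL₂, e₂⟩ := h₂
    refine ⟨L₁ ⊔ L₂, inferInstance, fun σ hσ => Prod.ext (e₁ σ fun x hx => hσ x ?_)
      (e₂ σ fun x hx => hσ x ?_)⟩
    · exact (le_sup_left : L₁ ≤ L₁ ⊔ L₂) hx
    · exact (le_sup_right : L₂ ≤ L₁ ⊔ L₂) hx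
  haveI := finite_range_of_finiteLevel ρ hlev
  letI : Fintype ρ.range := Fintype.ofFinite _
  obtain ⟨L, hL, hρL⟩ := hlev
  have key := forall_of_upperDensity_zero ρ.rangeRestrict ρ.rangeRestrict_surjective
    ⟨L, hL, fun σ hσ => Subtype.ext (hρL σ hσ)⟩
    (fun g => ∀ i : ℕ, (g.1.1.val ^ i).trace = (g.1.2.val ^ i).trace ∧
      (g.1.1.val ^ i).det = (g.1.2.val ^ i).det)
    (fun x y hx i => by
      obtain ⟨hx1, hx2⟩ := hx i
      simp only [Subgroup.coe_mul, Subgroup.coe_inv, Prod.fst_mul, Prod.snd_mul, Prod.fst_inv,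
        Prod.snd_inv, Units.val_mul]
      rw [Units.conj_pow, Units.conj_pow]
      constructor
      · rw [Matrix.trace_units_conj, Matrix.trace_units_conj, hx1]
      · rw [Matrix.det_units_conj, Matrix.det_units_conj, hx2])
    (fun x j hx i => by
      simp only [Subgroup.coe_pow, Prod.pow_fst, Prod.pow_snd, Units.val_pow_eq_pow_val, ← pow_mul]
      exact hx _)
    (fun _ => 0) (fun _ => le_rfl) UpperDensityLE.zero S (fun p hp hpS _ A hA σ hσ i => by
      obtain ⟨ht, hd⟩ := h p hp hpS A hA σ hσ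
      show ((ρ₁ σ).val ^ i).trace = ((ρ₂ σ).val ^ i).trace ∧
        ((ρ₁ σ).val ^ i).det = ((ρ₂ σ).val ^ i).det
      refine ⟨?_, by rw [Matrix.det_pow, Matrix.det_pow, hd]⟩
      induction i using Nat.twoStepInduction with
      | zero => simp
      | one => simpa using ht
      | more i ih1 ih2 =>
        have e : ∀ M : Matrix (Fin 2) (Fin 2) ℚbar,
            (M ^ (i + 2)).trace = M.trace * (M ^ (i + 1)).trace - M.det * (M ^ i).trace := by
          intro M
          rw [pow_add, sq, mul_self_eq, Matrix.mul_sub, Matrix.trace_sub, Matrix.mul_smul,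
            Matrix.mul_smul, Matrix.trace_smul, Matrix.trace_smul, ← pow_succ, Matrix.mul_one,
            smul_eq_mul, smul_eq_mul]
        rw [e, e, ht, hd, ih1, ih2])
  refine ⟨fun σ => ?_, fun σ hσ => ?_⟩
  · have h' := key (ρ.rangeRestrict σ) 1
    simp only [pow_one] at h'
    exact h'
  · have h' := key (ρ.rangeRestrict σ) 1
    simp only [pow_one] at h'
    obtain ⟨ht, hd⟩ := h'
    change (ρ₁ σ).val.trace = (ρ₂ σ).val.trace at ht
    change (ρ₁ σ).val.det = (ρ₂ σ).val.det at hd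
    rw [hσ, Units.val_one, Matrix.trace_one, Fintype.card_fin] at ht
    rw [hσ, Units.val_one, Matrix.det_one] at hd
    haveI := finite_range_of_finiteLevel ρ₁ ⟨L, hL, fun τ hτ => congrArg Prod.fst (hρL τ hτ)⟩
    obtain ⟨n, hn, hn1⟩ := isOfFinOrder_iff_pow_eq_one.mp
      (isOfFinOrder_of_finite (⟨ρ₁ σ, σ, rfl⟩ : ρ₁.range))
    refine Units.ext (eq_one_of_sq_eq_zero (n := n) (by exact_mod_cast hn.ne') ?_ ?_)
    · have := sub_mul_sub_eq_zero (ρ₁ σ).val (u := 1) (v := 1) (by rw [ht]; norm_num)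
        (by rw [hd, mul_one])
      simpa using this
    · have := congrArg (fun g : ρ₁.range => g.1.val) hn1
      simpa using this

/-- The complex representation attached to the family, before irreducibility. -/
theorem Family.exists_rep :
    ∃ ρ : Γℚ →* GL (Fin 2) ℚbar, GaloisFactorsThroughFiniteLevel ρ ∧
      ∀ p : ℕ, p.Prime → ¬ p ∣ F.N → ∀ B : ValuationSubring ℚbar, B.LiesOverPrime p →
        (∀ σ ∈ B.inertiaSubgroupIn ℚ, ρ σ = 1) ∧
        ∀ σ : Γℚ, B.IsFrobeniusAt σ p → (ρ σ).val.trace = F.a p ∧ (ρ σ).val.det = F.e p := by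
  obtain ⟨S, hS⟩ := F.exists_lifted
  obtain ⟨ℓ, hℓ1, hℓ⟩ := Nat.exists_infinite_primes (S.sup id + 1)
  obtain ⟨ℓ', hℓ'1, hℓ'⟩ := Nat.exists_infinite_primes (ℓ + 1)
  have hnotin : ∀ q, S.sup id < q → q ∉ S := fun q hq h =>
    absurd (Finset.le_sup (f := id) h) (not_le.mpr hq)
  obtain ⟨ρ, hlev, hρ⟩ := hS ℓ hℓ (hnotin ℓ (by omega))
  obtain ⟨ρ', hlev', hρ'⟩ := hS ℓ' hℓ' (hnotin ℓ' (by omega))
  obtain ⟨hagree, hker⟩ := agree_of_frobenius ρ ρ' hlev hlev'
    (insert ℓ (insert ℓ' F.N.primeFactors)) (fun p hp hpS B hB σ hσ => by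
      simp only [Finset.mem_insert, Nat.mem_primeFactors, not_or, not_and] at hpS
      obtain ⟨h1, h2, h3⟩ := hpS
      have hpN : ¬ p ∣ F.N := fun hd => h3 hp hd F.hN
      obtain ⟨e1, e2⟩ := (hρ p hp hpN h1 B hB).2 σ hσ
      obtain ⟨e3, e4⟩ := (hρ' p hp hpN h2 B hB).2 σ hσ
      exact ⟨e1.trans e3.symm, e2.trans e4.symm⟩)
  refine ⟨ρ, hlev, fun p hp hpN B hB => ?_⟩
  by_cases hpℓ : p = ℓ
  · have hpℓ' : p ≠ ℓ' := by omega
    refine ⟨fun σ hσ => hker σ ((hρ' p hp hpN hpℓ' B hB).1 σ hσ), fun σ hσ => ?_⟩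
    obtain ⟨e3, e4⟩ := (hρ' p hp hpN hpℓ' B hB).2 σ hσ
    exact ⟨(hagree σ).1.trans e3, (hagree σ).2.trans e4⟩
  · exact hρ p hp hpN hpℓ B hB

/-- An automorphism of `ℚ̄` raising the `m`-th roots of unity to a prescribed power. -/
theorem exists_galois_pow {m : ℕ} (hm : 0 < m) {i : ℕ} (hi : i.Coprime m) :
    ∃ τ : Γℚ, ∀ z : ℚbar, z ^ m = 1 → τ z = z ^ i := by
  haveI : NeZero m := ⟨hm.ne'⟩
  obtain ⟨ζ, hζ⟩ := HasEnoughRootsOfUnity.exists_primitiveRoot ℚbar m
  have hζ' : IsPrimitiveRoot (ζ ^ i) m := hζ.pow_of_coprime i hi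
  obtain ⟨τ, hτ⟩ := IsConjRoot.exists_algEquiv (x := ζ ^ i) (y := ζ) (K := ℚ) (by
    rw [isConjRoot_def, ← Polynomial.cyclotomic_eq_minpoly_rat hζ hm,
      ← Polynomial.cyclotomic_eq_minpoly_rat hζ' hm])
  refine ⟨τ, fun z hz => ?_⟩
  obtain ⟨j, -, rfl⟩ := hζ.eq_pow_of_pow_eq_one hz
  have hτ' : τ ζ = ζ ^ i := hτ
  rw [map_pow, hτ', ← pow_mul, ← pow_mul, mul_comm]

/-- Sums of squared absolute values of a sum of two characters. -/
theorem two_mul_card_le {G : Type*} [Group G] [Fintype G] (χ ψ : G →* ℂ) :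
    2 * (Fintype.card G : ℝ) ≤ ∑ g, ‖χ g + ψ g‖ ^ 2 := by
  have hnorm : ∀ (η : G →* ℂ) (g : G), ‖η g‖ = 1 := fun η g =>
    Complex.norm_eq_one_of_pow_eq_one (by rw [← map_pow, pow_card_eq_one, map_one])
      Fintype.card_ne_zero
  let η : G →* ℂ :=
    { toFun := fun g => χ g * (starRingEnd ℂ) (ψ g)
      map_one' := by simp
      map_mul' := fun x y => by simp only [map_mul]; ring }
  have hη : 0 ≤ (∑ g, η g).re := by
    by_cases h : ∀ g, η g = 1
    · simp [h]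
    · push Not at h
      obtain ⟨g₀, hg₀⟩ := h
      have h0 : η g₀ * ∑ g, η g = ∑ g, η g := by
        rw [Finset.mul_sum]
        exact Fintype.sum_equiv (Equiv.mulLeft g₀) _ _ fun g => by simp
      have : (η g₀ - 1) * ∑ g, η g = 0 := by rw [sub_mul, h0, one_mul, sub_self]
      rw [(mul_eq_zero.mp this).resolve_left (sub_ne_zero.mpr hg₀), Complex.zero_re]
  have e : ∀ g, ‖χ g + ψ g‖ ^ 2 = 2 + 2 * (η g).re := by
    intro g
    rw [Complex.sq_norm, Complex.normSq_add, ← Complex.sq_norm, ← Complex.sq_norm, hnorm, hnorm]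
    change (1 : ℝ) ^ 2 + 1 ^ 2 + 2 * (χ g * (starRingEnd ℂ) (ψ g)).re =
      2 + 2 * (χ g * (starRingEnd ℂ) (ψ g)).re
    norm_num
  simp only [e, Finset.sum_add_distrib, Finset.sum_const, Finset.card_univ, nsmul_eq_mul,
    ← Finset.mul_sum, ← Complex.re_sum]
  linarith

/-- The complex representation has no common eigenvector: Rankin's bound. -/
theorem Family.no_eigenvector (ρ : Γℚ →* GL (Fin 2) ℚbar)
    (hlev : GaloisFactorsThroughFiniteLevel ρ) (j : ℚbar →+* ℂ)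
    (hρ : ∀ p : ℕ, p.Prime → ¬ p ∣ F.N → ∀ B : ValuationSubring ℚbar, B.LiesOverPrime p →
      ∀ σ : Γℚ, B.IsFrobeniusAt σ p → (ρ σ).val.trace = F.a p ∧ (ρ σ).val.det = F.e p) :
    ∀ w : Fin 2 → ℂ,
      ¬ IsCommonEigenvector (fun σ => (Matrix.GeneralLinearGroup.map j (ρ σ)).val) w := by
  classical
  intro w ⟨hw0, hw⟩
  haveI := finite_range_of_finiteLevel ρ hlev
  letI : Fintype ρ.range := Fintype.ofFinite _
  obtain ⟨L, hL, hρL⟩ := hlev
  set m := Fintype.card ρ.range with hm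
  have hm0 : 0 < m := Fintype.card_pos
  haveI : NeZero m := ⟨hm0.ne'⟩
  let M : ρ.range →* GL (Fin 2) ℂ := (Matrix.GeneralLinearGroup.map j).comp ρ.range.subtype
  have hMw : ∀ g : ρ.range, ∃ c : ℂ, Matrix.mulVec (M g).val w = c • w := by
    rintro ⟨_, σ, rfl⟩
    exact hw σ
  choose χ₀ hχ₀ using hMw
  have huniq : ∀ {c c' : ℂ}, c • w = c' • w → c = c' := fun h => smul_left_injective ℂ hw0 h
  have hχ1 : χ₀ 1 = 1 := huniq (by rw [← hχ₀, map_one, Units.val_one, Matrix.one_mulVec, one_smul])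
  have hχmul : ∀ g h, χ₀ (g * h) = χ₀ g * χ₀ h := fun g h => huniq (by
    rw [← hχ₀, map_mul, Units.val_mul, ← Matrix.mulVec_mulVec, hχ₀, Matrix.mulVec_smul, hχ₀,
      smul_smul, mul_comm])
  let χ : ρ.range →* ℂ := { toFun := χ₀, map_one' := hχ1, map_mul' := hχmul }
  let ψ : ρ.range →* ℂ :=
    { toFun := fun g => (M g).val.det * χ₀ g⁻¹
      map_one' := by simp [hχ1]
      map_mul' := fun g h => by simp [hχmul, Units.val_mul]; ring }
  have hinv : ∀ g, χ₀ g * χ₀ g⁻¹ = 1 := fun g => by rw [← hχmul, mul_inv_cancel, hχ1]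
  have htr : ∀ g, (M g).val.trace = χ g + ψ g ∧ (M g).val.det = χ g * ψ g := by
    intro g
    show (M g).val.trace = χ₀ g + (M g).val.det * χ₀ g⁻¹ ∧
      (M g).val.det = χ₀ g * ((M g).val.det * χ₀ g⁻¹)
    have hd : ((M g).val - χ₀ g • (1 : Matrix (Fin 2) (Fin 2) ℂ)).det = 0 :=
      Matrix.exists_mulVec_eq_zero_iff.mp ⟨w, hw0, by
        rw [Matrix.sub_mulVec, Matrix.smul_mulVec, Matrix.one_mulVec, hχ₀, sub_self]⟩
    refine ⟨?_, by linear_combination (-(M g).val.det) * hinv g⟩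
    simp [Matrix.det_fin_two, Matrix.trace_fin_two, Matrix.one_apply] at hd ⊢
    linear_combination (-χ₀ g⁻¹) * hd + (χ₀ g - (M g).val 0 0 - (M g).val 1 1) * hinv g
  -- the test function
  let f : ρ.range → ℝ := fun g =>
    ∑ i : (ZMod m)ˣ, ‖χ (g ^ (i : ZMod m).val) + ψ (g ^ (i : ZMod m).val)‖ ^ 2
  have hf0 : ∀ g, 0 ≤ f g := fun g => Finset.sum_nonneg fun i _ => by positivity
  have hmodpow : ∀ (g : ρ.range) (x y : ℕ), x ≡ y [MOD m] → g ^ x = g ^ y := fun g x y hxy => by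
    rw [pow_eq_pow_iff_modEq]
    exact hxy.of_dvd (orderOf_dvd_card)
  have hf : IsDivisionFunction f := by
    constructor
    · intro x y
      have hc : ∀ η : ρ.range →* ℂ, ∀ i : ℕ, η ((y * x * y⁻¹) ^ i) = η (x ^ i) := by
        intro η i
        rw [conj_pow, map_mul, map_mul, mul_comm (η y), mul_assoc, ← map_mul, mul_inv_cancel,
          map_one, mul_one]
      simp only [f, hc]
    · intro x y hxy
      obtain ⟨i, hi⟩ := (isOfFinOrder_of_finite x).mem_powers_iff_mem_zpowers.mpr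
        (hxy ▸ Subgroup.mem_zpowers y)
      simp only at hi
      have hord : orderOf y = orderOf x := by rw [← Nat.card_zpowers, ← hxy, Nat.card_zpowers]
      have hcop : i.Coprime (orderOf x) := by
        rw [← hi, orderOf_pow] at hord
        have hpos := orderOf_pos x
        by_contra hc
        have : 1 < Nat.gcd (orderOf x) i := by
          rcases Nat.lt_or_ge 1 (Nat.gcd (orderOf x) i) with h | h
          · exact h
          · exfalso
            exact hc (Nat.coprime_comm.mp (le_antisymm h (Nat.gcd_pos_of_pos_left i hpos)))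
        have := Nat.div_lt_self hpos this
        omega
      obtain ⟨k, hk⟩ := ZMod.unitsMap_surjective (orderOf_dvd_card (x := x)) (ZMod.unitOfCoprime i hcop)
      have hyk : y = x ^ (k : ZMod m).val := by
        rw [← hi, pow_eq_pow_iff_modEq, ← ZMod.natCast_eq_natCast_iff]
        have hval := congrArg (fun u : (ZMod (orderOf x))ˣ => (u : ZMod (orderOf x))) hk
        simp only [ZMod.unitsMap_val, ZMod.coe_unitOfCoprime] at hval
        rw [← hval, ZMod.natCast_val]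
      show f x = f y
      refine (Fintype.sum_equiv (Equiv.mulLeft k) _ _ fun l => ?_).symm
      have e : y ^ (l : ZMod m).val = x ^ (((k * l : (ZMod m)ˣ) : ZMod m)).val := by
        rw [hyk, ← pow_mul]
        refine hmodpow x _ _ ?_
        rw [Units.val_mul, ZMod.val_mul]
        exact (Nat.mod_modEq _ _).symm
      simp only [Equiv.coe_mulLeft, e]
  have hmean : 2 * (Fintype.card (ZMod m)ˣ : ℝ) ≤ (∑ g, f g) / Fintype.card ρ.range := by
    rw [le_div_iff₀ (by exact_mod_cast hm0)]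
    calc 2 * (Fintype.card (ZMod m)ˣ : ℝ) * (m : ℝ)
        = ∑ _i : (ZMod m)ˣ, 2 * (m : ℝ) := by
          rw [Finset.sum_const, Finset.card_univ, nsmul_eq_mul]; ring
      _ ≤ ∑ i : (ZMod m)ˣ, ∑ g : ρ.range,
            ‖χ (g ^ (i : ZMod m).val) + ψ (g ^ (i : ZMod m).val)‖ ^ 2 := by
          refine Finset.sum_le_sum fun i _ => ?_
          have hcop : (Nat.card ρ.range).Coprime (i : ZMod m).val := by
            rw [Nat.card_eq_fintype_card]
            exact (ZMod.val_coe_unit_coprime i).symm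
          rw [Fintype.sum_equiv (powCoprime hcop)
            (fun g => ‖χ (g ^ (i : ZMod m).val) + ψ (g ^ (i : ZMod m).val)‖ ^ 2)
            (fun g => ‖χ g + ψ g‖ ^ 2) (fun g => rfl)]
          exact two_mul_card_le χ ψ
      _ = ∑ g, f g := Finset.sum_comm
  -- Rankin's bound for the conjugates
  have hgal : ∀ i : (ZMod m)ˣ, ∃ τ : Γℚ, ∀ z : ℚbar, z ^ m = 1 → τ z = z ^ (i : ZMod m).val :=
    fun i => exists_galois_pow hm0 (ZMod.val_coe_unit_coprime i)
  choose τ hτ using hgal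
  let c : ℕ → ℝ := fun p =>
    ∑ i : (ZMod m)ˣ, if p ∣ F.N then 0 else ‖j (τ i (F.a p))‖ ^ 2
  have hc : UpperDensityLE c (∑ _i : (ZMod m)ˣ, (1 : ℝ)) :=
    UpperDensityLE.finsetSum Finset.univ fun i _ => F.hR (j.comp (τ i : ℚbar →+* ℚbar))
  have hle := mean_le_of_frobenius ρ.rangeRestrict ρ.rangeRestrict_surjective
    ⟨L, hL, fun σ hσ => Subtype.ext (hρL σ hσ)⟩ f hf0 hf c
    (fun p => Finset.sum_nonneg fun i _ => by split_ifs <;> positivity) F.N.primeFactors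
    (fun p hp hpS B hB σ hσ => ?_) hc
  · simp only [Finset.sum_const, Finset.card_univ, nsmul_eq_mul, mul_one] at hle
    have : (0 : ℝ) < Fintype.card (ZMod m)ˣ := by exact_mod_cast Fintype.card_pos
    linarith [hmean.trans hle]
  · have hpN : ¬ p ∣ F.N := fun hd => hpS (Nat.mem_primeFactors.mpr ⟨hp, hd, F.hN⟩)
    obtain ⟨hta, hde⟩ := hρ p hp hpN B hB σ hσ
    refine Finset.sum_le_sum fun i _ => le_of_eq ?_
    rw [if_neg hpN]
    set g := ρ.rangeRestrict σ
    have hgm : (ρ σ).val ^ m = 1 := by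
      have h := congrArg Subtype.val (pow_card_eq_one (x := g))
      rw [← Units.val_pow_eq_pow_val]
      exact congrArg Units.val h
    obtain ⟨u, v, hu, hv, ht, hd⟩ := exists_roots_of_pow_eq_one _ hgm
    obtain ⟨e1, e2⟩ := htr g
    have hMt : (M g).val.trace = j u + j v := by
      show ((ρ σ).val.map j).trace = _
      rw [← map_add, ← ht]
      exact (AddMonoidHom.map_trace j.toAddMonoidHom _).symm
    have hMd : (M g).val.det = j u * j v := by
      show ((ρ σ).val.map j).det = _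
      rw [← map_mul, ← hd, RingHom.map_det]
      rfl
    have hroots : (χ g = j u ∧ ψ g = j v) ∨ (χ g = j v ∧ ψ g = j u) := by
      have h0 : (χ g - j u) * (χ g - j v) = 0 := by
        linear_combination (χ g) * hMt - hMd - (χ g) * e1 + e2
      rcases mul_eq_zero.mp h0 with h | h <;> rw [sub_eq_zero] at h
      · exact Or.inl ⟨h, by linear_combination hMt - e1 - h⟩
      · exact Or.inr ⟨h, by linear_combination hMt - e1 - h⟩
    show ‖χ (g ^ (i : ZMod m).val) + ψ (g ^ (i : ZMod m).val)‖ ^ 2 = ‖j (τ i (F.a p))‖ ^ 2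
    rw [← hta, ht, map_add (τ i), hτ i u hu, hτ i v hv, map_add j, map_pow j, map_pow j, map_pow χ,
      map_pow ψ]
    rcases hroots with ⟨h1, h2⟩ | ⟨h1, h2⟩
    · rw [h1, h2]
    · rw [h1, h2, add_comm]

/-- A two-dimensional representation without common eigenvector is irreducible. -/
theorem isIrreducible_of_no_eigenvector {G : Type} [Group G] (ρ : G →* GL (Fin 2) ℂ)
    (h : ∀ w, ¬ IsCommonEigenvector (fun g => (ρ g).val) w) :
    (Deformation.matrixRepresentation ρ).IsIrreducible := by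
  haveI : Nontrivial (Subrepresentation (Deformation.matrixRepresentation ρ)) := by
    refine ⟨⊥, ⊤, fun e => ?_⟩
    have h1 := congrArg Subrepresentation.toSubmodule e
    have h2 : (Pi.single 0 1 : Fin 2 → ℂ) ∈ (⊥ : Submodule ℂ (Fin 2 → ℂ)) := by
      rw [show (⊥ : Submodule ℂ (Fin 2 → ℂ)) = ⊤ from h1]
      exact Submodule.mem_top
    simpa using congrFun ((Submodule.mem_bot ℂ).mp h2) 0
  refine ⟨fun W => ?_⟩
  by_cases hbot : W.toSubmodule = ⊥
  · exact Or.inl (Subrepresentation.toSubmodule_injective hbot)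
  by_cases htop : W.toSubmodule = ⊤
  · exact Or.inr (Subrepresentation.toSubmodule_injective htop)
  exfalso
  obtain ⟨w, hwW, hw0⟩ := Submodule.exists_mem_ne_zero_of_ne_bot hbot
  have hlt := Submodule.finrank_lt htop
  rw [Module.finrank_fin_fun] at hlt
  have hone : Module.finrank ℂ W.toSubmodule = 1 := by
    have := Submodule.one_le_finrank_iff.mpr hbot
    omega
  refine h w ⟨hw0, fun g => ?_⟩
  have hmem : Matrix.mulVec (ρ g).val w ∈ W.toSubmodule := by
    have := W.apply_mem_toSubmodule g hwW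
    rwa [Deformation.matrixRepresentation_apply] at this
  obtain ⟨c, hc⟩ := (finrank_eq_one_iff_of_nonzero' (⟨w, hwW⟩ : W.toSubmodule)
    (fun e => hw0 (congrArg Subtype.val e))).mp hone ⟨_, hmem⟩
  exact ⟨c, (congrArg Subtype.val hc).symm⟩

/-- Deligne–Serre, sections 7 and 8: existence of the complex representation. -/
theorem exists_rep_of_reductions (j : ℚbar →+* ℂ) (N : ℕ) [NeZero N] (a e : ℕ → ℚbar)
    (ha : ∀ p : ℕ, p.Prime → ¬ p ∣ N → IsIntegral ℤ (a p))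
    (hfin : ∃ L : IntermediateField ℚ ℚbar, FiniteDimensional ℚ L ∧
      ∀ p : ℕ, p.Prime → ¬ p ∣ N → a p ∈ L)
    (d : ℕ) (hd : 0 < d) (he : ∀ p : ℕ, p.Prime → ¬ p ∣ N → e p ^ d = 1)
    (hR : ∀ σ : ℚbar →+* ℂ, RankinBound N fun p => ‖σ (a p)‖ ^ 2)
    (S₀ : Finset ℕ)
    (hM : ∀ ℓ : ℕ, ℓ.Prime → ℓ ∉ S₀ → ∀ A : ValuationSubring ℚbar, A.LiesOverPrime ℓ →
      HasReductionAt N a e ℓ A) :
    ∃ ρ : Γℚ →* GL (Fin 2) ℂ, GaloisFactorsThroughFiniteLevel ρ ∧
      (Deformation.matrixRepresentation ρ).IsIrreducible ∧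
      ∀ p : ℕ, p.Prime → ¬ p ∣ N →
        ∀ A : ValuationSubring ℚbar, A.LiesOverPrime p →
          (∀ σ ∈ A.inertiaSubgroupIn ℚ, ρ σ = 1) ∧
          ∀ σ : Γℚ, A.IsFrobeniusAt σ p →
            ((ρ σ : GL (Fin 2) ℂ) : Matrix (Fin 2) (Fin 2) ℂ).trace = j (a p) ∧
            ((ρ σ : GL (Fin 2) ℂ) : Matrix (Fin 2) (Fin 2) ℂ).det = j (e p) := by
  have hR' : ∀ σ : ℚbar →+* ℂ, UpperDensityLE (fun p => if p ∣ N then 0 else ‖σ (a p)‖ ^ 2) 1 := by
    intro σ
    obtain ⟨C, hC⟩ := hR σ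
    refine UpperDensityLE.of_log_bound (C := C) one_lt_two fun s hs hs2 T hT => ?_
    rw [one_mul]
    calc ∑ p ∈ T, (if p ∣ N then 0 else ‖σ (a p)‖ ^ 2) * (p : ℝ) ^ (-s)
        = ∑ p ∈ T.filter (fun p => ¬ p ∣ N), ‖σ (a p)‖ ^ 2 * (p : ℝ) ^ (-s) := by
          rw [Finset.sum_filter]
          exact Finset.sum_congr rfl fun p _ => by split_ifs <;> simp_all
      _ ≤ _ := hC s hs hs2 _ fun p hp =>
          ⟨hT p (Finset.mem_filter.mp hp).1, (Finset.mem_filter.mp hp).2⟩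
  let F : Family := ⟨N, NeZero.ne N, a, e, ha, hfin, d, hd, he, hR', S₀, hM⟩
  obtain ⟨ρ, hlev, hρ⟩ := F.exists_rep
  refine ⟨(Matrix.GeneralLinearGroup.map j).comp ρ,
    finiteLevel_of_ker_le ρ _ (fun σ hσ => by simp [hσ]) hlev,
    isIrreducible_of_no_eigenvector _
      (F.no_eigenvector ρ hlev j fun p hp hpN B hB => (hρ p hp hpN B hB).2),
    fun p hp hpN A hA => ⟨fun σ hσ => ?_, fun σ hσ => ?_⟩⟩
  · simp [(hρ p hp hpN A hA).1 σ hσ]
  · obtain ⟨e1, e2⟩ := (hρ p hp hpN A hA).2 σ hσ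
    constructor
    · show ((ρ σ).val.map j).trace = _
      rw [show a p = (ρ σ).val.trace from e1.symm]
      exact (AddMonoidHom.map_trace j.toAddMonoidHom _).symm
    · show ((ρ σ).val.map j).det = _
      rw [show e p = (ρ σ).val.det from e2.symm, RingHom.map_det]
      rfl

end Fermat.Agent.DeligneSerre
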