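import Fermat.Agent.DeligneSerre.MainForms

/-!
# Applying a homomorphism to the coefficients of a weight one form
-/

set_option autoImplicit false

noncomputable section

open Complex Filter Topology CongruenceSubgroup ModularForm ModularFormClass
open UpperHalfPlane hiding I
open Fermat.Agent.Integral
open scoped MatrixGroups ModularForm Real Manifold PowerSeries

namespace Fermat.Agent.DeligneSerre

variable {M : ℕ}

/-- A rational echelon basis of the cusp forms on `Γ₀(M)`. -/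
theorem exists_rational_echelon (M : ℕ) [NeZero M] (k : ℤ) :
    ∃ (J : Finset ℕ) (v : ℕ → CuspForm (Gamma0 M) k),
      (∀ f : CuspForm (Gamma0 M) k, f = ∑ j ∈ J, qCoeff f j • v j) ∧
      ∀ j ∈ J, ∀ m, ∃ r : ℚ, (r : ℂ) = qCoeff (v j) m := by
  classical
  obtain ⟨J, v, hJ, hv⟩ := exists_echelon M k
  refine ⟨J, v, fun f => ?_, fun i hi m => exists_rat_eq_of_forall_ringHom fun σ => ?_⟩
  · rw [← sub_eq_zero]
    refine hJ _ fun j hj => ?_
    rw [← coeff_qLin, map_sub, map_sub, map_sum, map_sum,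
      Finset.sum_eq_single_of_mem j hj fun i hi hij => by
        rw [map_smul, PowerSeries.coeff_smul, coeff_qLin, hv i hi j hj, if_neg hij.symm,
          smul_zero],
      map_smul, PowerSeries.coeff_smul, coeff_qLin, coeff_qLin, hv j hj j hj]
    simp
  · obtain ⟨g, hg⟩ := exists_cuspForm_conj σ (v i)
    have hgv : g - v i = 0 := by
      refine hJ _ fun j hj => ?_
      rw [← coeff_qLin, map_sub, map_sub, qLin_apply g, hg, PowerSeries.coeff_map]
      show σ (qCoeff (v i) j) - qCoeff (v i) j = 0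
      rw [hv i hi j hj]
      split_ifs <;> simp
    rw [sub_eq_zero] at hgv
    have h := congrArg (PowerSeries.coeff m) hg
    rw [hgv, PowerSeries.coeff_map] at h
    exact h.symm

/-- A `ℚ`-algebra homomorphism applied to the coefficients of a form on `Γ₀(M)` gives a form. -/
theorem exists_map_cuspForm [NeZero M] {k : ℤ} (R : Subalgebra ℚ ℂ) (θ : R →ₐ[ℚ] ℂ)
    (F : CuspForm (Gamma0 M) k) (hR : ∀ n, qCoeff F n ∈ R) :
    ∃ G : CuspForm (Gamma0 M) k, ∀ n, qCoeff G n = θ ⟨qCoeff F n, hR n⟩ := by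
  classical
  obtain ⟨J, v, hspan, hrat⟩ := exists_rational_echelon M k
  choose! r hr using hrat
  refine ⟨∑ j ∈ J, θ ⟨qCoeff F j, hR j⟩ • v j, fun n => ?_⟩
  have hsum : ∀ a : ℕ → ℂ, qCoeff (⇑(∑ j ∈ J, a j • v j : CuspForm (Gamma0 M) k)) n
      = ∑ j ∈ J, a j * r j n := fun a => by
    rw [← coeff_qLin, map_sum, map_sum]
    refine Finset.sum_congr rfl fun j hj => ?_
    rw [map_smul, PowerSeries.coeff_smul, coeff_qLin, smul_eq_mul, hr j hj]
  rw [hsum]
  have hF : qCoeff F n = ∑ j ∈ J, qCoeff F j * r j n := by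
    conv_lhs => rw [hspan F]
    exact hsum _
  have e : (⟨qCoeff F n, hR n⟩ : R)
      = ∑ j ∈ J, (⟨qCoeff F j, hR j⟩ : R) * algebraMap ℚ R (r j n) := by
    apply Subtype.ext
    rw [AddSubmonoidClass.coe_finsetSum]
    simpa using hF
  rw [e, map_sum]
  exact Finset.sum_congr rfl fun j _ => by rw [map_mul, AlgHom.commutes]; rfl

theorem pow_slash_succ (φ : ℍ → ℂ) (g : SL(2, ℤ)) :
    ∀ d : ℕ, (φ ^ (d + 1)) ∣[((d + 1 : ℕ) : ℤ)] g = (φ ∣[(1 : ℤ)] g) ^ (d + 1)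
  | 0 => by simp
  | d + 1 => by
      rw [pow_succ φ (d + 1), pow_succ _ (d + 1), ← pow_slash_succ φ g d, ← mul_slash_SL2]
      congr 1

theorem isZero_of_pow {φ : ℍ → ℂ} {d : ℕ} (_hd : d ≠ 0) (h : IsZeroAtImInfty (φ ^ d)) :
    IsZeroAtImInfty φ := by
  rw [IsZeroAtImInfty, ZeroAtFilter] at h ⊢
  rw [tendsto_zero_iff_norm_tendsto_zero] at h ⊢
  rw [Metric.tendsto_nhds] at h ⊢
  intro e he
  filter_upwards [h (e ^ d) (pow_pos he d)] with z hz
  simp only [Pi.pow_apply, norm_pow, dist_zero_right, Real.norm_eq_abs, abs_norm] at hz ⊢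
  exact lt_of_pow_lt_pow_left₀ d he.le hz

theorem qExp_mk_eq {φ : ℍ → ℂ} (hφ : φ ∈ nice) {R : Subalgebra ℚ ℂ}
    (hR : ∀ n, qCoeff φ n ∈ R) :
    PowerSeries.map R.val.toRingHom (PowerSeries.mk fun n => (⟨qCoeff φ n, hR n⟩ : R))
      = qExp ⟨φ, hφ⟩ := by
  ext n
  rw [PowerSeries.coeff_map, PowerSeries.coeff_mk]
  rfl

/-- Conjugating a weight one cusp form, given auxiliary forms with the inverse characters. -/
theorem exists_map_nebCusp [NeZero M] (R : Subalgebra ℚ ℂ) (θ : R →ₐ[ℚ] ℂ) (d : ℕ)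
    {c c' : ZMod M → ℂ} (hc : ∀ x : ZMod M, IsUnit x → c x ^ (d + 1) = 1)
    (hc' : ∀ x : ZMod M, IsUnit x → c' x ^ (d + 1) = 1) (hc1 : c 1 = 1) (hc'1 : c' 1 = 1)
    {φ E E' : ℍ → ℂ} (hφ : NebCusp M 1 c φ) (hE : NebForm M 1 (fun x => (c x)⁻¹) E)
    (hE' : NebForm M 1 (fun x => (c' x)⁻¹) E')
    (hφR : ∀ n, qCoeff φ n ∈ R) (hER : ∀ n, qCoeff E n ∈ R)
    (hcoef : ∀ n, qCoeff E' n = θ ⟨qCoeff E n, hER n⟩) (hne : ∃ n, qCoeff E' n ≠ 0) :
    ∃ g : ℍ → ℂ, NebCusp M 1 c' g ∧ ∀ n, qCoeff g n = θ ⟨qCoeff φ n, hφR n⟩ := by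
  classical
  have hunit : ∀ x : ZMod M, IsUnit x → c x ≠ 0 := fun x hx h => by
    have := hc x hx
    rw [h, zero_pow (Nat.succ_ne_zero d)] at this
    exact zero_ne_one this
  have hunit' : ∀ x : ZMod M, IsUnit x → c' x ≠ 0 := fun x hx h => by
    have := hc' x hx
    rw [h, zero_pow (Nat.succ_ne_zero d)] at this
    exact zero_ne_one this
  have hφn : φ ∈ nice := hφ.toNebForm.mem_nice hc1
  have hEn : E ∈ nice := hE.mem_nice (by simp [hc1])
  have hE'n : E' ∈ nice := hE'.mem_nice (by simp [hc'1])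
  let P : PowerSeries R := PowerSeries.mk fun n => ⟨qCoeff φ n, hφR n⟩
  let Q : PowerSeries R := PowerSeries.mk fun n => ⟨qCoeff E n, hER n⟩
  let v : PowerSeries R →+* PowerSeries ℂ := PowerSeries.map R.val.toRingHom
  let t : PowerSeries R →+* PowerSeries ℂ := PowerSeries.map θ.toRingHom
  have hQ' : t Q = qExp ⟨E', hE'n⟩ := by
    ext n
    rw [PowerSeries.coeff_map, PowerSeries.coeff_mk]
    exact (hcoef n).symm
  have hQ'0 : qExp ⟨E', hE'n⟩ ≠ 0 := fun h => by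
    obtain ⟨n, hn⟩ := hne
    exact hn (congrArg (PowerSeries.coeff n) h)
  -- the product with the auxiliary form
  obtain ⟨h, hh⟩ := ((hφ.mul hE).congr (fun x hx => mul_inv_cancel₀ (hunit x hx))
    |>.weight (show (1 : ℤ) + 1 = 2 by norm_num)).exists_cuspForm_gamma0 (fun _ _ => rfl)
  -- the power
  obtain ⟨F, hF⟩ := ((hφ.pow d).congr hc).exists_cuspForm_gamma0 (fun _ _ => rfl)
  have hhP : qExp ⟨⇑h, cuspForm_mem_nice h⟩ = v (P * Q) := by
    rw [show (⟨⇑h, cuspForm_mem_nice h⟩ : nice) = ⟨φ, hφn⟩ * ⟨E, hEn⟩ from Subtype.ext hh,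
      map_mul, map_mul, qExp_mk_eq hφn hφR, qExp_mk_eq hEn hER]
  have hFP : qExp ⟨⇑F, cuspForm_mem_nice F⟩ = v (P ^ (d + 1)) := by
    rw [show (⟨⇑F, cuspForm_mem_nice F⟩ : nice) = (⟨φ, hφn⟩ : nice) ^ (d + 1) from Subtype.ext hF,
      map_pow, map_pow, qExp_mk_eq hφn hφR]
  have hmem : ∀ (S : PowerSeries R) (f : ℍ → ℂ) (hf : f ∈ nice), qExp ⟨f, hf⟩ = v S →
      ∀ n, qCoeff f n ∈ R ∧ ∀ hn : qCoeff f n ∈ R, θ ⟨qCoeff f n, hn⟩ = (t S).coeff n := by
    intro S f hf he n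
    have e : qCoeff f n = ((S.coeff n : R) : ℂ) := by
      have := congrArg (PowerSeries.coeff n) he
      rw [PowerSeries.coeff_map] at this
      exact this
    refine ⟨e ▸ (S.coeff n).2, fun hn => ?_⟩
    rw [PowerSeries.coeff_map]
    exact congrArg θ (Subtype.ext e)
  obtain ⟨H, hH⟩ := exists_map_cuspForm R θ h fun n => (hmem _ _ _ hhP n).1
  obtain ⟨G, hG⟩ := exists_map_cuspForm R θ F fun n => (hmem _ _ _ hFP n).1
  have hHn : (⇑H : ℍ → ℂ) ∈ nice := cuspForm_mem_nice H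
  have hGn : (⇑G : ℍ → ℂ) ∈ nice := cuspForm_mem_nice G
  have hHq : qExp ⟨⇑H, hHn⟩ = t P * qExp ⟨E', hE'n⟩ := by
    rw [← hQ', ← map_mul]
    ext n
    exact (hH n).trans ((hmem _ _ _ hhP n).2 _)
  have hGq : qExp ⟨⇑G, hGn⟩ = t P ^ (d + 1) := by
    rw [← map_pow]
    ext n
    exact (hG n).trans ((hmem _ _ _ hFP n).2 _)
  have hrelN : (⟨⇑H, hHn⟩ : nice) ^ (d + 1) = ⟨⇑G, hGn⟩ * (⟨E', hE'n⟩ : nice) ^ (d + 1) := by
    apply qExp_injective
    rw [map_pow, map_mul, map_pow, hHq, hGq, mul_pow]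
  have hrel : ∀ z, H z ^ (d + 1) = G z * E' z ^ (d + 1) := fun z => by
    have := congrArg (fun f : nice => (f : ℍ → ℂ) z) hrelN
    simpa using this
  have hE'0 : E' ≠ 0 := fun h0 => hQ'0 (by
    rw [show (⟨E', hE'n⟩ : nice) = 0 from Subtype.ext h0, map_zero])
  obtain ⟨g, hgd, hgE⟩ := exists_mdifferentiable_quotient (n := d + 1) (Nat.succ_pos d)
    (c := fun i => if i = 0 then -⇑G else 0) (CuspFormClass.holo H) hE'.holo (fun i => by
      split_ifs
      · exact (CuspFormClass.holo G).neg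
      · exact mdifferentiable_const) hE'0 (fun z => by
      rw [Finset.sum_eq_single_of_mem 0 (by simp) fun i _ hi => by simp [hi]]
      simp [hrel z])
  have cancel : ∀ e : ℍ → ℂ, MDiff e → (∀ z, e z * E' z = 0) → e = 0 := fun e he h0 =>
    ((UpperHalfPlane.mul_eq_zero_iff he hE'.holo).mp (funext h0)).resolve_right hE'0
  have hgG : g ^ (d + 1) = ⇑G := by
    rw [← sub_eq_zero]
    refine cancel _ ((hgd.pow _).sub (CuspFormClass.holo G)) fun z => ?_
    by_cases hz : E' z = 0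
    · rw [hz, mul_zero]
    · have h1 : g z ^ (d + 1) * E' z ^ (d + 1) = G z * E' z ^ (d + 1) := by
        rw [← mul_pow, hgE z, hrel z]
      have h2 := mul_right_cancel₀ (pow_ne_zero _ hz) h1
      simp [h2]
  have hinv : ∀ γ : SL(2, ℤ), γ ∈ Gamma0 M →
      g ∣[(1 : ℤ)] γ = c' ((γ 1 1 : ℤ) : ZMod M) • g := by
    intro γ hγ
    rw [← sub_eq_zero]
    refine cancel _ ((hgd.slash _ _).sub (hgd.const_smul _)) fun z => ?_
    have hHinv : (⇑H) ∣[(2 : ℤ)] γ = ⇑H :=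
      SlashInvariantFormClass.slash_action_eq H _ ⟨γ, hγ, rfl⟩
    rw [← show g * E' = ⇑H from funext hgE, show (2 : ℤ) = 1 + 1 by norm_num,
      mul_slash_SL2, hE'.neb γ hγ] at hHinv
    have hz := congrFun hHinv z
    simp only [Pi.mul_apply, Pi.smul_apply, smul_eq_mul] at hz
    have hu := hunit' _ (isUnit_lowerRight hγ)
    simp only [Pi.sub_apply, Pi.smul_apply, smul_eq_mul]
    field_simp at hz
    linear_combination hz
  have hzero : ∀ γ : SL(2, ℤ), IsZeroAtImInfty (g ∣[(1 : ℤ)] γ) := fun γ => by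
    refine isZero_of_pow (Nat.succ_ne_zero d) ?_
    rw [← pow_slash_succ, hgG]
    exact cuspForm_slash_isZeroAtImInfty G γ
  have hgc : NebCusp M 1 c' g := ⟨⟨hinv, hgd, fun γ => (hzero γ).isBoundedAtImInfty⟩, hzero⟩
  have hgn : g ∈ nice := hgc.toNebForm.mem_nice hc'1
  have hgq : qExp ⟨g, hgn⟩ = t P := by
    refine mul_right_cancel₀ hQ'0 ?_
    rw [← hHq, ← map_mul]
    exact congrArg qExp (Subtype.ext (funext hgE))
  refine ⟨g, hgc, fun n => ?_⟩
  have e := congrArg (PowerSeries.coeff n) hgq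
  rw [PowerSeries.coeff_map, PowerSeries.coeff_mk] at e
  exact e

end Fermat.Agent.DeligneSerre
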