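import Fermat.Agent.DeligneSerre.MainNebentypus
import Fermat.Agent.DeligneSerre.GroupMain

/-!
# Rankin's bound

For a weight one cusp form on `Γ₁(M)` satisfying the Hecke relations,
`∑ ‖a_p‖² p^(-s) ≤ log (1/(s-1)) + O(1)` for `1 < s ≤ 2`.
-/

set_option autoImplicit false

noncomputable section

open Complex Filter Topology CongruenceSubgroup ModularFormClass
open UpperHalfPlane hiding I
open scoped MatrixGroups ModularForm Real Manifold ComplexConjugate

namespace Fermat.Agent.DeligneSerre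

/-! ### Mean square of the coefficients -/

theorem integral_exp_int {k : ℤ} (hk : k ≠ 0) :
    ∫ u in (0 : ℝ)..1, Complex.exp ((2 * π * I * k) * u) = 0 := by
  rw [integral_exp_mul_complex
    (mul_ne_zero two_pi_I_ne_zero (Int.cast_ne_zero.mpr hk))]
  have : Complex.exp (2 * π * I * k) = 1 := Complex.exp_eq_one_iff.mpr ⟨k, by ring⟩
  simp [this]

theorem coe_point (u : ℝ) {y : ℝ} (hy : 0 < y) :
    ((⟨(u : ℂ) + y * I, by simpa using hy⟩ : ℍ) : ℂ) = u + y * I := rfl

theorem sum_sq_coeff_le {M : ℕ} [NeZero M] (f : CuspForm (Gamma1 M) 1) :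
    ∃ C : ℝ, 1 ≤ C ∧ ∀ X : ℕ, 1 ≤ X →
      ∑ n ∈ Finset.range (X + 1), ‖qCoeff f n‖ ^ 2 ≤ C * X := by
  obtain ⟨C, hC⟩ := CuspFormClass.exists_bound f
  refine ⟨max 1 (C ^ 2 * Real.exp (4 * π)), le_max_left _ _, fun X hX => ?_⟩
  set y : ℝ := (X : ℝ)⁻¹
  have hXR : (0 : ℝ) < X := by exact_mod_cast hX
  have hy : 0 < y := inv_pos.mpr hXR
  set P : ℝ → ℍ := fun u => ⟨(u : ℂ) + y * I, by simpa using hy⟩
  set F : ℝ → ℂ := fun u => f (P u)
  set e : ℕ → ℝ → ℂ := fun n u => Function.Periodic.qParam 1 ((u : ℂ) + y * I) ^ n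
  set a : ℕ → ℂ := fun n => qCoeff f n
  set S := Finset.range (X + 1)
  set G : ℝ → ℂ := fun u => ∑ n ∈ S, a n * e n u
  have he : ∀ n u, e n u = (Real.exp (-(2 * π) * n * y) : ℝ) * Complex.exp ((2 * π * I * (n : ℤ)) * u) := by
    intro n u
    simp only [e, Function.Periodic.qParam, ← Complex.exp_nat_mul, Complex.ofReal_exp,
      ← Complex.exp_add]
    congr 1
    push_cast
    linear_combination (2 * (π : ℂ) * n * y) * Complex.I_sq
  have hconj : ∀ n u, conj (e n u)
      = (Real.exp (-(2 * π) * n * y) : ℝ) * Complex.exp (-((2 * π * I * (n : ℤ)) * u)) := by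
    intro n u
    rw [he, map_mul, Complex.conj_ofReal, ← Complex.exp_conj]
    congr 2
    simp [map_ofNat]
  set w : ℕ → ℝ := fun n => Real.exp (-(2 * π) * n * y) ^ 2
  have hFc : Continuous F := (CuspFormClass.holo f).continuous.comp (by
    refine UpperHalfPlane.isEmbedding_coe.continuous_iff.mpr ?_
    simp only [Function.comp_def, P]
    fun_prop)
  have hec : ∀ n, Continuous (e n) := fun n => by
    simp only [e, Function.Periodic.qParam]
    fun_prop
  have horth : ∀ m n, ∫ u in (0 : ℝ)..1, conj (e m u) * e n u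
      = if m = n then (w n : ℂ) else 0 := by
    intro m n
    have h : ∀ u : ℝ, conj (e m u) * e n u = (Real.exp (-(2 * π) * m * y) : ℝ)
        * (Real.exp (-(2 * π) * n * y) : ℝ)
        * Complex.exp ((2 * π * I * ((n : ℤ) - m : ℤ)) * u) := by
      intro u
      rw [hconj, he, mul_mul_mul_comm, ← Complex.exp_add]
      congr 2
      push_cast
      ring
    simp only [h, intervalIntegral.integral_const_mul]
    split_ifs with hmn
    · subst hmn
      simp [w, sq]
    · rw [integral_exp_int (by omega), mul_zero]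
  have hcoef : ∀ n, ∫ u in (0 : ℝ)..1, conj (e n u) * F u = (w n : ℂ) * a n := by
    intro n
    have h := ModularFormClass.qExpansion_coeff_eq_intervalIntegral f one_pos
      (one_mem_strictPeriods_Gamma1 M) n hy
    have hw0 : (w n : ℂ) ≠ 0 := by simp [w]
    simp only [Complex.ofReal_one, one_div, inv_one, one_mul] at h
    show _ = (w n : ℂ) * (qExpansion 1 f).coeff n
    rw [h, ← intervalIntegral.integral_const_mul]
    refine intervalIntegral.integral_congr fun u _ => ?_
    have hne : e n u ≠ 0 := pow_ne_zero _ (Complex.exp_ne_zero _)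
    have hprod : conj (e n u) * e n u = (w n : ℂ) := by
      rw [hconj, he, mul_mul_mul_comm, ← Complex.exp_add, neg_add_cancel, Complex.exp_zero,
        mul_one]
      simp [w, sq]
    show conj (e n u) * F u = (w n : ℂ) * ((e n u)⁻¹ * F u)
    rw [← hprod]
    field_simp
  set A : ℝ := ∑ n ∈ S, ‖a n‖ ^ 2 * w n
  have hGF : ∫ u in (0 : ℝ)..1, conj (G u) * F u = (A : ℂ) := by
    simp only [G, map_sum, map_mul, Finset.sum_mul, mul_assoc]
    rw [intervalIntegral.integral_finsetSum (f := fun n u => conj (a n) * (conj (e n u) * F u))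
      fun n _ =>
      ((continuous_const.mul ((Complex.continuous_conj.comp (hec n)).mul hFc))).intervalIntegrable
        _ _]
    simp only [A, Complex.ofReal_sum, intervalIntegral.integral_const_mul, hcoef]
    refine Finset.sum_congr rfl fun n _ => ?_
    push_cast
    rw [← Complex.mul_conj']
    ring
  have hGe : ∀ n ∈ S, ∫ u in (0 : ℝ)..1, conj (G u) * e n u = conj (a n) * (w n : ℂ) := by
    intro n hn
    simp only [G, map_sum, map_mul, Finset.sum_mul, mul_assoc]
    rw [intervalIntegral.integral_finsetSum (f := fun m u => conj (a m) * (conj (e m u) * e n u))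
      fun m _ =>
      ((continuous_const.mul ((Complex.continuous_conj.comp (hec m)).mul (hec n)))).intervalIntegrable
        _ _]
    simp only [intervalIntegral.integral_const_mul, horth, mul_ite, mul_zero]
    rw [Finset.sum_ite_eq' S n, if_pos hn]
  have hGc : Continuous G := continuous_finsetSum _ fun n _ => continuous_const.mul (hec n)
  have hGG : ∫ u in (0 : ℝ)..1, conj (G u) * G u = (A : ℂ) := by
    conv_lhs => arg 1; ext u; arg 2; simp only [G]
    simp only [Finset.mul_sum]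
    rw [intervalIntegral.integral_finsetSum (f := fun n u => conj (G u) * (a n * e n u))
      fun n _ =>
      (((Complex.continuous_conj.comp hGc)).mul (continuous_const.mul (hec n))).intervalIntegrable
        _ _]
    simp only [mul_left_comm _ (a _), intervalIntegral.integral_const_mul, A, Complex.ofReal_sum]
    refine Finset.sum_congr rfl fun n hn => ?_
    rw [hGe n hn]
    push_cast
    rw [← Complex.mul_conj']
    ring
  have hFG : ∫ u in (0 : ℝ)..1, conj (F u) * G u = (A : ℂ) := by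
    have e1 : ∀ u, conj (F u) * G u = conj (conj (G u) * F u) := fun u => by
      rw [map_mul, Complex.conj_conj, mul_comm]
    simp only [e1, intervalIntegral.intervalIntegral_eq_integral_uIoc] at hGF ⊢
    simp only [zero_le_one, if_true, one_smul] at hGF ⊢
    rw [integral_conj, hGF, Complex.conj_ofReal]
  have hFF : (A : ℝ) ≤ ∫ u in (0 : ℝ)..1, ‖F u‖ ^ 2 := by
    have h0 : 0 ≤ ∫ u in (0 : ℝ)..1, ‖F u - G u‖ ^ 2 :=
      intervalIntegral.integral_nonneg zero_le_one fun u _ => by positivity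
    have e1 : ((∫ u in (0 : ℝ)..1, ‖F u - G u‖ ^ 2 : ℝ) : ℂ)
        = ((∫ u in (0 : ℝ)..1, ‖F u‖ ^ 2 : ℝ) : ℂ) - A := by
      have i1 : IntervalIntegrable (fun u => conj (F u) * F u) MeasureTheory.volume 0 1 :=
        ((Complex.continuous_conj.comp hFc).mul hFc).intervalIntegrable _ _
      have i2 : IntervalIntegrable (fun u => conj (G u) * F u) MeasureTheory.volume 0 1 :=
        ((Complex.continuous_conj.comp hGc).mul hFc).intervalIntegrable _ _
      have i3 : IntervalIntegrable (fun u => conj (F u) * G u) MeasureTheory.volume 0 1 :=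
        ((Complex.continuous_conj.comp hFc).mul hGc).intervalIntegrable _ _
      have i4 : IntervalIntegrable (fun u => conj (G u) * G u) MeasureTheory.volume 0 1 :=
        ((Complex.continuous_conj.comp hGc).mul hGc).intervalIntegrable _ _
      rw [← intervalIntegral.integral_ofReal, ← intervalIntegral.integral_ofReal]
      push_cast
      simp only [← Complex.conj_mul', map_sub, sub_mul, mul_sub]
      rw [intervalIntegral.integral_sub (i1.sub i2) (i3.sub i4),
        intervalIntegral.integral_sub i1 i2, intervalIntegral.integral_sub i3 i4, hGF, hFG, hGG]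
      ring
    have e2 : ∫ u in (0 : ℝ)..1, ‖F u - G u‖ ^ 2 = (∫ u in (0 : ℝ)..1, ‖F u‖ ^ 2) - A := by
      exact_mod_cast e1
    linarith
  have hB : ∫ u in (0 : ℝ)..1, ‖F u‖ ^ 2 ≤ C ^ 2 * X := by
    have hle : ∀ u ∈ Set.Icc (0 : ℝ) 1, ‖F u‖ ^ 2 ≤ C ^ 2 * X := by
      intro u _
      have h := hC (P u)
      have him : (P u).im = y := by simp [P, ← UpperHalfPlane.coe_im]
      rw [him] at h
      have h2 : ‖F u‖ ^ 2 ≤ (C / y ^ ((1 : ℤ) / 2 : ℝ)) ^ 2 :=
        pow_le_pow_left₀ (norm_nonneg _) h 2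
      refine h2.trans_eq ?_
      rw [div_pow, ← Real.rpow_natCast (y ^ ((1 : ℤ) / 2 : ℝ)), ← Real.rpow_mul hy.le]
      norm_num [y, div_eq_mul_inv]
    have := intervalIntegral.integral_mono_on (μ := MeasureTheory.volume) zero_le_one
      ((hFc.norm.pow 2).intervalIntegrable _ _) _root_.intervalIntegrable_const hle
    simpa using this
  have hw : ∀ n ∈ S, ‖a n‖ ^ 2 * Real.exp (-(4 * π)) ≤ ‖a n‖ ^ 2 * w n := by
    intro n hn
    refine mul_le_mul_of_nonneg_left ?_ (by positivity)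
    simp only [w, ← Real.exp_nat_mul]
    refine Real.exp_le_exp.mpr ?_
    have : (n : ℝ) * y ≤ 1 := by
      rw [show y = (X : ℝ)⁻¹ from rfl, mul_inv_le_iff₀ hXR, one_mul]
      exact_mod_cast Nat.lt_succ_iff.mp (Finset.mem_range.mp hn)
    push_cast
    nlinarith [Real.pi_pos]
  have hfin : (∑ n ∈ S, ‖a n‖ ^ 2) * Real.exp (-(4 * π)) ≤ C ^ 2 * X := by
    rw [Finset.sum_mul]
    exact (Finset.sum_le_sum hw).trans (hFF.trans hB)
  rw [Real.exp_neg, mul_inv_le_iff₀ (Real.exp_pos _)] at hfin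
  calc _ ≤ C ^ 2 * X * Real.exp (4 * π) := hfin
    _ = C ^ 2 * Real.exp (4 * π) * X := by ring
    _ ≤ _ := mul_le_mul_of_nonneg_right (le_max_right _ _) hXR.le

/-- Dyadic summation. -/
theorem sum_mul_rpow_le {b : ℕ → ℝ} (hb : ∀ n, 0 ≤ b n) {C : ℝ} (hC : 0 ≤ C)
    (hsum : ∀ X : ℕ, 1 ≤ X → ∑ n ∈ Finset.range (X + 1), b n ≤ C * X) {s : ℝ} (hs : 1 < s)
    (hs2 : s ≤ 2) (S : Finset ℕ) (hS : ∀ n ∈ S, 1 ≤ n) :
    ∑ n ∈ S, b n * (n : ℝ) ^ (-s) ≤ 4 * C / (s - 1) := by
  classical
  obtain ⟨K, hK⟩ : ∃ K, ∀ n ∈ S, Nat.log 2 n < K :=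
    ⟨S.sup (fun n => Nat.log 2 n) + 1, fun n hn =>
      Nat.lt_succ_of_le (Finset.le_sup (f := fun n => Nat.log 2 n) hn)⟩
  set r : ℝ := (1 / 2) ^ (s - 1)
  have hr0 : 0 ≤ r := by positivity
  have hr1 : r ≤ 1 - (s - 1) / 2 := by
    have := rpow_one_add_le_one_add_mul_self (s := (-1 / 2 : ℝ)) (by norm_num)
      (p := s - 1) (by linarith) (by linarith)
    norm_num at this ⊢
    linarith
  rw [← Finset.sum_fiberwise_of_maps_to (g := fun n => Nat.log 2 n) (t := Finset.range K)
    (fun n hn => Finset.mem_range.mpr (hK n hn))]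
  have hfib : ∀ k ∈ Finset.range K,
      ∑ n ∈ S.filter (fun n => Nat.log 2 n = k), b n * (n : ℝ) ^ (-s) ≤ 2 * C * r ^ k := by
    intro k _
    have h1 : ∀ n ∈ S.filter (fun n => Nat.log 2 n = k),
        b n * (n : ℝ) ^ (-s) ≤ b n * ((2 : ℝ) ^ k) ^ (-s) := by
      intro n hn
      rw [Finset.mem_filter] at hn
      refine mul_le_mul_of_nonneg_left ?_ (hb n)
      refine Real.rpow_le_rpow_of_nonpos (by positivity) ?_ (by linarith)
      have h := Nat.pow_log_le_self 2 (x := n) (by have := hS n hn.1; omega)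
      rw [hn.2] at h
      exact_mod_cast h
    have h2 : ∑ n ∈ S.filter (fun n => Nat.log 2 n = k), b n ≤ C * ((2 : ℝ) ^ (k + 1)) := by
      refine le_trans (Finset.sum_le_sum_of_subset_of_nonneg
        (t := Finset.range (2 ^ (k + 1) + 1)) ?_ fun n _ _ => hb n) ?_
      · intro n hn
        rw [Finset.mem_filter] at hn
        rw [Finset.mem_range]
        have := Nat.lt_pow_succ_log_self (b := 2) (by norm_num) n
        rw [hn.2] at this
        omega
      · have := hsum (2 ^ (k + 1)) Nat.one_le_two_pow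
        simpa using this
    calc ∑ n ∈ S.filter (fun n => Nat.log 2 n = k), b n * (n : ℝ) ^ (-s)
        ≤ ∑ n ∈ S.filter (fun n => Nat.log 2 n = k), b n * ((2 : ℝ) ^ k) ^ (-s) :=
          Finset.sum_le_sum h1
      _ ≤ C * (2 : ℝ) ^ (k + 1) * ((2 : ℝ) ^ k) ^ (-s) := by
          rw [← Finset.sum_mul]; exact mul_le_mul_of_nonneg_right h2 (by positivity)
      _ = 2 * C * r ^ k := by
          have e : (2 : ℝ) ^ k * ((2 : ℝ) ^ k) ^ (-s) = r ^ k := by
            rw [← Real.rpow_pow_comm (by norm_num), ← mul_pow]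
            congr 1
            rw [show r = ((2 : ℝ)⁻¹) ^ (s - 1) by simp [r], Real.inv_rpow (by norm_num),
              ← Real.rpow_neg (by norm_num), show -(s - 1) = 1 + -s by ring,
              Real.rpow_add (by norm_num : (0:ℝ) < 2), Real.rpow_one]
          linear_combination (2 * C) * e
  refine (Finset.sum_le_sum hfib).trans ?_
  rw [← Finset.mul_sum]
  have hgeo : ∑ k ∈ Finset.range K, r ^ k ≤ 1 / (1 - r) := by
    rw [one_div, ← tsum_geometric_of_lt_one hr0 (by linarith)]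
    exact (summable_geometric_of_lt_one hr0 (by linarith)).sum_le_tsum _ fun k _ => by positivity
  calc 2 * C * ∑ k ∈ Finset.range K, r ^ k ≤ 2 * C * (1 / (1 - r)) := by gcongr
    _ ≤ 2 * C * (1 / ((s - 1) / 2)) := by
        refine mul_le_mul_of_nonneg_left ?_ (by linarith)
        exact one_div_le_one_div_of_le (by linarith) (by linarith)
    _ = _ := by field_simp; ring

/-! ### The local factor -/

/-- The sequence `c₀ = 1, c₁ = a, c_{m+2} = a c_{m+1} - e c_m`. -/
structure IsLocalSeq (a e : ℂ) (c : ℕ → ℂ) : Prop where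
  zero : c 0 = 1
  one : c 1 = a
  rec_eq : ∀ m, c (m + 2) = a * c (m + 1) - e * c m

theorem localFactor_identity {a e : ℂ} {c : ℕ → ℂ} (hc : IsLocalSeq a e c) (he : ‖e‖ = 1)
    {x : ℝ} (hx : 0 < x) (hsum : Summable fun m => ‖c m‖ ^ 2 * x ^ m) :
    (∑' m, ‖c m‖ ^ 2 * x ^ m : ℝ) *
      (1 - a * conj a * x + (a ^ 2 * conj e + conj a ^ 2 * e - 2) * x ^ 2
        - a * conj a * x ^ 3 + (x : ℂ) ^ 4) = 1 - (x : ℂ) ^ 2 := by
  set A : ℕ → ℂ := fun m => c m * conj (c m) * x ^ m
  set B : ℕ → ℂ := fun m => c (m + 1) * conj (c m) * x ^ m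
  have hA : Summable A := by
    refine Summable.of_norm (hsum.congr fun m => ?_)
    simp [A, abs_of_pos hx, sq]
  have hB : Summable B := by
    refine Summable.of_norm_bounded
      (g := fun m => ‖c (m + 1)‖ ^ 2 * x ^ (m + 1) * x⁻¹ + ‖c m‖ ^ 2 * x ^ m) ?_ fun m => ?_
    · exact (((summable_nat_add_iff 1).mpr hsum).mul_right x⁻¹).add hsum
    · simp only [B, norm_mul, Complex.norm_conj, norm_pow, Complex.norm_real, Real.norm_eq_abs,
        abs_of_pos hx]
      have e1 : ‖c (m + 1)‖ ^ 2 * x ^ (m + 1) * x⁻¹ = ‖c (m + 1)‖ ^ 2 * x ^ m := by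
        field_simp; ring
      rw [e1, ← add_mul]
      refine mul_le_mul_of_nonneg_right ?_ (by positivity)
      nlinarith [sq_nonneg (‖c (m + 1)‖ - ‖c m‖), norm_nonneg (c m), norm_nonneg (c (m + 1))]
  have he' : e * conj e = 1 := by rw [Complex.mul_conj', he]; simp
  have hBc : Summable fun m => conj (B m) := hB.map (starRingEnd ℂ) Complex.continuous_conj
  set S : ℂ := ∑' m, A m
  set T : ℂ := ∑' m, B m
  have hTc : conj T = ∑' m, conj (B m) := hB.map_tsum (starRingEnd ℂ) Complex.continuous_conj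
  have hS : ((∑' m, ‖c m‖ ^ 2 * x ^ m : ℝ) : ℂ) = S := by
    rw [Complex.ofReal_tsum]
    exact tsum_congr fun m => by simp [A, Complex.mul_conj']
  have hA1 : ∑' m, A (m + 1) = S - 1 := by
    have h := hA.tsum_eq_zero_add
    simp only [A, hc.zero, map_one, one_mul, pow_zero] at h ⊢
    linear_combination -h
  have eT : T = a * S - e * x * conj T := by
    have h := hB.tsum_eq_zero_add
    have hstep : ∀ m, B (m + 1) = a * A (m + 1) - e * x * conj (B m) := fun m => by
      simp only [A, B, map_mul, Complex.conj_conj, map_pow, Complex.conj_ofReal,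
        show m + 1 + 1 = m + 2 from rfl, hc.rec_eq]
      ring
    rw [tsum_congr hstep, (((summable_nat_add_iff 1).mpr hA).mul_left a).tsum_sub
      (hBc.mul_left _), tsum_mul_left, tsum_mul_left, hA1, ← hTc] at h
    simp only [B, hc.zero, hc.one, map_one, zero_add, pow_zero, mul_one] at h
    linear_combination h
  have eS : S = 1 + a * conj a * x * S
      - x ^ 2 * (a * conj e * T + conj a * e * conj T) + x ^ 2 * S := by
    have h := hA.tsum_eq_zero_add
    have h2 := ((summable_nat_add_iff 1).mpr hA).tsum_eq_zero_add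
    have hstep : ∀ m, A (m + 1 + 1) = a * conj a * x * A (m + 1)
        - (a * conj e * x ^ 2 * B m + conj a * e * x ^ 2 * conj (B m)) + x ^ 2 * A m := fun m => by
      simp only [A, B, map_mul, Complex.conj_conj, map_pow, Complex.conj_ofReal, map_sub,
        show m + 1 + 1 = m + 2 from rfl, hc.rec_eq]
      linear_combination (c m * conj (c m) * (x : ℂ) ^ (m + 2)) * he'
    have s1 : Summable fun m => a * conj a * x * A (m + 1) :=
      ((summable_nat_add_iff 1).mpr hA).mul_left _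
    have s2 : Summable fun m => a * conj e * x ^ 2 * B m + conj a * e * x ^ 2 * conj (B m) :=
      (hB.mul_left _).add (hBc.mul_left _)
    rw [tsum_congr hstep, (s1.sub s2).tsum_add (hA.mul_left _), s1.tsum_sub s2,
      (hB.mul_left _).tsum_add (hBc.mul_left _), tsum_mul_left, tsum_mul_left, tsum_mul_left,
      tsum_mul_left, hA1, ← hTc] at h2
    rw [show ∑' m, B m = T from rfl, show ∑' m, A m = S from rfl] at h2
    simp only [A, hc.one, zero_add, pow_one] at h2
    linear_combination h2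
  have eT' : conj T = conj a * S - conj e * x * T := by
    have h := congrArg conj eT
    rwa [map_sub, map_mul, map_mul, map_mul, Complex.conj_conj, Complex.conj_ofReal,
      show conj S = S by rw [← hS, Complex.conj_ofReal]] at h
  have eT2 : T * (1 - x ^ 2) = a * S - e * x * conj a * S := by
    linear_combination eT - (e * (x : ℂ)) * eT' + (x : ℂ) ^ 2 * T * he'
  have eT3 : conj T * (1 - x ^ 2) = conj a * S - conj e * x * a * S := by
    linear_combination eT' - (conj e * (x : ℂ)) * eT + (x : ℂ) ^ 2 * conj T * he'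
  rw [hS]
  linear_combination (1 - (x : ℂ) ^ 2) * eS - (x : ℂ) ^ 2 * a * conj e * eT2
    - (x : ℂ) ^ 2 * conj a * e * eT3 + (2 * a * conj a * S * (x : ℂ) ^ 3) * he'

theorem localFactor_bound {a e : ℂ} {c : ℕ → ℂ} (hc : IsLocalSeq a e c) (he : ‖e‖ = 1)
    {x : ℝ} (hx : 0 < x) (hx1 : x < 1) (hsum : Summable fun m => ‖c m‖ ^ 2 * x ^ m) :
    (1 - x ^ 2) * Real.exp (‖a‖ ^ 2 * x) ≤ ∑' m, ‖c m‖ ^ 2 * x ^ m := by
  obtain ⟨t, ht⟩ := IsAlgClosed.exists_pow_nat_eq (a ^ 2 - 4 * e) two_pos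
  set α : ℂ := (a + t) / 2
  set β : ℂ := (a - t) / 2
  have hab : α + β = a := by simp [α, β]; ring
  have habe : α * β = e := by simp only [α, β]; linear_combination (-1 / 4 : ℂ) * ht
  have hnab : ‖α‖ * ‖β‖ = 1 := by rw [← norm_mul, habe, he]
  set Q : ℝ → ℂ := fun v => (1 - α * conj α * v) * (1 - α * conj β * v)
    * (1 - β * conj α * v) * (1 - β * conj β * v)
  have he' : e * conj e = 1 := by rw [Complex.mul_conj', he]; simp
  have hQ : ∀ v : ℝ, Q v = 1 - a * conj a * v + (a ^ 2 * conj e + conj a ^ 2 * e - 2) * v ^ 2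
      - a * conj a * v ^ 3 + (v : ℂ) ^ 4 := by
    intro v
    have h4 : e * conj e = 1 := he'
    simp only [Q, ← hab, ← habe, map_add, map_mul] at h4 ⊢
    linear_combination (-2 * (v : ℂ) ^ 2 + (v : ℂ) ^ 4 * (α * β * (conj α * conj β) + 1)
      - (v : ℂ) ^ 3 * (α + β) * (conj α + conj β)) * h4
  have key : ∀ v : ℝ, 0 < v → v ≤ x →
      ((∑' m, ‖c m‖ ^ 2 * v ^ m : ℝ) : ℂ) * Q v = 1 - (v : ℂ) ^ 2 := by
    intro v hv hvx
    rw [hQ]
    refine localFactor_identity hc he hv (hsum.of_nonneg_of_le (fun m => by positivity) fun m => ?_)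
    exact mul_le_mul_of_nonneg_left (pow_le_pow_left₀ hv.le hvx m) (by positivity)
  have hQne : ∀ v : ℝ, 0 < v → v ≤ x → Q v ≠ 0 := by
    intro v hv hvx h
    have := key v hv hvx
    rw [h, mul_zero] at this
    have h2 : (v : ℝ) ^ 2 = 1 := by exact_mod_cast (sub_eq_zero.mp this.symm).symm
    nlinarith
  have hlt : ∀ γ : ℂ, (∀ v : ℝ, 1 - γ * conj γ * v = 0 → Q v = 0) → ‖γ‖ ^ 2 * x < 1 := by
    intro γ hγ
    by_contra hcon
    have hpos : 0 < ‖γ‖ ^ 2 := by
      by_contra h0
      have : ‖γ‖ ^ 2 * x ≤ 0 := mul_nonpos_of_nonpos_of_nonneg (not_lt.mp h0) hx.le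
      linarith [not_lt.mp hcon]
    refine hQne (1 / ‖γ‖ ^ 2) (by positivity) ?_ (hγ _ ?_)
    · rw [div_le_iff₀ hpos]; linarith [not_lt.mp hcon]
    · rw [Complex.mul_conj']
      have hn : (‖γ‖ : ℂ) ^ 2 ≠ 0 := by exact_mod_cast hpos.ne'
      push_cast
      rw [mul_one_div, div_self hn, sub_self]
  have hα : ‖α‖ ^ 2 * x < 1 := hlt α fun v h => by simp [Q, h]
  have hβ : ‖β‖ ^ 2 * x < 1 := hlt β fun v h => by simp [Q, h]
  have h1 : ‖α * conj α * (x : ℂ)‖ < 1 := by
    simpa [abs_of_pos hx, sq] using hα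
  have h2 : ‖α * conj β * (x : ℂ)‖ < 1 := by
    simp only [norm_mul, Complex.norm_conj, hnab, Complex.norm_real, Real.norm_eq_abs,
      abs_of_pos hx, one_mul]
    exact hx1
  have h3 : ‖β * conj α * (x : ℂ)‖ < 1 := by
    simp only [norm_mul, Complex.norm_conj, mul_comm ‖β‖, hnab, Complex.norm_real,
      Real.norm_eq_abs, abs_of_pos hx, one_mul]
    exact hx1
  have h4 : ‖β * conj β * (x : ℂ)‖ < 1 := by
    simpa [abs_of_pos hx, sq] using hβ
  have hs := (((Complex.hasSum_taylorSeries_neg_log h1).add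
    (Complex.hasSum_taylorSeries_neg_log h2)).add
    (Complex.hasSum_taylorSeries_neg_log h3)).add (Complex.hasSum_taylorSeries_neg_log h4)
  set L : ℂ := -Complex.log (1 - α * conj α * x) + -Complex.log (1 - α * conj β * x)
    + -Complex.log (1 - β * conj α * x) + -Complex.log (1 - β * conj β * x)
  have hterm : HasSum (fun n : ℕ => ((‖α ^ n + β ^ n‖ ^ 2 * x ^ n / n : ℝ) : ℂ)) L := by
    refine hs.congr_fun fun n => ?_
    push_cast
    rw [← Complex.mul_conj', map_add, map_pow, map_pow]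
    simp only [mul_pow]
    ring
  have hre := hterm.mapL Complex.reCLM
  simp only [Complex.reCLM_apply, Complex.ofReal_re] at hre
  have hL : ‖a‖ ^ 2 * x ≤ L.re := by
    have := le_hasSum hre 1 fun n _ => by positivity
    simpa [hab] using this
  have hexp : Complex.exp L * Q x = 1 := by
    have hne : ∀ z : ℂ, ‖z‖ < 1 → (1 : ℂ) - z ≠ 0 := fun z hz h => by
      rw [sub_eq_zero] at h; rw [← h, norm_one] at hz; exact lt_irrefl _ hz
    simp only [L, Complex.exp_add, Complex.exp_neg, Complex.exp_log (hne _ h1),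
      Complex.exp_log (hne _ h2), Complex.exp_log (hne _ h3), Complex.exp_log (hne _ h4), Q]
    rw [← mul_inv, ← mul_inv, ← mul_inv]
    exact inv_mul_cancel₀ (mul_ne_zero (mul_ne_zero (mul_ne_zero (hne _ h1) (hne _ h2))
      (hne _ h3)) (hne _ h4))
  have hval : ((∑' m, ‖c m‖ ^ 2 * x ^ m : ℝ) : ℂ) = (1 - (x : ℂ) ^ 2) * Complex.exp L := by
    have hk := key x hx le_rfl
    linear_combination Complex.exp L * hk
      - ((∑' m, ‖c m‖ ^ 2 * x ^ m : ℝ) : ℂ) * hexp
  have hn := congrArg norm hval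
  rw [norm_mul, Complex.norm_exp, Complex.norm_real, Real.norm_eq_abs,
    abs_of_nonneg (tsum_nonneg fun m => by positivity), show (1 - (x : ℂ) ^ 2) = ((1 - x ^ 2 : ℝ) : ℂ)
    by push_cast; ring, Complex.norm_real, Real.norm_eq_abs,
    abs_of_nonneg (by nlinarith : (0:ℝ) ≤ 1 - x ^ 2)] at hn
  rw [hn]
  exact mul_le_mul_of_nonneg_left (Real.exp_le_exp.mpr hL) (by nlinarith)

/-! ### The bound -/

theorem coeff_prime_pow_mul {a e : ℕ → ℂ} {p : ℕ} (hp : p.Prime) (h1 : a 1 = 1)
    (hT : ∀ n, a (p * n) + e p * (if p ∣ n then a (n / p) else 0) = a p * a n)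
    {n : ℕ} (hn : ¬ p ∣ n) (m : ℕ) : a (p ^ m * n) = a (p ^ m) * a n := by
  induction m using Nat.strong_induction_on with
  | _ m ih =>
    match m with
    | 0 => simp [h1]
    | 1 =>
      have := hT n
      rw [if_neg hn, mul_zero, add_zero] at this
      simpa using this
    | m + 2 =>
      have e1 := hT (p ^ (m + 1) * n)
      have e2 := hT (p ^ (m + 1))
      rw [if_pos (Dvd.dvd.mul_right (dvd_pow_self p (Nat.succ_ne_zero m)) n),
        show p ^ (m + 1) * n / p = p ^ m * n by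
          rw [pow_succ, mul_right_comm, Nat.mul_div_cancel _ hp.pos],
        show p * (p ^ (m + 1) * n) = p ^ (m + 2) * n by ring, ih (m + 1) (by omega),
        ih m (by omega)] at e1
      rw [if_pos (dvd_pow_self p (Nat.succ_ne_zero m)),
        show p ^ (m + 1) / p = p ^ m by rw [pow_succ, Nat.mul_div_cancel _ hp.pos],
        show p * p ^ (m + 1) = p ^ (m + 2) by ring] at e2
      linear_combination e1 - a n * e2

/-- Rankin's bound for a weight one cusp form. -/
theorem rankinBound_of_hecke {M : ℕ} [NeZero M] (f : CuspForm (Gamma1 M) 1)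
    (hf1 : qCoeff f 1 = 1) (e : ℕ → ℂ) (he : ∀ p : ℕ, p.Prime → ¬ p ∣ M → ‖e p‖ = 1)
    (hT : ∀ p : ℕ, p.Prime → ¬ p ∣ M → ∀ n : ℕ,
      qCoeff f (p * n) + e p * (if p ∣ n then qCoeff f (n / p) else 0) = qCoeff f p * qCoeff f n)
    (N : ℕ) (hN : ∀ p : ℕ, p.Prime → p ∣ M → p ∣ N) :
    RankinBound N fun p => ‖qCoeff f p‖ ^ 2 := by
  classical
  obtain ⟨C, hC1, hC⟩ := sum_sq_coeff_le f
  set a : ℕ → ℂ := fun n => qCoeff f n
  set Z : ℝ := ∑' n : ℕ, ((n : ℝ) ^ 2)⁻¹
  refine ⟨Real.log (4 * C) + 2 * Z, fun s hs hs2 T hT' => ?_⟩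
  have hTp : ∀ p ∈ T, p.Prime ∧ ¬ p ∣ M := fun p hp =>
    ⟨(hT' p hp).1, fun h => (hT' p hp).2 (hN p (hT' p hp).1 h)⟩
  set x : ℕ → ℝ := fun p => (p : ℝ) ^ (-s)
  have hterm : ∀ n : ℕ, 0 ≤ ‖a n‖ ^ 2 * (n : ℝ) ^ (-s) := fun n => by positivity
  have hbound := fun S hS => sum_mul_rpow_le (b := fun n => ‖a n‖ ^ 2) (fun n => by positivity)
    (le_trans zero_le_one hC1) hC hs hs2 S hS
  -- finite Euler products
  have hprod : ∀ U : Finset ℕ, U ⊆ T → ∀ K : ℕ, ∃ S : Finset ℕ, (∀ n ∈ S, 1 ≤ n) ∧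
      (∀ n ∈ S, ∀ q : ℕ, q.Prime → q ∣ n → q ∈ U) ∧
      ∏ p ∈ U, ∑ m ∈ Finset.range K, ‖a (p ^ m)‖ ^ 2 * x p ^ m
        = ∑ n ∈ S, ‖a n‖ ^ 2 * (n : ℝ) ^ (-s) := by
    intro U
    induction U using Finset.induction_on with
    | empty =>
      intro _ K
      refine ⟨{1}, by simp, fun n hn q hq hqn => ?_, ?_⟩
      · simp only [Finset.mem_singleton] at hn
        subst hn
        exact absurd (Nat.dvd_one.mp hqn) hq.ne_one
      · simp [a, hf1]
    | insert p U hpU ih =>
      intro hU K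
      obtain ⟨hp, hpM⟩ := hTp p (hU (Finset.mem_insert_self p U))
      obtain ⟨S, hS1, hS2, hS3⟩ := ih (fun q hq => hU (Finset.mem_insert_of_mem hq)) K
      have hnd : ∀ n ∈ S, ¬ p ∣ n := fun n hn h => hpU (hS2 n hn p hp h)
      have hinj : Set.InjOn (fun mn : ℕ × ℕ => p ^ mn.1 * mn.2)
          ((Finset.range K ×ˢ S : Finset (ℕ × ℕ)) : Set (ℕ × ℕ)) := by
        rintro ⟨m, n⟩ hmn ⟨m', n'⟩ hmn' heq
        simp only [Finset.coe_product, Set.mem_prod, Finset.mem_coe] at hmn hmn'
        simp only at heq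
        have e1 := congrArg (fun k => Nat.factorization k p) heq
        have hn0 : n ≠ 0 := by have := hS1 n hmn.2; omega
        have hn0' : n' ≠ 0 := by have := hS1 n' hmn'.2; omega
        simp only [Nat.factorization_mul (pow_ne_zero _ hp.ne_zero) hn0,
          Nat.factorization_mul (pow_ne_zero _ hp.ne_zero) hn0', Finsupp.add_apply,
          Nat.factorization_eq_zero_of_not_dvd (hnd n hmn.2),
          Nat.factorization_eq_zero_of_not_dvd (hnd n' hmn'.2), hp.factorization_pow,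
          Finsupp.single_eq_same, add_zero] at e1
        subst e1
        rw [Nat.eq_of_mul_eq_mul_left (pow_pos hp.pos _) heq]
      refine ⟨(Finset.range K ×ˢ S).image (fun mn => p ^ mn.1 * mn.2), ?_, ?_, ?_⟩
      · intro n hn
        obtain ⟨⟨m, k⟩, hk, rfl⟩ := Finset.mem_image.mp hn
        rw [Finset.mem_product] at hk
        exact Nat.one_le_iff_ne_zero.mpr (mul_ne_zero (pow_ne_zero _ hp.ne_zero)
          (by have := hS1 k hk.2; omega))
      · intro n hn q hq hqn
        obtain ⟨⟨m, k⟩, hk, rfl⟩ := Finset.mem_image.mp hn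
        rw [Finset.mem_product] at hk
        rcases (Nat.Prime.dvd_mul hq).mp hqn with h | h
        · rw [(Nat.prime_dvd_prime_iff_eq hq hp).mp (hq.dvd_of_dvd_pow h)]
          exact Finset.mem_insert_self p U
        · exact Finset.mem_insert_of_mem (hS2 k hk.2 q hq h)
      · rw [Finset.prod_insert hpU, hS3, Finset.sum_mul_sum, Finset.sum_image hinj,
          Finset.sum_product]
        refine Finset.sum_congr rfl fun m _ => Finset.sum_congr rfl fun n hn => ?_
        simp only [a]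
        rw [coeff_prime_pow_mul hp hf1 (hT p hp hpM) (hnd n hn) m, norm_mul, mul_pow,
          Nat.cast_mul, Nat.cast_pow, Real.mul_rpow (by positivity) (Nat.cast_nonneg n),
          show x p = (p : ℝ) ^ (-s) from rfl, ← Real.rpow_pow_comm (Nat.cast_nonneg p)]
        ring
  have hle : ∀ U : Finset ℕ, U ⊆ T → ∀ K : ℕ,
      ∏ p ∈ U, ∑ m ∈ Finset.range K, ‖a (p ^ m)‖ ^ 2 * x p ^ m ≤ 4 * C / (s - 1) := by
    intro U hU K
    obtain ⟨S, hS1, -, hS3⟩ := hprod U hU K
    rw [hS3]
    exact hbound S hS1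
  have hxpos : ∀ p ∈ T, 0 < x p := fun p hp =>
    Real.rpow_pos_of_pos (by exact_mod_cast (hTp p hp).1.pos) _
  have hsummable : ∀ p ∈ T, Summable fun m => ‖a (p ^ m)‖ ^ 2 * x p ^ m := by
    intro p hp
    refine summable_of_sum_range_le (c := 4 * C / (s - 1))
      (fun m => mul_nonneg (sq_nonneg _) (pow_nonneg (hxpos p hp).le m)) fun K => ?_
    simpa using hle {p} (Finset.singleton_subset_iff.mpr hp) K
  have hlim : ∏ p ∈ T, ∑' m, ‖a (p ^ m)‖ ^ 2 * x p ^ m ≤ 4 * C / (s - 1) :=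
    le_of_tendsto' (tendsto_finsetProd _ fun p hp => (hsummable p hp).hasSum.tendsto_sum_nat)
      (hle T subset_rfl)
  have hx2 : ∀ p ∈ T, x p ≤ (p : ℝ)⁻¹ ∧ x p ≤ 1 / 2 := by
    intro p hp
    have hp2 : (2 : ℝ) ≤ p := by exact_mod_cast (hTp p hp).1.two_le
    have h1 : x p ≤ (p : ℝ)⁻¹ := by
      rw [← Real.rpow_neg_one]
      exact Real.rpow_le_rpow_of_exponent_le (by linarith) (by linarith)
    exact ⟨h1, h1.trans (by rw [one_div]; exact inv_anti₀ two_pos hp2)⟩
  have hloc : ∀ p ∈ T, Real.exp (-2 * x p ^ 2 + ‖a p‖ ^ 2 * x p)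
      ≤ ∑' m, ‖a (p ^ m)‖ ^ 2 * x p ^ m := by
    intro p hp
    obtain ⟨hpp, hpM⟩ := hTp p hp
    have hseq : IsLocalSeq (a p) (e p) (fun m => a (p ^ m)) := by
      refine ⟨by simp [a, hf1], by simp, fun m => ?_⟩
      have h := hT p hpp hpM (p ^ (m + 1))
      rw [if_pos (dvd_pow_self p (Nat.succ_ne_zero m)),
        show p ^ (m + 1) / p = p ^ m by rw [pow_succ, Nat.mul_div_cancel _ hpp.pos],
        show p * p ^ (m + 1) = p ^ (m + 2) by ring] at h
      simp only [a]
      linear_combination h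
    have hx0 := hxpos p hp
    obtain ⟨-, hxh⟩ := hx2 p hp
    have hb := localFactor_bound hseq (he p hpp hpM) hx0 (by linarith) (hsummable p hp)
    refine le_trans ?_ hb
    rw [Real.exp_add]
    refine mul_le_mul_of_nonneg_right ?_ (Real.exp_pos _).le
    have hv : 0 ≤ x p ^ 2 ∧ x p ^ 2 ≤ 1 / 2 := ⟨sq_nonneg _, by nlinarith⟩
    have h1 := Real.add_one_le_exp (2 * x p ^ 2)
    rw [show -2 * x p ^ 2 = -(2 * x p ^ 2) by ring, Real.exp_neg]
    refine (inv_anti₀ (by linarith) h1).trans ?_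
    rw [inv_le_iff_one_le_mul₀ (by linarith)]
    nlinarith
  have hall : Real.exp (∑ p ∈ T, (-2 * x p ^ 2 + ‖a p‖ ^ 2 * x p)) ≤ 4 * C / (s - 1) := by
    rw [Real.exp_sum]
    exact (Finset.prod_le_prod (fun p _ => (Real.exp_pos _).le) hloc).trans hlim
  have hlog : ∑ p ∈ T, (-2 * x p ^ 2 + ‖a p‖ ^ 2 * x p) ≤ Real.log (4 * C / (s - 1)) :=
    (Real.le_log_iff_exp_le (by positivity)).mpr hall
  rw [Finset.sum_add_distrib, ← Finset.mul_sum, div_eq_mul_inv,
    Real.log_mul (by positivity) (inv_ne_zero (by linarith)), ← one_div] at hlog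
  have hZ : ∑ p ∈ T, x p ^ 2 ≤ Z := by
    calc ∑ p ∈ T, x p ^ 2 ≤ ∑ p ∈ T, ((p : ℝ) ^ 2)⁻¹ :=
          Finset.sum_le_sum fun p hp => by
            rw [← inv_pow]; exact pow_le_pow_left₀ (hxpos p hp).le (hx2 p hp).1 2
      _ ≤ Z := (Real.summable_nat_pow_inv.mpr one_lt_two).sum_le_tsum _ fun n _ => by positivity
  linarith

end Fermat.Agent.DeligneSerre
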