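import Fermat.Agent.DeligneSerre.MainAux
import Fermat.Agent.DeligneSerre.MainConj
import Fermat.Agent.DeligneSerre.MainRankin
import Fermat.Agent.Integral.FieldAut

/-!
# Algebraicity and integrality of weight one eigenforms, and their conjugates
-/

set_option autoImplicit false

noncomputable section

open Complex Filter Topology CongruenceSubgroup ModularForm ModularFormClass
open UpperHalfPlane hiding I
open Fermat.Agent.Integral
open scoped MatrixGroups ModularForm

namespace Fermat.Agent.DeligneSerre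

/-- The values of a character, raised to level `M`. -/
def raiseChar {N : ℕ} (M : ℕ) (hd : N ∣ M) (ε : DirichletCharacter ℂ N) (x : ZMod M) : ℂ :=
  ε (ZMod.castHom hd (ZMod N) x)

theorem raiseChar_one {N : ℕ} (M : ℕ) (hd : N ∣ M) (ε : DirichletCharacter ℂ N) :
    raiseChar M hd ε 1 = 1 := by
  rw [raiseChar, map_one, map_one]

theorem raiseChar_pow {N : ℕ} [NeZero N] (M : ℕ) (hd : N ∣ M) (ε : DirichletCharacter ℂ N)
    {x : ZMod M} (hx : IsUnit x) :
    raiseChar M hd ε x ^ (Fintype.card (ZMod N)ˣ - 1 + 1) = 1 := by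
  obtain ⟨u, hu⟩ := hx.map (ZMod.castHom hd (ZMod N))
  rw [raiseChar, ← hu, ← map_pow, Nat.sub_add_cancel Fintype.card_pos, ← Units.val_pow_eq_pow_val,
    pow_card_eq_one, Units.val_one, map_one]

theorem isIntegral_char {n : ℕ} [NeZero n] (χ : DirichletCharacter ℂ n) (x : ZMod n) :
    IsIntegral ℤ (χ x) := by
  by_cases hx : IsUnit x
  · obtain ⟨u, rfl⟩ := hx
    refine IsIntegral.of_pow (Fintype.card_pos (α := (ZMod n)ˣ)) ?_
    rw [← map_pow, ← Units.val_pow_eq_pow_val, pow_card_eq_one, Units.val_one, map_one]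
    exact isIntegral_one
  · rw [χ.map_nonunit hx]
    exact isIntegral_zero

theorem norm_char {n : ℕ} [NeZero n] (χ : DirichletCharacter ℂ n) (σ : ℂ →+* ℂ) {x : ZMod n}
    (hx : IsUnit x) : ‖σ (χ x)‖ = 1 := by
  obtain ⟨u, rfl⟩ := hx
  refine norm_eq_one_of_pow_eq_one (n := Fintype.card (ZMod n)ˣ) ?_ Fintype.card_ne_zero
  rw [← map_pow, ← map_pow, ← Units.val_pow_eq_pow_val, pow_card_eq_one, Units.val_one, map_one,
    map_one]

theorem isPrimitive_ringHomComp {n : ℕ} [NeZero n] (χ : DirichletCharacter ℂ n)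
    (hχ : χ.IsPrimitive) (σ : ℂ →+* ℂ) :
    DirichletCharacter.IsPrimitive (χ.ringHomComp σ : DirichletCharacter ℂ n) := by
  rw [DirichletCharacter.isPrimitive_def] at hχ ⊢
  set ψ : DirichletCharacter ℂ n := χ.ringHomComp σ with hψ
  refine Nat.dvd_antisymm ψ.conductor_dvd_level ?_
  have hd : ψ.conductor ∣ n := ψ.conductor_dvd_level
  have h1 := (DirichletCharacter.factorsThrough_iff_ker_unitsMap hd).mp ψ.factorsThrough_conductor
  have h2 : DirichletCharacter.FactorsThrough χ ψ.conductor := by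
    refine (DirichletCharacter.factorsThrough_iff_ker_unitsMap hd).mpr fun u hu => ?_
    have e := h1 hu
    rw [MonoidHom.mem_ker, Units.ext_iff, MulChar.coe_toUnitHom, Units.val_one] at e ⊢
    exact σ.injective (by rw [map_one]; exact e)
  have h3 := DirichletCharacter.conductor_dvd_of_mem_conductorSet χ h2
  rwa [hχ] at h3

variable {N : ℕ}

/-- The primitive character inducing `ε⁻¹`. -/
theorem exists_inverse_char [NeZero N] (ε : DirichletCharacter ℂ N) (hodd : ε (-1) = -1) :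
    ∃ (c : ℕ) (_ : NeZero c) (hd : c ∣ N) (χ : DirichletCharacter ℂ c),
      χ.IsPrimitive ∧ χ.Odd ∧
      ∀ x : ZMod (N * N), IsUnit x →
        χ (ZMod.castHom (hd.trans (dvd_mul_right N N)) (ZMod c) x)
          = (raiseChar (N * N) (dvd_mul_right N N) ε x)⁻¹ := by
  set ν : DirichletCharacter ℂ N := ε⁻¹ with hν
  have hc : NeZero ν.conductor := ⟨DirichletCharacter.conductor_ne_zero ν⟩
  have key : ∀ y : ZMod N, IsUnit y →
      ν.primitiveCharacter (ZMod.castHom ν.conductor_dvd_level _ y) = (ε y)⁻¹ := by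
    intro y hy
    obtain ⟨u, rfl⟩ := hy
    have h := DirichletCharacter.changeLevel_eq_cast_of_dvd ν.primitiveCharacter
      ν.conductor_dvd_level u
    rw [DirichletCharacter.changeLevel_primitiveCharacter] at h
    rw [ZMod.castHom_apply, ← h, hν, MulChar.inv_apply_eq_inv']
  refine ⟨ν.conductor, hc, ν.conductor_dvd_level, ν.primitiveCharacter,
    ν.primitiveCharacter_isPrimitive, ?_, fun x hx => ?_⟩
  · have h := key (-1) (isUnit_one.neg)
    rw [map_neg, map_one, hodd, inv_neg, inv_one] at h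
    exact h
  · rw [raiseChar, ← key _ (hx.map _), ← RingHom.comp_apply, ZMod.castHom_comp]

/-- The data: a weight one eigenfunction. -/
structure EigenOne (N : ℕ) (M : ℕ) (c : ZMod M → ℂ) (ε : ℕ → ℂ) (a : ℕ → ℂ) (φ : ℍ → ℂ) :
    Prop where
  cusp : NebCusp M 1 c φ
  one : qCoeff φ 1 = 1
  rel : ∀ p : ℕ, p.Prime → ¬ p ∣ N → ∀ n : ℕ,
    qCoeff φ (p * n) + ε p * (if p ∣ n then qCoeff φ (n / p) else 0) = a p * qCoeff φ n

theorem EigenOne.apply_prime {M : ℕ} {c : ZMod M → ℂ} {ε a : ℕ → ℂ} {φ : ℍ → ℂ}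
    (h : EigenOne N M c ε a φ) {p : ℕ} (hp : p.Prime) (hpN : ¬ p ∣ N) : qCoeff φ p = a p := by
  have e := h.rel p hp hpN 1
  rwa [mul_one, if_neg hp.not_dvd_one, mul_zero, add_zero, h.one, mul_one] at e

theorem eigenOne_of_hecke [NeZero N] (ε : DirichletCharacter ℂ N) (f : CuspForm (Gamma1 N) 1)
    (hf₁ : qCoeff f 1 = 1)
    (hT : ∀ p : ℕ, p.Prime → ¬ p ∣ N → ∀ n : ℕ, qCoeff f (p * n) +
      ε (p : ZMod N) * (if p ∣ n then qCoeff f (n / p) else 0) = qCoeff f p * qCoeff f n) :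
    ε (-1) = -1 ∧ EigenOne N (N * N) (raiseChar (N * N) (dvd_mul_right N N) ε)
      (fun p => ε (p : ZMod N)) (fun p => qCoeff f p) f := by
  have h0 : NebCusp N 1 ε f := nebCusp_of_cuspForm f (hasNebentypusOne_of_hecke ε f hT)
  have hne : (⇑f : ℍ → ℂ) ≠ 0 := fun h => by
    have hz : (⟨⇑f, h0.toNebForm.mem_nice (map_one ε)⟩ : nice) = 0 := Subtype.ext h
    have := congrArg (fun v : nice => (qExp v).coeff 1) hz
    simp only [map_zero] at this
    exact one_ne_zero (hf₁.symm.trans this)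
  refine ⟨by simpa using h0.toNebForm.apply_neg_one hne, h0.raise (dvd_mul_right N N), hf₁, hT⟩

theorem exists_lattice {M : ℕ} [NeZero M] {c : ZMod M → ℂ} (hc : ∀ x, IsUnit x → c x ≠ 0)
    (hc1 : c 1 = 1) {φ E : ℍ → ℂ} (hφ : NebCusp M 1 c φ)
    (hE : NebForm M 1 (fun x => (c x)⁻¹) E) (S : Subalgebra ℤ ℂ) (hS : S.toSubmodule.FG)
    (hE0 : qCoeff E 0 = 0) (hE1 : qCoeff E 1 = 1) (hES : ∀ n, qCoeff E n ∈ S) :
    ∃ G : Submodule ℤ ℂ, G.FG ∧ (∀ x ∈ S, ∀ y ∈ G, x * y ∈ G) ∧ ∀ n, qCoeff φ n ∈ G := by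
  classical
  obtain ⟨h, hh⟩ := ((hφ.mul hE).congr (fun x hx => mul_inv_cancel₀ (hc x hx))
    |>.weight (show (1 : ℤ) + 1 = 2 by norm_num)).exists_cuspForm_gamma0 (fun _ _ => rfl)
  have hmem : h ∈ Submodule.span ℂ {F : CuspForm (Gamma0 M) 2 |
      ∀ m, ∃ z : ℤ, qCoeff F m = (z : ℂ)} := by
    rw [span_intForms_eq_top]; exact Submodule.mem_top
  obtain ⟨r, w, v, hsum⟩ := Submodule.mem_span_set'.mp hmem
  refine ⟨S.toSubmodule * Submodule.span ℤ (Set.range w),
    hS.mul (Submodule.fg_span (Set.finite_range w)), fun x hx y hy => ?_, ?_⟩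
  · have := Submodule.mul_mem_mul (show x ∈ S.toSubmodule from hx) hy
    rwa [← mul_assoc, (Subalgebra.isIdempotentElem_toSubmodule S).eq] at this
  set G := S.toSubmodule * Submodule.span ℤ (Set.range w)
  have hSG : ∀ x ∈ S, ∀ y ∈ G, x * y ∈ G := fun x hx y hy => by
    have := Submodule.mul_mem_mul (show x ∈ S.toSubmodule from hx) hy
    rwa [← mul_assoc, (Subalgebra.isIdempotentElem_toSubmodule S).eq] at this
  have hhG : ∀ n, qCoeff h n ∈ G := fun n => by
    rw [← hsum, ← coeff_qLin, map_sum, map_sum]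
    refine Submodule.sum_mem _ fun i _ => ?_
    obtain ⟨z, hz⟩ := (v i).2 n
    rw [map_smul, PowerSeries.coeff_smul, coeff_qLin, hz, smul_eq_mul, mul_comm]
    exact Submodule.mul_mem_mul (S.intCast_mem z) (Submodule.subset_span ⟨i, rfl⟩)
  have hφn : φ ∈ nice := hφ.toNebForm.mem_nice hc1
  have hEn : E ∈ nice := hE.mem_nice (by simp [hc1])
  have hprod : ∀ n, qCoeff h (n + 1) = (∑ i ∈ Finset.range n,
      qCoeff φ i * qCoeff E (n + 1 - i)) + qCoeff φ n := by
    intro n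
    have e := congrArg (fun q : nice => (qExp q).coeff (n + 1))
      (show (⟨⇑h, cuspForm_mem_nice h⟩ : nice) = ⟨φ, hφn⟩ * ⟨E, hEn⟩ from Subtype.ext hh)
    simp only [map_mul, PowerSeries.coeff_mul] at e
    rw [Finset.Nat.sum_antidiagonal_eq_sum_range_succ_mk] at e
    have e' : qCoeff h (n + 1)
        = ∑ i ∈ Finset.range (n + 2), qCoeff φ i * qCoeff E (n + 1 - i) := e
    rw [e', Finset.sum_range_succ, Finset.sum_range_succ, Nat.sub_self, hE0,
      Nat.add_sub_cancel_left, hE1]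
    ring
  intro n
  induction n using Nat.strong_induction_on with
  | _ n ih =>
    rw [show qCoeff φ n = qCoeff h (n + 1)
      - ∑ i ∈ Finset.range n, qCoeff φ i * qCoeff E (n + 1 - i) by rw [hprod]; ring]
    refine sub_mem (hhG _) (Submodule.sum_mem _ fun i hi => ?_)
    rw [mul_comm]
    exact hSG _ (hES _) _ (ih i (Finset.mem_range.mp hi))

theorem auxCoeff_mem {c : ℕ} (χ : ZMod c → ℂ) (S : Subalgebra ℤ ℂ) (hS : ∀ x, χ x ∈ S) (N n : ℕ) :
    auxCoeff χ N n ∈ S := by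
  have hs : ∀ m, sigmaChar χ m ∈ S := fun m => sum_mem fun d _ => hS _
  unfold auxCoeff
  split_ifs
  · exact zero_mem _
  · exact sub_mem (hs _) (hs _)
  · exact sub_mem (hs _) (zero_mem _)

theorem two_le_of_odd [NeZero N] (ε : DirichletCharacter ℂ N) (hodd : ε (-1) = -1) : 2 ≤ N := by
  by_contra hN
  have h1 : N = 1 := by have := NeZero.ne N; omega
  subst h1
  rw [show (-1 : ZMod 1) = 1 from Subsingleton.elim _ _, map_one] at hodd
  norm_num at hodd

/-- The coefficients of an eigenform lie in a lattice stable under its eigenvalues. -/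
theorem exists_eigen_lattice [NeZero N] (ε : DirichletCharacter ℂ N) (hodd : ε (-1) = -1)
    {a : ℕ → ℂ} {φ : ℍ → ℂ}
    (h : EigenOne N (N * N) (raiseChar (N * N) (dvd_mul_right N N) ε)
      (fun p => ε (p : ZMod N)) a φ) :
    ∃ G : Submodule ℤ ℂ, G.FG ∧ (∀ n, qCoeff φ n ∈ G) ∧
      ∀ p : ℕ, p.Prime → ¬ p ∣ N → ∀ y ∈ G, a p * y ∈ G := by
  classical
  obtain ⟨c, _, hd, χ, hχ, hχodd, hχε⟩ := exists_inverse_char ε hodd
  obtain ⟨E, hE, hEc⟩ := exists_auxForm hd χ hχ hχodd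
  let T : Set ℂ := Set.range χ ∪ Set.range ε
  let S : Subalgebra ℤ ℂ := Algebra.adjoin ℤ T
  have hS : S.toSubmodule.FG := fg_adjoin_of_finite ((Set.finite_range _).union (Set.finite_range _))
    (by rintro x (⟨y, rfl⟩ | ⟨y, rfl⟩) <;> exact isIntegral_char _ _)
  have hN2 := two_le_of_odd ε hodd
  obtain ⟨G₀, hG₀, hSG₀, hφG₀⟩ := exists_lattice
    (fun x hx => (pow_ne_zero_iff (Nat.succ_ne_zero _)).mp
      (by rw [raiseChar_pow _ (dvd_mul_right N N) ε hx]; exact one_ne_zero))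
    (raiseChar_one _ _ _) h.cusp (hE.congr hχε) S hS (by rw [hEc]; simp [auxCoeff])
    (by rw [hEc, auxCoeff_one χ hN2])
    (fun n => by
      rw [hEc]
      exact auxCoeff_mem _ S (fun x => Algebra.subset_adjoin (Or.inl ⟨x, rfl⟩)) N n)
  refine ⟨S.toSubmodule * Submodule.span ℤ (Set.range (qCoeff φ)), hG₀.of_le ?_, fun n => ?_, ?_⟩
  · rw [Submodule.mul_le]
    intro x hx y hy
    induction hy using Submodule.span_induction with
    | mem y hy => obtain ⟨n, rfl⟩ := hy; exact hSG₀ x hx _ (hφG₀ n)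
    | zero => simp
    | add y z _ _ hy hz => rw [mul_add]; exact add_mem hy hz
    | smul r y _ hy => rw [mul_smul_comm]; exact G₀.smul_mem r hy
  · simpa using Submodule.mul_mem_mul (show (1 : ℂ) ∈ S.toSubmodule from S.one_mem)
      (Submodule.subset_span (Set.mem_range_self n))
  intro p hp hpN y hy
  refine Submodule.mul_induction_on hy (fun s hs y hy => ?_)
    (fun x y hx hy => by rw [mul_add]; exact add_mem hx hy)
  induction hy using Submodule.span_induction with
  | zero => simp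
  | add x y _ _ hx hy => rw [mul_add, mul_add]; exact add_mem hx hy
  | smul r y _ hy => rw [mul_smul_comm, mul_smul_comm]; exact Submodule.smul_mem _ r hy
  | mem y hy =>
    obtain ⟨n, rfl⟩ := hy
    rw [mul_left_comm, ← h.rel p hp hpN n, mul_add, ← mul_assoc]
    have hsε : s * ε (p : ZMod N) ∈ S :=
      S.mul_mem hs (Algebra.subset_adjoin (Or.inr ⟨_, rfl⟩))
    refine add_mem (Submodule.mul_mem_mul hs (Submodule.subset_span ⟨_, rfl⟩)) ?_
    split_ifs
    · exact Submodule.mul_mem_mul hsε (Submodule.subset_span ⟨_, rfl⟩)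
    · simp

theorem isIntegral_of_lattice {G : Submodule ℤ ℂ} (hG : G.FG) {y : ℂ} (hy : y ∈ G) (hy0 : y ≠ 0)
    {x : ℂ} (hx : ∀ z ∈ G, x * z ∈ G) : IsIntegral ℤ x :=
  isIntegral_of_smul_mem_submodule G (fun h => hy0 (by simpa [h] using hy)) hG x hx

/-- A finitely generated algebra over an algebraically closed field has a rational point. -/
theorem exists_algHom_of_fg {K : Type*} [Field K] [IsAlgClosed K] {A : Type*} [CommRing A]
    [Nontrivial A] [Algebra K A] [Algebra.FiniteType K A] : Nonempty (A →ₐ[K] K) := by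
  obtain ⟨m, hm⟩ := Ideal.exists_maximal A
  let _ : Field (A ⧸ m) := Ideal.Quotient.field m
  have : Algebra.FiniteType K (A ⧸ m) :=
    Algebra.FiniteType.of_surjective (Ideal.Quotient.mkₐ K m) Ideal.Quotient.mk_surjective
  have : Module.Finite K (A ⧸ m) := finite_of_finite_type_of_isJacobsonRing K (A ⧸ m)
  have hb := IsAlgClosed.algebraMap_bijective_of_isIntegral (k := K) (K := A ⧸ m)
  exact ⟨(AlgEquiv.ofBijective (Algebra.ofId K (A ⧸ m)) hb).symm.toAlgHom.comp
    (Ideal.Quotient.mkₐ K m)⟩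

local notation "ℚalg" => algebraicClosure ℚ ℂ

/-- Integrality of the eigenvalues, and an eigenform with algebraic coefficients of bounded
denominator with the same eigenvalues. -/
theorem exists_algebraic_eigen [NeZero N] (ε : DirichletCharacter ℂ N) (hodd : ε (-1) = -1)
    {a : ℕ → ℂ} {φ : ℍ → ℂ}
    (h : EigenOne N (N * N) (raiseChar (N * N) (dvd_mul_right N N) ε)
      (fun p => ε (p : ZMod N)) a φ) :
    (∀ p : ℕ, p.Prime → ¬ p ∣ N → IsIntegral ℤ (a p)) ∧
    (∃ V : Submodule ℚ ℂ, FiniteDimensional ℚ V ∧ ∀ p : ℕ, p.Prime → ¬ p ∣ N → a p ∈ V) ∧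
    ∃ (ψ : ℍ → ℂ) (D : ℕ), D ≠ 0 ∧
      EigenOne N (N * N) (raiseChar (N * N) (dvd_mul_right N N) ε)
        (fun p => ε (p : ZMod N)) a ψ ∧
      ∀ n, IsIntegral ℤ ((D : ℂ) * qCoeff ψ n) := by
  classical
  obtain ⟨G, hG, hmem, hstab⟩ := exists_eigen_lattice ε hodd h
  have hint : ∀ p : ℕ, p.Prime → ¬ p ∣ N → IsIntegral ℤ (a p) := fun p hp hpN =>
    isIntegral_of_lattice hG (hmem 1) (by rw [h.one]; exact one_ne_zero) (hstab p hp hpN)
  obtain ⟨T, hT⟩ := hG
  refine ⟨hint, ⟨Submodule.span ℚ (T : Set ℂ), Module.Finite.span_of_finite ℚ T.finite_toSet,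
    fun p hp hpN => ?_⟩, ?_⟩
  · have := hstab p hp hpN _ (hmem 1)
    rw [h.one, mul_one, ← hT] at this
    exact Submodule.span_le_restrictScalars ℤ ℚ _ this
  have : IsAlgClosure ℚ ℚalg := algebraicClosure.isAlgClosure ℚ ℂ
  have halg : IsAlgClosed ℚalg := IsAlgClosure.isAlgClosed ℚ
  let R : Subalgebra ℚalg ℂ := Algebra.adjoin ℚalg (T : Set ℂ)
  have : Algebra.FiniteType ℚalg R := (Subalgebra.fg_iff_finiteType R).mp ⟨T, rfl⟩
  obtain ⟨π⟩ := exists_algHom_of_fg (K := ℚalg) (A := R)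
  let R' : Subalgebra ℚ ℂ := R.restrictScalars ℚ
  let θ : R' →ₐ[ℚ] ℂ := ((algebraicClosure ℚ ℂ).val.comp (π.restrictScalars ℚ) : R →ₐ[ℚ] ℂ)
  have hθalg : ∀ (x : ℂ) (hx : x ∈ R'), IsAlgebraic ℚ x → θ ⟨x, hx⟩ = x := fun x hx hax => by
    have e : (⟨x, hx⟩ : R) = algebraMap ℚalg R ⟨x, mem_algebraicClosure_iff.mpr hax⟩ := rfl
    show ((π ⟨x, hx⟩ : ℚalg) : ℂ) = x
    rw [e, π.commutes]
    rfl
  have halgR : ∀ x : ℂ, IsAlgebraic ℚ x → x ∈ R' := fun x hx =>
    R.algebraMap_mem ⟨x, mem_algebraicClosure_iff.mpr hx⟩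
  have hφR : ∀ n, qCoeff φ n ∈ R' := fun n => by
    have := hmem n
    rw [← hT] at this
    refine Submodule.span_le (p := (Subalgebra.toSubmodule R).restrictScalars ℤ).mpr ?_ this
    exact Algebra.subset_adjoin
  obtain ⟨c, _, hd, χ, hχ, hχodd, hχε⟩ := exists_inverse_char ε hodd
  obtain ⟨E, hE, hEc⟩ := exists_auxForm hd χ hχ hχodd
  have hEalg : ∀ n, IsAlgebraic ℚ (qCoeff E n) := fun n => by
    rw [hEc]
    have hi : IsIntegral ℤ (auxCoeff χ N n) :=
      auxCoeff_mem χ (integralClosure ℤ ℂ) (fun x => isIntegral_char χ x) N n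
    exact (hi.tower_top (A := ℚ)).isAlgebraic
  have hN2 := two_le_of_odd ε hodd
  obtain ⟨ψ, hψ, hψc⟩ := exists_map_nebCusp R' θ _
    (fun x hx => raiseChar_pow _ (dvd_mul_right N N) ε hx)
    (fun x hx => raiseChar_pow _ (dvd_mul_right N N) ε hx) (raiseChar_one _ _ _)
    (raiseChar_one _ _ _) h.cusp (hE.congr hχε) (hE.congr hχε) hφR
    (fun n => halgR _ (hEalg n)) (fun n => (hθalg _ _ (hEalg n)).symm)
    ⟨1, by rw [hEc, auxCoeff_one χ hN2]; exact one_ne_zero⟩
  have hψalg : ∀ n, IsAlgebraic ℚ (qCoeff ψ n) := fun n => by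
    rw [hψc]
    exact mem_algebraicClosure_iff.mp (π ⟨qCoeff φ n, hφR n⟩).2
  have hψe : EigenOne N (N * N) (raiseChar (N * N) (dvd_mul_right N N) ε)
      (fun p => ε (p : ZMod N)) a ψ := by
    refine ⟨hψ, ?_, fun p hp hpN n => ?_⟩
    · rw [hψc, show (⟨qCoeff φ 1, hφR 1⟩ : R') = 1 from Subtype.ext h.one, map_one]
    · have hεR : ε (p : ZMod N) ∈ R' :=
        halgR _ ((isIntegral_char ε _).tower_top (A := ℚ)).isAlgebraic
      have haA : IsAlgebraic ℚ (a p) := ((hint p hp hpN).tower_top (A := ℚ)).isAlgebraic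
      simp only [hψc]
      rw [← hθalg _ hεR ((isIntegral_char ε _).tower_top (A := ℚ)).isAlgebraic,
        ← hθalg _ (halgR _ haA) haA]
      split_ifs with hpn
      · rw [← map_mul, ← map_mul, ← map_add]
        congr 1
        apply Subtype.ext
        have e := h.rel p hp hpN n
        rw [if_pos hpn] at e
        exact e
      · rw [mul_zero, add_zero, ← map_mul]
        congr 1
        apply Subtype.ext
        have e := h.rel p hp hpN n
        rw [if_neg hpn, mul_zero, add_zero] at e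
        exact e
  obtain ⟨G', hG', hmem', -⟩ := exists_eigen_lattice ε hodd hψe
  obtain ⟨T', hT'⟩ := hG'.of_le (show Submodule.span ℤ (Set.range (qCoeff ψ)) ≤ G' from
    Submodule.span_le.mpr (Set.range_subset_iff.mpr hmem'))
  have halgT : ∀ x ∈ Submodule.span ℤ (Set.range (qCoeff ψ)), IsAlgebraic ℚ x := fun x hx => by
    induction hx using Submodule.span_induction with
    | mem y hy => obtain ⟨n, rfl⟩ := hy; exact hψalg n
    | zero => exact isAlgebraic_zero
    | add y z _ _ hy hz => exact hy.add hz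
    | smul r y _ hy => rw [zsmul_eq_mul]; exact (isAlgebraic_intCast r).mul hy
  have hden : ∀ x ∈ T', ∃ D : ℕ, D ≠ 0 ∧ IsIntegral ℤ ((D : ℂ) * x) := fun x hx => by
    have hxs : x ∈ Submodule.span ℤ (Set.range (qCoeff ψ)) := hT' ▸ Submodule.subset_span hx
    obtain ⟨y, hy0, hy⟩ := (IsFractionRing.isAlgebraic_iff ℤ ℚ ℂ).mpr
      (halgT x hxs) |>.exists_integral_multiple
    refine ⟨y.natAbs, Int.natAbs_ne_zero.mpr hy0, ?_⟩
    rw [zsmul_eq_mul] at hy
    rcases Int.natAbs_eq y with e | e <;> rw [e] at hy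
    · simpa using hy
    · simpa using hy.neg
  choose! D hD hDint using hden
  refine ⟨ψ, ∏ x ∈ T', D x, Finset.prod_ne_zero_iff.mpr hD, hψe, fun n => ?_⟩
  have hn : qCoeff ψ n ∈ Submodule.span ℤ (T' : Set ℂ) := by
    rw [hT']; exact Submodule.subset_span ⟨n, rfl⟩
  revert hn
  generalize qCoeff ψ n = y
  intro hn
  induction hn using Submodule.span_induction with
  | zero => simp [isIntegral_zero]
  | add y z _ _ hy hz => rw [mul_add]; exact hy.add hz
  | smul r y _ hy => rw [mul_smul_comm]; exact hy.smul r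
  | mem y hy =>
    obtain ⟨k, hk⟩ := Finset.dvd_prod_of_mem D (show y ∈ T' from hy)
    rw [hk, Nat.cast_mul, mul_comm ((D y : ℂ)), mul_assoc]
    exact (isIntegral_algebraMap (x := (k : ℤ))).mul (hDint y hy) |> fun e => by simpa using e

/-- The Rankin bound for all conjugates. -/
theorem rankinBound_ringHom [NeZero N] (ε : DirichletCharacter ℂ N) (hodd : ε (-1) = -1)
    {a : ℕ → ℂ} {φ : ℍ → ℂ}
    (h : EigenOne N (N * N) (raiseChar (N * N) (dvd_mul_right N N) ε)
      (fun p => ε (p : ZMod N)) a φ) (σ : ℂ →+* ℂ) :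
    RankinBound N fun p => if p.Prime ∧ ¬ p ∣ N then ‖σ (a p)‖ ^ 2 else ‖σ (qCoeff φ p)‖ ^ 2 := by
  classical
  obtain ⟨c, _, hd, χ, hχ, hχodd, hχε⟩ := exists_inverse_char ε hodd
  obtain ⟨E, hE, hEc⟩ := exists_auxForm hd χ hχ hχodd
  have hodd' : DirichletCharacter.Odd (χ.ringHomComp σ : DirichletCharacter ℂ c) := by
    show σ (χ (-1)) = -1
    rw [hχodd, map_neg, map_one]
  obtain ⟨E', hE', hE'c⟩ := exists_auxForm hd (χ.ringHomComp σ)
    (isPrimitive_ringHomComp χ hχ σ) hodd'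
  set cε := raiseChar (N * N) (dvd_mul_right N N) ε
  have hN2 := two_le_of_odd ε hodd
  let θ : (⊤ : Subalgebra ℚ ℂ) →ₐ[ℚ] ℂ := σ.toRatAlgHom.comp (Subalgebra.val ⊤)
  obtain ⟨g, hg, hgc⟩ := exists_map_nebCusp ⊤ θ _
    (fun x hx => raiseChar_pow _ (dvd_mul_right N N) ε hx)
    (c' := fun x => σ (cε x))
    (fun x hx => by rw [← map_pow, raiseChar_pow _ (dvd_mul_right N N) ε hx, map_one])
    (raiseChar_one _ _ _) (by show σ (cε 1) = 1; simp only [cε, raiseChar_one, map_one]) h.cusp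
    (hE.congr hχε) (hE'.congr fun x hx => by
      show σ (χ _) = _
      rw [hχε x hx, map_inv₀])
    (fun _ => Algebra.mem_top) (fun _ => Algebra.mem_top)
    (fun n => by
      show qCoeff E' n = σ (qCoeff E n)
      rw [hE'c, hEc]
      simp only [auxCoeff, sigmaChar]
      split_ifs <;> simp [MulChar.ringHomComp_apply])
    ⟨1, by rw [hE'c, auxCoeff_one _ hN2]; exact one_ne_zero⟩
  replace hgc : ∀ n, qCoeff g n = σ (qCoeff φ n) := hgc
  obtain ⟨F, hF⟩ := hg.exists_cuspForm_gamma1 (by show σ (cε 1) = 1; simp only [cε, raiseChar_one, map_one])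
  have hFc : ∀ n, qCoeff F n = σ (qCoeff φ n) := by rw [hF]; exact hgc
  have hdvd : ∀ p : ℕ, p.Prime → (p ∣ N * N ↔ p ∣ N) := fun p hp => by
    rw [hp.dvd_mul, or_self]
  have hR := rankinBound_of_hecke F (by rw [hFc, h.one, map_one]) (fun p => σ (ε (p : ZMod N)))
    (fun p hp hpN => norm_char ε σ ((ZMod.isUnit_iff_coprime p N).mpr
      ((Nat.Prime.coprime_iff_not_dvd hp).mpr fun h' => hpN ((hdvd p hp).mpr h'))))
    (fun p hp hpN n => by
      have hpN' : ¬ p ∣ N := fun h' => hpN ((hdvd p hp).mpr h')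
      have e := congrArg σ (h.rel p hp hpN' n)
      rw [map_add, map_mul, map_mul, ← h.apply_prime hp hpN'] at e
      simp only [hFc]
      split_ifs with hpn
      · simpa [hpn] using e
      · simpa [hpn] using e)
    N (fun p hp h' => (hdvd p hp).mp h')
  have heq : (fun p => if p.Prime ∧ ¬ p ∣ N then ‖σ (a p)‖ ^ 2 else ‖σ (qCoeff φ p)‖ ^ 2)
      = fun p => ‖qCoeff F p‖ ^ 2 := by
    funext p
    split_ifs with hp
    · rw [hFc, h.apply_prime hp.1 hp.2]
    · rw [hFc]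
  rwa [heq]

end Fermat.Agent.DeligneSerre
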