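import Fermat.Agent.DeligneSerre.MainNebentypus
import Fermat.Agent.Integral.Main

/-!
# Forms with a nebentypus given as functions

Constructors and elementary operations used in the proof of the theorem of Deligne and Serre.
-/

set_option autoImplicit false

noncomputable section

open Complex Filter Topology CongruenceSubgroup ModularForm Matrix.SpecialLinearGroup
open UpperHalfPlane hiding I
open Fermat.Agent.Integral
open scoped MatrixGroups ModularForm Real Manifold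

namespace Fermat.Agent.DeligneSerre

variable {M N : ℕ}

/-- A holomorphic function transforming by `c` under `Γ₀(M)` in weight `k`, bounded at all
cusps. -/
structure NebForm (M : ℕ) (k : ℤ) (c : ZMod M → ℂ) (φ : ℍ → ℂ) : Prop where
  neb : ∀ γ : SL(2, ℤ), γ ∈ Gamma0 M → φ ∣[k] γ = c ((γ 1 1 : ℤ) : ZMod M) • φ
  holo : MDiff φ
  bdd : ∀ g : SL(2, ℤ), IsBoundedAtImInfty (φ ∣[k] g)

/-- Such a function vanishing at all cusps. -/
structure NebCusp (M : ℕ) (k : ℤ) (c : ZMod M → ℂ) (φ : ℍ → ℂ) : Prop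
    extends NebForm M k c φ where
  zero : ∀ g : SL(2, ℤ), IsZeroAtImInfty (φ ∣[k] g)

theorem isUnit_lowerRight {γ : SL(2, ℤ)} (hγ : γ ∈ Gamma0 M) :
    IsUnit ((γ 1 1 : ℤ) : ZMod M) := by
  have hd := γ.det_coe
  rw [Matrix.det_fin_two] at hd
  have h' := congrArg (fun x : ℤ => (x : ZMod M)) hd
  push_cast at h'
  rw [Gamma0_mem.mp hγ, mul_zero, sub_zero] at h'
  exact isUnit_iff_exists_inv'.mpr ⟨_, h'⟩

theorem NebForm.congr {k : ℤ} {c c' : ZMod M → ℂ} {φ : ℍ → ℂ} (h : NebForm M k c φ)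
    (hc : ∀ x : ZMod M, IsUnit x → c x = c' x) : NebForm M k c' φ :=
  ⟨fun γ hγ => by rw [h.neb γ hγ, hc _ (isUnit_lowerRight hγ)], h.holo, h.bdd⟩

theorem NebCusp.congr {k : ℤ} {c c' : ZMod M → ℂ} {φ : ℍ → ℂ} (h : NebCusp M k c φ)
    (hc : ∀ x : ZMod M, IsUnit x → c x = c' x) : NebCusp M k c' φ :=
  ⟨h.toNebForm.congr hc, h.zero⟩

theorem gamma0_of_dvd (hd : N ∣ M) {γ : SL(2, ℤ)} (hγ : γ ∈ Gamma0 M) : γ ∈ Gamma0 N := by
  rw [Gamma0_mem] at hγ ⊢
  rw [← map_intCast (ZMod.castHom hd (ZMod N)), hγ, map_zero]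

theorem NebForm.raise {k : ℤ} {c : ZMod N → ℂ} {φ : ℍ → ℂ} (h : NebForm N k c φ) (hd : N ∣ M) :
    NebForm M k (fun x => c (ZMod.castHom hd (ZMod N) x)) φ :=
  ⟨fun γ hγ => by rw [h.neb γ (gamma0_of_dvd hd hγ), map_intCast], h.holo, h.bdd⟩

theorem NebCusp.raise {k : ℤ} {c : ZMod N → ℂ} {φ : ℍ → ℂ} (h : NebCusp N k c φ) (hd : N ∣ M) :
    NebCusp M k (fun x => c (ZMod.castHom hd (ZMod N) x)) φ :=
  ⟨h.toNebForm.raise hd, h.zero⟩

theorem periodic_of_neb {k : ℤ} {c : ZMod M → ℂ} {φ : ℍ → ℂ} (h : NebForm M k c φ)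
    (hc : c 1 = 1) : Function.Periodic (φ ∘ ofComplex) (1 : ℝ) := by
  refine periodic_of_slash_T (k := k) ?_
  have hT : ModularGroup.T ∈ Gamma0 M := by simp [Gamma0_mem, ModularGroup.coe_T]
  rw [h.neb _ hT, show ((ModularGroup.T 1 1 : ℤ) : ZMod M) = 1 by simp [ModularGroup.coe_T], hc,
    one_smul]

theorem NebForm.mem_nice {k : ℤ} {c : ZMod M → ℂ} {φ : ℍ → ℂ} (h : NebForm M k c φ)
    (hc : c 1 = 1) : φ ∈ nice :=
  Fermat.Agent.Integral.mem_nice.mpr ⟨h.holo, by simpa using h.bdd 1, periodic_of_neb h hc⟩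

theorem NebForm.mul {k l : ℤ} {c d : ZMod M → ℂ} {φ ψ : ℍ → ℂ} (h : NebForm M k c φ)
    (h' : NebForm M l d ψ) : NebForm M (k + l) (fun x => c x * d x) (φ * ψ) := by
  refine ⟨fun γ hγ => ?_, h.holo.mul h'.holo, fun g => ?_⟩
  · rw [mul_slash_SL2, h.neb γ hγ, h'.neb γ hγ]
    funext z
    simp only [Pi.mul_apply, Pi.smul_apply, smul_eq_mul]
    ring
  · rw [mul_slash_SL2]
    exact (h.bdd g).mul (h'.bdd g)

theorem isZero_mul_bounded {φ ψ : ℍ → ℂ} (h : IsZeroAtImInfty φ) (h' : IsBoundedAtImInfty ψ) :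
    IsZeroAtImInfty (φ * ψ) := by
  have h1 := (Asymptotics.isLittleO_one_iff ℂ).mpr h
  have h2 : ψ =O[atImInfty] (fun _ => (1 : ℂ)) := by
    simpa [IsBoundedAtImInfty, BoundedAtFilter, Asymptotics.isBigO_iff, Pi.one_apply] using h'
  exact (Asymptotics.isLittleO_one_iff ℂ).mp (by simpa [Pi.mul_def] using h1.mul_isBigO h2)

theorem NebCusp.mul {k l : ℤ} {c d : ZMod M → ℂ} {φ ψ : ℍ → ℂ} (h : NebCusp M k c φ)
    (h' : NebForm M l d ψ) : NebCusp M (k + l) (fun x => c x * d x) (φ * ψ) :=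
  ⟨h.toNebForm.mul h', fun g => by
    rw [mul_slash_SL2]; exact isZero_mul_bounded (h.zero g) (h'.bdd g)⟩

theorem NebForm.one : NebForm M 0 (fun _ => 1) 1 := by
  refine ⟨fun γ _ => ?_, mdifferentiable_const, fun g => ?_⟩
  · rw [ModularForm.is_invariant_one, one_smul]
  · rw [ModularForm.is_invariant_one]
    exact const_boundedAtFilter _ 1

theorem NebForm.weight {k k' : ℤ} {c : ZMod M → ℂ} {φ : ℍ → ℂ} (h : NebForm M k c φ)
    (hk : k = k') : NebForm M k' c φ := hk ▸ h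

theorem NebCusp.weight {k k' : ℤ} {c : ZMod M → ℂ} {φ : ℍ → ℂ} (h : NebCusp M k c φ)
    (hk : k = k') : NebCusp M k' c φ := hk ▸ h

theorem NebCusp.pow {c : ZMod M → ℂ} {φ : ℍ → ℂ} (h : NebCusp M 1 c φ) :
    ∀ d : ℕ, NebCusp M (d + 1 : ℕ) (fun x => c x ^ (d + 1)) (φ ^ (d + 1))
  | 0 => by simpa using h
  | d + 1 => by
      have e := (NebCusp.pow h d).mul h.toNebForm
      rw [pow_succ φ (d + 1)]
      exact (e.congr fun x _ => (pow_succ (c x) (d + 1)).symm).weight (by push_cast; ring)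

/-- A cusp form on `Γ₀(M)` from a function with trivial character. -/
theorem NebCusp.exists_cuspForm_gamma0 {k : ℤ} {c : ZMod M → ℂ} {φ : ℍ → ℂ} [NeZero M]
    (h : NebCusp M k c φ) (hc : ∀ x : ZMod M, IsUnit x → c x = 1) :
    ∃ F : CuspForm (Gamma0 M) k, ⇑F = φ :=
  ⟨{ toFun := φ
     slash_action_eq' := fun g hg => by
       obtain ⟨γ, hγ, rfl⟩ := Subgroup.mem_map.mp hg
       change φ ∣[k] γ = φ
       rw [h.neb γ hγ, hc _ (isUnit_lowerRight hγ), one_smul]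
     holo' := h.holo
     zero_at_cusps' := fun hcusp => by
       rw [Subgroup.IsArithmetic.isCusp_iff_isCusp_SL2Z] at hcusp
       rw [OnePoint.isZeroAt_iff_forall_SL2Z hcusp]
       exact fun g _ => h.zero g }, rfl⟩

/-- A cusp form on `Γ₁(M)` from a function with a character. -/
theorem NebCusp.exists_cuspForm_gamma1 {k : ℤ} {c : ZMod M → ℂ} {φ : ℍ → ℂ} [NeZero M]
    (h : NebCusp M k c φ) (hc : c 1 = 1) : ∃ F : CuspForm (Gamma1 M) k, ⇑F = φ :=
  ⟨{ toFun := φ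
     slash_action_eq' := fun g hg => by
       obtain ⟨γ, hγ, rfl⟩ := Subgroup.mem_map.mp hg
       change φ ∣[k] γ = φ
       rw [h.neb γ (Gamma1_in_Gamma0 M hγ), ((Gamma1_mem M γ).mp hγ).2.1, hc, one_smul]
     holo' := h.holo
     zero_at_cusps' := fun hcusp => by
       rw [Subgroup.IsArithmetic.isCusp_iff_isCusp_SL2Z] at hcusp
       rw [OnePoint.isZeroAt_iff_forall_SL2Z hcusp]
       exact fun g _ => h.zero g }, rfl⟩

theorem cusp_slash_zero [NeZero M] {k : ℤ} (f : CuspForm (Gamma1 M) k) (g : SL(2, ℤ)) :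
    IsZeroAtImInfty ((⇑f) ∣[k] g) := by
  have hc : IsCusp ((g : GL (Fin 2) ℝ) • OnePoint.infty)
      (Gamma1 M : Subgroup (GL (Fin 2) ℝ)) := by
    rw [Subgroup.IsArithmetic.isCusp_iff_isCusp_SL2Z, isCusp_SL2Z_iff']
    exact ⟨g, rfl⟩
  exact f.zero_at_cusps' hc (g : GL (Fin 2) ℝ) rfl

theorem modular_slash_bdd [NeZero M] {k : ℤ} (E : ModularForm (Gamma1 M) k) (g : SL(2, ℤ)) :
    IsBoundedAtImInfty ((⇑E) ∣[k] g) := by
  have hc : IsCusp ((g : GL (Fin 2) ℝ) • OnePoint.infty)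
      (Gamma1 M : Subgroup (GL (Fin 2) ℝ)) := by
    rw [Subgroup.IsArithmetic.isCusp_iff_isCusp_SL2Z, isCusp_SL2Z_iff']
    exact ⟨g, rfl⟩
  exact E.bdd_at_cusps' hc (g : GL (Fin 2) ℝ) rfl

theorem nebCusp_of_cuspForm [NeZero M] {k : ℤ} {c : ZMod M → ℂ} (f : CuspForm (Gamma1 M) k)
    (h : ∀ γ : SL(2, ℤ), γ ∈ Gamma0 M → (⇑f) ∣[k] γ = c ((γ 1 1 : ℤ) : ZMod M) • ⇑f) :
    NebCusp M k c f :=
  ⟨⟨h, CuspFormClass.holo f, fun g => (cusp_slash_zero f g).isBoundedAtImInfty⟩,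
    cusp_slash_zero f⟩

theorem nebForm_of_modularForm [NeZero M] {k : ℤ} {c : ZMod M → ℂ} (E : ModularForm (Gamma1 M) k)
    (h : ∀ γ : SL(2, ℤ), γ ∈ Gamma0 M → (⇑E) ∣[k] γ = c ((γ 1 1 : ℤ) : ZMod M) • ⇑E) :
    NebForm M k c E :=
  ⟨h, ModularFormClass.holo E, modular_slash_bdd E⟩

/-- Nonvanishing of a form forces the character to be `(-1)^k` at `-1`. -/
theorem NebForm.apply_neg_one {k : ℤ} {c : ZMod M → ℂ} {φ : ℍ → ℂ} (h : NebForm M k c φ)
    (h0 : φ ≠ 0) : c (-1) = (-1) ^ k := by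
  have hm : (-1 : SL(2, ℤ)) ∈ Gamma0 M := by simp [Gamma0_mem]
  have e := h.neb _ hm
  rw [show (((-1 : SL(2, ℤ)) 1 1 : ℤ) : ZMod M) = -1 by simp] at e
  obtain ⟨z, hz⟩ := Function.ne_iff.mp h0
  have hz' := congrFun e z
  rw [ModularForm.SL_slash_apply] at hz'
  have hd : denom (-1 : SL(2, ℤ)) z = -1 := by simp [denom]
  have hs : (-1 : SL(2, ℤ)) • z = z := by
    apply UpperHalfPlane.ext
    rw [coe_specialLinearGroup_apply]
    simp
  rw [hd, hs, Pi.smul_apply, smul_eq_mul, zpow_neg, ← inv_zpow, inv_neg, inv_one,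
    mul_comm] at hz'
  exact (mul_right_cancel₀ hz hz').symm

end Fermat.Agent.DeligneSerre
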