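import Fermat.Agent.DeligneSerre.MainEisenstein
import Fermat.Agent.DeligneSerre.MainForms
import Fermat.Prelude.Thm_CuspFormClass_isZeroAt_heckeT

/-!
# Auxiliary weight one forms with vanishing constant term
-/

set_option autoImplicit false

noncomputable section

open Complex Filter Topology CongruenceSubgroup ModularForm ModularFormClass
open Matrix.SpecialLinearGroup
open UpperHalfPlane hiding I
open Fermat.Agent.Integral
open scoped MatrixGroups ModularForm Real Manifold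

namespace Fermat.Agent.DeligneSerre

theorem slashDiag_mem_nice {f : ℍ → ℂ} (hf : f ∈ nice) (k : ℤ) (p : ℕ) :
    f ∣[k] heckeDiagMatrix p ∈ nice := by
  obtain ⟨hfd, hfb, hfp⟩ := Fermat.Agent.Integral.mem_nice.mp hf
  have hfp' : Function.Periodic (f ∘ ofComplex) (1 : ℂ) := by simpa using hfp
  have hU : heckeU k p f ∈ nice := Fermat.Agent.Integral.mem_nice.mpr
    ⟨ModularForm.mdifferentiable_heckeU hfd k p, ModularForm.isBoundedAtImInfty_heckeU hfb k p,
      by simpa using ModularForm.periodic_heckeU_comp_ofComplex hfp' k p⟩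
  have hH : heckeT k p f ∈ nice := Fermat.Agent.Integral.mem_nice.mpr
    ⟨ModularForm.mdifferentiable_heckeT hfd k p, ModularForm.isBoundedAtImInfty_heckeT hfb k p,
      by simpa using ModularForm.periodic_heckeT_comp_ofComplex hfp' k p⟩
  have := nice.sub_mem hH hU
  rwa [heckeT_eq_heckeU_add, add_sub_cancel_left] at this

theorem qCoeff_slashDiag {f : ℍ → ℂ} (hf : f ∈ nice) {p : ℕ} (hp : p ≠ 0) (n : ℕ) :
    qCoeff (f ∣[(1 : ℤ)] heckeDiagMatrix p) n = if p ∣ n then qCoeff f (n / p) else 0 := by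
  obtain ⟨hfd, hfb, hfp⟩ := Fermat.Agent.Integral.mem_nice.mp hf
  have hfp' : Function.Periodic (f ∘ ofComplex) (1 : ℂ) := by simpa using hfp
  have hU : heckeU 1 p f ∈ nice := Fermat.Agent.Integral.mem_nice.mpr
    ⟨ModularForm.mdifferentiable_heckeU hfd 1 p, ModularForm.isBoundedAtImInfty_heckeU hfb 1 p,
      by simpa using ModularForm.periodic_heckeU_comp_ofComplex hfp' 1 p⟩
  have hH : heckeT 1 p f ∈ nice := Fermat.Agent.Integral.mem_nice.mpr
    ⟨ModularForm.mdifferentiable_heckeT hfd 1 p, ModularForm.isBoundedAtImInfty_heckeT hfb 1 p,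
      by simpa using ModularForm.periodic_heckeT_comp_ofComplex hfp' 1 p⟩
  have e : (⟨_, slashDiag_mem_nice hf 1 p⟩ : nice) = ⟨_, hH⟩ - ⟨_, hU⟩ := by
    apply Subtype.ext
    show f ∣[(1 : ℤ)] heckeDiagMatrix p = heckeT 1 p f - heckeU 1 p f
    rw [heckeT_eq_heckeU_add, add_sub_cancel_left]
  have h := congrArg (fun v : nice => (qExp v).coeff n) e
  simp only [map_sub] at h
  have h1 : (qExp ⟨_, hU⟩).coeff n = coeffHeckeU p (qCoeff f) n :=
    UpperHalfPlane.qCoeff_heckeU hfp' hfd hfb 1 hp n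
  have h2 : (qExp ⟨_, hH⟩).coeff n = coeffHeckeT 1 p (qCoeff f) n :=
    UpperHalfPlane.qCoeff_heckeT hfp' hfd hfb 1 hp n
  rw [h1, h2, coeffHeckeU_apply, coeffHeckeT_apply] at h
  simp only [sub_self, zpow_zero, one_mul, add_sub_cancel_left] at h
  exact h

/-- The sum of a character over divisors. -/
def sigmaChar {c : ℕ} (χ : ZMod c → ℂ) (n : ℕ) : ℂ := ∑ d ∈ n.divisors, χ (d : ZMod c)

/-- Coefficients of `E_χ(τ) - E_χ(Nτ)`. -/
def auxCoeff {c : ℕ} (χ : ZMod c → ℂ) (N n : ℕ) : ℂ :=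
  if n = 0 then 0 else sigmaChar χ n - if N ∣ n then sigmaChar χ (n / N) else 0

theorem auxCoeff_one {c : ℕ} (χ : DirichletCharacter ℂ c) {N : ℕ} (hN : 2 ≤ N) :
    auxCoeff χ N 1 = 1 := by
  simp [auxCoeff, sigmaChar, Nat.dvd_one,
    show N ≠ 1 by omega]

theorem isBounded_slashDiag {M : ℕ} [NeZero M] (E : ModularForm (Gamma1 M) 1) (p : ℕ)
    (g : SL(2, ℤ)) : IsBoundedAtImInfty (((⇑E) ∣[(1 : ℤ)] heckeDiagMatrix p) ∣[(1 : ℤ)] g) := by
  obtain ⟨r, hr⟩ :=
    P2MW.S_CuspFormClass_isZeroAt_heckeT.ModularForm.S06W2.exists_heckeDiagMatrix_eq_map p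
  have hc : IsCusp ((g : GL (Fin 2) ℝ) • OnePoint.infty)
      (Gamma1 M : Subgroup (GL (Fin 2) ℝ)) := by
    rw [Subgroup.IsArithmetic.isCusp_iff_isCusp_SL2Z, isCusp_SL2Z_iff']
    exact ⟨g, rfl⟩
  rw [hr]
  exact P2MW.S_CuspFormClass_isZeroAt_heckeT.ModularForm.S06W2.isBoundedAt_slash_ratCast E r hc
    (g : GL (Fin 2) ℝ) rfl

/-- A weight one form with the given odd character and constant term zero. -/
theorem exists_auxForm {N c : ℕ} [NeZero N] [NeZero c] (hd : c ∣ N)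
    (χ : DirichletCharacter ℂ c) (hχ : χ.IsPrimitive) (hodd : χ.Odd) :
    ∃ E : ℍ → ℂ,
      NebForm (N * N) 1 (fun x => χ (ZMod.castHom (hd.trans (dvd_mul_right N N)) (ZMod c) x)) E ∧
      ∀ n, qCoeff E n = auxCoeff χ N n := by
  obtain ⟨E₀, hneb, -, hco⟩ := exists_eisensteinOne χ hχ hodd
  have h₀ : NebForm c 1 χ E₀ := nebForm_of_modularForm E₀ hneb
  have hn : (⇑E₀ : ℍ → ℂ) ∈ nice := h₀.mem_nice (map_one χ)
  set D : GL (Fin 2) ℝ := heckeDiagMatrix N
  set G : ℍ → ℂ := (⇑E₀) ∣[(1 : ℤ)] D with hG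
  have hGn : G ∈ nice := slashDiag_mem_nice hn 1 N
  have hG' : NebForm (N * N) 1
      (fun x => χ (ZMod.castHom (hd.trans (dvd_mul_right N N)) (ZMod c) x)) G := by
    refine ⟨fun γ hγ => ?_, (Fermat.Agent.Integral.mem_nice.mp hGn).1,
      isBounded_slashDiag E₀ N⟩
    obtain ⟨q, hq⟩ : (N * N : ℤ) ∣ γ 1 0 := by
      have := (ZMod.intCast_zmod_eq_zero_iff_dvd _ _).mp (Gamma0_mem.mp hγ)
      exact_mod_cast this
    have hdet := γ.det_coe
    rw [Matrix.det_fin_two, hq] at hdet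
    let γ' : SL(2, ℤ) := ⟨!![γ 0 0, N * γ 0 1; N * q, γ 1 1], by
      rw [Matrix.det_fin_two_of]; linear_combination hdet⟩
    have hγ' : γ' ∈ Gamma0 c := by
      refine gamma0_of_dvd hd (Gamma0_mem.mpr ?_)
      simp [γ']
    have hm' : (γ' : Matrix (Fin 2) (Fin 2) ℤ) = !![γ 0 0, N * γ 0 1; N * q, γ 1 1] := rfl
    clear_value γ'
    have hmul : D * (mapGL ℝ γ : GL (Fin 2) ℝ) = (mapGL ℝ γ' : GL (Fin 2) ℝ) * D := by
      have hq' : ((γ 1 0 : ℤ) : ℝ) = N * N * q := by exact_mod_cast hq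
      ext i j
      fin_cases i <;> fin_cases j <;>
        simp [D, Matrix.mul_apply, Fin.sum_univ_two, NeZero.ne N, hm', hq'] <;> ring
    show G ∣[(1 : ℤ)] (mapGL ℝ γ : GL (Fin 2) ℝ) = _
    rw [hG, ← SlashAction.slash_mul, hmul, SlashAction.slash_mul]
    rw [show (⇑E₀) ∣[(1 : ℤ)] (mapGL ℝ γ' : GL (Fin 2) ℝ)
      = χ ((γ' 1 1 : ℤ) : ZMod c) • ⇑E₀ from hneb γ' hγ', ModularForm.smul_slash,
      σ_heckeDiagMatrix]
    simp [hm']
  have hE := h₀.raise (hd.trans (dvd_mul_right N N))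
  refine ⟨⇑E₀ - G, ⟨fun γ hγ => ?_, hE.holo.sub hG'.holo, fun g => ?_⟩, fun n => ?_⟩
  · rw [sub_eq_add_neg, SlashAction.add_slash, SlashAction.neg_slash, hE.neb γ hγ,
      hG'.neb γ hγ, smul_add, smul_neg]
  · rw [sub_eq_add_neg, SlashAction.add_slash, SlashAction.neg_slash]
    exact (hE.bdd g).add (hG'.bdd g).neg
  · have h := congrArg (PowerSeries.coeff n)
      (map_sub qExp (⟨_, hn⟩ : nice) (⟨_, hGn⟩ : nice))
    have h' : qCoeff (⇑E₀ - G) n = qCoeff E₀ n - qCoeff G n := h.trans (map_sub _ _ _)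
    rw [h', hG, qCoeff_slashDiag hn (NeZero.ne N), auxCoeff]
    by_cases h0 : n = 0
    · simp [h0]
    · rw [if_neg h0, hco n h0]
      by_cases hNn : N ∣ n
      · have hq : n / N ≠ 0 :=
          (Nat.div_pos (Nat.le_of_dvd (Nat.pos_of_ne_zero h0) hNn)
            (Nat.pos_of_ne_zero (NeZero.ne N))).ne'
        rw [if_pos hNn, if_pos hNn, hco _ hq]
        rfl
      · rw [if_neg hNn, if_neg hNn]
        rfl

end Fermat.Agent.DeligneSerre
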