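import Fermat.Prelude.Def_GaloisRep_Residual
import Mathlib.RingTheory.IntegralClosure.IsIntegral.Basic
import Mathlib.NumberTheory.DirichletCharacter.Basic
import Mathlib.NumberTheory.ModularForms.CongruenceSubgroups
import Mathlib.LinearAlgebra.Matrix.GeneralLinearGroup.Defs
import Mathlib.LinearAlgebra.Matrix.Trace

/-!
# Mod `ℓ` Galois representations attached to mod `ℓ` eigenforms of weight 2 with character

This is the interface used for Deligne–Serre: a weight two form on `Γ₁(M)` with nebentypus `χ`
and algebraic integral coefficients, whose reduction modulo a prime above `ℓ` is an eigenvector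
of the `T_p` (`p` prime to `M ℓ`), has a two-dimensional representation modulo `ℓ`, unramified
outside `M ℓ`, with the expected traces and determinants of Frobenius elements.
-/

set_option autoImplicit false

noncomputable section

open scoped MatrixGroups ModularForm

namespace Fermat.Agent.DeligneSerre

local notation "ℚbar" => AlgebraicClosure ℚ
local notation "Γℚ" => AlgebraicClosure ℚ ≃ₐ[ℚ] AlgebraicClosure ℚ

open CongruenceSubgroup

/-- `g` has nebentypus `χ`: `g ∣[2] γ = χ (d) • g` for `γ = (a b; c d)` in `Γ₀(M)`. -/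
def HasNebentypus (M : ℕ) (χ : DirichletCharacter ℂ M) (g : CuspForm (Gamma1 M) 2) : Prop :=
  ∀ γ : SL(2, ℤ), γ ∈ Gamma0 M →
    (⇑g) ∣[(2 : ℤ)] γ = χ ((γ 1 1 : ℤ) : ZMod M) • ⇑g

/-- The coefficient of `q ^ n` in `T_p g`, for `p` prime to the level and nebentypus `χ`,
in weight two. -/
def heckeCoeff {M : ℕ} (χ : DirichletCharacter ℂ M) (g : CuspForm (Gamma1 M) 2) (p n : ℕ) : ℂ :=
  ModularFormClass.qCoeff g (p * n) +
    χ (p : ZMod M) * (p : ℂ) * (if p ∣ n then ModularFormClass.qCoeff g (n / p) else 0)

end Fermat.Agent.DeligneSerre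

end
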