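import Fermat.Agent.DeligneSerre.RepsFamily
import Fermat.Agent.HeckeCohom.Transfer
import Fermat.Agent.ParHom.Free
import Fermat.Prelude.Def_ModularForm_HeckeOperator
import Fermat.Agent.HeckeCohom.Operators
import Fermat.Agent.Ribet.Twisted.LevelReps

/-!
# Hecke operators on the parabolic homomorphisms of `± Γ(M)`
-/

set_option autoImplicit false

noncomputable section

open ModularForm Matrix.SpecialLinearGroup
open scoped MatrixGroups

namespace Fermat.Agent.DeligneSerre.Level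

variable (M : ℕ) [NeZero M]

theorem exists_gam0 (p : ℕ) : ∃ γ : SL(2, ℤ), p.Coprime M →
    modM M γ 0 1 = 0 ∧ modM M γ 1 0 = 0 ∧ modM M γ 1 1 = (p : ZMod M) := by
  by_cases hp : p.Coprime M
  swap
  · exact ⟨1, fun h => absurd h hp⟩
  obtain ⟨x, y, hxy⟩ : IsCoprime (p : ℤ) ((M : ℤ) * M) :=
    (Nat.isCoprime_iff_coprime.mpr hp).mul_right (Nat.isCoprime_iff_coprime.mpr hp)
  refine ⟨⟨!![x, -((M : ℤ) * y); (M : ℤ), (p : ℤ)], ?_⟩, fun _ => ⟨?_, ?_, ?_⟩⟩
  · rw [Matrix.det_fin_two_of]; linear_combination hxy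
  all_goals simp [modM_apply]

/-- A lift of `diag (1 / p, p)`. -/
def gam0 (p : ℕ) : SL(2, ℤ) := (exists_gam0 M p).choose

theorem modM_gam0 {p : ℕ} (hp : p.Coprime M) :
    modM M (gam0 M p) 0 1 = 0 ∧ modM M (gam0 M p) 1 0 = 0 ∧
      modM M (gam0 M p) 1 1 = (p : ZMod M) :=
  (exists_gam0 M p).choose_spec hp

/-- `± Γ(M)` in `GL₂ (ℝ)`. -/
def pmGL : pmGroup M →* GL (Fin 2) ℝ := (mapGL ℝ).comp (pmGroup M).subtype

/-- The representatives `(1 M i; 0 p)` and `γ₀ (p 0; 0 1)`. -/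
def betaP (p : ℕ) : Option (Fin p) → GL (Fin 2) ℝ
  | some i => heckeMatrix p (M * i.val)
  | none => mapGL ℝ (gam0 M p) * heckeDiagMatrix p

open Fermat.Agent.Ribet.Twisted (Mat toGL toGL_coe toGL_mul toGL_inj hmat exists_eq_mul_hmat)

/-- The integral matrices behind `betaP`. -/
def matP (p : ℕ) : Option (Fin p) → Mat
  | some i => !![1, ((M * i.val : ℕ) : ℤ); 0, (p : ℤ)]
  | none => (gam0 M p : Mat) * !![(p : ℤ), 0; 0, 1]

theorem det_matP (p : ℕ) (i : Option (Fin p)) : (matP M p i).det = p := by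
  rcases i with _ | i
  · simp [matP, Matrix.det_mul, Matrix.det_fin_two_of]
  · simp [matP, Matrix.det_fin_two_of]

theorem toGL_matP {p : ℕ} (hp : p ≠ 0) (i : Option (Fin p)) :
    toGL (matP M p i) = betaP M p i := by
  apply Units.ext
  rw [toGL_coe (by rw [det_matP]; exact_mod_cast hp)]
  rcases i with _ | i <;> ext a b <;> fin_cases a <;> fin_cases b <;>
    simp [matP, betaP, hp, Matrix.mul_apply, Fin.sum_univ_two]

theorem mapGL_eq_toGL (g : SL(2, ℤ)) : (mapGL ℝ g : GL (Fin 2) ℝ) = toGL (g : Mat) := by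
  apply Units.ext
  rw [toGL_coe (by simp)]
  ext a b
  simp

/-- All representatives are `diag (1, p)` modulo `M`. -/
theorem matP_map {p : ℕ} (hp : p.Coprime M) (i : Option (Fin p)) :
    (matP M p i).map (Int.castRingHom (ZMod M)) = !![1, 0; 0, (p : ZMod M)] := by
  rcases i with _ | i
  · obtain ⟨h01, h10, h11⟩ := modM_gam0 M hp
    have hd := congrArg (Int.cast : ℤ → ZMod M) (gam0 M p).det_coe
    rw [Matrix.det_fin_two] at hd
    simp only [modM_apply] at h01 h10 h11
    simp [h01, h10, h11] at hd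
    ext a b
    fin_cases a <;> fin_cases b <;>
      simp [matP, Matrix.mul_apply, Fin.sum_univ_two, h01, h10, h11, hd]
  · ext a b
    fin_cases a <;> fin_cases b <;> simp [matP]

/-- An integral matrix of determinant `p` is `c * matP M p j` with `c ∈ SL(2, ℤ)`. -/
theorem exists_eq_mul_matP {p : ℕ} (hp : p.Prime) (hpM : ¬ p ∣ M) {g : Mat} (hg : g.det = p) :
    ∃ (c : SL(2, ℤ)) (j : Option (Fin p)), g = (c : Mat) * matP M p j := by
  haveI : Fact p.Prime := ⟨hp⟩
  obtain ⟨h, i, hgi, -, -⟩ := exists_eq_mul_hmat (L := 1) hp (by rw [hg]) (by simp) (by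
    simpa using isCoprime_one_right (x := g 0 0))
  have hh : h.det = 1 := by
    have := congrArg Matrix.det hgi
    rw [hg, Matrix.det_mul, Ribet.Twisted.hmat_det] at this
    exact mul_right_cancel₀ (Int.natCast_ne_zero.mpr hp.ne_zero) (this.symm.trans (one_mul _).symm)
  obtain ⟨_ | x, hi⟩ := i
  · refine ⟨⟨h, hh⟩ * (gam0 M p)⁻¹, none, ?_⟩
    rw [hgi, matP, Matrix.SpecialLinearGroup.coe_mul, Matrix.mul_assoc, ← Matrix.mul_assoc _ (gam0 M p : Mat), ← Matrix.SpecialLinearGroup.coe_mul,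
      inv_mul_cancel, Matrix.SpecialLinearGroup.coe_one, Matrix.one_mul]
    rfl
  · have hM : (M : ZMod p) ≠ 0 := fun h0 => hpM ((ZMod.natCast_eq_zero_iff M p).mp h0)
    let y : ZMod p := x / (M : ZMod p)
    obtain ⟨t, ht⟩ : (p : ℤ) ∣ (x.val : ℤ) - ((M * y.val : ℕ) : ℤ) := by
      rw [← ZMod.intCast_zmod_eq_zero_iff_dvd]
      simp [y, mul_div_cancel₀ _ hM]
    refine ⟨⟨h, hh⟩ * ⟨!![1, t; 0, 1], by simp [Matrix.det_fin_two_of]⟩,
      some ⟨y.val, ZMod.val_lt y⟩, ?_⟩
    rw [hgi, Matrix.SpecialLinearGroup.coe_mul, Matrix.mul_assoc]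
    show h * hmat 1 p ⟨some x, hi⟩ =
      h * ((!![1, t; 0, 1] : Mat) * !![1, ((M * y.val : ℕ) : ℤ); 0, (p : ℤ)])
    congr 1
    ext a b
    fin_cases a <;> fin_cases b <;>
      simp [hmat, Matrix.mul_apply, Fin.sum_univ_two, -ZMod.natCast_val]
    push_cast at ht
    linear_combination ht

theorem matP_dist {p : ℕ} (hp : p.Prime) (hpM : ¬ p ∣ M) {c : SL(2, ℤ)} {i j : Option (Fin p)}
    (e : matP M p i = (c : Mat) * matP M p j) : i = j := by
  have key : ∀ (c : SL(2, ℤ)) (j : Fin p),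
      matP M p none ≠ (c : Mat) * matP M p (some j) := by
    intro c j e
    have e' : !![(p : ℤ), 0; 0, 1] = (((gam0 M p)⁻¹ * c : SL(2, ℤ)) : Mat) * matP M p (some j) := by
      rw [Matrix.SpecialLinearGroup.coe_mul, Matrix.mul_assoc, ← e, matP, ← Matrix.mul_assoc, ← Matrix.SpecialLinearGroup.coe_mul, inv_mul_cancel,
        Matrix.SpecialLinearGroup.coe_one, Matrix.one_mul]
    generalize (gam0 M p)⁻¹ * c = d at e'
    have h0 := congrFun (congrFun e' 0) 0
    have h1 := congrFun (congrFun e' 1) 0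
    simp [matP, Matrix.mul_apply, Fin.sum_univ_two] at h0 h1
    have hd := d.det_coe
    rw [Matrix.det_fin_two, ← h0, ← h1, mul_zero, sub_zero] at hd
    have := Int.eq_one_of_mul_eq_one_right (Int.natCast_nonneg p) hd
    exact hp.ne_one (by exact_mod_cast this)
  rcases i with _ | i <;> rcases j with _ | j
  · rfl
  · exact absurd e (key c j)
  · refine absurd ?_ (key c⁻¹ i)
    rw [e, ← Matrix.mul_assoc, ← Matrix.SpecialLinearGroup.coe_mul, inv_mul_cancel, Matrix.SpecialLinearGroup.coe_one, Matrix.one_mul]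
  · have h0 := congrFun (congrFun e 0) 0
    have h1 := congrFun (congrFun e 0) 1
    simp [matP, Matrix.mul_apply, Fin.sum_univ_two] at h0 h1
    rw [← h0, one_mul] at h1
    have hd : (p : ℤ) ∣ (M : ℤ) * ((i.val : ℤ) - j.val) := ⟨c 0 1, by linear_combination h1⟩
    have := ((Nat.prime_iff_prime_int.mp hp).dvd_mul.mp hd).resolve_left
      (fun h => hpM (Int.natCast_dvd_natCast.mp h))
    have hz := Int.eq_zero_of_abs_lt_dvd this
      (abs_lt.mpr ⟨by have := i.isLt; have := j.isLt; omega,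
        by have := i.isLt; have := j.isLt; omega⟩)
    exact congrArg some (Fin.ext (by omega))

theorem isCosetSystem_betaP {p : ℕ} (hp : p.Prime) (hpM : ¬ p ∣ M) :
    HeckeCohom.IsCosetSystem (pmGL M) (betaP M p) := by
  have hp0 : p ≠ 0 := hp.ne_zero
  have hcop : p.Coprime M := (Nat.Prime.coprime_iff_not_dvd hp).mpr hpM
  have hne : ∀ i, (matP M p i).det ≠ 0 := fun i => by rw [det_matP]; exact_mod_cast hp0
  refine ⟨Matrix.SpecialLinearGroup.mapGL_injective.comp Subtype.val_injective, fun γ i => ?_,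
    fun c i j e => ?_⟩
  · obtain ⟨c, j, hcj⟩ := exists_eq_mul_matP M hp hpM
      (g := matP M p i * ((γ : SL(2, ℤ)) : Mat))
      (by rw [Matrix.det_mul, det_matP, det_coe, mul_one])
    have hc : c ∈ pmGroup M := by
      have h := congrArg (fun m : Mat => m.map (Int.castRingHom (ZMod M))) hcj
      simp only [Matrix.map_mul, matP_map M hcop] at h
      change !![1, 0; 0, (p : ZMod M)] * modM M (γ : SL(2, ℤ))
        = modM M c * !![1, 0; 0, (p : ZMod M)] at h
      have hu : IsUnit (!![1, 0; 0, (p : ZMod M)]) := by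
        rw [Matrix.isUnit_iff_isUnit_det, Matrix.det_fin_two_of, one_mul, mul_zero, sub_zero]
        exact (ZMod.isUnit_iff_coprime p M).mpr hcop
      rcases mem_pmGroup_iff.mp γ.2 with hγ | hγ
      · exact Or.inl (hu.mul_right_cancel (by rw [← h, hγ, mul_one, one_mul]))
      · exact Or.inr (hu.mul_right_cancel (by rw [← h, hγ, mul_neg, mul_one, neg_mul, one_mul]))
    refine ⟨⟨c, hc⟩, j, ?_⟩
    show betaP M p i * mapGL ℝ (γ : SL(2, ℤ)) = mapGL ℝ c * betaP M p j
    rw [← toGL_matP M hp0, ← toGL_matP M hp0, mapGL_eq_toGL, mapGL_eq_toGL,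
      ← toGL_mul (hne i) (by simp), ← toGL_mul (by simp) (hne j), hcj]
  · refine matP_dist M hp hpM (c := (c : SL(2, ℤ))) ?_
    rw [← toGL_inj (hne i) (by rw [Matrix.det_mul, det_coe, one_mul]; exact hne j),
      toGL_mul (by simp) (hne j), toGL_matP M hp0, toGL_matP M hp0, ← mapGL_eq_toGL]
    exact e

theorem gam0_conj_mem (p : ℕ) (γ : pmGroup M) :
    gam0 M p * (γ : SL(2, ℤ)) * (gam0 M p)⁻¹ ∈ pmGroup M :=
  pmGroup_normal.conj_mem _ γ.2 _

variable {A : Type*} [AddCommGroup A]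

/-- `T_p` on homomorphisms of `± Γ(M)`. -/
def transP (p : ℕ) (φ : Additive (pmGroup M) →+ A) : Additive (pmGroup M) →+ A :=
  if h : p.Prime ∧ ¬ p ∣ M then (isCosetSystem_betaP M h.1 h.2).transfer ℤ A φ else 0

/-- Conjugation by `gam0`. -/
def conjG (p : ℕ) : pmGroup M →* pmGroup M where
  toFun γ := ⟨_, gam0_conj_mem M p γ⟩
  map_one' := Subtype.ext (by simp)
  map_mul' γ δ := Subtype.ext (by simp [mul_assoc])

/-- The diamond operator on homomorphisms. -/
def diaP (p : ℕ) (φ : Additive (pmGroup M) →+ A) : Additive (pmGroup M) →+ A :=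
  φ.comp (conjG M p).toAdditive

theorem transP_isParEllHom (p : ℕ) {φ : Additive (pmGroup M) →+ A}
    (hφ : ParHom.IsParEllHom (pmGroup M) φ) :
    ParHom.IsParEllHom (pmGroup M) (transP M p φ) := by
  intro γ hγ
  by_cases h : p.Prime ∧ ¬ p ∣ M
  swap
  · simp [transP, dif_neg h]
  rw [transP, dif_pos h]
  refine (isCosetSystem_betaP M h.1 h.2).transfer_eq_zero
    (fun δ : pmGroup M => ParHom.tr (δ : SL(2, ℤ)) ^ 2 ≤ 4)
    (fun δ n hδ => by simpa [ParHom.tr] using HeckeCohom.trace_sq_pow_le hδ n) ?_ φ hφ γ hγ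
  intro x δ c hc hδ
  have e : ((pmGL M c : GL (Fin 2) ℝ) : Matrix (Fin 2) (Fin 2) ℝ).trace
      = ((pmGL M δ : GL (Fin 2) ℝ) : Matrix (Fin 2) (Fin 2) ℝ).trace := by
    rw [hc, Units.val_mul, Units.val_mul, Matrix.trace_units_conj]
  have e' : ParHom.tr (c : SL(2, ℤ)) = ParHom.tr (δ : SL(2, ℤ)) := by
    simp [pmGL, Matrix.trace_fin_two] at e
    simp only [ParHom.tr, Matrix.trace_fin_two]
    exact_mod_cast e
  rwa [e']

theorem diaP_isParEllHom (p : ℕ) {φ : Additive (pmGroup M) →+ A}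
    (hφ : ParHom.IsParEllHom (pmGroup M) φ) :
    ParHom.IsParEllHom (pmGroup M) (diaP M p φ) := by
  intro γ hγ
  refine hφ (conjG M p γ) ?_
  have e : ParHom.tr ((conjG M p γ : pmGroup M) : SL(2, ℤ)) = ParHom.tr (γ : SL(2, ℤ)) := by
    show (((gam0 M p * (γ : SL(2, ℤ)) * (gam0 M p)⁻¹ : SL(2, ℤ)) : Mat)).trace = _
    rw [Matrix.SpecialLinearGroup.coe_mul, Matrix.SpecialLinearGroup.coe_mul, Matrix.trace_mul_comm, ← Matrix.mul_assoc, ← Matrix.SpecialLinearGroup.coe_mul, inv_mul_cancel,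
      Matrix.SpecialLinearGroup.coe_one, Matrix.one_mul]
    rfl
  rwa [e]

theorem neg_one_mem : (-1 : SL(2, ℤ)) ∈ pmGroup M := by
  refine Or.inr (Matrix.ext fun i j => ?_)
  fin_cases i <;> fin_cases j <;> simp [modM_apply]

/-- The rank. -/
abbrev rk : ℕ := ParHom.parRank (pmGroup M)

/-- The generators on which parabolic homomorphisms are determined. -/
def genX : Fin (rk M) → pmGroup M := ParHom.parGen (neg_one_mem M)

/-- The matrix of `T_p`. -/
def matT (p : ℕ) : Matrix (Fin (rk M)) (Fin (rk M)) ℤ := fun i j =>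
  transP M p (ParHom.parDual (neg_one_mem M) j) (Additive.ofMul (genX M i))

/-- The matrix of the diamond operator. -/
def matD (p : ℕ) : Matrix (Fin (rk M)) (Fin (rk M)) ℤ := fun i j =>
  diaP M p (ParHom.parDual (neg_one_mem M) j) (Additive.ofMul (genX M i))

theorem transP_eq_sum (p : ℕ) {φ : Additive (pmGroup M) →+ A}
    (hφ : ParHom.IsParEllHom (pmGroup M) φ) (i : Fin (rk M)) :
    transP M p φ (Additive.ofMul (genX M i)) =
      ∑ j, matT M p i j • φ (Additive.ofMul (genX M j)) := by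
  by_cases h : p.Prime ∧ ¬ p ∣ M
  swap
  · simp [matT, transP, dif_neg h]
  have e := fun γ : Additive (pmGroup M) => hφ.apply_eq_sum (neg_one_mem M) γ
  simp only [matT, transP, dif_pos h, HeckeCohom.IsCosetSystem.transfer_apply, Finset.sum_smul]
  rw [Finset.sum_comm]
  exact Finset.sum_congr rfl fun k _ => e _

theorem diaP_eq_sum (p : ℕ) {φ : Additive (pmGroup M) →+ A}
    (hφ : ParHom.IsParEllHom (pmGroup M) φ) (i : Fin (rk M)) :
    diaP M p φ (Additive.ofMul (genX M i)) =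
      ∑ j, matD M p i j • φ (Additive.ofMul (genX M j)) := by
  exact hφ.apply_eq_sum (neg_one_mem M) _

end Fermat.Agent.DeligneSerre.Level

end
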