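/-
Weight two forms with nebentypus as functions, their Hecke operators and their periods on
`± Γ(M)`.
-/
import Fermat.Agent.DeligneSerre.RepsCoset
import Fermat.Agent.DeligneSerre.MainForms
import Fermat.Agent.HeckeCohom.Periods
import Fermat.Prelude.Thm_CuspFormClass_isZeroAt_heckeT
import Fermat.Prelude.Thm_CuspFormClass_isZeroAt_heckeU

set_option autoImplicit false

noncomputable section

open Filter Topology Metric Function CongruenceSubgroup ModularForm Matrix.SpecialLinearGroup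
open UpperHalfPlane hiding I
open Fermat.Agent.Integral (nice qExp qExp_injective mem_nice)
open Fermat.Agent.Periods (IsPrimitive CuspRegular exists_eq_add_const isPrimitive_comp_smul
  exists_disc_primitive natCast_pos_real tendsto_vadd_atImInfty exists_conj_lower_left_eq_zero)
open scoped MatrixGroups ModularForm Manifold Real

namespace Fermat.Agent.DeligneSerre.Level

/-- A cusp regular function invariant under a subgroup of finite index is constant. -/
theorem eq_const_of_invariant {N : ℕ} [NeZero N] {Γ : Subgroup SL(2, ℤ)} [Γ.FiniteIndex]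
    {H : ℍ → ℂ} (hH : CuspRegular N H)
    (hinv : ∀ γ : Γ, ∀ z : ℍ, H ((γ : SL(2, ℤ)) • z) = H z) :
    ∃ C : ℂ, ∀ z : ℍ, H z = C := by
  classical
  have hN := natCast_pos_real N
  choose Ψ hΨd hΨ using hH
  let rep : SL(2, ℤ) ⧸ Γ → SL(2, ℤ) := fun x ↦ (Quotient.out x)⁻¹
  set r := Real.exp (-π / N) with hr
  have hr1 : r < 1 := Real.exp_lt_one_iff.mpr
    (div_neg_of_neg_of_pos (neg_lt_zero.mpr Real.pi_pos) hN)
  have hKU : closedBall (0 : ℂ) r ⊆ ball 0 1 := closedBall_subset_ball hr1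
  have hEd : ∀ δ, DifferentiableOn ℂ (fun q ↦ Complex.exp (Ψ δ q)) (ball 0 1) :=
    fun δ ↦ (hΨd δ).cexp
  have hmax : ∀ x, ∃ q ∈ closedBall (0 : ℂ) r,
      IsMaxOn (fun q ↦ ‖Complex.exp (Ψ (rep x) q)‖) (closedBall 0 r) q := fun x ↦
    (isCompact_closedBall 0 r).exists_isMaxOn (nonempty_closedBall.mpr (Real.exp_nonneg _))
      ((hEd _).continuousOn.mono hKU).norm
  choose qm hqm hqmax using hmax
  obtain ⟨x₀, hx₀⟩ := Finite.exists_max fun x ↦ ‖Complex.exp (Ψ (rep x) (qm x))‖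
  have hbound : ∀ z : ℍ, ‖Complex.exp (H z)‖ ≤ ‖Complex.exp (Ψ (rep x₀) (qm x₀))‖ := by
    intro z
    obtain ⟨g, hg⟩ := ModularGroup.exists_one_half_le_im_smul z
    obtain ⟨⟨γ, hγ⟩, hgγ⟩ := QuotientGroup.mk_out_eq_mul Γ g
    set x : SL(2, ℤ) ⧸ Γ := (g : SL(2, ℤ) ⧸ Γ) with hx
    have hz : z = (γ : SL(2, ℤ)) • (rep x • (g • z)) := by
      simp only [rep, ← mul_smul]
      rw [show Quotient.out x = g * γ from hgγ]
      simp [mul_assoc]
    have hre : (H z).re = (H (rep x • (g • z))).re := by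
      conv_lhs => rw [hz]
      exact congrArg Complex.re (hinv ⟨γ, hγ⟩ _)
    have hq : Periodic.qParam (N : ℝ) ((g • z : ℍ) : ℂ) ∈ closedBall (0 : ℂ) r := by
      rw [mem_closedBall_zero_iff, Periodic.norm_qParam, hr, Real.exp_le_exp]
      gcongr
      nlinarith [Real.pi_pos, hg, show ((g • z : ℍ) : ℂ).im = (g • z).im from rfl]
    rw [Complex.norm_exp, hre, hΨ, ← Complex.norm_exp]
    exact le_trans (hqmax x hq) (hx₀ x)
  have hmax0 : IsMaxOn (norm ∘ fun q ↦ Complex.exp (Ψ (rep x₀) q)) (ball 0 1) (qm x₀) := by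
    intro q hq
    simp only [Set.mem_ofPred_eq, comp_apply]
    rcases eq_or_ne q 0 with rfl | hq0
    · exact hqmax x₀ (mem_closedBall_self (Real.exp_nonneg _))
    · let w : ℍ := ⟨_, Periodic.im_invQParam_pos_of_norm_lt_one hN (mem_ball_zero_iff.mp hq) hq0⟩
      have := hbound (rep x₀ • w)
      rwa [hΨ, show Periodic.qParam (N : ℝ) (w : ℂ) = q from
        Periodic.qParam_right_inv hN.ne' hq0] at this
  have hconst := Complex.eqOn_of_isPreconnected_of_isMaxOn_norm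
    (convex_ball (0 : ℂ) 1).isPreconnected isOpen_ball (hEd _) (hKU (hqm x₀)) hmax0
  have hexp : ∀ z : ℍ, Complex.exp (H z) = Complex.exp (Ψ (rep x₀) (qm x₀)) := by
    intro z
    conv_lhs => rw [← smul_inv_smul (rep x₀) z, hΨ]
    exact hconst (mem_ball_zero_iff.mpr (Periodic.norm_qParam_lt_one hN (UpperHalfPlane.im_pos _)))
  have hprim : IsPrimitive 0 H := by
    intro τ
    obtain hd : DifferentiableAt ℂ (H ∘ ofComplex) τ := by
      have heq : (fun z : ℂ ↦ Ψ 1 (Periodic.qParam (N : ℝ) z)) =ᶠ[𝓝 (τ : ℂ)] H ∘ ofComplex := by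
        filter_upwards [isOpen_upperHalfPlaneSet.mem_nhds τ.im_pos] with z hz
        have := hΨ 1 (ofComplex z)
        rw [one_smul] at this
        rw [comp_apply, this, ofComplex_apply_of_im_pos hz]
      refine DifferentiableAt.congr_of_eventuallyEq ?_ heq.symm
      exact ((hΨd 1).differentiableAt (isOpen_ball.mem_nhds (mem_ball_zero_iff.mpr
        (Periodic.norm_qParam_lt_one hN τ.im_pos)))).comp _ (Periodic.differentiable_qParam _)
    have h1 := hd.hasDerivAt.cexp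
    have h2 : HasDerivAt (fun z : ℂ ↦ Complex.exp ((H ∘ ofComplex) z)) 0 (τ : ℂ) := by
      simp only [comp_apply, hexp]
      exact hasDerivAt_const _ _
    have h3 := h1.unique h2
    rw [mul_eq_zero, or_iff_right (Complex.exp_ne_zero _)] at h3
    simpa [h3] using hd.hasDerivAt
  obtain ⟨C, hC⟩ := exists_eq_add_const hprim (G₂ := fun _ ↦ 0)
    (fun τ ↦ by simpa [Function.comp_def] using hasDerivAt_const (τ : ℂ) (0 : ℂ))
  exact ⟨C, fun z ↦ by simpa using hC z⟩

variable {M : ℕ} [NeZero M] (χ : DirichletCharacter ℂ M)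

/-! ### The space of forms -/

/-- Weight two cusp functions of nebentypus `χ`. -/
def nebSpace : Submodule ℂ (ℍ → ℂ) where
  carrier := {h | NebCusp M 2 (fun x => χ x) h}
  add_mem' {f g} hf hg := by
    have hz : ∀ δ : SL(2, ℤ), IsZeroAtImInfty ((f + g) ∣[(2 : ℤ)] δ) := fun δ => by
      rw [SlashAction.add_slash]; exact (hf.zero δ).add (hg.zero δ)
    exact ⟨⟨fun γ hγ => by rw [SlashAction.add_slash, hf.neb γ hγ, hg.neb γ hγ, smul_add],
      hf.holo.add hg.holo, fun δ => (hz δ).isBoundedAtImInfty⟩, hz⟩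
  zero_mem' := by
    have hz : ∀ δ : SL(2, ℤ), IsZeroAtImInfty ((0 : ℍ → ℂ) ∣[(2 : ℤ)] δ) := fun δ => by
      rw [SlashAction.zero_slash]; exact Filter.zero_zeroAtFilter _
    exact ⟨⟨fun γ _ => by simp [SlashAction.zero_slash], mdifferentiable_const,
      fun δ => (hz δ).isBoundedAtImInfty⟩, hz⟩
  smul_mem' c f hf := by
    have hz : ∀ δ : SL(2, ℤ), IsZeroAtImInfty ((c • f) ∣[(2 : ℤ)] δ) := fun δ => by
      rw [ModularForm.SL_smul_slash]; exact (hf.zero δ).smul c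
    exact ⟨⟨fun γ hγ => by rw [ModularForm.SL_smul_slash, hf.neb γ hγ, smul_comm],
      hf.holo.const_smul c, fun δ => (hz δ).isBoundedAtImInfty⟩, hz⟩

variable {χ}

theorem NebSpace.neb (h : nebSpace χ) : NebCusp M 2 (fun x => χ x) (h : ℍ → ℂ) := h.2

theorem NebSpace.mem_nice (h : nebSpace χ) : (h : ℍ → ℂ) ∈ nice :=
  (NebSpace.neb h).toNebForm.mem_nice (map_one χ)

variable (χ) in
/-- The `q`-expansion as a linear map. -/
def qSer : nebSpace χ →ₗ[ℂ] PowerSeries ℂ where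
  toFun h := qExp ⟨h, NebSpace.mem_nice h⟩
  map_add' f g := by rw [← map_add]; rfl
  map_smul' c f := by rw [RingHom.id_apply, ← map_smul]; rfl

theorem qSer_coeff (h : nebSpace χ) (n : ℕ) :
    (qSer χ h).coeff n = ModularFormClass.qCoeff (h : ℍ → ℂ) n := rfl

theorem qSer_injective : Injective (qSer χ) := fun f g h =>
  Subtype.ext (congrArg Subtype.val (qExp_injective h) :)

theorem periodic_apply (h : nebSpace χ) {z w : ℍ} (t : ℤ) (hzw : (w : ℂ) = z + t) :
    (h : ℍ → ℂ) w = (h : ℍ → ℂ) z := by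
  have hp := (periodic_of_neb (NebSpace.neb h).toNebForm (map_one χ)).int_mul t (z : ℂ)
  simp only [mul_one, Function.comp_apply] at hp
  have e : (z : ℂ) + ((t : ℤ) : ℂ) = (w : ℂ) := hzw.symm
  convert hp using 1
  · push_cast
    simp [e, ofComplex_apply]
  · simp [ofComplex_apply]

theorem slash_gamma0 (h : nebSpace χ) {γ : SL(2, ℤ)} (hγ : γ ∈ Gamma0 M) :
    (h : ℍ → ℂ) ∣[(2 : ℤ)] γ = χ ((γ 1 1 : ℤ) : ZMod M) • (h : ℍ → ℂ) :=
  (NebSpace.neb h).neb γ hγ

theorem gam0_mem {p : ℕ} (hp : p.Coprime M) : gam0 M p ∈ Gamma0 M :=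
  Gamma0_mem.mpr (by simpa [modM_apply] using (modM_gam0 M hp).2.1)

theorem slash_gam0 (h : nebSpace χ) {p : ℕ} (hp : p.Coprime M) :
    (h : ℍ → ℂ) ∣[(2 : ℤ)] gam0 M p = χ (p : ZMod M) • (h : ℍ → ℂ) := by
  rw [slash_gamma0 h (gam0_mem hp),
    show (((gam0 M p) 1 1 : ℤ) : ZMod M) = p by simpa [modM_apply] using (modM_gam0 M hp).2.2]

/-! ### The Hecke operator -/

/-- The sum of the translates by the representatives. -/
def tFun (p : ℕ) (h : ℍ → ℂ) : ℍ → ℂ := ∑ i, h ∣[(2 : ℤ)] betaP M p i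

theorem tFun_eq {p : ℕ} (hp : p.Prime) (hpM : ¬ p ∣ M) (h : nebSpace χ) :
    tFun (M := M) p h = χ (p : ZMod M) • heckeT 2 p (h : ℍ → ℂ)
      + (1 - χ (p : ZMod M)) • heckeU 2 p (h : ℍ → ℂ) := by
  haveI : Fact p.Prime := ⟨hp⟩
  have hp0 : p ≠ 0 := hp.ne_zero
  have hcop : p.Coprime M := (Nat.Prime.coprime_iff_not_dvd hp).mpr hpM
  have hM : (M : ZMod p) ≠ 0 := fun h0 => hpM ((ZMod.natCast_eq_zero_iff M p).mp h0)
  have hnone : (h : ℍ → ℂ) ∣[(2 : ℤ)] betaP M p none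
      = χ (p : ZMod M) • ((h : ℍ → ℂ) ∣[(2 : ℤ)] heckeDiagMatrix p) := by
    have e : (h : ℍ → ℂ) ∣[(2 : ℤ)] (mapGL ℝ (gam0 M p) : GL (Fin 2) ℝ)
        = (h : ℍ → ℂ) ∣[(2 : ℤ)] gam0 M p := rfl
    rw [betaP, SlashAction.slash_mul, e, slash_gam0 h hcop,
      ModularForm.smul_slash, σ_heckeDiagMatrix]
    rfl
  have hsum : ∑ i : Fin p, (h : ℍ → ℂ) ∣[(2 : ℤ)] betaP M p (some i) = heckeU 2 p (h : ℍ → ℂ) := by
    have e : ∀ i : Fin p, (h : ℍ → ℂ) ∣[(2 : ℤ)] betaP M p (some i)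
        = (h : ℍ → ℂ) ∣[(2 : ℤ)] heckeMatrix p (M * i.val % p) := by
      intro i
      funext τ
      rw [betaP, slash_heckeMatrix_apply 2 hp0, slash_heckeMatrix_apply 2 hp0]
      congr 1
      refine periodic_apply h ((M * i.val / p : ℕ) : ℤ) ?_
      rw [coe_heckeMatrix_smul hp0, coe_heckeMatrix_smul hp0]
      have := congrArg (Nat.cast : ℕ → ℂ) (Nat.mod_add_div (M * i.val) p)
      generalize M * i.val / p = q at this ⊢
      push_cast at this ⊢
      field_simp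
      linear_combination -this
    simp only [e, heckeU]
    rw [Finset.sum_range (fun j => (h : ℍ → ℂ) ∣[(2 : ℤ)] heckeMatrix p j)]
    refine Fintype.sum_bijective (fun i : Fin p => (⟨M * i.val % p, Nat.mod_lt _ hp.pos⟩ : Fin p))
      ?_ _ _ fun i => rfl
    refine (Fintype.bijective_iff_injective_and_card _).mpr ⟨fun i j hij => ?_, rfl⟩
    have h1 : ((M * i.val : ℕ) : ZMod p) = ((M * j.val : ℕ) : ZMod p) :=
      (ZMod.natCast_eq_natCast_iff' _ _ _).mpr (Fin.mk.inj_iff.mp hij)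
    push_cast at h1
    have h2 := congrArg ZMod.val (mul_left_cancel₀ hM h1)
    rw [ZMod.val_cast_of_lt i.isLt, ZMod.val_cast_of_lt j.isLt] at h2
    exact Fin.ext h2
  rw [tFun, Fintype.sum_option, hnone, hsum, heckeT_eq_heckeU_add, smul_add, sub_smul, one_smul]
  abel

theorem tFun_neb {p : ℕ} (hp : p.Prime) (hpM : ¬ p ∣ M) (h : nebSpace χ) {γ : SL(2, ℤ)}
    (hγ : γ ∈ Gamma0 M) :
    tFun (M := M) p h ∣[(2 : ℤ)] γ
      = χ ((γ 1 1 : ℤ) : ZMod M) • tFun (M := M) p (h : ℍ → ℂ) := by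
  have hp0 : p ≠ 0 := hp.ne_zero
  have hcop : p.Coprime M := (Nat.Prime.coprime_iff_not_dvd hp).mpr hpM
  choose c σ hcσ using fun i => exists_eq_mul_matP M hp hpM
    (g := matP M p i * (γ : Ribet.Twisted.Mat)) (by
      rw [Matrix.det_mul, det_matP, Matrix.SpecialLinearGroup.det_coe, mul_one])
  have hσ : Function.Bijective σ := by
    refine Finite.injective_iff_bijective.mp fun i j hij =>
      matP_dist M hp hpM (c := c i * (c j)⁻¹) ?_
    have hi := hcσ i
    rw [hij] at hi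
    have e1 : (((c j)⁻¹ : SL(2, ℤ)) : Ribet.Twisted.Mat) * (matP M p j * (γ : Ribet.Twisted.Mat))
        = matP M p (σ j) := by
      rw [hcσ j, ← Matrix.mul_assoc, ← Matrix.SpecialLinearGroup.coe_mul, inv_mul_cancel,
        Matrix.SpecialLinearGroup.coe_one, Matrix.one_mul]
    rw [← e1] at hi
    have e2 := congrArg (fun m => m * (((γ⁻¹ : SL(2, ℤ))) : Ribet.Twisted.Mat)) hi
    simp only [Matrix.mul_assoc, ← Matrix.SpecialLinearGroup.coe_mul, mul_inv_cancel,
      Matrix.SpecialLinearGroup.coe_one, Matrix.mul_one] at e2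
    rw [e2, Matrix.SpecialLinearGroup.coe_mul, Matrix.mul_assoc]
  have hc : ∀ i, c i ∈ Gamma0 M ∧
      (((c i) 1 1 : ℤ) : ZMod M) = ((γ 1 1 : ℤ) : ZMod M) := by
    intro i
    have h := congrArg (fun m => m.map (Int.castRingHom (ZMod M))) (hcσ i)
    simp only [Matrix.map_mul, matP_map M hcop] at h
    have h10 := congrFun (congrFun h 1) 0
    have h11 := congrFun (congrFun h 1) 1
    simp [Matrix.mul_apply, Fin.sum_univ_two, Gamma0_mem.mp hγ] at h10 h11
    refine ⟨Gamma0_mem.mpr h10.symm, ?_⟩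
    exact ((ZMod.isUnit_iff_coprime p M).mpr hcop).mul_right_cancel
      (h11.symm.trans (mul_comm _ _))
  rw [tFun, SlashAction.sum_slash, Finset.smul_sum,
    ← Equiv.sum_comp (Equiv.ofBijective σ hσ)
      (fun i => χ ((γ 1 1 : ℤ) : ZMod M) • ((h : ℍ → ℂ) ∣[(2 : ℤ)] betaP M p i))]
  refine Finset.sum_congr rfl fun i _ => ?_
  have e : betaP M p i * mapGL ℝ γ = mapGL ℝ (c i) * betaP M p (σ i) := by
    have hne : ∀ i, (matP M p i).det ≠ 0 := fun i => by rw [det_matP]; exact_mod_cast hp0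
    rw [← toGL_matP M hp0, ← toGL_matP M hp0, mapGL_eq_toGL, mapGL_eq_toGL,
      ← Ribet.Twisted.toGL_mul (hne i) (by simp), ← Ribet.Twisted.toGL_mul (by simp) (hne _),
      hcσ i]
  show ((h : ℍ → ℂ) ∣[(2 : ℤ)] betaP M p i) ∣[(2 : ℤ)] (mapGL ℝ γ : GL (Fin 2) ℝ) = _
  have e' : (h : ℍ → ℂ) ∣[(2 : ℤ)] (mapGL ℝ (c i) : GL (Fin 2) ℝ)
      = (h : ℍ → ℂ) ∣[(2 : ℤ)] c i := rfl
  rw [← SlashAction.slash_mul, e, SlashAction.slash_mul, e', slash_gamma0 h (hc i).1, (hc i).2,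
    ModularForm.smul_slash]
  congr 1
  rcases hi : σ i with _ | j
  · simp only [betaP, UpperHalfPlane.σ]
    rw [if_pos (by
      rw [map_mul, Units.val_mul]
      exact mul_pos (by simp) (det_heckeDiagMatrix_pos p))]
    rfl
  · simp only [betaP, σ_heckeMatrix]
    rfl

theorem nice_heckeT (h : nebSpace χ) (p : ℕ) :
    heckeT 2 p (h : ℍ → ℂ) ∈ nice :=
  mem_nice.mpr ⟨mdifferentiable_heckeT (NebSpace.neb h).holo 2 p,
    isBoundedAtImInfty_heckeT (mem_nice.mp (NebSpace.mem_nice h)).2.1 2 p,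
    periodic_heckeT_comp_ofComplex (mem_nice.mp (NebSpace.mem_nice h)).2.2 2 p⟩

theorem nice_heckeU (h : nebSpace χ) (p : ℕ) :
    heckeU 2 p (h : ℍ → ℂ) ∈ nice :=
  mem_nice.mpr ⟨mdifferentiable_heckeU (NebSpace.neb h).holo 2 p,
    isBoundedAtImInfty_heckeU (mem_nice.mp (NebSpace.mem_nice h)).2.1 2 p,
    periodic_heckeU_comp_ofComplex (mem_nice.mp (NebSpace.mem_nice h)).2.2 2 p⟩

theorem tFun_mem {p : ℕ} (hp : p.Prime) (hpM : ¬ p ∣ M) (h : nebSpace χ) :
    tFun (M := M) p (h : ℍ → ℂ) ∈ nebSpace χ := by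
  obtain ⟨f, hf⟩ := (NebSpace.neb h).exists_cuspForm_gamma1 (map_one χ)
  have hz : ∀ δ : SL(2, ℤ), IsZeroAtImInfty (tFun (M := M) p (h : ℍ → ℂ) ∣[(2 : ℤ)] δ) := by
    intro δ
    have hc : IsCusp ((δ : GL (Fin 2) ℝ) • OnePoint.infty)
        (Gamma1 M : Subgroup (GL (Fin 2) ℝ)) := by
      rw [Subgroup.IsArithmetic.isCusp_iff_isCusp_SL2Z, isCusp_SL2Z_iff']
      exact ⟨δ, rfl⟩
    have h1 := CuspFormClass.isZeroAt_heckeT f p hc (δ : GL (Fin 2) ℝ) rfl
    have h2 := CuspFormClass.isZeroAt_heckeU f p hc (δ : GL (Fin 2) ℝ) rfl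
    rw [hf] at h1 h2
    rw [tFun_eq hp hpM h, SlashAction.add_slash, ModularForm.SL_smul_slash,
      ModularForm.SL_smul_slash]
    exact (h1.smul _).add (h2.smul _)
  refine ⟨⟨fun γ hγ => tFun_neb hp hpM h hγ, ?_, fun δ => (hz δ).isBoundedAtImInfty⟩, hz⟩
  rw [tFun_eq hp hpM h]
  exact ((mdifferentiable_heckeT (NebSpace.neb h).holo 2 p).const_smul _).add
    ((mdifferentiable_heckeU (NebSpace.neb h).holo 2 p).const_smul _)

variable (χ) in
/-- `T_p` on forms with nebentypus. -/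
def tOp {p : ℕ} (hp : p.Prime) (hpM : ¬ p ∣ M) : Module.End ℂ (nebSpace χ) where
  toFun h := ⟨tFun (M := M) p (h : ℍ → ℂ), tFun_mem hp hpM h⟩
  map_add' f g := Subtype.ext (by
    simp [tFun, SlashAction.add_slash, Finset.sum_add_distrib])
  map_smul' c f := Subtype.ext (by
    simp only [tFun, RingHom.id_apply, SetLike.val_smul, Finset.smul_sum]
    refine Finset.sum_congr rfl fun i _ => ?_
    have hσ : UpperHalfPlane.σ (betaP M p i) = .refl ℝ ℂ := by
      rw [UpperHalfPlane.σ, if_pos]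
      rcases i with _ | j
      · simp only [betaP, map_mul, Units.val_mul]
        exact mul_pos (by simp) (det_heckeDiagMatrix_pos p)
      · exact det_heckeMatrix_pos p _
    rw [ModularForm.smul_slash, hσ]
    rfl)

theorem coe_tOp {p : ℕ} (hp : p.Prime) (hpM : ¬ p ∣ M) (h : nebSpace χ) :
    (tOp χ hp hpM h : ℍ → ℂ) = tFun (M := M) p (h : ℍ → ℂ) := rfl

theorem qCoeff_tOp {p : ℕ} (hp : p.Prime) (hpM : ¬ p ∣ M) (h : nebSpace χ) (n : ℕ) :
    (qSer χ (tOp χ hp hpM h)).coeff n = (qSer χ h).coeff (p * n)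
      + χ (p : ZMod M) * (p : ℂ) * (if p ∣ n then (qSer χ h).coeff (n / p) else 0) := by
  have e : (⟨_, NebSpace.mem_nice (tOp χ hp hpM h)⟩ : nice) =
      χ (p : ZMod M) • (⟨_, nice_heckeT h p⟩ : nice)
        + (1 - χ (p : ZMod M)) • (⟨_, nice_heckeU h p⟩ : nice) :=
    Subtype.ext (tFun_eq hp hpM h)
  show (qExp _).coeff n = _
  rw [e, map_add, map_smul, map_smul, map_add, PowerSeries.coeff_smul, PowerSeries.coeff_smul]
  show χ (p : ZMod M) • ModularFormClass.qCoeff (heckeT 2 p (h : ℍ → ℂ)) n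
      + (1 - χ (p : ZMod M)) • ModularFormClass.qCoeff (heckeU 2 p (h : ℍ → ℂ)) n = _
  obtain ⟨hd, hb, hper⟩ := mem_nice.mp (NebSpace.mem_nice h)
  rw [UpperHalfPlane.qCoeff_heckeT hper hd hb 2 hp.ne_zero,
    UpperHalfPlane.qCoeff_heckeU hper hd hb 2 hp.ne_zero, coeffHeckeT, coeffHeckeU]
  simp only [qSer_coeff, smul_eq_mul, mul_comm n p]
  norm_num
  split_ifs <;> ring

theorem tOp_comm {p q : ℕ} (hp : p.Prime) (hpM : ¬ p ∣ M) (hq : q.Prime) (hqM : ¬ q ∣ M) :
    Commute (tOp χ hp hpM) (tOp χ hq hqM) := by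
  rcases eq_or_ne p q with rfl | hne
  · exact Commute.refl _
  refine LinearMap.ext fun h => qSer_injective (PowerSeries.ext fun n => ?_)
  simp only [Module.End.mul_apply, qCoeff_tOp]
  have hcop : p.Coprime q := (Nat.coprime_primes hp hq).mpr hne
  have d1 : q ∣ p * n ↔ q ∣ n := hcop.symm.dvd_mul_left
  have d2 : p ∣ q * n ↔ p ∣ n := hcop.dvd_mul_left
  simp only [d1, d2]
  by_cases h1 : p ∣ n <;> by_cases h2 : q ∣ n
  · obtain ⟨m, rfl⟩ := (hcop.mul_dvd_of_dvd_of_dvd h1 h2)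
    have e1 : p * q * m / p = q * m := by rw [mul_assoc, Nat.mul_div_cancel_left _ hp.pos]
    have e2 : p * q * m / q = p * m := by
      rw [mul_comm p q, mul_assoc, Nat.mul_div_cancel_left _ hq.pos]
    have e3 : p * (p * q * m) / q = p * (p * m) := Nat.mul_div_assoc p h2 |>.trans (by rw [e2])
    have e4 : q * (p * q * m) / p = q * (q * m) := Nat.mul_div_assoc q h1 |>.trans (by rw [e1])
    simp [h1, h2, e1, e2, e3, e4, Nat.mul_div_cancel_left _ hp.pos,
      Nat.mul_div_cancel_left _ hq.pos, mul_left_comm p q]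
    ring
  · obtain ⟨m, rfl⟩ := h1
    have e3 : q * (p * m) / p = q * m := by
      rw [mul_left_comm, Nat.mul_div_cancel_left _ hp.pos]
    have h2' : ¬ q ∣ m := fun h => h2 (h.mul_left p)
    simp [h2, h2', e3, Nat.mul_div_cancel_left _ hp.pos, mul_left_comm p q]
  · obtain ⟨m, rfl⟩ := h2
    have e3 : p * (q * m) / q = p * m := by
      rw [mul_left_comm, Nat.mul_div_cancel_left _ hq.pos]
    have h1' : ¬ p ∣ m := fun h => h1 (h.mul_left q)
    simp [h1, h1', e3, Nat.mul_div_cancel_left _ hq.pos, mul_left_comm p q]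
  · simp [h1, h2, mul_left_comm p q]

/-! ### Periods -/

theorem slash_pm (h : nebSpace χ) {γ : SL(2, ℤ)} (hγ : γ ∈ pmGroup M) :
    (h : ℍ → ℂ) ∣[(2 : ℤ)] γ = (h : ℍ → ℂ) := by
  rcases mem_pmGroup_iff.mp hγ with hm | hm
  · have h10 := congrFun (congrFun hm 1) 0
    have h11 := congrFun (congrFun hm 1) 1
    simp [modM_apply] at h10 h11
    rw [slash_gamma0 h (Gamma0_mem.mpr h10), h11, map_one, one_smul]
  · have h10 := congrFun (congrFun hm 1) 0
    have h11 := congrFun (congrFun hm 1) 1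
    simp [modM_apply] at h10 h11
    rw [slash_gamma0 h (Gamma0_mem.mpr h10), h11]
    by_cases h0 : (h : ℍ → ℂ) = 0
    · simp [h0]
    · rw [(NebSpace.neb h).toNebForm.apply_neg_one h0]
      norm_num

theorem periodic_slashM (h : nebSpace χ) (δ : SL(2, ℤ)) :
    Periodic (((h : ℍ → ℂ) ∣[(2 : ℤ)] δ) ∘ ofComplex) (M : ℝ) := by
  intro w
  by_cases hw : 0 < w.im
  · have h' : 0 < (w + (M : ℝ)).im := by simpa using hw
    simp only [comp_apply, ofComplex_apply_of_im_pos h', ofComplex_apply_of_im_pos hw]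
    have key : ((h : ℍ → ℂ) ∣[(2 : ℤ)] δ) ∣[(2 : ℤ)] (ModularGroup.T ^ (M : ℤ))
        = ((h : ℍ → ℂ) ∣[(2 : ℤ)] δ) := by
      rw [← SlashAction.slash_mul,
        show δ * ModularGroup.T ^ (M : ℤ) = δ * ModularGroup.T ^ (M : ℤ) * δ⁻¹ * δ by group,
        SlashAction.slash_mul, slash_pm h (Gamma_le_pmGroup
          ((Gamma_normal M).conj_mem _ (Periods.T_zpow_mem_Gamma M) δ))]
    have := congr_fun key ⟨w, hw⟩
    rw [ModularForm.SL_slash_apply, modular_T_zpow_smul] at this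
    rw [← this]
    have hden : denom (ModularGroup.T ^ (M : ℤ) : SL(2, ℤ))
        ((⟨w, hw⟩ : ℍ) : ℂ) = 1 := by
      rw [ModularGroup.denom_apply, ModularGroup.coe_T_zpow]
      simp
    rw [hden, one_zpow, mul_one]
    refine congrArg _ (UpperHalfPlane.ext ?_)
    simp [coe_vadd, add_comm]
  · have h' : (w + (M : ℝ)).im ≤ 0 := by simpa using hw
    rw [comp_apply, comp_apply, ofComplex_apply_of_im_nonpos h',
      ofComplex_apply_of_im_nonpos (not_lt.mp hw)]

theorem exists_disc_slash (h : nebSpace χ) (δ : SL(2, ℤ)) :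
    ∃ Φ : ℂ → ℂ, DifferentiableOn ℂ Φ (ball 0 1) ∧ Φ 0 = 0 ∧
      IsPrimitive ((h : ℍ → ℂ) ∣[(2 : ℤ)] δ) (fun w : ℍ ↦ Φ (Periodic.qParam (M : ℝ) w)) :=
  exists_disc_primitive (natCast_pos_real M) (periodic_slashM h δ)
    (by rw [ModularForm.SL_slash]; exact MDifferentiable.slash (NebSpace.neb h).holo 2 _)
    ((NebSpace.neb h).zero δ)

theorem exists_primitive (h : nebSpace χ) : ∃ F : ℍ → ℂ, IsPrimitive (h : ℍ → ℂ) F := by
  obtain ⟨Φ, -, -, hΦ⟩ := exists_disc_slash h 1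
  rw [SlashAction.slash_one] at hΦ
  exact ⟨_, hΦ⟩

/-- A chosen primitive. -/
def prim (h : nebSpace χ) : ℍ → ℂ := (exists_primitive h).choose

theorem isPrimitive_prim (h : nebSpace χ) : IsPrimitive (h : ℍ → ℂ) (prim h) :=
  (exists_primitive h).choose_spec

theorem cuspRegular_prim (h : nebSpace χ) {F : ℍ → ℂ} (hF : IsPrimitive (h : ℍ → ℂ) F) :
    CuspRegular M F := by
  intro δ
  obtain ⟨Φ, hΦ, -, hprim⟩ := exists_disc_slash h δ
  obtain ⟨C, hC⟩ := exists_eq_add_const (isPrimitive_comp_smul hF δ) hprim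
  exact ⟨fun q ↦ Φ q + C, hΦ.add_const C, hC⟩

theorem equivariant_prim (h : nebSpace χ) :
    ModularCurve.Period.IsEquivariantPrimitive (pmGroup M) (prim h) := by
  intro γ
  have h1 := isPrimitive_comp_smul (isPrimitive_prim h) (γ : SL(2, ℤ))
  rw [slash_pm h γ.2] at h1
  obtain ⟨C, hC⟩ := exists_eq_add_const h1 (isPrimitive_prim h)
  exact ⟨C, fun z ↦ by rw [hC z]; ring⟩

/-- The periods of a form on `± Γ(M)`. -/
def perHom (h : nebSpace χ) : Additive (pmGroup M) →+ ℂ := (equivariant_prim h).periodHom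

theorem perHom_apply (h : nebSpace χ) {F : ℍ → ℂ} (hF : IsPrimitive (h : ℍ → ℂ) F)
    (γ : pmGroup M) (z : ℍ) :
    perHom h (Additive.ofMul γ) = F ((γ : SL(2, ℤ)) • z) - F z := by
  obtain ⟨C, hC⟩ := exists_eq_add_const (isPrimitive_prim h) hF
  rw [perHom, ModularCurve.Period.IsEquivariantPrimitive.periodHom_apply,
    ← (equivariant_prim h).sub_eq_period γ z, hC, hC]
  ring

theorem perHom_isParEllHom (h : nebSpace χ) : ParHom.IsParEllHom (pmGroup M) (perHom h) := by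
  rw [← ParHom.isParabolicHom_iff]
  intro γ hγ
  obtain ⟨δ, hδ⟩ := exists_conj_lower_left_eq_zero _ hγ
  set g := δ⁻¹ * (γ : SL(2, ℤ)) * δ with hg
  obtain ⟨Ψ, hΨ, hΨ'⟩ := cuspRegular_prim h (isPrimitive_prim h) δ
  have hL : Tendsto (fun w : ℍ ↦ prim h (δ • w)) atImInfty (𝓝 (Ψ 0)) := by
    simp only [hΨ']
    exact ((hΨ.differentiableAt (ball_mem_nhds 0 one_pos)).continuousAt.tendsto).comp
      (qParam_tendsto_atImInfty (natCast_pos_real M))
  have hdet := Matrix.det_fin_two (g : Matrix (Fin 2) (Fin 2) ℤ)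
  rw [g.det_coe, hδ, mul_zero, sub_zero] at hdet
  have hgsmul : ∃ x : ℝ, ∀ w : ℍ, g • w = x +ᵥ w := by
    rcases Int.eq_one_or_neg_one_of_mul_eq_one' hdet.symm with ⟨h0, h1⟩ | ⟨h0, h1⟩
    · refine ⟨g 0 1, fun w ↦ ?_⟩
      ext
      rw [coe_specialLinearGroup_apply, coe_vadd]
      simp [h0, h1, hδ, add_comm]
    · refine ⟨-g 0 1, fun w ↦ ?_⟩
      ext
      rw [coe_specialLinearGroup_apply, coe_vadd]
      simp [h0, h1, hδ]
      ring
  obtain ⟨x, hx⟩ := hgsmul
  have hconst : ∀ w : ℍ, prim h (δ • (x +ᵥ w)) - prim h (δ • w) =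
      perHom h (Additive.ofMul γ) := by
    intro w
    rw [perHom_apply h (isPrimitive_prim h) γ (δ • w), ← hx w, hg, ← mul_smul, ← mul_smul]
    simp [mul_assoc]
  have h1 : Tendsto (fun w : ℍ ↦ prim h (δ • (x +ᵥ w)) - prim h (δ • w)) atImInfty
      (𝓝 (Ψ 0 - Ψ 0)) := (hL.comp (tendsto_vadd_atImInfty x)).sub hL
  simp only [hconst, sub_self] at h1
  exact (tendsto_const_nhds_iff.mp h1)

variable (χ) in
/-- The periods at the chosen generators. -/
def perVec : nebSpace χ →ₗ[ℂ] (Fin (rk M) → ℂ) where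
  toFun h i := perHom h (Additive.ofMul (genX M i))
  map_add' f g := by
    funext i
    have hp : IsPrimitive ((f + g : nebSpace χ) : ℍ → ℂ) (prim f + prim g) := fun τ ↦
      (isPrimitive_prim f τ).add (isPrimitive_prim g τ)
    rw [Pi.add_apply, perHom_apply f (isPrimitive_prim f) _ UpperHalfPlane.I,
      perHom_apply g (isPrimitive_prim g) _ UpperHalfPlane.I,
      perHom_apply (f + g) hp _ UpperHalfPlane.I, Pi.add_apply, Pi.add_apply]
    ring
  map_smul' c f := by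
    funext i
    have hp : IsPrimitive ((c • f : nebSpace χ) : ℍ → ℂ) (fun w ↦ c * prim f w) := fun τ ↦
      (isPrimitive_prim f τ).const_mul c
    rw [Pi.smul_apply, perHom_apply f (isPrimitive_prim f) _ UpperHalfPlane.I,
      perHom_apply (c • f) hp _ UpperHalfPlane.I, RingHom.id_apply, smul_eq_mul]
    ring

theorem perVec_injective : Injective (perVec χ) := by
  refine (injective_iff_map_eq_zero (perVec χ)).mpr fun h h0 => ?_
  have hz : perHom h = 0 := ParHom.IsParEllHom.ext_parGen (neg_one_mem M) (perHom_isParEllHom h)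
    (fun _ _ => rfl) (fun i => congrFun h0 i)
  obtain ⟨C, hC⟩ := eq_const_of_invariant (Γ := pmGroup M)
    (cuspRegular_prim h (isPrimitive_prim h)) fun γ z => sub_eq_zero.mp (by
      rw [← perHom_apply h (isPrimitive_prim h) γ z, hz]
      rfl)
  refine Subtype.ext (funext fun τ => ?_)
  have h2 : HasDerivAt (prim h ∘ ofComplex) 0 (τ : ℂ) := by
    simp only [Function.comp_def, hC]
    exact hasDerivAt_const _ _
  exact (isPrimitive_prim h τ).unique h2

theorem slash_two_apply (f : ℍ → ℂ) {g : GL (Fin 2) ℝ} (hg : 0 < g.val.det) (τ : ℍ) :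
    (f ∣[(2 : ℤ)] g) τ = f (g • τ) * ((g.val.det : ℂ) / denom g τ ^ 2) := by
  have hg' : 0 < (g.det : ℝ) := by rwa [Matrix.GeneralLinearGroup.val_det_apply]
  rw [ModularForm.slash_apply, UpperHalfPlane.σ, if_pos hg', Matrix.GeneralLinearGroup.val_det_apply,
    abs_of_pos hg]
  simp [div_eq_mul_inv, mul_assoc, zpow_ofNat]

theorem perHom_tOp {p : ℕ} (hp : p.Prime) (hpM : ¬ p ∣ M) (h : nebSpace χ) :
    perHom (tOp χ hp hpM h) = transP M p (perHom h) := by
  have hp0 : p ≠ 0 := hp.ne_zero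
  have hdet : ∀ i, 0 < (betaP M p i).val.det := fun i => by
    rw [← toGL_matP M hp0, Ribet.Twisted.toGL_coe (by rw [det_matP]; exact_mod_cast hp0),
      ← Int.cast_det, det_matP]
    exact_mod_cast hp.pos
  have hG : IsPrimitive (tOp χ hp hpM h : ℍ → ℂ)
      (fun w => ∑ i, prim h (betaP M p i • w)) := by
    intro τ
    rw [coe_tOp, tFun, Finset.sum_apply]
    simp only [slash_two_apply _ (hdet _)]
    exact HasDerivAt.fun_sum (u := (Finset.univ : Finset (Option (Fin p))))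
      (fun i _ => HeckeCohom.hasDerivAt_comp_smul (isPrimitive_prim h) (betaP M p i) (hdet i) τ)
  refine AddMonoidHom.ext fun a => ?_
  obtain ⟨γ, rfl⟩ := Additive.ofMul.surjective a
  rw [perHom_apply _ hG γ UpperHalfPlane.I, transP, dif_pos ⟨hp, hpM⟩]
  exact (isCosetSystem_betaP M hp hpM).sum_periods (R := ℤ) (perHom h) (prim h)
    (fun δ x => (perHom_apply h (isPrimitive_prim h) δ x).symm) γ UpperHalfPlane.I

theorem perHom_dia {p : ℕ} (hp : p.Coprime M) (h : nebSpace χ) :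
    diaP M p (perHom h) = perHom (χ (p : ZMod M) • h) := by
  refine AddMonoidHom.ext fun a => ?_
  obtain ⟨γ, rfl⟩ := Additive.ofMul.surjective a
  have hG : IsPrimitive ((χ (p : ZMod M) • h : nebSpace χ) : ℍ → ℂ)
      (fun w => prim h (gam0 M p • w)) := by
    have := isPrimitive_comp_smul (isPrimitive_prim h) (gam0 M p)
    rwa [slash_gam0 h hp] at this
  rw [perHom_apply _ hG γ UpperHalfPlane.I]
  show perHom h (Additive.ofMul (conjG M p γ)) = _
  rw [perHom_apply h (isPrimitive_prim h) _ (gam0 M p • UpperHalfPlane.I), ← mul_smul]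
  show prim h ((gam0 M p * (γ : SL(2, ℤ)) * (gam0 M p)⁻¹ * gam0 M p) • _) - _ = _
  rw [inv_mul_cancel_right, mul_smul]

end Fermat.Agent.DeligneSerre.Level

end
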