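import Fermat.Agent.DeligneSerre.RepsCoset
import Fermat.Agent.DeligneSerre.RepsNeb
import Fermat.Agent.DeligneSerre.Reps
import Fermat.Agent.HeckeCohom.Eigen

/-!
# A mod `ℓ` eigenvector in the parabolic homomorphisms of `± Γ(M)`
-/

set_option autoImplicit false

noncomputable section

open CongruenceSubgroup Matrix
open scoped MatrixGroups ModularForm

namespace Fermat.Agent.DeligneSerre.Level

/-- The primes not dividing the level. -/
abbrev GoodPrime (M : ℕ) := {p : ℕ // p.Prime ∧ ¬ p ∣ M}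

/-- The Hecke operators and the values of the nebentypus, as operators on the forms. -/
def opsV {M : ℕ} [NeZero M] (χ : DirichletCharacter ℂ M) :
    GoodPrime M ⊕ GoodPrime M → Module.End ℂ (nebSpace χ) :=
  Sum.elim (fun p => tOp χ p.2.1 p.2.2) (fun p => χ (p.1 : ZMod M) • 1)

theorem opsV_comm {M : ℕ} [NeZero M] (χ : DirichletCharacter ℂ M) :
    ∀ x ∈ Set.range (opsV χ), ∀ y ∈ Set.range (opsV χ), x * y = y * x := by
  rintro _ ⟨i, rfl⟩ _ ⟨j, rfl⟩
  rcases i with p | p <;> rcases j with q | q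
  · exact tOp_comm p.2.1 p.2.2 q.2.1 q.2.2
  · exact ((Commute.one_right _).smul_right _)
  · exact ((Commute.one_left _).smul_left _)
  · exact ((Commute.one_left _).smul_left _)

open scoped IsMulCommutative in
theorem exists_opHom {M : ℕ} [NeZero M] (χ : DirichletCharacter ℂ M) :
    ∃ op : MvPolynomial (GoodPrime M ⊕ GoodPrime M) ℤ →+* Module.End ℂ (nebSpace χ),
      ∀ i, op (MvPolynomial.X i) = opsV χ i := by
  haveI := Algebra.isMulCommutative_adjoin ℤ (opsV_comm χ)
  exact ⟨(Algebra.adjoin ℤ (Set.range (opsV χ))).val.toRingHom.comp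
    (MvPolynomial.eval₂Hom (algebraMap ℤ _)
      (fun i => ⟨opsV χ i, Algebra.subset_adjoin ⟨i, rfl⟩⟩)), fun i => by simp⟩

theorem isIntegral_apply_natCast {M : ℕ} [NeZero M] (χ : DirichletCharacter ℂ M) {p : ℕ}
    (hp : p.Coprime M) : IsIntegral ℤ (χ (p : ZMod M)) := by
  refine IsIntegral.of_pow (Nat.totient_pos.mpr (NeZero.pos M)) ?_
  have h : ((p : ZMod M)) ^ M.totient = 1 := by
    have h := congrArg Units.val (ZMod.pow_totient (ZMod.unitOfCoprime p hp))
    rwa [Units.val_pow_eq_pow_val, ZMod.coe_unitOfCoprime, Units.val_one] at h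
  rw [← map_pow, h, map_one]
  exact isIntegral_one

/-- From a mod `φ` eigenform of nebentypus `χ` to an eigenvector of the integral matrices of the
Hecke and diamond operators, reduced into `k`. -/
theorem exists_eigenvector (M : ℕ) [NeZero M] (hM : 5 ≤ M) (χ : DirichletCharacter ℂ M)
    (g : CuspForm (Gamma1 M) 2) (hg : HasNebentypus M χ g)
    (a : ℕ → integralClosure ℤ ℂ) (ha : ∀ n, (a n : ℂ) = ModularFormClass.qCoeff g n)
    {ℓ : ℕ} (hℓ : ℓ.Prime) (hℓM : ℓ ∣ M) {k : Type} [Field k] [IsAlgClosed k] [CharP k ℓ]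
    (φ : integralClosure ℤ ℂ →+* k)
    (hne : ∃ n, φ (a n) ≠ 0)
    (A E : ℕ → integralClosure ℤ ℂ)
    (hE : ∀ p : ℕ, p.Prime → ¬ p ∣ M →
      ∃ e : integralClosure ℤ ℂ, (e : ℂ) = χ (p : ZMod M) * (p : ℂ) ∧ φ (E p) = φ e)
    (hT : ∀ p : ℕ, p.Prime → ¬ p ∣ M → ∀ n : ℕ,
      ∃ b : integralClosure ℤ ℂ, (b : ℂ) = heckeCoeff χ g p n ∧ φ b = φ (A p) * φ (a n)) :
    ∃ v : Fin (rk M) → k, v ≠ 0 ∧ ∀ p : ℕ, p.Prime → ¬ p ∣ M →
      (matT M p).map (Int.castRingHom k) *ᵥ v = φ (A p) • v ∧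
      (p : k) • ((matD M p).map (Int.castRingHom k) *ᵥ v) = φ (E p) • v := by
  classical
  obtain ⟨op, hop⟩ := exists_opHom χ
  let act : MvPolynomial (GoodPrime M ⊕ GoodPrime M) ℤ →+*
      AddMonoid.End (nebSpace χ →ₗ[ℂ] ℂ) :=
    { toFun := fun P => AddMonoidHom.mk' (fun f => f.comp (op P)) fun f g => LinearMap.add_comp _ _ _
      map_one' := by
        ext f h
        show f (op 1 h) = f h
        rw [map_one]
        rfl
      map_mul' := fun P Q => by
        ext f h
        show f (op (P * Q) h) = f (op Q (op P h))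
        rw [mul_comm P Q, map_mul]
        rfl
      map_zero' := by
        ext f h
        show f (op 0 h) = 0
        rw [map_zero, LinearMap.zero_apply, map_zero]
      map_add' := fun P Q => by
        ext f h
        show f (op (P + Q) h) = f (op P h) + f (op Q h)
        rw [map_add, LinearMap.add_apply, map_add] }
  letI : Module (MvPolynomial (GoodPrime M ⊕ GoodPrime M) ℤ) (nebSpace χ →ₗ[ℂ] ℂ) :=
    Module.compHom _ act
  have hsmul : ∀ (P : MvPolynomial (GoodPrime M ⊕ GoodPrime M) ℤ) (f : nebSpace χ →ₗ[ℂ] ℂ)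
      (h : nebSpace χ), (P • f) h = f (op P h) := fun _ _ _ => rfl
  let ev : Fin (rk M) → (nebSpace χ →ₗ[ℂ] ℂ) := fun i => (LinearMap.proj i).comp (perVec χ)
  let Q := Submodule.span (MvPolynomial (GoodPrime M ⊕ GoodPrime M) ℤ) (Set.range ev)
  haveI : Module.Finite (MvPolynomial (GoodPrime M ⊕ GoodPrime M) ℤ) Q :=
    Module.Finite.span_of_finite _ (Set.finite_range ev)
  let evQ : Fin (rk M) → Q := fun i => ⟨ev i, Submodule.subset_span ⟨i, rfl⟩⟩
  let θ : MvPolynomial (GoodPrime M ⊕ GoodPrime M) ℤ →+* k :=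
    MvPolynomial.eval₂Hom (Int.castRingHom k)
      (Sum.elim (fun p => φ (A p.1)) (fun p => φ (E p.1) * ((p.1 : ℕ) : k)⁻¹))
  have hpk : ∀ p : GoodPrime M, ((p.1 : ℕ) : k) ≠ 0 := fun p h0 =>
    p.2.2 (((Nat.prime_dvd_prime_iff_eq hℓ p.2.1).mp
      ((CharP.cast_eq_zero_iff k ℓ _).mp h0)) ▸ hℓM)
  -- relations between the periods at the generators
  have hTev : ∀ (p : GoodPrime M) (i : Fin (rk M)),
      (MvPolynomial.X (Sum.inl p) : MvPolynomial (GoodPrime M ⊕ GoodPrime M) ℤ) • evQ i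
        = ∑ j, matT M p.1 i j • evQ j := by
    intro p i
    refine Subtype.ext (LinearMap.ext fun h => ?_)
    rw [Submodule.coe_smul, hsmul, hop, AddSubmonoidClass.coe_finsetSum, LinearMap.sum_apply]
    show perHom (tOp χ p.2.1 p.2.2 h) (Additive.ofMul (genX M i)) = _
    rw [perHom_tOp p.2.1 p.2.2 h, transP_eq_sum M p.1 (perHom_isParEllHom h)]
    simp [evQ, ev, perVec]
  have hDev : ∀ (p : GoodPrime M) (i : Fin (rk M)),
      (MvPolynomial.X (Sum.inr p) : MvPolynomial (GoodPrime M ⊕ GoodPrime M) ℤ) • evQ i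
        = ∑ j, matD M p.1 i j • evQ j := by
    intro p i
    refine Subtype.ext (LinearMap.ext fun h => ?_)
    rw [Submodule.coe_smul, hsmul, hop, AddSubmonoidClass.coe_finsetSum, LinearMap.sum_apply]
    show perHom (χ (p.1 : ZMod M) • h) (Additive.ofMul (genX M i)) = _
    rw [← perHom_dia ((Nat.Prime.coprime_iff_not_dvd p.2.1).mpr p.2.2) h,
      diaP_eq_sum M p.1 (perHom_isParEllHom h)]
    simp [evQ, ev, perVec]
  -- `θ` vanishes on the annihilator
  let good : nebSpace χ → k → Prop := fun h c =>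
    ∀ n, ∃ b : integralClosure ℤ ℂ, (b : ℂ) = (qSer χ h).coeff n ∧ φ b = c * φ (a n)
  have hX : ∀ (i : GoodPrime M ⊕ GoodPrime M) (h : nebSpace χ) (c : k),
      good h c → good (opsV χ i h) (θ (MvPolynomial.X i) * c) := by
    intro i h c hh n
    rcases i with p | p
    · obtain ⟨e, he, -⟩ := hE p.1 p.2.1 p.2.2
      obtain ⟨bT, hbT, hφ⟩ := hT p.1 p.2.1 p.2.2 n
      have hbT' : bT = a (p.1 * n) + e * (if p.1 ∣ n then a (n / p.1) else 0) := by
        refine Subtype.ext ?_
        rw [hbT, heckeCoeff]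
        split_ifs <;> simp [ha, he]
      choose b hb hbφ using hh
      refine ⟨b (p.1 * n) + e * (if p.1 ∣ n then b (n / p.1) else 0), ?_, ?_⟩
      · show _ = (qSer χ (tOp χ p.2.1 p.2.2 h)).coeff n
        rw [qCoeff_tOp p.2.1 p.2.2 h n]
        split_ifs <;> simp [hb, he]
      · have hθ : θ (MvPolynomial.X (Sum.inl p)) = φ (A p.1) := by simp [θ]
        rw [hθ, mul_comm (φ (A p.1)) c, mul_assoc, ← hφ, hbT']
        split_ifs <;> simp [hbφ] <;> ring
    · obtain ⟨e, he, heφ⟩ := hE p.1 p.2.1 p.2.2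
      let c0 : integralClosure ℤ ℂ := ⟨χ (p.1 : ZMod M),
        isIntegral_apply_natCast χ ((Nat.Prime.coprime_iff_not_dvd p.2.1).mpr p.2.2)⟩
      have he' : e = c0 * (p.1 : integralClosure ℤ ℂ) := Subtype.ext (by simp [he, c0])
      obtain ⟨b, hb, hbφ⟩ := hh n
      refine ⟨c0 * b, ?_, ?_⟩
      · show _ = (qSer χ (χ (p.1 : ZMod M) • h)).coeff n
        rw [map_smul, PowerSeries.coeff_smul, smul_eq_mul]
        simp [hb, c0]
      · have hθ : θ (MvPolynomial.X (Sum.inr p)) = φ (E p.1) * ((p.1 : ℕ) : k)⁻¹ := by simp [θ]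
        rw [hθ, heφ, he', map_mul, map_mul, map_natCast, hbφ, mul_inv_cancel_right₀ (hpk p),
          mul_assoc]
  have hgood : ∀ (P : MvPolynomial (GoodPrime M ⊕ GoodPrime M) ℤ) (h : nebSpace χ) (c : k),
      good h c → good (op P h) (θ P * c) := by
    intro P
    induction P using MvPolynomial.induction_on with
    | C z =>
      intro h c hh n
      obtain ⟨b, hb, hbφ⟩ := hh n
      refine ⟨(z : integralClosure ℤ ℂ) * b, ?_, ?_⟩
      · rw [show op (MvPolynomial.C z) = (z : Module.End ℂ (nebSpace χ)) from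
          eq_intCast (op.comp MvPolynomial.C) z, Module.End.intCast_apply, map_zsmul, map_zsmul,
          zsmul_eq_mul]
        simp [hb]
      · simp [θ, hbφ, mul_assoc]
    | add P P' hP hP' =>
      intro h c hh n
      obtain ⟨b, hb, hbφ⟩ := hP h c hh n
      obtain ⟨b', hb', hbφ'⟩ := hP' h c hh n
      refine ⟨b + b', ?_, ?_⟩
      · simp [hb, hb']
      · rw [map_add, map_add, hbφ, hbφ']
        ring
    | mul_X P i hP =>
      intro h c hh
      rw [map_mul, Module.End.mul_apply, hop, map_mul, mul_assoc]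
      exact hP _ _ (hX i h c hh)
  have hann : Module.annihilator (MvPolynomial (GoodPrime M ⊕ GoodPrime M) ℤ) Q
      ≤ RingHom.ker θ := by
    intro P hP
    rw [Module.mem_annihilator] at hP
    let g0 : nebSpace χ := ⟨⇑g, nebCusp_of_cuspForm g hg⟩
    have hzero : op P g0 = 0 := by
      refine perVec_injective ?_
      funext i
      rw [map_zero]
      have h1 := DFunLike.congr_fun (congrArg Subtype.val (hP (evQ i))) g0
      exact h1
    obtain ⟨n, hn⟩ := hne
    have hbase : good g0 1 := fun m => ⟨a m, by rw [qSer_coeff]; exact ha m, by rw [one_mul]⟩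
    obtain ⟨b, hb, hbφ⟩ := hgood P g0 1 hbase n
    rw [hzero, map_zero, map_zero] at hb
    have hb0 : b = 0 := Subtype.ext hb
    rw [hb0, map_zero, mul_one] at hbφ
    exact (mul_eq_zero.mp hbφ.symm).resolve_right hn
  obtain ⟨ψ, hψ0, hψ⟩ := HeckeCohom.exists_eigen_functional θ hann
  refine ⟨fun i => ψ (evQ i), fun hv => hψ0 ?_, fun p hp hpM => ⟨?_, ?_⟩⟩
  · refine AddMonoidHom.ext fun q => ?_
    obtain ⟨x, hx⟩ := q
    induction hx using Submodule.span_induction with
    | mem y hy =>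
      obtain ⟨i, rfl⟩ := hy
      exact congrFun hv i
    | zero => exact map_zero ψ
    | add y z hy hz iy iz =>
      rw [show (⟨y + z, _⟩ : Q) = ⟨y, hy⟩ + ⟨z, hz⟩ from rfl, map_add, iy, iz]
      simp
    | smul r y hy iy =>
      rw [show (⟨r • y, _⟩ : Q) = r • ⟨y, hy⟩ from rfl, hψ, iy]
      simp
  · funext i
    have h1 := congrArg ψ (hTev ⟨p, hp, hpM⟩ i)
    rw [hψ, map_sum] at h1
    simp only [map_zsmul, zsmul_eq_mul] at h1
    simp only [Matrix.mulVec, dotProduct, Matrix.map_apply, Int.coe_castRingHom, Pi.smul_apply,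
      smul_eq_mul]
    simpa [θ] using h1.symm
  · funext i
    have h1 := congrArg ψ (hDev ⟨p, hp, hpM⟩ i)
    rw [hψ, map_sum] at h1
    simp only [map_zsmul, zsmul_eq_mul] at h1
    simp only [Matrix.mulVec, dotProduct, Matrix.map_apply, Int.coe_castRingHom, Pi.smul_apply,
      smul_eq_mul]
    rw [← h1]
    simp only [θ, MvPolynomial.eval₂Hom_X', Sum.elim_inr]
    rw [mul_comm (φ (E p)) _, ← mul_assoc, ← mul_assoc, mul_inv_cancel₀ (hpk ⟨p, hp, hpM⟩),
      one_mul]

end Fermat.Agent.DeligneSerre.Level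

end
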