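import Fermat.Agent.DeligneSerre.RepsGalois
import Fermat.Agent.DeligneSerre.RepsEigen
import Fermat.Agent.DeligneSerre.MainForms
import Fermat.Agent.Datum.Roots
import Fermat.Agent.Density.Main
import Fermat.Agent.RepLemmas.Galois
import Fermat.Agent.DeligneSerre.Reps

/-!
# The representation modulo `ℓ` of a mod `ℓ` eigenform of weight two with character
-/

set_option autoImplicit false

noncomputable section

open CongruenceSubgroup Matrix ModularFormClass
open scoped MatrixGroups ModularForm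

namespace Fermat.Agent.DeligneSerre

local notation "ℚbar" => AlgebraicClosure ℚ
local notation "Γℚ" => AlgebraicClosure ℚ ≃ₐ[ℚ] AlgebraicClosure ℚ

open Fermat.Agent.RepLemmas (QuadRel)

theorem isIntegral_dirichlet {n : ℕ} [NeZero n] (χ : DirichletCharacter ℂ n) (x : ZMod n) :
    IsIntegral ℤ (χ x) := by
  by_cases hx : IsUnit x
  · obtain ⟨u, rfl⟩ := hx
    refine IsIntegral.of_pow (Fintype.card_pos (α := (ZMod n)ˣ)) ?_
    rw [← map_pow, ← Units.val_pow_eq_pow_val, pow_card_eq_one, Units.val_one, map_one]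
    exact isIntegral_one
  · rw [χ.map_nonunit hx]
    exact isIntegral_zero

/-- `χ` times the cyclotomic character, reduced by `φ`. -/
def detChar {M ℓ : ℕ} [NeZero M] (hℓM : ℓ ∣ M) (χ : DirichletCharacter ℂ M) {k : Type} [Field k]
    [CharP k ℓ] (φ : integralClosure ℤ ℂ →+* k) : Γℚ →* k :=
  (({ toFun := fun a => φ ⟨χ a, isIntegral_dirichlet χ a⟩ * ZMod.castHom hℓM k a
      map_one' := by
        rw [show (⟨χ 1, isIntegral_dirichlet χ 1⟩ : integralClosure ℤ ℂ) = 1 from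
          Subtype.ext (map_one χ), map_one, map_one, one_mul]
      map_mul' := fun a b => by
        rw [show (⟨χ (a * b), isIntegral_dirichlet χ _⟩ : integralClosure ℤ ℂ)
          = ⟨χ a, isIntegral_dirichlet χ a⟩ * ⟨χ b, isIntegral_dirichlet χ b⟩ from
          Subtype.ext (map_mul χ a b), map_mul, map_mul]
        ring } : ZMod M →* k)).comp (Datum.chiMod M)

theorem detChar_apply {M ℓ : ℕ} [NeZero M] (hℓM : ℓ ∣ M) (χ : DirichletCharacter ℂ M) {k : Type}
    [Field k] [CharP k ℓ] (φ : integralClosure ℤ ℂ →+* k) (σ : Γℚ) :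
    detChar hℓM χ φ σ = φ ⟨χ (Datum.chiMod M σ), isIntegral_dirichlet χ _⟩ *
      ZMod.castHom hℓM k (Datum.chiMod M σ) := rfl

open Polynomial in
theorem trace_det_of_charpoly {k : Type} [Field k] {A : Matrix (Fin 2) (Fin 2) k} {t w : k}
    (h : A.charpoly = X ^ 2 - C t * X + C w) : A.trace = t ∧ A.det = w := by
  rw [Matrix.charpoly_fin_two] at h
  refine ⟨?_, ?_⟩
  · have := congrArg (fun q : k[X] => q.coeff 1) h
    simpa using this
  · have := congrArg (fun q : k[X] => q.coeff 0) h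
    simpa using this

/-- The representation, when `ℓ` divides the level. -/
theorem exists_rep_level (M : ℕ) [NeZero M] (hM : 5 ≤ M) (χ : DirichletCharacter ℂ M)
    (g : CuspForm (Gamma1 M) 2) (hg : HasNebentypus M χ g)
    (a : ℕ → integralClosure ℤ ℂ) (ha : ∀ n, (a n : ℂ) = qCoeff g n)
    {ℓ : ℕ} (hℓ : ℓ.Prime) (hℓ5 : 5 ≤ ℓ) (hℓM : ℓ ∣ M) {k : Type} [Field k] [IsAlgClosed k]
    [CharP k ℓ] (φ : integralClosure ℤ ℂ →+* k)
    (hne : ∃ n, φ (a n) ≠ 0)
    (A E : ℕ → integralClosure ℤ ℂ)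
    (hE : ∀ p : ℕ, p.Prime → ¬ p ∣ M →
      ∃ e : integralClosure ℤ ℂ, (e : ℂ) = χ (p : ZMod M) * (p : ℂ) ∧ φ (E p) = φ e)
    (hT : ∀ p : ℕ, p.Prime → ¬ p ∣ M → ∀ n : ℕ,
      ∃ b : integralClosure ℤ ℂ, (b : ℂ) = heckeCoeff χ g p n ∧ φ b = φ (A p) * φ (a n)) :
    ∃ ρ : Γℚ →* GL (Fin 2) k, GaloisFactorsThroughFiniteLevel ρ ∧
      ∀ p : ℕ, p.Prime → ¬ p ∣ M →
        ∀ B : ValuationSubring ℚbar, B.LiesOverPrime p →
          (∀ σ ∈ B.inertiaSubgroupIn ℚ, ρ σ = 1) ∧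
          ∀ σ : Γℚ, B.IsFrobeniusAt σ p →
            (ρ σ).val.trace = φ (A p) ∧ (ρ σ).val.det = φ (E p) := by
  classical
  have : NeZero ℓ := ⟨hℓ.ne_zero⟩
  have : Fact ℓ.Prime := ⟨hℓ⟩
  obtain ⟨v, hv0, hv⟩ := Level.exists_eigenvector M hM χ g hg a ha hℓ hℓM φ hne A E hE hT
  let c : ZMod ℓ →+* k := ZMod.castHom dvd_rfl k
  let big : Γℚ →* Module.End k (Fin (Level.rk M) → k) :=
    (Matrix.toLinAlgEquiv' (R := k)).toAlgHom.toRingHom.toMonoidHom.comp
      (c.mapMatrix.toMonoidHom.comp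
        ((LinearMap.toMatrixAlgEquiv' (R := ZMod ℓ)).toAlgHom.toRingHom.toMonoidHom.comp
          (Level.galEnd hM)))
  let R : Γℚ → Matrix (Fin (Level.rk M)) (Fin (Level.rk M)) (ZMod ℓ) :=
    fun σ => LinearMap.toMatrixAlgEquiv' (Level.galEnd hM σ)
  have hR : ∀ σ x, R σ *ᵥ x = Level.galEnd hM σ x := fun σ x => by
    rw [← Matrix.toLinAlgEquiv'_apply]
    simp only [R, Matrix.toLinAlgEquiv'_toMatrixAlgEquiv']
  have hbig : ∀ σ w, big σ w = (R σ).map c *ᵥ w := fun σ w => rfl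
  have hcastT : ∀ p, ((Level.matT M p).map (Int.castRingHom (ZMod ℓ))).map c
      = (Level.matT M p).map (Int.castRingHom k) := fun p => by
    ext i j; simp
  have hcastD : ∀ p, ((Level.matD M p).map (Int.castRingHom (ZMod ℓ))).map c
      = (Level.matD M p).map (Int.castRingHom k) := fun p => by
    ext i j; simp
  have hmat : ∀ {X Y : Matrix (Fin (Level.rk M)) (Fin (Level.rk M)) (ZMod ℓ)},
      (∀ x, X *ᵥ x = Y *ᵥ x) → X.map c = Y.map c := fun h => by
    rw [show _ = _ from Matrix.toLin'.injective (LinearMap.ext h)]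
  -- the space
  let W : Submodule k (Fin (Level.rk M) → k) :=
    { carrier := {w | ∀ p : ℕ, p.Prime → ¬ p ∣ M →
        (Level.matT M p).map (Int.castRingHom k) *ᵥ w = φ (A p) • w ∧
        (p : k) • ((Level.matD M p).map (Int.castRingHom k) *ᵥ w) = φ (E p) • w}
      add_mem' := fun {x y} hx hy p hp hpM =>
        ⟨by rw [mulVec_add, (hx p hp hpM).1, (hy p hp hpM).1, smul_add],
          by rw [mulVec_add, smul_add, (hx p hp hpM).2, (hy p hp hpM).2, smul_add]⟩
      zero_mem' := fun p _ _ => by simp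
      smul_mem' := fun r x hx p hp hpM =>
        ⟨by rw [mulVec_smul, (hx p hp hpM).1, smul_comm],
          by rw [mulVec_smul, smul_comm (p : k), (hx p hp hpM).2, smul_comm]⟩ }
  have hW : ∀ w ∈ W, ∀ p : ℕ, p.Prime → ¬ p ∣ M →
      (Level.matT M p).map (Int.castRingHom k) *ᵥ w = φ (A p) • w ∧
      (p : k) • ((Level.matD M p).map (Int.castRingHom k) *ᵥ w) = φ (E p) • w :=
    fun w hw => hw
  have hinv : ∀ σ, ∀ w ∈ W, big σ w ∈ W := by
    intro σ w hw p hp hpM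
    have hT' : (R σ).map c * (Level.matT M p).map (Int.castRingHom k)
        = (Level.matT M p).map (Int.castRingHom k) * (R σ).map c := by
      rw [← hcastT, ← Matrix.map_mul, ← Matrix.map_mul]
      exact hmat fun x => by
        rw [← mulVec_mulVec, ← mulVec_mulVec, hR, hR, Level.galEnd_matT hM σ hp hpM]
    have hD' : (R σ).map c * (Level.matD M p).map (Int.castRingHom k)
        = (Level.matD M p).map (Int.castRingHom k) * (R σ).map c := by
      rw [← hcastD, ← Matrix.map_mul, ← Matrix.map_mul]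
      exact hmat fun x => by
        rw [← mulVec_mulVec, ← mulVec_mulVec, hR, hR, Level.galEnd_matD hM σ hp hpM]
    rw [hbig]
    refine ⟨?_, ?_⟩
    · rw [mulVec_mulVec, ← hT', ← mulVec_mulVec, (hW w hw p hp hpM).1, mulVec_smul]
    · rw [mulVec_mulVec, ← hD', ← mulVec_mulVec, ← mulVec_smul, (hW w hw p hp hpM).2,
        mulVec_smul]
  let ρW : Γℚ →* Module.End k W :=
    { toFun := fun σ => (big σ).restrict (hinv σ)
      map_one' := by ext w; simp
      map_mul' := fun σ τ => by ext w; simp }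
  let ω := detChar hℓM χ φ
  have hcop : ∀ p : ℕ, p.Prime → ¬ p ∣ M → p.Coprime M := fun p hp hpM =>
    (Nat.Prime.coprime_iff_not_dvd hp).mpr hpM
  -- at Frobenius elements
  have hfrob : ∀ p : ℕ, p.Prime → ¬ p ∣ M → ∀ B : ValuationSubring ℚbar, B.LiesOverPrime p →
      ∀ σ : Γℚ, B.IsFrobeniusAt σ p →
        ω σ = φ (E p) ∧ QuadRel (ρW σ) (φ (A p)) (φ (E p)) := by
    intro p hp hpM B hB σ hσ
    refine ⟨?_, ?_⟩
    · obtain ⟨e, he, hee⟩ := hE p hp hpM
      rw [detChar_apply, hee,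
        show e = ⟨χ (p : ZMod M), isIntegral_dirichlet χ _⟩ * (p : integralClosure ℤ ℂ) from
          Subtype.ext (by simp [he]), map_mul, map_natCast φ]
      simp only [Datum.chiMod_frobenius M hB hσ (hcop p hp hpM)]
      rw [map_natCast (ZMod.castHom hℓM k)]
    · have hrel : (R σ).map c * (R σ).map c + (p : k) • (Level.matD M p).map (Int.castRingHom k)
          = (Level.matT M p).map (Int.castRingHom k) * (R σ).map c := by
        have e := hmat (X := R σ * R σ + p • (Level.matD M p).map (Int.castRingHom (ZMod ℓ)))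
          (Y := (Level.matT M p).map (Int.castRingHom (ZMod ℓ)) * R σ) fun x => by
            rw [add_mulVec, smul_mulVec, ← mulVec_mulVec, ← mulVec_mulVec, hR, hR,
              Level.galEnd_frobenius hM hp hpM hℓ hℓ5 hℓM hB hσ]
        change c.mapMatrix _ = c.mapMatrix _ at e
        rw [map_add, map_nsmul, map_mul, map_mul] at e
        simp only [RingHom.mapMatrix_apply, hcastT, hcastD] at e
        rw [Nat.cast_smul_eq_nsmul]
        exact e
      refine LinearMap.ext fun w => Subtype.ext ?_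
      obtain ⟨hw1, -⟩ := hW _ (hinv σ w w.2) p hp hpM
      obtain ⟨-, hw2⟩ := hW _ w.2 p hp hpM
      have e := congrArg (fun X => X *ᵥ (w : Fin (Level.rk M) → k)) hrel
      simp only [add_mulVec, smul_mulVec, ← mulVec_mulVec, hw2] at e
      rw [hbig] at hw1
      rw [hw1] at e
      show big σ (big σ w) - φ (A p) • big σ w + φ (E p) • (w : Fin (Level.rk M) → k) = 0
      simp only [hbig]
      rw [sub_add_eq_add_sub, e, sub_self]
  -- finite level
  obtain ⟨L₁, hL₁, h1⟩ := Level.galEnd_finiteLevel (ℓ := ℓ) hM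
  obtain ⟨L₂, hL₂, h2⟩ := Datum.exists_level_chiMod M
  have hker1 : ∀ σ, Level.galEnd hM σ = (1 : Module.End (ZMod ℓ) _) → ρW σ = 1 := fun σ h => by
    refine LinearMap.ext fun w => Subtype.ext ?_
    show big σ w = w
    simp [big, h]
  have hker2 : ∀ σ, Datum.chiMod M σ = 1 → ω σ = 1 := fun σ h => by
    simp only [ω, detChar, MonoidHom.comp_apply, h, map_one]
  have hρlev : GaloisFactorsThroughFiniteLevel ρW := ⟨L₁, hL₁, fun σ hσ => hker1 σ (h1 σ hσ)⟩
  have hωlev : GaloisFactorsThroughFiniteLevel ω := ⟨L₂, hL₂, fun σ hσ => hker2 σ (h2 σ hσ)⟩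
  -- every element satisfies a quadratic relation
  have : FiniteDimensional ℚ L₁ := hL₁
  have : FiniteDimensional ℚ L₂ := hL₂
  have hquad : ∀ σ, ∃ t, QuadRel (ρW σ) t (ω σ) := by
    intro σ
    refine Density.forall_of_frobenius (P := fun σ => ∃ t, QuadRel (ρW σ) t (ω σ)) (L₁ ⊔ L₂)
      ?_ (fun τ j ⟨t, ht⟩ => by rw [map_pow, map_pow]; exact ht.exists_pow j) M.primeFactors
      (fun p hp hpS B hB τ hτ => ?_) σ
    · intro τ τ' hττ h
      have hfix : ∀ x ∈ L₁ ⊔ L₂, (τ⁻¹ * τ') x = x := fun x hx => by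
        rw [AlgEquiv.mul_apply, ← hττ x hx, ← AlgEquiv.mul_apply, inv_mul_cancel,
          AlgEquiv.one_apply]
      have e1 : ρW τ' = ρW τ := by
        rw [← mul_inv_cancel_left τ τ', map_mul,
          hker1 _ (h1 _ fun x hx => hfix x (le_sup_left (a := L₁) hx)), mul_one]
      have e2 : ω τ' = ω τ := by
        rw [← mul_inv_cancel_left τ τ', map_mul,
          hker2 _ (h2 _ fun x hx => hfix x (le_sup_right (b := L₂) hx)), mul_one]
      rwa [e1, e2]
    · have hpM : ¬ p ∣ M := fun h => hpS (Nat.mem_primeFactors.mpr ⟨hp, h, NeZero.ne M⟩)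
      obtain ⟨h1, h2⟩ := hfrob p hp hpM B hB τ hτ
      exact ⟨_, h1 ▸ h2⟩
  have : Nontrivial W := ⟨⟨v, hv⟩, 0, fun h => hv0 (congrArg Subtype.val h)⟩
  obtain ⟨σr, hchar, htriv⟩ :=
    RepLemmas.exists_residualGaloisRep_of_quadRel ρW ω hρlev hωlev hquad
  let b := Module.finBasisOfFinrankEq k σr.V σr.finrank_eq
  let ρ : Γℚ →* GL (Fin 2) k :=
    ((LinearMap.toMatrixAlgEquiv b).toAlgHom.toRingHom.toMonoidHom.comp σr.ρ).toHomUnits
  have hρ1 : ∀ σ, σr.ρ σ = 1 → ρ σ = 1 := fun σ h => Units.ext (by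
    show LinearMap.toMatrixAlgEquiv b (σr.ρ σ) = 1
    rw [h, map_one])
  obtain ⟨L, hL, hLρ⟩ := σr.factorsThroughFiniteLevel
  refine ⟨ρ, ⟨L, hL, fun σ hσ => hρ1 σ (hLρ σ hσ)⟩, fun p hp hpM B hB => ⟨fun σ hσ => ?_, ?_⟩⟩
  · exact hρ1 σ (htriv σ (hker1 σ (Level.galEnd_inertia hM hp hpM hℓ hℓ5 hℓM hB hσ))
      (hker2 σ (Datum.chiMod_inertia M hB hσ (hcop p hp hpM))))
  · intro σ hσ
    obtain ⟨h1, h2⟩ := hfrob p hp hpM B hB σ hσ
    have h3 := hchar σ _ (h1 ▸ h2)
    rw [← LinearMap.charpoly_toMatrix (σr.ρ σ) b, h1] at h3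
    exact trace_det_of_charpoly h3

/-- **Representations modulo `ℓ` with character.**

Input: `g` of weight 2 on `Γ₁(M)` with nebentypus `χ` and integral coefficients; `φ` a residue
map of `ℤbar` to an algebraically closed field `k` of characteristic `ℓ`; the reduction of `g` is
non-zero, and for `p` prime to `M ℓ` it is an eigenvector of `T_p` with eigenvalue `φ (A p)`
(`A p` any algebraic integer), with `φ (E p) = p χ(p)`. -/
theorem exists_rep_of_eigen_mod (M : ℕ) [NeZero M] (χ : DirichletCharacter ℂ M)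
    (g : CuspForm (Gamma1 M) 2) (hg : HasNebentypus M χ g)
    (a : ℕ → integralClosure ℤ ℂ) (ha : ∀ n, (a n : ℂ) = qCoeff g n)
    {ℓ : ℕ} (hℓ : ℓ.Prime) (hℓ5 : 5 ≤ ℓ) {k : Type} [Field k] [IsAlgClosed k] [CharP k ℓ]
    (φ : integralClosure ℤ ℂ →+* k)
    (hne : ∃ n, φ (a n) ≠ 0)
    (A E : ℕ → integralClosure ℤ ℂ)
    (hE : ∀ p : ℕ, p.Prime → ¬ p ∣ M * ℓ →
      ∃ e : integralClosure ℤ ℂ, (e : ℂ) = χ (p : ZMod M) * (p : ℂ) ∧ φ (E p) = φ e)
    (hT : ∀ p : ℕ, p.Prime → ¬ p ∣ M * ℓ → ∀ n : ℕ,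
      ∃ b : integralClosure ℤ ℂ, (b : ℂ) = heckeCoeff χ g p n ∧ φ b = φ (A p) * φ (a n)) :
    ∃ ρ : Γℚ →* GL (Fin 2) k, GaloisFactorsThroughFiniteLevel ρ ∧
      ∀ p : ℕ, p.Prime → ¬ p ∣ M * ℓ →
        ∀ B : ValuationSubring ℚbar, B.LiesOverPrime p →
          (∀ σ ∈ B.inertiaSubgroupIn ℚ, ρ σ = 1) ∧
          ∀ σ : Γℚ, B.IsFrobeniusAt σ p →
            (ρ σ).val.trace = φ (A p) ∧ (ρ σ).val.det = φ (E p) := by
  have : NeZero ℓ := ⟨hℓ.ne_zero⟩
  have hd : M ∣ M * ℓ := dvd_mul_right M ℓ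
  let χ' : DirichletCharacter ℂ (M * ℓ) := DirichletCharacter.changeLevel hd χ
  have hχ' : ∀ x : ZMod (M * ℓ), IsUnit x → χ' x = χ (ZMod.castHom hd _ x) := by
    rintro _ ⟨u, rfl⟩
    rw [DirichletCharacter.changeLevel_eq_cast_of_dvd, ZMod.castHom_apply]
  have hcusp : NebCusp (M * ℓ) 2 χ' g :=
    ((nebCusp_of_cuspForm g hg).raise hd).congr fun x hx => (hχ' x hx).symm
  obtain ⟨g', hg'⟩ := hcusp.exists_cuspForm_gamma1 (map_one χ')
  have hneb : HasNebentypus (M * ℓ) χ' g' := fun γ hγ => by rw [hg']; exact hcusp.neb γ hγ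
  have hchi : ∀ p : ℕ, p.Prime → ¬ p ∣ M * ℓ →
      χ' (p : ZMod (M * ℓ)) = χ (p : ZMod M) := fun p hp hpM => by
    rw [hχ' _ ((ZMod.isUnit_iff_coprime p _).mpr ((Nat.Prime.coprime_iff_not_dvd hp).mpr hpM)),
      map_natCast]
  refine exists_rep_level (M * ℓ) ?_ χ' g' hneb a (fun n => by rw [hg']; exact ha n) hℓ hℓ5
    (dvd_mul_left ℓ M) φ hne A E (fun p hp hpM => by rw [hchi p hp hpM]; exact hE p hp hpM)
    fun p hp hpM n => ?_
  · calc 5 ≤ 1 * ℓ := by omega
      _ ≤ M * ℓ := Nat.mul_le_mul_right ℓ (NeZero.pos M)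
  · obtain ⟨b, hb, hφb⟩ := hT p hp hpM n
    refine ⟨b, ?_, hφb⟩
    rw [hb, heckeCoeff, heckeCoeff, hg', hchi p hp hpM]

end Fermat.Agent.DeligneSerre

end
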