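import Fermat.Agent.DeligneSerre.MainAlgebraic
import Fermat.Agent.DeligneSerre.GroupMain
import Fermat.Agent.DeligneSerre.RepsRep

/-!
# Reductions of a weight one eigenform

Multiplying by a weight one Eisenstein series congruent to one modulo a place above `ℓ` gives a
weight two eigenform modulo that place, hence a representation modulo `ℓ`.
-/

set_option autoImplicit false

noncomputable section

open CongruenceSubgroup ModularForm ModularFormClass IsLocalRing
open UpperHalfPlane hiding I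
open Fermat.Agent.Integral
open scoped MatrixGroups ModularForm PowerSeries

namespace Fermat.Agent.DeligneSerre

local notation "ℚbar" => AlgebraicClosure ℚ
local notation "ℚalg" => algebraicClosure ℚ ℂ

/-- The identification of `ℚ̄` with the algebraic complex numbers. -/
def qbarEquiv : ℚbar ≃ₐ[ℚ] ℚalg :=
  haveI : IsAlgClosure ℚ ℚalg := algebraicClosure.isAlgClosure ℚ ℂ
  IsAlgClosure.equiv ℚ ℚbar ℚalg

/-- The embedding of `ℚ̄` in `ℂ`. -/
def embC : ℚbar →+* ℂ := (algebraicClosure ℚ ℂ).val.toRingHom.comp qbarEquiv.toAlgHom.toRingHom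

open scoped Classical in
/-- The preimage in `ℚ̄` of a complex number, `0` if it is transcendental. -/
def preC (z : ℂ) : ℚbar := if h : z ∈ ℚalg then qbarEquiv.symm ⟨z, h⟩ else 0

theorem embC_preC {z : ℂ} (h : IsAlgebraic ℚ z) : embC (preC z) = z := by
  have h' : z ∈ ℚalg := mem_algebraicClosure_iff.mpr h
  rw [preC, dif_pos h']
  show ((qbarEquiv (qbarEquiv.symm ⟨z, h'⟩) : ℚalg) : ℂ) = z
  rw [AlgEquiv.apply_symm_apply]

theorem isIntegral_preC {z : ℂ} (h : IsIntegral ℤ z) : IsIntegral ℤ (preC z) := by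
  obtain ⟨P, hP, hP0⟩ := id h
  refine ⟨P, hP, embC.injective ?_⟩
  rw [map_zero, Polynomial.hom_eval₂, embC_preC (h.tower_top (A := ℚ)).isAlgebraic, ← hP0]
  congr 1
  exact Subsingleton.elim _ _

/-- The residue map on algebraic integers given by a place of `ℚ̄`. -/
def residueMap (A : ValuationSubring ℚbar) : integralClosure ℤ ℂ →+* ResidueField A :=
  (residue A).comp
    { toFun := fun z => intMem A (isIntegral_preC z.2)
      map_one' := Subtype.ext (embC.injective (by
        rw [coe_intMem, embC_preC ((1 : integralClosure ℤ ℂ).2.tower_top (A := ℚ)).isAlgebraic]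
        simp))
      map_mul' := fun z w => Subtype.ext (embC.injective (by
        show embC (preC _) = embC (preC _ * preC _)
        rw [map_mul, embC_preC (z.2.tower_top (A := ℚ)).isAlgebraic,
          embC_preC (w.2.tower_top (A := ℚ)).isAlgebraic,
          embC_preC ((z * w).2.tower_top (A := ℚ)).isAlgebraic]
        rfl))
      map_zero' := Subtype.ext (embC.injective (by
        rw [coe_intMem, embC_preC ((0 : integralClosure ℤ ℂ).2.tower_top (A := ℚ)).isAlgebraic]
        simp))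
      map_add' := fun z w => Subtype.ext (embC.injective (by
        show embC (preC _) = embC (preC _ + preC _)
        rw [map_add, embC_preC (z.2.tower_top (A := ℚ)).isAlgebraic,
          embC_preC (w.2.tower_top (A := ℚ)).isAlgebraic,
          embC_preC ((z + w).2.tower_top (A := ℚ)).isAlgebraic]
        rfl)) }

theorem residueMap_apply (A : ValuationSubring ℚbar) {z : ℂ} (hz : IsIntegral ℤ z) :
    residueMap A ⟨z, hz⟩ = residue A (intMem A (isIntegral_preC hz)) := rfl

theorem charP_residueField {ℓ : ℕ} (hℓ : ℓ.Prime) {A : ValuationSubring ℚbar}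
    (hA : A.LiesOverPrime ℓ) : CharP (ResidueField A) ℓ := by
  rw [CharP.charP_iff_prime_eq_zero hℓ, ← map_natCast (residue A), residue_eq_zero_iff,
    ← ValuationSubring.coe_mem_nonunits_iff]
  simpa using (Galois.intCast_mem_nonunits_iff hℓ hA (ℓ : ℤ)).mpr dvd_rfl

/-- An odd primitive character modulo `ℓ` reducing to the inverse of the tautological one. -/
theorem exists_teichmuller {ℓ : ℕ} (hℓ : ℓ.Prime) (hℓ3 : 3 ≤ ℓ) {A : ValuationSubring ℚbar}
    (hA : A.LiesOverPrime ℓ) :
    ∃ χ : DirichletCharacter ℂ ℓ, χ.IsPrimitive ∧ χ.Odd ∧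
      ∃ hint : ∀ x, IsIntegral ℤ (χ x), ∀ n : ℕ, ¬ ℓ ∣ n →
        residueMap A ⟨χ (n : ZMod ℓ), hint _⟩ * (n : ResidueField A) = 1 := by
  classical
  have := charP_residueField hℓ hA
  have : Fact ℓ.Prime := ⟨hℓ⟩
  have : NeZero ℓ := ⟨hℓ.ne_zero⟩
  set m := ℓ - 1
  have hm : ¬ ℓ ∣ m := fun h => by
    have := Nat.le_of_dvd (by omega) h
    omega
  have hmk : ((m : ℕ) : ResidueField A) ≠ 0 := natCast_residueField_ne_zero hℓ hA hm
  let ι : ZMod ℓ →+* ResidueField A := ZMod.castHom dvd_rfl _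
  have hu : ∀ a : (ZMod ℓ)ˣ, ι ((a⁻¹ : (ZMod ℓ)ˣ) : ZMod ℓ) ^ m = 1 := fun a => by
    rw [← map_pow, ← Units.val_pow_eq_pow_val, ZMod.units_pow_card_sub_one_eq_one ℓ,
      Units.val_one, map_one]
  choose z hz hzr using fun a => exists_root_lift hℓ hA hm (hu a)
  have huniq : ∀ a : (ZMod ℓ)ˣ, ∀ w : A, w ^ m = 1 →
      residue A w = ι ((a⁻¹ : (ZMod ℓ)ˣ) : ZMod ℓ) → w = z a :=
    fun a w hw hwr => eq_of_map_eq_of_pow_eq_one (residue A) hmk hw (hz a) (hwr.trans (hzr a).symm)
  let Z : (ZMod ℓ)ˣ →* A :=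
    { toFun := z
      map_one' := (huniq 1 1 (one_pow m) (by simp)).symm
      map_mul' := fun a b => (huniq (a * b) (z a * z b)
        (by rw [mul_pow, hz, hz, one_mul])
        (by rw [map_mul, hzr, hzr, ← map_mul, mul_inv, Units.val_mul])).symm }
  let W : (ZMod ℓ)ˣ →* ℂˣ :=
    ((embC.comp A.subtype : A →+* ℂ).toMonoidHom.comp Z).toHomUnits
  let χ : DirichletCharacter ℂ ℓ := MulChar.ofUnitHom W
  have hχ : ∀ a : (ZMod ℓ)ˣ, χ a = embC (z a : ℚbar) := fun a => MulChar.ofUnitHom_coe W a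
  have hm1 : z (-1) = -1 := by
    refine (huniq (-1) (-1) ?_ (by simp)).symm
    exact Even.neg_one_pow (by
      obtain ⟨q, hq⟩ := hℓ.odd_of_ne_two (by omega)
      exact ⟨q, by omega⟩)
  have hodd : χ.Odd := by
    show χ (-1) = -1
    have := hχ (-1)
    rw [hm1] at this
    simpa using this
  have hint : ∀ x, IsIntegral ℤ (χ x) := isIntegral_char χ
  refine ⟨χ, ?_, hodd, hint, fun n hn => ?_⟩
  · rw [DirichletCharacter.isPrimitive_def]
    refine ((Nat.dvd_prime hℓ).mp χ.conductor_dvd_level).resolve_left fun h => ?_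
    have h1 : χ = 1 := (DirichletCharacter.eq_one_iff_conductor_eq_one (χ := χ)).mpr h
    have h2 : χ (-1) = -1 := hodd
    rw [h1, MulChar.one_apply isUnit_one.neg] at h2
    norm_num at h2
  · obtain ⟨a, ha⟩ : IsUnit (n : ZMod ℓ) := by
      rw [ZMod.isUnit_iff_coprime]
      exact ((Nat.Prime.coprime_iff_not_dvd hℓ).mpr hn).symm
    have e : intMem A (isIntegral_preC (hint (n : ZMod ℓ))) = z a :=
      Subtype.ext (embC.injective (by
        rw [coe_intMem, embC_preC ((hint _).tower_top (A := ℚ)).isAlgebraic, ← ha, hχ]))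
    rw [residueMap_apply, e, hzr, ← map_natCast ι n, ← ha, ← map_mul, ← Units.val_mul,
      inv_mul_cancel, Units.val_one, map_one]

/-- A weight one form congruent to one. -/
theorem exists_unitForm {ℓ : ℕ} (hℓ : ℓ.Prime) (hℓ3 : 3 ≤ ℓ) {A : ValuationSubring ℚbar}
    (hA : A.LiesOverPrime ℓ) :
    ∃ χ : DirichletCharacter ℂ ℓ, (∃ hint : ∀ x, IsIntegral ℤ (χ x), ∀ n : ℕ, ¬ ℓ ∣ n →
        residueMap A ⟨χ (n : ZMod ℓ), hint _⟩ * (n : ResidueField A) = 1) ∧
      ∃ (G : ℍ → ℂ) (b : (integralClosure ℤ ℂ)⟦X⟧), NebForm ℓ 1 χ G ∧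
        (∀ n, qCoeff G n = ((b.coeff n : integralClosure ℤ ℂ) : ℂ)) ∧
        PowerSeries.map (residueMap A) b = 1 := by
  classical
  have := charP_residueField hℓ hA
  have : NeZero ℓ := ⟨hℓ.ne_zero⟩
  obtain ⟨χ, hprim, hodd, hint, hres⟩ := exists_teichmuller hℓ hℓ3 hA
  obtain ⟨E, hneb, h0, hn⟩ := exists_eisensteinOne χ hprim hodd
  have hE : NebForm ℓ 1 χ E := nebForm_of_modularForm E hneb
  have hEn : (⇑E : ℍ → ℂ) ∈ nice := hE.mem_nice (map_one χ)
  let v : ℕ → integralClosure ℤ ℂ := fun a => ⟨χ (a : ZMod ℓ), hint _⟩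
  let b : (integralClosure ℤ ℂ)⟦X⟧ := PowerSeries.mk fun n =>
    if n = 0 then -∑ a ∈ Finset.range ℓ, (a : integralClosure ℤ ℂ) * v a
    else ((2 * ℓ : ℕ) : integralClosure ℤ ℂ) * ∑ d ∈ n.divisors, v d
  refine ⟨χ, ⟨hint, hres⟩, ((2 * ℓ : ℂ) • ⇑E), b, ⟨fun γ hγ => ?_, hE.holo.const_smul _,
    fun g => ?_⟩, fun n => ?_, ?_⟩
  · rw [ModularForm.SL_smul_slash, hE.neb γ hγ, smul_comm]
  · rw [ModularForm.SL_smul_slash]
    exact (hE.bdd g).const_smul_left _
  · have e := congrArg (PowerSeries.coeff n) (map_smul qExp (2 * ℓ : ℂ) (⟨_, hEn⟩ : nice))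
    rw [PowerSeries.coeff_smul] at e
    have e' : qCoeff ((2 * ℓ : ℂ) • ⇑E) n = (2 * ℓ : ℂ) * qCoeff E n := e
    rw [e', PowerSeries.coeff_mk]
    split_ifs with hn0
    · subst hn0
      rw [h0]
      simp [v]
    · rw [hn n hn0]
      simp only [v, MulMemClass.coe_mul, AddSubmonoidClass.coe_finsetSum]
      rw [show (((2 * ℓ : ℕ) : integralClosure ℤ ℂ) : ℂ) = ((2 * ℓ : ℕ) : ℂ) from
        map_natCast (integralClosure ℤ ℂ).val _]
      push_cast
      rfl
  · ext n
    rw [PowerSeries.coeff_map, PowerSeries.coeff_mk, PowerSeries.coeff_one]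
    split_ifs with hn0
    · subst hn0
      have hterm : ∀ a ∈ Finset.range ℓ, residueMap A ((a : integralClosure ℤ ℂ) * v a)
          = if a = 0 then 0 else 1 := fun a ha => by
        rw [map_mul, map_natCast]
        split_ifs with h
        · simp [h]
        · rw [mul_comm]
          exact hres a fun hd => by
            have := Nat.le_of_dvd (Nat.pos_of_ne_zero h) hd
            have := Finset.mem_range.mp ha
            omega
      rw [map_neg, map_sum, Finset.sum_congr rfl hterm]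
      obtain ⟨l, rfl⟩ : ∃ l, ℓ = l + 1 := ⟨ℓ - 1, by omega⟩
      rw [Finset.sum_range_succ', if_pos rfl, add_zero,
        Finset.sum_congr rfl (fun a _ => if_neg (Nat.succ_ne_zero a)), Finset.sum_const,
        Finset.card_range, nsmul_one]
      have hl : ((l + 1 : ℕ) : ResidueField A) = 0 := CharP.cast_eq_zero _ _
      push_cast at hl
      linear_combination -hl
    · rw [map_mul, map_natCast, Nat.cast_mul, CharP.cast_eq_zero (ResidueField A) ℓ]
      simp

variable {N : ℕ}

/-- Representations modulo almost all places attached to a weight one eigenform. -/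
theorem hasReductionAt_eigen [NeZero N] (ε : DirichletCharacter ℂ N) {a : ℕ → ℂ} {ψ : ℍ → ℂ}
    (h : EigenOne N (N * N) (raiseChar (N * N) (dvd_mul_right N N) ε)
      (fun p => ε (p : ZMod N)) a ψ)
    {D : ℕ} (hD : D ≠ 0) (hψ : ∀ n, IsIntegral ℤ ((D : ℂ) * qCoeff ψ n))
    (ha : ∀ p : ℕ, p.Prime → ¬ p ∣ N → IsIntegral ℤ (a p)) :
    ∃ S₀ : Finset ℕ, ∀ ℓ : ℕ, ℓ.Prime → ℓ ∉ S₀ → ∀ A : ValuationSubring ℚbar, A.LiesOverPrime ℓ →
      HasReductionAt N (fun p => preC (a p)) (fun p => preC (ε (p : ZMod N))) ℓ A := by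
  classical
  refine ⟨(6 * N * D).divisors, fun ℓ hℓ hℓS A hA => ?_⟩
  rw [Nat.mem_divisors, not_and_or] at hℓS
  have hℓ' : ¬ ℓ ∣ 6 * N * D := hℓS.resolve_right (not_not_intro
    (by have := NeZero.ne N; positivity))
  have hℓD : ¬ ℓ ∣ D := fun hd => hℓ' (dvd_mul_of_dvd_right hd _)
  have hℓN : ¬ ℓ ∣ N := fun hd => hℓ' (dvd_mul_of_dvd_left (dvd_mul_of_dvd_right hd _) _)
  have hℓ6 : ¬ ℓ ∣ 6 := fun hd => hℓ' (dvd_mul_of_dvd_left (dvd_mul_of_dvd_left hd _) _)
  have hℓ5 : 5 ≤ ℓ := by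
    by_contra! hlt
    have := hℓ.two_le
    interval_cases ℓ <;> first | omega | exact absurd hℓ (by norm_num)
  have := charP_residueField hℓ hA
  have := isAlgClosed_residueField A
  have : NeZero ℓ := ⟨hℓ.ne_zero⟩
  obtain ⟨χ, ⟨hint, hres⟩, G, b, hG, hGb, hb⟩ := exists_unitForm hℓ (by omega) hA
  set M := N * N * ℓ
  have hdN : N ∣ M := ⟨N * ℓ, mul_assoc _ _ _⟩
  have hdℓ : ℓ ∣ M := dvd_mul_left _ _
  let χM : DirichletCharacter ℂ M :=
    DirichletCharacter.changeLevel hdN ε * DirichletCharacter.changeLevel hdℓ χ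
  have hχM : ∀ x : ZMod M, IsUnit x →
      χM x = ε (ZMod.castHom hdN _ x) * χ (ZMod.castHom hdℓ _ x) := by
    intro x hx
    obtain ⟨u, rfl⟩ := hx
    rw [MulChar.mul_apply, DirichletCharacter.changeLevel_eq_cast_of_dvd,
      DirichletCharacter.changeLevel_eq_cast_of_dvd, ZMod.castHom_apply, ZMod.castHom_apply]
  -- the weight two form
  have hprod : NebCusp M 2 χM (((D : ℂ) • ψ) * G) := by
    have h1 : NebCusp (N * N) 1 (raiseChar (N * N) (dvd_mul_right N N) ε) ((D : ℂ) • ψ) := by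
      refine ⟨⟨fun γ hγ => ?_, h.cusp.holo.const_smul _, fun g => ?_⟩, fun g => ?_⟩
      · rw [ModularForm.SL_smul_slash, h.cusp.neb γ hγ, smul_comm]
      · rw [ModularForm.SL_smul_slash]
        exact (h.cusp.bdd g).const_smul_left _
      · rw [ModularForm.SL_smul_slash]
        simpa [IsZeroAtImInfty, Filter.ZeroAtFilter, Pi.smul_def] using
          (Filter.Tendsto.const_smul (h.cusp.zero g) (D : ℂ))
    refine (((h1.raise (dvd_mul_right (N * N) ℓ)).mul (hG.raise hdℓ)).weight
      (show (1 : ℤ) + 1 = 2 by norm_num)).congr fun x hx => ?_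
    show raiseChar (N * N) (dvd_mul_right N N) ε (ZMod.castHom _ _ x) * χ (ZMod.castHom _ _ x) = _
    rw [hχM x hx, raiseChar, ← RingHom.comp_apply, ZMod.castHom_comp]
  obtain ⟨g, hg⟩ := hprod.exists_cuspForm_gamma1 (map_one χM)
  have hgneb : HasNebentypus M χM g := fun γ hγ => by rw [hg]; exact hprod.neb γ hγ
  -- coefficients
  let C : ℕ → integralClosure ℤ ℂ := fun n => ⟨_, hψ n⟩
  let c : (integralClosure ℤ ℂ)⟦X⟧ := PowerSeries.mk C * b
  have hgc : ∀ n, ((c.coeff n : integralClosure ℤ ℂ) : ℂ) = qCoeff g n := by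
    have hψn : ψ ∈ nice := h.cusp.toNebForm.mem_nice (raiseChar_one _ _ _)
    have hGn : G ∈ nice := hG.mem_nice (map_one χ)
    have hgn : (⇑g : ℍ → ℂ) ∈ nice :=
      mem_nice_of_modularForm (one_mem_strictPeriods_Gamma1 M) g
    have e : qExp ⟨⇑g, hgn⟩ = PowerSeries.map (integralClosure ℤ ℂ).val.toRingHom c := by
      rw [show (⟨⇑g, hgn⟩ : nice) = ((D : ℂ) • (⟨ψ, hψn⟩ : nice)) * ⟨G, hGn⟩ from Subtype.ext hg,
        map_mul, map_mul, map_smul]
      congr 1
      · ext n
        rw [PowerSeries.coeff_smul, PowerSeries.coeff_map, PowerSeries.coeff_mk]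
        rfl
      · ext n
        rw [PowerSeries.coeff_map]
        exact hGb n
    intro n
    have := congrArg (PowerSeries.coeff n) e
    rw [PowerSeries.coeff_map] at this
    exact this.symm
  have hcC : ∀ n, residueMap A (c.coeff n) = residueMap A (C n) := fun n => by
    rw [← PowerSeries.coeff_map, map_mul, hb, mul_one, PowerSeries.coeff_map, PowerSeries.coeff_mk]
  clear_value c
  let Ap : ℕ → integralClosure ℤ ℂ :=
    fun p => if hp : IsIntegral ℤ (a p) then ⟨a p, hp⟩ else 0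
  let Ep : ℕ → integralClosure ℤ ℂ := fun p => ⟨ε (p : ZMod N), isIntegral_char ε _⟩
  have hcond : ∀ p : ℕ, p.Prime → (p ∣ M * ℓ ↔ p ∣ N ∨ p = ℓ) := fun p hp => by
    simp only [M, hp.dvd_mul, Nat.prime_dvd_prime_iff_eq hp hℓ]
    tauto
  have heval : ∀ p : ℕ, p.Prime → ¬ p ∣ M * ℓ → ∃ e : integralClosure ℤ ℂ,
      (e : ℂ) = χM (p : ZMod M) * (p : ℂ) ∧ residueMap A (Ep p) = residueMap A e := by
    intro p hp hpM
    rw [hcond p hp, not_or] at hpM
    have hu : IsUnit (p : ZMod M) := by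
      rw [ZMod.isUnit_iff_coprime, Nat.Prime.coprime_iff_not_dvd hp]
      simp [M, hp.dvd_mul, Nat.prime_dvd_prime_iff_eq hp hℓ, hpM]
    refine ⟨Ep p * ⟨χ (p : ZMod ℓ), hint _⟩ * p, ?_, ?_⟩
    · have e := hχM _ hu
      simp only [map_natCast] at e
      rw [e]
      simp [Ep]
    · simp only [map_mul, map_natCast]
      rw [mul_assoc,
        hres p (fun hd => hpM.2 ((Nat.prime_dvd_prime_iff_eq hℓ hp).mp hd).symm), mul_one]
  have hC1 : residueMap A (C 1) = (D : ResidueField A) := by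
    rw [show C 1 = (D : integralClosure ℤ ℂ) from Subtype.ext (by simp [C, h.one]), map_natCast]
  obtain ⟨ρ, hfac, hρ⟩ := exists_rep_of_eigen_mod M χM g hgneb (fun n => c.coeff n) hgc hℓ hℓ5
    (residueMap A) ⟨1, by rw [hcC, hC1]; exact natCast_residueField_ne_zero hℓ hA hℓD⟩ Ap Ep
    heval (fun p hp hpM n => by
      obtain ⟨e, he, hee⟩ := heval p hp hpM
      rw [hcond p hp, not_or] at hpM
      refine ⟨c.coeff (p * n) + e * (if p ∣ n then c.coeff (n / p) else 0), ?_, ?_⟩
      · unfold heckeCoeff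
        rw [← hgc, ← he]
        split_ifs
        · rw [← hgc]; simp
        · simp
      · have hrel : C (p * n) + Ep p * (if p ∣ n then C (n / p) else 0) = Ap p * C n := by
          apply Subtype.ext
          have e' := h.rel p hp hpM.1 n
          simp only [C, Ep, Ap, dif_pos (ha p hp hpM.1), MulMemClass.coe_mul,
            AddMemClass.coe_add]
          rw [apply_ite Subtype.val]
          split_ifs with hpn
          · rw [if_pos hpn] at e'
            linear_combination (D : ℂ) * e'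
          · rw [if_neg hpn] at e'
            simp only [ZeroMemClass.coe_zero]
            linear_combination (D : ℂ) * e'
        have := congrArg (residueMap A) hrel
        rw [map_add, map_mul, map_mul, apply_ite (residueMap A), map_zero] at this
        rw [map_add, map_mul, apply_ite (residueMap A), map_zero, hcC, hcC, hcC, ← hee]
        exact this)
  refine ⟨ρ, hfac, fun p hp hpN hpℓ B hB => ?_⟩
  obtain ⟨hunr, hfrob⟩ := hρ p hp (by rw [hcond p hp, not_or]; exact ⟨hpN, hpℓ⟩) B hB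
  refine ⟨hunr, fun σ hσ => ⟨fun x hx => ?_, fun x hx => ?_⟩⟩
  · rw [(hfrob σ hσ).1]
    simp only [Ap, dif_pos (ha p hp hpN), residueMap_apply]
    exact congrArg (residue A) (Subtype.ext hx.symm)
  · rw [(hfrob σ hσ).2, residueMap_apply]
    exact congrArg (residue A) (Subtype.ext hx.symm)

end Fermat.Agent.DeligneSerre
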