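import Mathlib.Analysis.Complex.LocallyUniformLimit
import Mathlib.Analysis.Complex.RemovableSingularity
import Mathlib.Analysis.Complex.Liouville
import Mathlib.NumberTheory.ModularForms.SlashActions

/-!
# The cotangent series and its transformation law

`cotSum τ z` is `1/(2πi)` times the logarithmic derivative in `z` of the odd Jacobi theta
function, written as a series in `exp (2πi z)` and `exp (2πi τ)`.  Its behaviour under
`SL₂(ℤ)` follows from Liouville's theorem.
-/

set_option autoImplicit false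

noncomputable section

open Complex Filter Topology
open UpperHalfPlane hiding I
open scoped MatrixGroups Real

namespace Fermat.Agent.DeligneSerre

/-- `exp (2πi z)`. -/
def eExp (z : ℂ) : ℂ := Complex.exp (2 * π * I * z)

theorem eExp_add (a b : ℂ) : eExp (a + b) = eExp a * eExp b := by
  simp [eExp, mul_add, Complex.exp_add]

theorem eExp_zero : eExp 0 = 1 := by simp [eExp]

theorem eExp_ne_zero (z : ℂ) : eExp z ≠ 0 := Complex.exp_ne_zero _

theorem eExp_int (n : ℤ) : eExp n = 1 := by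
  rw [eExp, Complex.exp_eq_one_iff]
  exact ⟨n, by ring⟩

theorem eExp_add_int (z : ℂ) (n : ℤ) : eExp (z + n) = eExp z := by
  rw [eExp_add, eExp_int, mul_one]

theorem eExp_neg (z : ℂ) : eExp (-z) = (eExp z)⁻¹ := by
  simp [eExp, Complex.exp_neg]

theorem eExp_eq_one_iff {z : ℂ} : eExp z = 1 ↔ ∃ n : ℤ, z = n := by
  constructor
  · intro h
    obtain ⟨n, hn⟩ := Complex.exp_eq_one_iff.mp h
    refine ⟨n, ?_⟩
    exact mul_left_cancel₀ two_pi_I_ne_zero (by rw [hn]; ring)
  · rintro ⟨n, rfl⟩; exact eExp_int n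

theorem norm_eExp (z : ℂ) : ‖eExp z‖ = Real.exp (-(2 * π) * z.im) := by
  simp [eExp, Complex.norm_exp, Complex.mul_re, Complex.mul_im]

theorem differentiable_eExp : Differentiable ℂ eExp :=
  (differentiable_id.const_mul _).cexp

theorem hasDerivAt_eExp_zero : HasDerivAt eExp (2 * π * I) 0 := by
  have h := ((hasDerivAt_id (0 : ℂ)).const_mul (2 * (π : ℂ) * I)).cexp
  simp only [id, mul_zero, Complex.exp_zero, one_mul, mul_one] at h
  exact h

/-- `x / (x - 1)`. -/
def cotAux (x : ℂ) : ℂ := x / (x - 1)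

theorem cotAux_inv {x : ℂ} (h0 : x ≠ 0) (h1 : x ≠ 1) : cotAux x⁻¹ = 1 - cotAux x := by
  have h2 : x - 1 ≠ 0 := sub_ne_zero.mpr h1
  have h3 : 1 - x ≠ 0 := sub_ne_zero.mpr (Ne.symm h1)
  unfold cotAux
  field_simp
  ring

theorem norm_cotAux_le {x : ℂ} {r : ℝ} (hr : r < 1) (hx : ‖x‖ ≤ r) :
    ‖cotAux x‖ ≤ ‖x‖ / (1 - r) := by
  have h : 1 - r ≤ ‖x - 1‖ := by
    have := norm_sub_norm_le (1 : ℂ) x
    rw [norm_one] at this
    rw [norm_sub_rev]
    linarith
  rw [cotAux, norm_div]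
  exact div_le_div_of_nonneg_left (norm_nonneg _) (by linarith) h

theorem differentiableAt_cotAux {x : ℂ} (h : x ≠ 1) : DifferentiableAt ℂ cotAux x :=
  differentiableAt_id.div (differentiableAt_id.sub_const 1) (sub_ne_zero.mpr h)

/-- The `m`-th term of the one-sided series. -/
def cotTerm (τ : ℍ) (z : ℂ) (m : ℕ) : ℂ := cotAux (eExp (((m : ℂ) + 1) * τ + z))

/-- The one-sided series. -/
def cotTail (τ : ℍ) (z : ℂ) : ℂ := ∑' m, cotTerm τ z m

/-- The cotangent series. -/
def cotSum (τ : ℍ) (z : ℂ) : ℂ := cotAux (eExp z) - 1 / 2 + cotTail τ z - cotTail τ (-z)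

/-- The lattice `ℤ τ + ℤ`. -/
def InLat (τ : ℍ) (z : ℂ) : Prop := ∃ m n : ℤ, z = m * (τ : ℂ) + n

theorem norm_eExp_term (τ : ℍ) (z : ℂ) (m : ℕ) :
    ‖eExp (((m : ℂ) + 1) * τ + z)‖
      = Real.exp (-(2 * π) * z.im) * Real.exp (-(2 * π) * τ.im) ^ (m + 1) := by
  rw [norm_eExp, ← Real.exp_nat_mul, ← Real.exp_add]
  congr 1
  simp [Complex.add_im, Complex.mul_im]
  ring

theorem exp_neg_im_lt_one (τ : ℍ) : Real.exp (-(2 * π) * τ.im) < 1 := by
  rw [Real.exp_lt_one_iff]
  nlinarith [Real.pi_pos, τ.im_pos]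

/-- Beyond some index, uniformly in a strip, the terms are small. -/
theorem exists_index_small (τ : ℍ) (R : ℝ) : ∃ M : ℕ, ∀ z : ℂ, -R ≤ z.im → ∀ m, M ≤ m →
    ‖eExp (((m : ℂ) + 1) * τ + z)‖ ≤ 1 / 2 ∧
    ‖cotTerm τ z m‖ ≤ 2 * Real.exp (2 * π * R) * Real.exp (-(2 * π) * τ.im) ^ (m + 1) := by
  set ρ := Real.exp (-(2 * π) * τ.im) with hρ
  have h := (tendsto_pow_atTop_nhds_zero_of_lt_one (Real.exp_pos _).le
    (exp_neg_im_lt_one τ)).const_mul (Real.exp (2 * π * R))
  rw [mul_zero] at h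
  obtain ⟨M, hM⟩ := (eventually_atTop.mp (h.eventually (eventually_le_nhds (show (0:ℝ) < 1/2 by norm_num))))
  refine ⟨M, fun z hz m hm => ?_⟩
  have hx : ‖eExp (((m : ℂ) + 1) * τ + z)‖ ≤ Real.exp (2 * π * R) * ρ ^ (m + 1) := by
    rw [norm_eExp_term, ← hρ]
    refine mul_le_mul_of_nonneg_right (Real.exp_le_exp.mpr ?_) (by positivity)
    nlinarith [Real.pi_pos]
  have hx' := hx.trans (hM (m + 1) (by omega))
  refine ⟨hx', ?_⟩
  calc ‖cotTerm τ z m‖ ≤ ‖eExp (((m : ℂ) + 1) * τ + z)‖ / (1 - 1 / 2) :=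
        norm_cotAux_le (by norm_num) hx'
    _ ≤ _ := by
        rw [show (1 : ℝ) - 1/2 = 1/2 by norm_num, div_div_eq_mul_div, div_one, mul_comm,
          mul_assoc]
        gcongr

theorem summable_pow_succ_exp (τ : ℍ) (c : ℝ) :
    Summable fun m : ℕ => c * Real.exp (-(2 * π) * τ.im) ^ (m + 1) := by
  refine Summable.mul_left c ?_
  simpa [pow_succ] using
    (summable_geometric_of_lt_one (Real.exp_pos _).le (exp_neg_im_lt_one τ)).mul_right
      (Real.exp (-(2 * π) * τ.im))

theorem summable_cotTerm (τ : ℍ) (z : ℂ) : Summable (cotTerm τ z) := by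
  obtain ⟨M, hM⟩ := exists_index_small τ (-z.im)
  refine Summable.of_norm_bounded_eventually_nat (summable_pow_succ_exp τ (2 * Real.exp (2 * π * -z.im))) ?_
  filter_upwards [eventually_ge_atTop M] with m hm using (hM z (by simp) m hm).2

theorem eExp_term_ne_one {τ : ℍ} {z : ℂ}
    (hz : ∀ (m : ℕ) (n : ℤ), z ≠ -((m : ℂ) + 1) * τ + n) (m : ℕ) :
    eExp (((m : ℂ) + 1) * τ + z) ≠ 1 := by
  intro h
  obtain ⟨n, hn⟩ := eExp_eq_one_iff.mp h
  exact hz m n (by linear_combination hn)

theorem differentiableAt_cotTail {τ : ℍ} {z : ℂ}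
    (hz : ∀ (m : ℕ) (n : ℤ), z ≠ -((m : ℂ) + 1) * τ + n) :
    DifferentiableAt ℂ (cotTail τ) z := by
  obtain ⟨M, hM⟩ := exists_index_small τ (-z.im + 1)
  set U : Set ℂ := {w | z.im - 1 < w.im} with hU
  have hUo : IsOpen U := isOpen_lt continuous_const Complex.continuous_im
  have hzU : z ∈ U := by simp [hU]
  have hlow : ∀ w ∈ U, -(-z.im + 1) ≤ w.im := fun w hw => by
    simp only [hU, Set.mem_ofPred_eq] at hw; linarith
  -- split off the first `M` terms
  have hsplit : ∀ w, cotTail τ w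
      = (∑ m ∈ Finset.range M, cotTerm τ w m) + ∑' m, cotTerm τ w (m + M) :=
    fun w => ((summable_cotTerm τ w).sum_add_tsum_nat_add M).symm
  rw [funext hsplit]
  refine DifferentiableAt.add ?_ ?_
  · refine DifferentiableAt.fun_sum fun m _ => ?_
    exact (differentiableAt_cotAux (eExp_term_ne_one hz m)).comp z
      ((differentiable_eExp _).comp z (differentiableAt_id.const_add _))
  · refine (differentiableOn_tsum_of_summable_norm
      ((summable_nat_add_iff M).mpr (summable_pow_succ_exp τ _)) (fun m => ?_) hUo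
      (fun m w hw => (hM w (hlow w hw) (m + M) (by omega)).2)).differentiableAt
        (hUo.mem_nhds hzU)
    intro w hw
    refine ((differentiableAt_cotAux ?_).comp w
      ((differentiable_eExp _).comp w (differentiableAt_id.const_add _))).differentiableWithinAt
    intro h
    have hb := (hM w (hlow w hw) (m + M) (by omega)).1
    simp only [id, Function.comp_apply] at h
    rw [h, norm_one] at hb
    norm_num at hb

theorem cotSum_neg {τ : ℍ} {z : ℂ} (hz : ∀ n : ℤ, z ≠ n) : cotSum τ (-z) = -cotSum τ z := by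
  have h1 : eExp z ≠ 1 := fun h => by
    obtain ⟨n, hn⟩ := eExp_eq_one_iff.mp h; exact hz n hn
  rw [cotSum, cotSum, eExp_neg, cotAux_inv (eExp_ne_zero z) h1, neg_neg]
  ring

theorem cotTerm_add_int (τ : ℍ) (z : ℂ) (n : ℤ) (m : ℕ) :
    cotTerm τ (z + n) m = cotTerm τ z m := by
  simp only [cotTerm, ← add_assoc, eExp_add_int]

theorem cotSum_add_int (τ : ℍ) (z : ℂ) (n : ℤ) : cotSum τ (z + n) = cotSum τ z := by
  have h1 : cotTail τ (z + n) = cotTail τ z := tsum_congr (cotTerm_add_int τ z n)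
  have h2 : cotTail τ (-(z + n)) = cotTail τ (-z) := by
    rw [neg_add, ← Int.cast_neg]; exact tsum_congr (cotTerm_add_int τ (-z) (-n))
  rw [cotSum, cotSum, eExp_add_int, h1, h2]

theorem cotSum_add_tau (τ : ℍ) {z : ℂ} (hz : ∀ n : ℤ, z ≠ n) :
    cotSum τ (z + τ) = cotSum τ z - 1 := by
  have h1 : eExp z ≠ 1 := fun h => by
    obtain ⟨n, hn⟩ := eExp_eq_one_iff.mp h; exact hz n hn
  have hA : cotTail τ z = cotTerm τ z 0 + cotTail τ (z + τ) := by
    rw [cotTail, (summable_cotTerm τ z).tsum_eq_zero_add]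
    refine congrArg (cotTerm τ z 0 + ·) (tsum_congr fun m => ?_)
    unfold cotTerm; push_cast; ring_nf
  have hB : cotTail τ (-(z + τ)) = cotTerm τ (-(z + τ)) 0 + cotTail τ (-z) := by
    rw [cotTail, (summable_cotTerm τ (-(z + τ))).tsum_eq_zero_add]
    refine congrArg (cotTerm τ (-(z + τ)) 0 + ·) (tsum_congr fun m => ?_)
    unfold cotTerm; push_cast; ring_nf
  have hA0 : cotTerm τ z 0 = cotAux (eExp (z + τ)) := by
    unfold cotTerm; norm_num [add_comm]
  have hB0 : cotTerm τ (-(z + τ)) 0 = 1 - cotAux (eExp z) := by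
    rw [← cotAux_inv (eExp_ne_zero z) h1, ← eExp_neg]
    unfold cotTerm; norm_num
  rw [cotSum, cotSum, hA, hB, hA0, hB0]
  ring

theorem inLat_add_iff (τ : ℍ) (z : ℂ) (m n : ℤ) :
    InLat τ (z + m * (τ : ℂ) + n) ↔ InLat τ z := by
  constructor <;> rintro ⟨a, b, h⟩
  · exact ⟨a - m, b - n, by push_cast; linear_combination h⟩
  · exact ⟨a + m, b + n, by push_cast; linear_combination h⟩

theorem inLat_int (τ : ℍ) (n : ℤ) : InLat τ n := ⟨0, n, by simp⟩

theorem inLat_neg_iff (τ : ℍ) (z : ℂ) : InLat τ (-z) ↔ InLat τ z := by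
  constructor <;> rintro ⟨a, b, h⟩ <;> refine ⟨-a, -b, ?_⟩ <;> push_cast
  · linear_combination -h
  · linear_combination -h

theorem ne_int_of_not_inLat {τ : ℍ} {z : ℂ} (h : ¬ InLat τ z) (n : ℤ) : z ≠ n :=
  fun e => h (e ▸ inLat_int τ n)

theorem cotSum_add_lattice {τ : ℍ} {z : ℂ} (hz : ¬ InLat τ z) (m n : ℤ) :
    cotSum τ (z + m * (τ : ℂ) + n) = cotSum τ z - m := by
  rw [cotSum_add_int]
  induction m using Int.induction_on with
  | zero => simp
  | succ i ih =>
    have h : ¬ InLat τ (z + (i : ℤ) * (τ : ℂ)) := by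
      simpa using mt (inLat_add_iff τ z i 0).mp hz
    rw [show z + ((i : ℤ) + 1 : ℤ) * (τ : ℂ) = z + (i : ℤ) * (τ : ℂ) + τ by push_cast; ring,
      cotSum_add_tau τ (ne_int_of_not_inLat h), ih]
    push_cast; ring
  | pred i ih =>
    have h : ¬ InLat τ (z + (-(i : ℤ) - 1 : ℤ) * (τ : ℂ)) := by
      simpa using mt (inLat_add_iff τ z (-(i : ℤ) - 1) 0).mp hz
    have := cotSum_add_tau τ (ne_int_of_not_inLat h)
    rw [show z + (-(i : ℤ) - 1 : ℤ) * (τ : ℂ) + τ = z + (-(i : ℤ) : ℤ) * (τ : ℂ) by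
      push_cast; ring, ih] at this
    push_cast at this ⊢
    linear_combination -this

theorem isClosed_inLat (τ : ℍ) : IsClosed {z : ℂ | InLat τ z} := by
  have hZ : IsClosed (Set.range ((↑) : ℤ → ℝ)) := Int.isClosedEmbedding_coe_real.isClosed_range
  have e : {z : ℂ | InLat τ z} = (fun z : ℂ => z.im / τ.im) ⁻¹' Set.range ((↑) : ℤ → ℝ) ∩
      (fun z : ℂ => z.re - z.im / τ.im * τ.re) ⁻¹' Set.range ((↑) : ℤ → ℝ) := by
    ext z
    constructor
    · rintro ⟨m, n, rfl⟩
      refine ⟨⟨m, ?_⟩, ⟨n, ?_⟩⟩ <;> simp [τ.im_ne_zero]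
    · rintro ⟨⟨m, hm⟩, ⟨n, hn⟩⟩
      refine ⟨m, n, Complex.ext ?_ ?_⟩
      · simp only [] at hn hm
        rw [← hm] at hn
        simp
        linarith
      · simp only [] at hm
        simp [hm, τ.im_ne_zero]
  rw [e]
  exact (hZ.preimage (by fun_prop)).inter (hZ.preimage (by fun_prop))

/-- The lattice points near the origin. -/
theorem not_inLat_of_norm_lt {τ : ℍ} {z : ℂ} (hz : ‖z‖ < min τ.im 1) (h0 : z ≠ 0) :
    ¬ InLat τ z := by
  rintro ⟨m, n, rfl⟩
  have h1 : |(m * (τ : ℂ) + n).im| < τ.im :=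
    (Complex.abs_im_le_norm _).trans_lt (hz.trans_le (min_le_left _ _))
  have hm : m = 0 := by
    have e : (m * (τ : ℂ) + n).im = m * τ.im := by simp
    rw [e, abs_mul, abs_of_pos τ.im_pos] at h1
    have : (|m| : ℝ) < (1 : ℤ) := by
      rw [Int.cast_one]; exact (mul_lt_iff_lt_one_left τ.im_pos).mp h1
    have h2 : |m| < 1 := by exact_mod_cast this
    exact abs_eq_zero.mp (by have := abs_nonneg m; omega)
  subst hm
  have h2 : ‖(n : ℂ)‖ < 1 := by simpa using hz.trans_le (min_le_right _ _)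
  rw [Complex.norm_intCast] at h2
  have h3 : |n| < 1 := by exact_mod_cast h2
  exact h0 (by simp [abs_eq_zero.mp (show |n| = 0 by have := abs_nonneg n; omega)])

theorem differentiableAt_cotSum {τ : ℍ} {z : ℂ} (hz : ¬ InLat τ z) :
    DifferentiableAt ℂ (cotSum τ) z := by
  have h1 : ∀ (m : ℕ) (n : ℤ), z ≠ -((m : ℂ) + 1) * τ + n := fun m n e =>
    hz ⟨-((m : ℤ) + 1), n, by push_cast; linear_combination e⟩
  have h2 : ∀ (m : ℕ) (n : ℤ), -z ≠ -((m : ℂ) + 1) * τ + n := fun m n e =>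
    hz ⟨(m : ℤ) + 1, -n, by push_cast; linear_combination -e⟩
  have h3 : eExp z ≠ 1 := fun h => by
    obtain ⟨n, hn⟩ := eExp_eq_one_iff.mp h
    exact ne_int_of_not_inLat hz n hn
  exact (((differentiableAt_cotAux h3).comp z (differentiable_eExp z)).sub_const _).add
    (differentiableAt_cotTail h1) |>.sub
    ((differentiableAt_cotTail h2).comp z differentiableAt_id.neg)

/-- The residue at the origin. -/
theorem tendsto_mul_cotSum (τ : ℍ) :
    Tendsto (fun z => z * cotSum τ z) (𝓝[≠] 0) (𝓝 (2 * π * I)⁻¹) := by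
  have hne : ∀ (m : ℕ) (n : ℤ), (0 : ℂ) ≠ -((m : ℂ) + 1) * τ + n := fun m n e => by
    have h := congrArg Complex.im e
    simp at h
    rcases h with h | h
    · linarith [(m.cast_nonneg : (0:ℝ) ≤ m)]
    · exact τ.im_ne_zero h
  have hc : ContinuousAt (fun z => cotTail τ z - cotTail τ (-z) - 1 / 2) 0 := by
    refine ((differentiableAt_cotTail hne).sub ?_).sub_const _ |>.continuousAt
    exact DifferentiableAt.comp (g := cotTail τ) (0 : ℂ)
      (by rw [neg_zero]; exact differentiableAt_cotTail hne) differentiableAt_id.neg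
  have hs : Tendsto (fun z => (eExp z - 1) / z) (𝓝[≠] 0) (𝓝 (2 * π * I)) := by
    refine (hasDerivAt_iff_tendsto_slope.mp hasDerivAt_eExp_zero).congr fun z => ?_
    simp [slope_def_field, eExp_zero]
  have he : Tendsto eExp (𝓝[≠] 0) (𝓝 1) := by
    simpa [eExp_zero] using
      ((differentiable_eExp 0).continuousAt.tendsto.mono_left nhdsWithin_le_nhds)
  have h1 : Tendsto (fun z : ℂ => z * cotAux (eExp z)) (𝓝[≠] 0) (𝓝 (2 * π * I)⁻¹) := by
    have h := he.mul (hs.inv₀ two_pi_I_ne_zero)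
    rw [one_mul] at h
    refine h.congr fun z => ?_
    rw [cotAux, inv_div]; ring
  have h2 : Tendsto (fun z : ℂ => z * (cotTail τ z - cotTail τ (-z) - 1 / 2)) (𝓝[≠] 0) (𝓝 0) := by
    simpa [Pi.mul_def] using (continuousAt_id.mul hc).tendsto.mono_left nhdsWithin_le_nhds
  have h := h1.add h2
  rw [add_zero] at h
  refine h.congr fun z => ?_
  rw [cotSum]; ring

/-- The transformation law of the cotangent series. -/
theorem cotSum_smul (γ : SL(2, ℤ)) (τ : ℍ) {z : ℂ} (hz : ¬ InLat τ z) :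
    cotSum (γ • τ) (z / denom γ τ) / denom γ τ
      = cotSum τ z + (γ 1 0 : ℂ) * z / denom γ τ := by
  set j := denom γ τ with hj
  have hj0 : j ≠ 0 := denom_ne_zero _ _
  set a : ℂ := (γ 0 0 : ℂ)
  set b : ℂ := (γ 0 1 : ℂ)
  set c : ℂ := (γ 1 0 : ℂ)
  set d : ℂ := (γ 1 1 : ℂ)
  have hdet : a * d - b * c = 1 := by
    have h := γ.det_coe
    rw [Matrix.det_fin_two] at h
    have h' := congrArg (fun x : ℤ => (x : ℂ)) h
    push_cast at h'
    linear_combination h'
  have hje : j = c * τ + d := by simp [hj, c, d, denom]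
  set τ' := γ • τ with hτ'def
  have hτ' : (τ' : ℂ) * j = a * τ + b := by
    rw [hτ'def, coe_specialLinearGroup_apply, div_mul_eq_mul_div, div_eq_iff, hje]
    · simp [a, b, c, d]
    · rw [hje] at hj0; simpa [c, d] using hj0
  have hlat : ∀ w, InLat τ' (w / j) ↔ InLat τ w := by
    intro w
    constructor
    · rintro ⟨m, n, h⟩
      rw [div_eq_iff hj0] at h
      refine ⟨m * γ 0 0 + n * γ 1 0, m * γ 0 1 + n * γ 1 1, ?_⟩
      push_cast
      rw [h, hje]
      linear_combination (m : ℂ) * hτ' + (-(m : ℂ) * (τ' : ℂ)) * hje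
    · rintro ⟨m, n, h⟩
      refine ⟨m * γ 1 1 - n * γ 1 0, -(m * γ 0 1) + n * γ 0 0, ?_⟩
      push_cast
      rw [div_eq_iff hj0, h]
      linear_combination -((m : ℂ) * d - n * c) * hτ' + (n * a - m * b) * (-hje)
        + (-(m : ℂ) * τ - n) * hdet
  -- the difference, to be shown to vanish
  set H : ℂ → ℂ := fun w => cotSum τ' (w / j) / j - cotSum τ w - c * w / j with hH
  have hper : ∀ w, ¬ InLat τ w → ∀ m n : ℤ, H (w + m * (τ : ℂ) + n) = H w := by
    intro w hw m n
    have e : (w + m * (τ : ℂ) + n) / j = w / j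
        + ((m * γ 1 1 - n * γ 1 0 : ℤ) : ℂ) * (τ' : ℂ) + ((-(m * γ 0 1) + n * γ 0 0 : ℤ) : ℂ) := by
      push_cast
      field_simp
      linear_combination -((m : ℂ) * d - n * c) * hτ' + (n * a - m * b) * (-hje)
        + (-(m : ℂ) * τ - n) * hdet
    simp only [hH]
    rw [e, cotSum_add_lattice (mt (hlat w).mp hw), cotSum_add_lattice hw]
    push_cast
    field_simp
    rw [hje]
    ring
  have hdiff : ∀ w, ¬ InLat τ w → DifferentiableAt ℂ H w := fun w hw =>
    ((((differentiableAt_cotSum (mt (hlat w).mp hw)).comp w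
      (differentiableAt_id.div_const j)).div_const j).sub (differentiableAt_cotSum hw)).sub
      ((differentiableAt_id.const_mul c).div_const j)
  set δ := min τ.im 1
  have hδ : 0 < δ := lt_min τ.im_pos one_pos
  have hball : Metric.ball (0 : ℂ) δ ∈ 𝓝 (0 : ℂ) := Metric.ball_mem_nhds _ hδ
  have hd' : DifferentiableOn ℂ H (Metric.ball (0 : ℂ) δ \ {0}) := fun w hw =>
    (hdiff w (not_inLat_of_norm_lt (by simpa [δ] using hw.1) hw.2)).differentiableWithinAt
  have h0 : Tendsto (fun w => w * H w) (𝓝[≠] 0) (𝓝 0) := by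
    have t2 := tendsto_mul_cotSum τ
    have t1' : Tendsto (fun w => w * cotSum τ' (w / j) / j) (𝓝[≠] 0) (𝓝 (2 * π * I)⁻¹) := by
      have hc : Tendsto (fun w : ℂ => w / j) (𝓝[≠] 0) (𝓝[≠] 0) := by
        refine tendsto_nhdsWithin_iff.mpr ⟨?_, ?_⟩
        · simpa using ((continuous_id.div_const j).tendsto (0 : ℂ)).mono_left nhdsWithin_le_nhds
        · exact eventually_nhdsWithin_of_forall fun w hw => div_ne_zero hw hj0
      refine ((tendsto_mul_cotSum τ').comp hc).congr fun w => ?_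
      simp only [Function.comp]; ring
    have t3 : Tendsto (fun w : ℂ => c * w * w / j) (𝓝[≠] 0) (𝓝 0) := by
      simpa using (((continuous_const.mul continuous_id).mul continuous_id).div_const j).tendsto
        (0 : ℂ) |>.mono_left nhdsWithin_le_nhds
    have := (t1'.sub t2).sub t3
    simp only [sub_self] at this
    refine this.congr fun w => ?_
    simp only [hH]; ring
  have hlo : (fun w => H w - H 0) =o[𝓝[≠] (0 : ℂ)] fun w => (w - 0)⁻¹ := by
    refine Asymptotics.isLittleO_of_tendsto' (eventually_nhdsWithin_of_forall fun w hw h => ?_) ?_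
    · simp only [sub_zero, inv_eq_zero] at h; exact absurd h hw
    · have hw0 : Tendsto (fun w : ℂ => w) (𝓝[≠] 0) (𝓝 0) := nhdsWithin_le_nhds
      have := h0.sub (hw0.mul_const (H 0))
      simp only [zero_mul, sub_zero] at this
      refine this.congr fun w => ?_
      rw [sub_zero, div_inv_eq_mul]; ring
  set L := limUnder (𝓝[≠] (0 : ℂ)) H
  have hext : DifferentiableAt ℂ (Function.update H 0 L) 0 :=
    (differentiableOn_update_limUnder_of_isLittleO hball hd' hlo).differentiableAt hball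
  -- the periodic entire extension
  classical
  set K : ℂ → ℂ := fun w => if InLat τ w then L else H w with hK
  have hKper : ∀ w, ∀ m n : ℤ, K (w + m * (τ : ℂ) + n) = K w := by
    intro w m n
    by_cases hw : InLat τ w
    · simp [hK, hw, (inLat_add_iff τ w m n).mpr hw]
    · simp [hK, hw, mt (inLat_add_iff τ w m n).mp hw, hper w hw m n]
  have hK0 : DifferentiableAt ℂ K 0 := by
    refine hext.congr_of_eventuallyEq ?_
    filter_upwards [hball] with w hw
    by_cases h : w = 0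
    · subst h; simp [hK, (show InLat τ 0 from ⟨0, 0, by simp⟩)]
    · rw [Function.update_of_ne h, hK]
      simp [not_inLat_of_norm_lt (by simpa [δ] using hw) h]
  have hKd : Differentiable ℂ K := by
    intro w
    by_cases hw : InLat τ w
    · obtain ⟨m, n, rfl⟩ := hw
      have e : K = fun v => K (v - (m * (τ : ℂ) + n)) := funext fun v => by
        conv_lhs => rw [show v = v - (m * (τ : ℂ) + n) + m * (τ : ℂ) + n by ring]
        exact hKper _ m n
      rw [e]
      refine DifferentiableAt.comp (g := K) _ ?_ (differentiableAt_id.sub_const _)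
      rw [sub_self]; exact hK0
    · have hev : ∀ᶠ v in 𝓝 w, ¬ InLat τ v := (isClosed_inLat τ).isOpen_compl.mem_nhds hw
      refine (hdiff w hw).congr_of_eventuallyEq ?_
      filter_upwards [hev] with v hv using by simp [hK, hv]
  have hbdd : Bornology.IsBounded (Set.range K) := by
    have hc : IsCompact ((fun p : ℝ × ℝ => (p.1 : ℂ) * τ + p.2) ''
        (Set.Icc (0 : ℝ) 1 ×ˢ Set.Icc (0 : ℝ) 1)) :=
      (isCompact_Icc.prod isCompact_Icc).image (by fun_prop)
    refine ((hc.image hKd.continuous).isBounded).subset ?_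
    rintro _ ⟨w, rfl⟩
    set s := w.im / τ.im
    set t := w.re - s * τ.re
    refine ⟨((Int.fract s : ℝ) : ℂ) * τ + ((Int.fract t : ℝ) : ℂ), ⟨(Int.fract s, Int.fract t),
      ⟨⟨Int.fract_nonneg _, (Int.fract_lt_one _).le⟩,
        ⟨Int.fract_nonneg _, (Int.fract_lt_one _).le⟩⟩, rfl⟩, ?_⟩
    rw [← hKper _ ⌊s⌋ ⌊t⌋]
    congr 1
    apply Complex.ext
    · simp [← Int.self_sub_floor, t]; ring
    · simp [← Int.self_sub_floor, s]
      field_simp
      ring
  have hKz : K z = 0 := by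
    have hneg : ¬ InLat τ (-z) := mt (inLat_neg_iff τ z).mp hz
    have hodd : H (-z) = -H z := by
      simp only [hH, neg_div, cotSum_neg (ne_int_of_not_inLat (mt (hlat z).mp hz)),
        cotSum_neg (ne_int_of_not_inLat hz)]
      ring
    have h1 : K z = H z := by simp [hK, hz]
    have h2 : K (-z) = -H z := by simp [hK, hneg, hodd]
    have h3 := hKd.apply_eq_apply_of_bounded hbdd z (-z)
    rw [h1, h2] at h3
    rw [h1]
    linear_combination h3 / 2
  have h4 : H z = 0 := by simpa [hK, hz] using hKz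
  simp only [hH] at h4
  linear_combination h4

end Fermat.Agent.DeligneSerre
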