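import Fermat.Agent.DeligneSerre.MainCot
import Fermat.Prelude.Def_FLTPrelim_Modularity
import Mathlib

/-!
# Eisenstein series of weight one with odd primitive character

For an odd primitive character `χ` modulo `M` the series
`-(∑ a χ(a)) / (2M) + ∑ (∑_{d ∣ n} χ d) qⁿ` is a modular form of weight one on `Γ₁(M)` with
nebentypus `χ`.
-/

set_option autoImplicit false

noncomputable section

open Complex Filter Topology CongruenceSubgroup
open UpperHalfPlane hiding I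
open scoped MatrixGroups ModularForm Real Manifold

namespace Fermat.Agent.DeligneSerre

/-! ### The series in the variable `τ` -/

/-- `∑ₘ g (q^(m+α) e(β))`. -/
def shiftSeries (α β : ℝ) (w : ℂ) : ℂ := ∑' m : ℕ, cotAux (eExp (((m : ℂ) + α) * w + β))

theorem norm_shiftTerm (α β : ℝ) (w : ℂ) (m : ℕ) :
    ‖eExp (((m : ℂ) + α) * w + β)‖
      = Real.exp (-(2 * π) * α * w.im) * Real.exp (-(2 * π) * w.im) ^ m := by
  rw [norm_eExp, ← Real.exp_nat_mul, ← Real.exp_add]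
  congr 1
  simp [Complex.add_im, Complex.mul_im]
  ring

theorem norm_shiftTerm_le {α T : ℝ} (β : ℝ) (hα : 0 < α) (hT : 0 < T) {w : ℂ} (hw : T ≤ w.im)
    (m : ℕ) : ‖eExp (((m : ℂ) + α) * w + β)‖ ≤ Real.exp (-(2 * π) * α * T) ∧
    ‖cotAux (eExp (((m : ℂ) + α) * w + β))‖ ≤ Real.exp (-(2 * π) * T) ^ m
      / (1 - Real.exp (-(2 * π) * α * T)) := by
  have hr : Real.exp (-(2 * π) * α * T) < 1 := by
    rw [Real.exp_lt_one_iff]
    have : 0 < α * T := mul_pos hα hT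
    nlinarith [Real.pi_pos]
  have hw0 : 0 < w.im := hT.trans_le hw
  have h1 : Real.exp (-(2 * π) * α * w.im) ≤ Real.exp (-(2 * π) * α * T) := by
    refine Real.exp_le_exp.mpr ?_
    have : α * T ≤ α * w.im := mul_le_mul_of_nonneg_left hw hα.le
    nlinarith [Real.pi_pos]
  have h2 : Real.exp (-(2 * π) * w.im) ≤ 1 := by
    rw [Real.exp_le_one_iff]; nlinarith [Real.pi_pos]
  have h3 : Real.exp (-(2 * π) * w.im) ≤ Real.exp (-(2 * π) * T) :=
    Real.exp_le_exp.mpr (by nlinarith [Real.pi_pos])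
  have hx : ‖eExp (((m : ℂ) + α) * w + β)‖ ≤ Real.exp (-(2 * π) * α * T) := by
    rw [norm_shiftTerm]
    exact (mul_le_of_le_one_right (Real.exp_pos _).le
      (pow_le_one₀ (Real.exp_pos _).le h2)).trans h1
  refine ⟨hx, (norm_cotAux_le hr hx).trans ?_⟩
  refine div_le_div_of_nonneg_right ?_ (by linarith)
  rw [norm_shiftTerm]
  exact (mul_le_of_le_one_left (by positivity) (h1.trans hr.le)).trans
    (pow_le_pow_left₀ (Real.exp_pos _).le h3 m)

theorem summable_shiftBound {α T : ℝ} (hT : 0 < T) :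
    Summable fun m : ℕ => Real.exp (-(2 * π) * T) ^ m / (1 - Real.exp (-(2 * π) * α * T)) := by
  refine (summable_geometric_of_lt_one (Real.exp_pos _).le ?_).div_const _
  rw [Real.exp_lt_one_iff]; nlinarith [Real.pi_pos]

theorem norm_shiftSeries_le {α T : ℝ} (β : ℝ) (hα : 0 < α) (hT : 0 < T) {w : ℂ}
    (hw : T ≤ w.im) : ‖shiftSeries α β w‖
      ≤ ∑' m : ℕ, Real.exp (-(2 * π) * T) ^ m / (1 - Real.exp (-(2 * π) * α * T)) :=
  tsum_of_norm_bounded (summable_shiftBound hT).hasSum fun m =>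
    (norm_shiftTerm_le β hα hT hw m).2

theorem differentiableOn_shiftSeries {α : ℝ} (β : ℝ) (hα : 0 < α) :
    DifferentiableOn ℂ (shiftSeries α β) {w | 0 < w.im} := by
  intro w hw
  simp only [Set.mem_ofPred_eq] at hw
  set U : Set ℂ := {v | w.im / 2 < v.im}
  have hUo : IsOpen U := isOpen_lt continuous_const Complex.continuous_im
  have hT : 0 < w.im / 2 := by linarith
  refine ((differentiableOn_tsum_of_summable_norm (summable_shiftBound (α := α) hT) (fun m => ?_)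
    hUo (fun m v hv => (norm_shiftTerm_le β hα hT (le_of_lt hv) m).2)).differentiableAt
      (hUo.mem_nhds (show w.im / 2 < w.im by linarith))).differentiableWithinAt
  intro v hv
  refine ((differentiableAt_cotAux ?_).comp v ((differentiable_eExp _).comp v
    ((differentiableAt_id.const_mul _).add_const _))).differentiableWithinAt
  simp only [Function.comp_apply]
  intro h
  have hb := (norm_shiftTerm_le β hα hT (le_of_lt hv) m).1
  rw [h, norm_one] at hb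
  refine absurd hb (not_le.mpr (Real.exp_lt_one_iff.mpr ?_))
  have : 0 < α * (w.im / 2) := mul_pos hα hT
  nlinarith [Real.pi_pos]

/-! ### The weight one series attached to a point of `ℝ²` -/

/-- The weight one Eisenstein series attached to `(x, y)`. -/
def eisV (x y : ℝ) (τ : ℍ) : ℂ := cotSum τ ((x : ℂ) * τ + y) + x

theorem not_inLat_param {τ : ℍ} {x y : ℝ} (h : ¬ ((∃ m : ℤ, (m : ℝ) = x) ∧ ∃ n : ℤ, (n : ℝ) = y)) :
    ¬ InLat τ ((x : ℂ) * τ + y) := by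
  rintro ⟨m, n, e⟩
  have h1 := congrArg Complex.im e
  have h2 := congrArg Complex.re e
  simp [τ.im_ne_zero] at h1
  simp [h1] at h2
  exact h ⟨⟨m, h1.symm⟩, ⟨n, by linarith⟩⟩

theorem eisV_add_int {x y : ℝ} (h : ¬ ((∃ m : ℤ, (m : ℝ) = x) ∧ ∃ n : ℤ, (n : ℝ) = y))
    (m n : ℤ) : eisV (x + m) (y + n) = eisV x y := by
  funext τ
  have e : (((x + m : ℝ) : ℂ) * τ + ((y + n : ℝ) : ℂ))
      = ((x : ℂ) * τ + y) + m * (τ : ℂ) + n := by push_cast; ring
  rw [eisV, eisV, e, cotSum_add_lattice (not_inLat_param h)]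
  push_cast; ring

theorem eisV_slash {x y : ℝ} (γ : SL(2, ℤ))
    (h : ¬ ((∃ m : ℤ, (m : ℝ) = x * γ 0 0 + y * γ 1 0) ∧
      ∃ n : ℤ, (n : ℝ) = x * γ 0 1 + y * γ 1 1)) :
    eisV x y ∣[(1 : ℤ)] γ = eisV (x * γ 0 0 + y * γ 1 0) (x * γ 0 1 + y * γ 1 1) := by
  funext τ
  rw [ModularForm.SL_slash_apply, zpow_neg_one, eisV, eisV]
  set j := denom γ τ with hj
  have hj0 : j ≠ 0 := denom_ne_zero _ _
  have hje : j = (γ 1 0 : ℂ) * τ + γ 1 1 := by simp [hj, denom]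
  set z : ℂ := ((x * γ 0 0 + y * γ 1 0 : ℝ) : ℂ) * τ + ((x * γ 0 1 + y * γ 1 1 : ℝ) : ℂ) with hz
  have hτ' : ((γ • τ : ℍ) : ℂ) = ((γ 0 0 : ℂ) * τ + γ 0 1) / j := by
    rw [coe_specialLinearGroup_apply, hje]; simp
  have harg : (x : ℂ) * ((γ • τ : ℍ) : ℂ) + y = z / j := by
    rw [hτ', hz]
    field_simp
    rw [hje]; push_cast; ring
  have hdet : (γ 0 0 : ℂ) * γ 1 1 - γ 0 1 * γ 1 0 = 1 := by
    have h := γ.det_coe
    rw [Matrix.det_fin_two] at h
    exact_mod_cast h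
  have hs := cotSum_smul γ τ (z := z) (not_inLat_param h)
  rw [← hj] at hs
  rw [harg, add_mul, ← div_eq_mul_inv, ← div_eq_mul_inv, hs, add_assoc]
  congr 1
  rw [← add_div, div_eq_iff hj0, hz, hje]
  push_cast
  linear_combination -(x : ℂ) * hdet

theorem eisV_eq_series {x : ℝ} (y : ℝ) (τ : ℍ) : eisV x y τ
    = cotAux (eExp ((x : ℂ) * τ + y)) - 1 / 2 + x + shiftSeries (1 + x) y τ
        - shiftSeries (1 - x) (-y) τ := by
  have e1 : cotTail τ ((x : ℂ) * τ + y) = shiftSeries (1 + x) y τ :=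
    tsum_congr fun m => by simp only [cotTerm]; push_cast; ring_nf
  have e2 : cotTail τ (-((x : ℂ) * τ + y)) = shiftSeries (1 - x) (-y) τ :=
    tsum_congr fun m => by simp only [cotTerm]; push_cast; ring_nf
  rw [eisV, cotSum, e1, e2]
  ring

theorem exists_fract_eq {x y : ℝ} (h : ¬ ((∃ m : ℤ, (m : ℝ) = x) ∧ ∃ n : ℤ, (n : ℝ) = y)) :
    eisV x y = eisV (Int.fract x) y ∧
      ¬ ((∃ m : ℤ, (m : ℝ) = Int.fract x) ∧ ∃ n : ℤ, (n : ℝ) = y) := by
  refine ⟨?_, fun ⟨⟨m, hm⟩, hn⟩ => h ⟨⟨m + ⌊x⌋, ?_⟩, hn⟩⟩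
  · have := eisV_add_int h (-⌊x⌋) 0
    simpa [← sub_eq_add_neg, Int.self_sub_floor] using this.symm
  · push_cast; rw [hm, Int.fract_add_floor]

theorem mdifferentiable_eisV {x y : ℝ}
    (h : ¬ ((∃ m : ℤ, (m : ℝ) = x) ∧ ∃ n : ℤ, (n : ℝ) = y)) : MDiff (eisV x y) := by
  obtain ⟨hE, h'⟩ := exists_fract_eq h
  rw [hE]
  set x' := Int.fract x
  have hx0 : 0 ≤ x' := Int.fract_nonneg x
  have hx1 : x' < 1 := Int.fract_lt_one x
  rw [UpperHalfPlane.mdifferentiable_iff]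
  have hF : DifferentiableOn ℂ (fun w : ℂ => cotAux (eExp ((x' : ℂ) * w + y)) - 1 / 2 + x'
      + shiftSeries (1 + x') y w - shiftSeries (1 - x') (-y) w) {w : ℂ | 0 < w.im} := by
    refine ((((DifferentiableOn.sub_const ?_ _).add_const _).add
      (differentiableOn_shiftSeries y (by linarith))).sub
      (differentiableOn_shiftSeries (-y) (by linarith)))
    intro w hw
    refine ((differentiableAt_cotAux ?_).comp w ((differentiable_eExp _).comp w
      ((differentiableAt_id.const_mul _).add_const _))).differentiableWithinAt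
    simp only [Function.comp_apply]
    intro he
    obtain ⟨n, hn⟩ := eExp_eq_one_iff.mp he
    exact not_inLat_param h' (τ := ⟨w, hw⟩) ⟨0, n, by simpa using hn⟩
  refine hF.congr fun w hw => ?_
  rw [Function.comp_apply, UpperHalfPlane.ofComplex_apply_of_im_pos hw, eisV_eq_series]

theorem isBoundedAtImInfty_eisV {x y : ℝ}
    (h : ¬ ((∃ m : ℤ, (m : ℝ) = x) ∧ ∃ n : ℤ, (n : ℝ) = y)) :
    IsBoundedAtImInfty (eisV x y) := by
  obtain ⟨hE, -⟩ := exists_fract_eq h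
  rw [hE]
  set x' := Int.fract x
  have hx0 : 0 ≤ x' := Int.fract_nonneg x
  have hx1 : x' < 1 := Int.fract_lt_one x
  rw [isBoundedAtImInfty_iff]
  refine ⟨(max (1 / (1 - Real.exp (-(2 * π) * x')))
      ‖cotAux (eExp (y : ℂ))‖) + 1 / 2 + |x'|
    + (∑' m : ℕ, Real.exp (-(2 * π) * 1) ^ m / (1 - Real.exp (-(2 * π) * (1 + x') * 1)))
    + (∑' m : ℕ, Real.exp (-(2 * π) * 1) ^ m / (1 - Real.exp (-(2 * π) * (1 - x') * 1))),
    1, fun τ hτ => ?_⟩
  rw [eisV_eq_series]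
  have h1 := norm_shiftSeries_le (α := 1 + x') y (by linarith) one_pos (w := (τ : ℂ)) hτ
  have h2 := norm_shiftSeries_le (α := 1 - x') (-y) (by linarith) one_pos (w := (τ : ℂ)) hτ
  have h3 : ‖cotAux (eExp ((x' : ℂ) * τ + y))‖
      ≤ max (1 / (1 - Real.exp (-(2 * π) * x'))) ‖cotAux (eExp (y : ℂ))‖ := by
    rcases eq_or_lt_of_le hx0 with hx | hx
    · refine le_max_of_le_right ?_
      simp [← hx]
    · refine le_max_of_le_left ?_
      have hr : Real.exp (-(2 * π) * x') < 1 :=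
        Real.exp_lt_one_iff.mpr (by nlinarith [Real.pi_pos])
      have hn : ‖eExp ((x' : ℂ) * τ + y)‖ ≤ Real.exp (-(2 * π) * x') := by
        rw [norm_eExp]
        refine Real.exp_le_exp.mpr ?_
        simp [Complex.add_im, Complex.mul_im]
        have : x' ≤ x' * τ.im := le_mul_of_one_le_right hx0 hτ
        nlinarith [Real.pi_pos]
      refine (norm_cotAux_le hr hn).trans ?_
      gcongr
      · linarith
  refine (norm_sub_le _ _).trans (add_le_add ((norm_add_le _ _).trans (add_le_add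
    ((norm_add_le _ _).trans (add_le_add ((norm_sub_le _ _).trans (add_le_add h3 ?_)) ?_)) h1)) h2)
  · norm_num
  · simp

/-! ### The expansion at infinity -/

theorem eExp_mul_nat (z : ℂ) (n : ℕ) : eExp (n * z) = eExp z ^ n := by
  rw [eExp, eExp, ← Complex.exp_nat_mul]
  ring_nf

theorem eExp_eq_qParam (τ : ℍ) : eExp τ = Function.Periodic.qParam 1 (τ : ℂ) := by
  simp [eExp, Function.Periodic.qParam]

theorem hasSum_cotAux {x : ℂ} (hx : ‖x‖ < 1) :
    HasSum (fun n : ℕ+ => -(x ^ (n : ℕ))) (cotAux x) := by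
  have h := ((hasSum_geometric_of_norm_lt_one hx).mul_left x).neg
  have h1 : -(x * (1 - x)⁻¹) = cotAux x := by
    rw [cotAux, ← neg_sub x 1, inv_neg, mul_neg, neg_neg, div_eq_mul_inv]
  rw [h1] at h
  rw [← Equiv.pnatEquivNat.symm.hasSum_iff]
  refine h.congr_fun fun n => ?_
  simp [Equiv.pnatEquivNat, pow_succ, mul_comm]

theorem hasSum_eisV_zero (y : ℝ) (τ : ℍ) :
    HasSum (fun n : ℕ => (if n = 0 then cotAux (eExp (y : ℂ)) - 1 / 2
      else -∑ d ∈ n.divisors, (eExp (y : ℂ) ^ d - (eExp (y : ℂ))⁻¹ ^ d))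
        * Function.Periodic.qParam 1 (τ : ℂ) ^ n) (eisV 0 y τ) := by
  rw [← eExp_eq_qParam]
  set q := eExp (τ : ℂ) with hq
  set ζ := eExp (y : ℂ) with hζ
  have hqn : ‖q‖ < 1 := by
    rw [hq, norm_eExp]
    exact exp_neg_im_lt_one τ
  have hζn : ‖ζ‖ = 1 := by rw [hζ, norm_eExp]; simp
  have hS : ∀ u : ℂ, ‖u‖ = 1 → ∀ β : ℝ, eExp (β : ℂ) = u →
      HasSum (fun p : ℕ+ × ℕ+ => -(u ^ (p.2 : ℕ) * q ^ ((p.1 : ℕ) * p.2)))
        (shiftSeries 1 β τ) := by
    intro u hu β hβ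
    have hsum : Summable fun p : ℕ+ × ℕ+ => -(u ^ (p.2 : ℕ) * q ^ ((p.1 : ℕ) * p.2)) := by
      refine Summable.of_norm ?_
      have := (summable_prod_mul_pow 0 (r := q) hqn).norm
      simpa [norm_pow, hu] using this
    have hrow : ∀ m : ℕ+, ∑' n : ℕ+, -(u ^ (n : ℕ) * q ^ ((m : ℕ) * n))
        = cotAux (u * q ^ (m : ℕ)) := fun m => by
      have hlt : ‖u * q ^ (m : ℕ)‖ < 1 := by
        rw [norm_mul, hu, one_mul, norm_pow]
        exact pow_lt_one₀ (norm_nonneg _) hqn m.ne_zero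
      rw [← (hasSum_cotAux hlt).tsum_eq]
      exact tsum_congr fun n => by rw [mul_pow, ← pow_mul]
    have hval : shiftSeries 1 β τ = ∑' m : ℕ+, cotAux (u * q ^ (m : ℕ)) := by
      rw [tsum_pnat_eq_tsum_succ (f := fun m => cotAux (u * q ^ m))]
      refine tsum_congr fun m => ?_
      rw [eExp_add, hβ, hq, ← eExp_mul_nat, mul_comm u]
      push_cast; ring_nf
    refine hsum.hasSum_iff.mpr ?_
    rw [hsum.tsum_prod, hval]
    exact tsum_congr hrow
  have hP := hS ζ hζn y rfl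
  have hM := hS ζ⁻¹ (by rw [norm_inv, hζn, inv_one]) (-y)
    (by rw [hζ, Complex.ofReal_neg, eExp_neg])
  have h12 := hP.sub hM
  rw [← sigmaAntidiagonalEquivProd.hasSum_iff] at h12
  have h3 := h12.sigma fun n => hasSum_fintype _
  have h4 : HasSum (fun n : ℕ+ => (-∑ d ∈ (n : ℕ).divisors, (ζ ^ d - ζ⁻¹ ^ d)) * q ^ (n : ℕ))
      (shiftSeries 1 y τ - shiftSeries 1 (-y) τ) := by
    refine h3.congr_fun fun n => ?_
    simp only [Function.comp_apply, sigmaAntidiagonalEquivProd, Equiv.coe_fn_mk,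
      divisorsAntidiagonalFactors, PNat.mk_coe]
    rw [Finset.univ_eq_attach, (n : ℕ).divisorsAntidiagonal.sum_attach
      (fun x : ℕ × ℕ => -(ζ ^ x.2 * q ^ (x.1 * x.2)) - -(ζ⁻¹ ^ x.2 * q ^ (x.1 * x.2))),
      Nat.sum_divisorsAntidiagonal'
      (fun a b => -(ζ ^ b * q ^ (a * b)) - -(ζ⁻¹ ^ b * q ^ (a * b))), neg_mul, Finset.sum_mul,
      ← Finset.sum_neg_distrib]
    refine Finset.sum_congr rfl fun d hd => ?_
    rw [Nat.div_mul_cancel (Nat.dvd_of_mem_divisors hd)]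
    ring
  rw [← Equiv.pnatEquivNat.symm.hasSum_iff] at h4
  have h5 := HasSum.zero_add
    (f := fun n : ℕ => (if n = 0 then cotAux ζ - 1 / 2
      else -∑ d ∈ n.divisors, (ζ ^ d - ζ⁻¹ ^ d)) * q ^ n)
    (h4.congr_fun fun n => by simp [Equiv.pnatEquivNat])
  refine Eq.subst (motive := fun v => HasSum _ v) ?_ h5
  rw [eisV_eq_series]
  simp [hζ]
  ring

/-- Dual character sums. -/
theorem sum_inv_mul_eExp {M : ℕ} [NeZero M] (χ : DirichletCharacter ℂ M) (hχ : χ.IsPrimitive)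
    (k : ℕ) : ∑ b : ZMod M, χ⁻¹ b * eExp (((b.val : ℝ) / M : ℝ) : ℂ) ^ k
      = χ (k : ZMod M) * gaussSum χ⁻¹ ZMod.stdAddChar := by
  have hχ' : (χ⁻¹).IsPrimitive := by
    rwa [DirichletCharacter.isPrimitive_def, DirichletCharacter.conductor_inv,
      ← DirichletCharacter.isPrimitive_def]
  have h := gaussSum_mulShift_of_isPrimitive ZMod.stdAddChar hχ' (k : ZMod M)
  rw [inv_inv] at h
  rw [← h, gaussSum]
  refine Finset.sum_congr rfl fun b _ => ?_
  congr 1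
  have hb : ((b.val : ℕ) : ZMod M) = b := ZMod.natCast_zmod_val b
  rw [AddChar.mulShift_apply, ← eExp_mul_nat, show (k : ZMod M) * b = ((k * b.val : ℕ) : ℤ) by
    push_cast; rw [hb], ZMod.stdAddChar_coe, eExp]
  push_cast; ring_nf

theorem gaussSum_inv_ne_zero {M : ℕ} [NeZero M] {χ : DirichletCharacter ℂ M}
    (hχ : χ.IsPrimitive) : gaussSum χ⁻¹ ZMod.stdAddChar ≠ 0 := by
  have hχ' : (χ⁻¹).IsPrimitive := by
    rwa [DirichletCharacter.isPrimitive_def, DirichletCharacter.conductor_inv,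
      ← DirichletCharacter.isPrimitive_def]
  intro h0
  have h : ZMod.dft (⇑χ⁻¹) = 0 := funext fun k => by
    rw [hχ'.fourierTransform_eq_inv_mul_gaussSum, h0, mul_zero]; rfl
  have h1 := congrFun (ZMod.dft.map_eq_zero_iff.mp h) 1
  simp at h1

/-- `ζ ≠ 1` an `M`-th root of unity: `(ζ - 1) ∑ a ζ^a = M`. -/
theorem mul_sum_mul_pow {ζ : ℂ} {M : ℕ} :
    (ζ - 1) * ∑ a ∈ Finset.range M, (a : ℂ) * ζ ^ a
      = (M : ℂ) * ζ ^ M - ζ * ∑ a ∈ Finset.range M, ζ ^ a := by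
  induction M with
  | zero => simp
  | succ k ih =>
    rw [Finset.sum_range_succ, Finset.sum_range_succ, mul_add, ih]
    push_cast
    ring

theorem cotAux_root {ζ : ℂ} {M : ℕ} (hM : 0 < M) (h1 : ζ ≠ 1) (hζ : ζ ^ M = 1) :
    cotAux ζ = 1 + (∑ a ∈ Finset.range M, (a : ℂ) * ζ ^ a) / M := by
  have h : ∑ a ∈ Finset.range M, ζ ^ a = 0 := by rw [geom_sum_eq h1, hζ, sub_self, zero_div]
  have e := mul_sum_mul_pow (ζ := ζ) (M := M)
  rw [hζ, h, mul_zero, sub_zero, mul_one] at e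
  have hM' : (M : ℂ) ≠ 0 := by exact_mod_cast hM.ne'
  have h2 : ζ - 1 ≠ 0 := sub_ne_zero.mpr h1
  unfold cotAux
  field_simp
  linear_combination -e

theorem apply_gamma0_unit {M : ℕ} {γ : SL(2, ℤ)} (hγ : γ ∈ Gamma0 M) :
    ((γ 0 0 : ℤ) : ZMod M) * ((γ 1 1 : ℤ) : ZMod M) = 1 := by
  have h := γ.det_coe
  rw [Matrix.det_fin_two] at h
  have h' := congrArg (fun x : ℤ => (x : ZMod M)) h
  push_cast at h'
  rw [Gamma0_mem.mp hγ, mul_zero, sub_zero] at h'
  exact h'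

/-- `b / M`. -/
def eisArg {M : ℕ} (b : ZMod M) : ℝ := (b.val : ℝ) / M

/-- The normalising constant. -/
def eisConst {M : ℕ} [NeZero M] (χ : DirichletCharacter ℂ M) : ℂ :=
  -(1 / (2 * gaussSum χ⁻¹ ZMod.stdAddChar))

/-- The coefficients before simplification. -/
def eisCoeff {M : ℕ} [NeZero M] (χ : DirichletCharacter ℂ M) (n : ℕ) : ℂ :=
  eisConst χ * ∑ b : ZMod M, χ⁻¹ b * (if n = 0
    then cotAux (eExp (eisArg b : ℂ)) - 1 / 2
    else -∑ d ∈ n.divisors, (eExp (eisArg b : ℂ) ^ d - (eExp (eisArg b : ℂ))⁻¹ ^ d))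

theorem eisArg_not_int {M : ℕ} [NeZero M] {χ : DirichletCharacter ℂ M} (hne1 : χ⁻¹ ≠ 1)
    {b : ZMod M} (hb : χ⁻¹ b ≠ 0) (x : ℝ) :
    ¬ ((∃ m : ℤ, (m : ℝ) = x) ∧ ∃ n : ℤ, (n : ℝ) = eisArg b) := by
  have hM0 : 0 < M := Nat.pos_of_ne_zero (NeZero.ne M)
  have hMR : (M : ℝ) ≠ 0 := by exact_mod_cast hM0.ne'
  rintro ⟨-, n, hn⟩
  rw [eisArg, eq_div_iff hMR] at hn
  have hn' : n * (M : ℤ) = (b.val : ℤ) := by exact_mod_cast hn
  have hlt := ZMod.val_lt b
  have hn0 : n = 0 := by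
    rcases lt_trichotomy n 0 with h | h | h
    · nlinarith
    · exact h
    · nlinarith
  have hv : b.val = 0 := by rw [hn0, zero_mul] at hn'; exact_mod_cast hn'.symm
  have hb0 : b = 0 := (ZMod.val_eq_zero b).mp hv
  subst hb0
  rcases Nat.lt_or_ge 1 M with h | h
  · have : Fact (1 < M) := ⟨h⟩
    exact hb (MulChar.map_zero _)
  · exact hne1 (MulChar.ext fun u => by
      have : M = 1 := by omega
      subst this
      rw [Subsingleton.elim u 1]; simp)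

theorem eisCoeff_zero {M : ℕ} [NeZero M] {χ : DirichletCharacter ℂ M} (hχ : χ.IsPrimitive)
    (hne1 : χ⁻¹ ≠ 1) : 2 * (M : ℂ) * eisCoeff χ 0
      = -∑ a ∈ Finset.range M, (a : ℂ) * χ (a : ZMod M) := by
  have hM0 : 0 < M := Nat.pos_of_ne_zero (NeZero.ne M)
  have hchar : ∀ k : ℕ, ∑ b : ZMod M, χ⁻¹ b * eExp (eisArg b : ℂ) ^ k
      = χ (k : ZMod M) * gaussSum χ⁻¹ ZMod.stdAddChar := sum_inv_mul_eExp χ hχ
  have hc : eisConst χ = -(1 / (2 * gaussSum χ⁻¹ ZMod.stdAddChar)) := rfl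
  have hG0 := gaussSum_inv_ne_zero hχ
  have hy : (eisArg : ZMod M → ℝ) = fun b => (b.val : ℝ) / M := rfl
  set G := gaussSum χ⁻¹ ZMod.stdAddChar
  set c := eisConst χ
  set y : ZMod M → ℝ := eisArg
  have hnot := fun b hb => eisArg_not_int (χ := χ) hne1 (b := b) hb
  unfold eisCoeff
  simp only [if_pos]
  have hstep : ∀ b : ZMod M, χ⁻¹ b * (cotAux (eExp (y b : ℂ)) - 1 / 2)
      = χ⁻¹ b * (1 / 2) + (∑ k ∈ Finset.range M, (k : ℂ) * (χ⁻¹ b * eExp (y b : ℂ) ^ k)) / M := by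
    intro b
    by_cases hb : χ⁻¹ b = 0
    · simp [hb]
    have hroot : eExp (y b : ℂ) ^ M = 1 := by
      rw [← eExp_mul_nat, eExp_eq_one_iff]
      exact ⟨b.val, by rw [hy]; push_cast; field_simp; rw [mul_div_cancel_left₀ _ (show (M : ℂ) ≠ 0 by exact_mod_cast hM0.ne')]⟩
    have hne : eExp (y b : ℂ) ≠ 1 := fun h => by
      obtain ⟨n, hn⟩ := eExp_eq_one_iff.mp h
      exact hnot b hb 0 ⟨⟨0, by simp⟩, n, by exact_mod_cast hn.symm⟩
    rw [cotAux_root hM0 hne hroot]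
    have e : ∑ k ∈ Finset.range M, (k : ℂ) * (χ⁻¹ b * eExp (y b : ℂ) ^ k)
        = χ⁻¹ b * ∑ k ∈ Finset.range M, (k : ℂ) * eExp (y b : ℂ) ^ k := by
      rw [Finset.mul_sum]; exact Finset.sum_congr rfl fun k _ => by ring
    rw [e]; ring
  rw [Finset.sum_congr rfl fun b _ => hstep b, Finset.sum_add_distrib, ← Finset.sum_mul,
    MulChar.sum_eq_zero_of_ne_one hne1, zero_mul, zero_add, ← Finset.sum_div, Finset.sum_comm]
  simp only [← Finset.mul_sum, hchar]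
  rw [← Finset.sum_congr rfl fun k _ => mul_assoc _ _ _, ← Finset.sum_mul,
    show eisConst χ = -(1 / (2 * G)) from hc]
  have hM' : (M : ℂ) ≠ 0 := by exact_mod_cast hM0.ne'
  field_simp

theorem eisCoeff_pos {M : ℕ} [NeZero M] {χ : DirichletCharacter ℂ M} (hχ : χ.IsPrimitive)
    (hodd : χ.Odd) {n : ℕ} (hn : n ≠ 0) : eisCoeff χ n = ∑ d ∈ n.divisors, χ (d : ZMod M) := by
  have hM0 : 0 < M := Nat.pos_of_ne_zero (NeZero.ne M)
  have hchar : ∀ k : ℕ, ∑ b : ZMod M, χ⁻¹ b * eExp (eisArg b : ℂ) ^ k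
      = χ (k : ZMod M) * gaussSum χ⁻¹ ZMod.stdAddChar := sum_inv_mul_eExp χ hχ
  have hc : eisConst χ = -(1 / (2 * gaussSum χ⁻¹ ZMod.stdAddChar)) := rfl
  have hG0 := gaussSum_inv_ne_zero hχ
  have hy : (eisArg : ZMod M → ℝ) = fun b => (b.val : ℝ) / M := rfl
  set G := gaussSum χ⁻¹ ZMod.stdAddChar
  set c := eisConst χ
  set y : ZMod M → ℝ := eisArg
  unfold eisCoeff
  simp only [if_neg hn, mul_neg, Finset.mul_sum, Finset.sum_neg_distrib]
  rw [Finset.sum_comm, ← Finset.sum_neg_distrib]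
  refine Finset.sum_congr rfl fun d _ => ?_
  simp only [mul_sub]
  have hinvsum : ∑ b : ZMod M, χ⁻¹ b * (eExp (y b : ℂ))⁻¹ ^ d = -(χ (d : ZMod M) * G) := by
    rw [← hchar d, ← Finset.sum_neg_distrib]
    refine Fintype.sum_bijective (fun b : ZMod M => -b) neg_involutive.bijective _ _ fun b => ?_
    have hoddinv : χ⁻¹ (-b) = -χ⁻¹ b := by
      rw [← neg_one_mul b, map_mul, MulChar.inv_apply_eq_inv' χ (-1 : ZMod M), hodd]
      norm_num
    by_cases hb : b = 0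
    · subst hb
      have : χ⁻¹ (0 : ZMod M) = 0 := by
        rw [neg_zero] at hoddinv
        linear_combination hoddinv / 2
      simp [this]
    rw [hoddinv, neg_mul, neg_neg]
    congr 1
    rw [inv_pow, ← eExp_mul_nat, ← eExp_mul_nat, ← eExp_neg]
    have hv : ((-b).val : ℝ) = M - b.val := by
      have : NeZero b := ⟨hb⟩
      rw [ZMod.val_neg_of_ne_zero, Nat.cast_sub (ZMod.val_lt b).le]
    rw [show -((d : ℂ) * (y b : ℂ)) = (d : ℂ) * (y (-b) : ℂ) + ((-(d : ℤ) : ℤ) : ℂ) by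
      simp only [hy, hv]; push_cast
      rw [sub_div, div_self (show (M : ℂ) ≠ 0 by exact_mod_cast hM0.ne')]; ring, eExp_add_int]
  rw [Finset.sum_sub_distrib, ← Finset.mul_sum, ← Finset.mul_sum]
  change -(c * ∑ x, χ⁻¹ x * eExp (y x : ℂ) ^ d - c * ∑ x, χ⁻¹ x * (eExp (y x : ℂ))⁻¹ ^ d) = χ (d : ZMod M)
  rw [hinvsum, hchar, hc]
  field_simp
  ring

/-- The Eisenstein series as a function. -/
def eisFun {M : ℕ} [NeZero M] (χ : DirichletCharacter ℂ M) : ℍ → ℂ :=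
  eisConst χ • ∑ b : ZMod M, χ⁻¹ b • eisV 0 (eisArg b)

theorem slash_sum_one {ι : Type*} (s : Finset ι) (f : ι → ℍ → ℂ) (g : SL(2, ℤ)) :
    (∑ i ∈ s, f i) ∣[(1 : ℤ)] g = ∑ i ∈ s, (f i ∣[(1 : ℤ)] g) := by
  classical
  induction s using Finset.induction_on with
  | empty => simp [SlashAction.zero_slash]
  | insert i s hi ih => rw [Finset.sum_insert hi, Finset.sum_insert hi, SlashAction.add_slash, ih]

theorem eisFun_slash {M : ℕ} [NeZero M] (χ : DirichletCharacter ℂ M) (g : SL(2, ℤ)) :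
    eisFun χ ∣[(1 : ℤ)] g
      = eisConst χ • ∑ b : ZMod M, χ⁻¹ b • (eisV 0 (eisArg b) ∣[(1 : ℤ)] g) := by
  rw [eisFun, ModularForm.SL_smul_slash, slash_sum_one]
  simp only [ModularForm.SL_smul_slash]

theorem eisFun_slash_gamma0 {M : ℕ} [NeZero M] {χ : DirichletCharacter ℂ M} (hne1 : χ⁻¹ ≠ 1)
    {γ : SL(2, ℤ)} (hγ : γ ∈ Gamma0 M) :
    eisFun χ ∣[(1 : ℤ)] γ = χ ((γ 1 1 : ℤ) : ZMod M) • eisFun χ := by
  have hMR : (M : ℝ) ≠ 0 := by exact_mod_cast (NeZero.ne M)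
  set d : ZMod M := ((γ 1 1 : ℤ) : ZMod M) with hd
  have hdu : IsUnit d := isUnit_iff_exists_inv'.mpr ⟨_, apply_gamma0_unit hγ⟩
  have hd0 : χ d ≠ 0 := (hdu.map χ).ne_zero
  obtain ⟨k, hk⟩ := (ZMod.intCast_zmod_eq_zero_iff_dvd _ _).mp (Gamma0_mem.mp hγ)
  have hstep : ∀ b : ZMod M, χ⁻¹ b • (eisV 0 (eisArg b) ∣[(1 : ℤ)] γ)
      = χ⁻¹ b • eisV 0 (eisArg (b * d)) := by
    intro b
    by_cases hb : χ⁻¹ b = 0
    · simp [hb]
    congr 1
    have hbd : χ⁻¹ (b * d) ≠ 0 := by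
      rw [map_mul]
      exact mul_ne_zero hb ((hdu.map χ⁻¹).ne_zero)
    have hcong : ((b * d).val : ℤ) ≡ (b.val : ℤ) * γ 1 1 [ZMOD M] := by
      rw [← ZMod.intCast_eq_intCast_iff]
      push_cast
      rw [ZMod.natCast_zmod_val, ZMod.natCast_zmod_val]
    obtain ⟨t, ht⟩ := hcong.symm.dvd
    have ht' : ((b * d).val : ℝ) - b.val * (γ 1 1 : ℤ) = M * t := by exact_mod_cast ht
    have e1 : (0 : ℝ) * γ 0 0 + eisArg b * γ 1 0 = 0 + ((b.val * k : ℤ) : ℝ) := by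
      simp only [eisArg, hk, Int.cast_mul, Int.cast_natCast]
      field_simp
      ring
    have e2 : (0 : ℝ) * γ 0 1 + eisArg b * γ 1 1 = eisArg (b * d) + ((-t : ℤ) : ℝ) := by
      simp only [eisArg, Int.cast_neg]
      field_simp
      linarith
    rw [eisV_slash, e1, e2, eisV_add_int (eisArg_not_int hne1 hbd _)]
    rw [e1, e2]
    rintro ⟨-, n, hn⟩
    exact eisArg_not_int hne1 hbd 0 ⟨⟨0, by simp⟩, ⟨n + t, by push_cast; rw [hn]; push_cast; ring⟩⟩
  rw [eisFun_slash, Finset.sum_congr rfl fun b _ => hstep b, eisFun, smul_comm (χ d),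
    Finset.smul_sum (r := χ d)]
  congr 1
  refine Fintype.sum_bijective (fun b => b * d) ⟨hdu.mul_left_injective,
    Finite.surjective_of_injective hdu.mul_left_injective⟩ _ _ fun b => ?_
  rw [smul_smul, map_mul, MulChar.inv_apply_eq_inv' χ d]
  congr 1
  field_simp

theorem mdifferentiable_eisFun {M : ℕ} [NeZero M] {χ : DirichletCharacter ℂ M}
    (hne1 : χ⁻¹ ≠ 1) : MDiff (eisFun χ) := by
  refine MDifferentiable.const_smul _ ?_
  refine Finset.sum_induction _ (fun f : ℍ → ℂ => MDiff f) (fun _ _ ha hb => ha.add hb)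
    mdifferentiable_const fun b _ => ?_
  by_cases hb : χ⁻¹ b = 0
  · rw [hb, zero_smul]; exact mdifferentiable_const
  · exact MDifferentiable.const_smul _ (mdifferentiable_eisV (eisArg_not_int hne1 hb 0))

theorem isBoundedAtImInfty_eisFun {M : ℕ} [NeZero M] {χ : DirichletCharacter ℂ M}
    (hne1 : χ⁻¹ ≠ 1) (g : SL(2, ℤ)) : IsBoundedAtImInfty (eisFun χ ∣[(1 : ℤ)] g) := by
  rw [eisFun_slash]
  refine Filter.BoundedAtFilter.smul _ ?_
  refine Finset.sum_induction _ IsBoundedAtImInfty (fun _ _ ha hb => ha.add hb)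
    (const_boundedAtFilter _ 0) fun b _ => ?_
  by_cases hb : χ⁻¹ b = 0
  · rw [hb, zero_smul]; exact const_boundedAtFilter _ 0
  · have hn : ¬ ((∃ m : ℤ, (m : ℝ) = 0 * g 0 0 + eisArg b * g 1 0) ∧
        ∃ n : ℤ, (n : ℝ) = 0 * g 0 1 + eisArg b * g 1 1) := by
      rintro ⟨⟨m, hm⟩, ⟨n, hn⟩⟩
      refine eisArg_not_int hne1 hb 0 ⟨⟨0, by simp⟩, ⟨g 0 0 * n - g 0 1 * m, ?_⟩⟩
      have h := g.det_coe
      rw [Matrix.det_fin_two] at h
      have h' : (g 0 0 : ℝ) * g 1 1 - g 0 1 * g 1 0 = 1 := by exact_mod_cast h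
      push_cast
      rw [hm, hn]
      linear_combination eisArg b * h'
    refine Filter.BoundedAtFilter.smul _ ?_
    rw [eisV_slash g hn]
    exact isBoundedAtImInfty_eisV hn

theorem hasSum_eisFun {M : ℕ} [NeZero M] (χ : DirichletCharacter ℂ M) (τ : ℍ) :
    HasSum (fun n => eisCoeff χ n • Function.Periodic.qParam 1 (τ : ℂ) ^ n) (eisFun χ τ) := by
  let u : ZMod M → ℕ → ℂ := fun b n => if n = 0 then cotAux (eExp (eisArg b : ℂ)) - 1 / 2
    else -∑ d ∈ n.divisors, (eExp (eisArg b : ℂ) ^ d - (eExp (eisArg b : ℂ))⁻¹ ^ d)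
  let q : ℂ := Function.Periodic.qParam 1 (τ : ℂ)
  have hb : ∀ b ∈ (Finset.univ : Finset (ZMod M)),
      HasSum (fun n => χ⁻¹ b * (u b n * q ^ n)) (χ⁻¹ b * eisV 0 (eisArg b) τ) :=
    fun b _ => HasSum.mul_left (χ⁻¹ b) (hasSum_eisV_zero (eisArg b) τ)
  have h : HasSum (fun n => eisConst χ * ∑ b : ZMod M, χ⁻¹ b * (u b n * q ^ n))
      (eisConst χ * ∑ b : ZMod M, χ⁻¹ b * eisV 0 (eisArg b) τ) :=
    HasSum.mul_left (eisConst χ) (hasSum_sum hb)
  have e : eisFun χ τ = eisConst χ * ∑ b : ZMod M, χ⁻¹ b * eisV 0 (eisArg b) τ := by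
    simp [eisFun, Finset.sum_apply]
  rw [e]
  refine h.congr_fun fun n => ?_
  rw [eisCoeff, smul_eq_mul, mul_assoc, Finset.sum_mul]
  exact congrArg (eisConst χ * ·) (Finset.sum_congr rfl fun b _ => by simp only [u, q]; ring)

/-- The Eisenstein series of weight one with character `χ`. -/
theorem exists_eisensteinOne {M : ℕ} [NeZero M] (χ : DirichletCharacter ℂ M)
    (hχ : χ.IsPrimitive) (hodd : χ.Odd) :
    ∃ E : ModularForm (Gamma1 M) 1,
      (∀ γ : SL(2, ℤ), γ ∈ Gamma0 M →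
        (⇑E) ∣[(1 : ℤ)] γ = χ ((γ 1 1 : ℤ) : ZMod M) • ⇑E) ∧
      (2 * (M : ℂ)) * ModularFormClass.qCoeff E 0
        = -∑ a ∈ Finset.range M, (a : ℂ) * χ (a : ZMod M) ∧
      ∀ n : ℕ, n ≠ 0 → ModularFormClass.qCoeff E n = ∑ d ∈ n.divisors, χ (d : ZMod M) := by
  have hne1 : χ⁻¹ ≠ 1 := fun h => by
    have : χ = 1 := by rw [← inv_inv χ, h, inv_one]
    rw [this, DirichletCharacter.Odd] at hodd
    rw [MulChar.one_apply (isUnit_one.neg)] at hodd
    norm_num at hodd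
  let E : ModularForm (Gamma1 M) 1 :=
    { toFun := eisFun χ
      slash_action_eq' := fun g hg => by
        obtain ⟨γ, hγ, rfl⟩ := Subgroup.mem_map.mp hg
        change eisFun χ ∣[(1 : ℤ)] γ = eisFun χ
        rw [eisFun_slash_gamma0 hne1 (Gamma1_in_Gamma0 M hγ), ((Gamma1_mem M γ).mp hγ).2.1,
          map_one, one_smul]
      holo' := mdifferentiable_eisFun hne1
      bdd_at_cusps' := fun hc => by
        rw [Subgroup.IsArithmetic.isCusp_iff_isCusp_SL2Z] at hc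
        rw [OnePoint.isBoundedAt_iff_forall_SL2Z hc]
        exact fun g _ => isBoundedAtImInfty_eisFun hne1 g }
  have hper : (1 : ℝ) ∈ (Gamma1 M : Subgroup (GL (Fin 2) ℝ)).strictPeriods := by simp
  have hcoef : ∀ n, ModularFormClass.qCoeff E n = eisCoeff χ n := fun n =>
    (ModularFormClass.qExpansion_coeff_unique one_pos hper (f := E) (hasSum_eisFun χ) n).symm
  refine ⟨E, fun γ hγ => eisFun_slash_gamma0 hne1 hγ, ?_, fun n hn => ?_⟩
  · rw [hcoef]
    exact eisCoeff_zero hχ hne1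
  · rw [hcoef]
    exact eisCoeff_pos hχ hodd hn

end Fermat.Agent.DeligneSerre
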