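import Fermat.Prelude.Def_FLTPrelim_Modularity
import Fermat.Prelude.Def_ModularForm_HeckeOperator
import Fermat.Prelude.Thm_ModularForm_heckeT_slash_eq_self_of_mem_Gamma0
import Fermat.Prelude.Thm_UpperHalfPlane_qCoeff_heckeT
import Fermat.Prelude.Thm_UpperHalfPlane_qCoeff_heckeU
import Fermat.Prelude.Thm_ModularForm_periodic_heckeU_comp_ofComplex
import Fermat.Prelude.Thm_ModularForm_periodic_heckeT_comp_ofComplex
import Fermat.Prelude.Thm_ModularForm_mdifferentiable_heckeU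
import Fermat.Prelude.Thm_ModularForm_mdifferentiable_heckeT
import Fermat.Prelude.Thm_ModularForm_isBoundedAtImInfty_heckeU
import Fermat.Prelude.Thm_ModularForm_isBoundedAtImInfty_heckeT
import Fermat.Agent.Integral.Nice
import Mathlib

/-!
# The Hecke relations determine the nebentypus

A weight one cusp form on `Γ₁(N)` whose coefficients satisfy the Hecke relations for `ε` at all
primes not dividing `N` transforms under `Γ₀(N)` by `ε`.
-/

set_option autoImplicit false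

noncomputable section

open Complex Filter Topology CongruenceSubgroup ModularForm Matrix.SpecialLinearGroup
open UpperHalfPlane hiding I
open scoped MatrixGroups ModularForm Real Manifold

namespace Fermat.Agent.DeligneSerre

variable {N : ℕ}

/-- Invariance under `Γ₁(N)` in weight one. -/
def InvOne (N : ℕ) (φ : ℍ → ℂ) : Prop := ∀ γ : SL(2, ℤ), γ ∈ Gamma1 N → φ ∣[(1 : ℤ)] γ = φ

theorem mem_Gamma1_iff_eleven {γ : SL(2, ℤ)} (hγ : γ ∈ Gamma0 N) :
    γ ∈ Gamma1 N ↔ ((γ 1 1 : ℤ) : ZMod N) = 1 := by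
  rw [Gamma1_mem]
  refine ⟨fun h => h.2.1, fun h => ⟨?_, h, Gamma0_mem.mp hγ⟩⟩
  have hd := γ.det_coe
  rw [Matrix.det_fin_two] at hd
  have h' := congrArg (fun x : ℤ => (x : ZMod N)) hd
  push_cast at h'
  rw [Gamma0_mem.mp hγ, h, mul_one, mul_zero, sub_zero] at h'
  exact h'

theorem mul_apply_eleven {γ δ : SL(2, ℤ)} (hγ : γ ∈ Gamma0 N) :
    (((γ * δ) 1 1 : ℤ) : ZMod N) = ((γ 1 1 : ℤ) : ZMod N) * ((δ 1 1 : ℤ) : ZMod N) := by
  simp [Matrix.mul_apply, Fin.sum_univ_two, Gamma0_mem.mp hγ]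

/-- On `Γ₀(N)` the slash action on an invariant function only depends on the lower right entry. -/
theorem InvOne.slash_congr {φ : ℍ → ℂ} (hφ : InvOne N φ) {γ δ : SL(2, ℤ)}
    (hγ : γ ∈ Gamma0 N) (hδ : δ ∈ Gamma0 N)
    (h : ((γ 1 1 : ℤ) : ZMod N) = ((δ 1 1 : ℤ) : ZMod N)) :
    φ ∣[(1 : ℤ)] γ = φ ∣[(1 : ℤ)] δ := by
  have hm : γ * δ⁻¹ ∈ Gamma0 N := mul_mem hγ (inv_mem hδ)
  have h1 : γ * δ⁻¹ ∈ Gamma1 N := by
    rw [mem_Gamma1_iff_eleven hm, mul_apply_eleven hγ, h, ← mul_apply_eleven hδ, mul_inv_cancel]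
    simp
  conv_lhs => rw [← inv_mul_cancel_right γ δ, SlashAction.slash_mul, hφ _ h1]

/-- Slashing by an element of `Γ₀(N)` preserves `Γ₁(N)`-invariance. -/
theorem InvOne.slash {φ : ℍ → ℂ} (hφ : InvOne N φ) {σ : SL(2, ℤ)} (hσ : σ ∈ Gamma0 N) :
    InvOne N (φ ∣[(1 : ℤ)] σ) := fun γ hγ => by
  rw [← SlashAction.slash_mul]
  refine hφ.slash_congr (mul_mem hσ (Gamma1_in_Gamma0 N hγ)) hσ ?_
  rw [mul_apply_eleven hσ, ((Gamma1_mem N γ).mp hγ).2.1, mul_one]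

theorem heckeMatrix_zero_eq (p : ℕ) (hp : p ≠ 0) (x b : ℤ) (γ δ : SL(2, ℤ))
    (hγ : (γ : Matrix (Fin 2) (Fin 2) ℤ) = !![1, -b; -(N : ℤ), p * x])
    (hδ : (δ : Matrix (Fin 2) (Fin 2) ℤ) = !![x, b; (N : ℤ), p])
    (h : x * p - b * N = 1) :
    heckeMatrix p 0 = (mapGL ℝ γ : GL (Fin 2) ℝ) * heckeDiagMatrix p * mapGL ℝ δ := by
  have h' : (x : ℝ) * p - b * N = 1 := by exact_mod_cast h
  ext i j
  fin_cases i <;> fin_cases j <;>
    simp [Matrix.mul_apply, Fin.sum_univ_two, hp, hγ, hδ]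
  all_goals first
    | linear_combination h'
    | linear_combination -h'
    | linear_combination (p : ℝ) * h'
    | linear_combination -(p : ℝ) * h'
    | ring

/-- If `φ` and `φ(pτ)` are both invariant, so is `φ(τ/p)`. -/
theorem InvOne.slash_heckeMatrix_zero {p : ℕ} (hp : p.Prime) (hpN : ¬ p ∣ N) {φ : ℍ → ℂ}
    (h₁ : InvOne N φ) (h₂ : InvOne N (φ ∣[(1 : ℤ)] heckeDiagMatrix p)) :
    InvOne N (φ ∣[(1 : ℤ)] heckeMatrix p 0) := by
  obtain ⟨x, y, hxy⟩ : IsCoprime (p : ℤ) (N : ℤ) :=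
    Nat.isCoprime_iff_coprime.mpr ((Nat.Prime.coprime_iff_not_dvd hp).mpr hpN)
  let γ : SL(2, ℤ) := ⟨!![1, -(-y); -(N : ℤ), p * x], by rw [Matrix.det_fin_two_of]; linarith⟩
  let δ : SL(2, ℤ) := ⟨!![x, -y; (N : ℤ), p], by rw [Matrix.det_fin_two_of]; linarith⟩
  have hδ : δ ∈ Gamma0 N := Gamma0_mem.mpr (by simp [δ])
  have hγ : γ ∈ Gamma1 N := by
    refine (mem_Gamma1_iff_eleven (Gamma0_mem.mpr (by simp [γ]))).mpr ?_
    have h' := congrArg (fun z : ℤ => (z : ZMod N)) hxy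
    push_cast at h'
    simp only [ZMod.natCast_self, mul_zero, add_zero] at h'
    simp [γ]
    linear_combination h'
  rw [heckeMatrix_zero_eq p hp.ne_zero x (-y) γ δ rfl rfl (by linarith), SlashAction.slash_mul,
    SlashAction.slash_mul]
  intro g hg
  have e : φ ∣[(1 : ℤ)] (mapGL ℝ γ : GL (Fin 2) ℝ) = φ := h₁ γ hγ
  rw [e]
  exact (h₂.slash hδ) g hg

theorem InvOne.vAdd_one {φ : ℍ → ℂ} (h : InvOne N φ) (τ : ℍ) : φ ((1 : ℝ) +ᵥ τ) = φ τ := by
  have hT : ModularGroup.T ∈ Gamma1 N := by simp [Gamma1_mem, ModularGroup.coe_T]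
  have e := congrFun (h _ hT) τ
  rw [ModularForm.SL_slash_apply] at e
  have hd : denom ModularGroup.T τ = 1 := by simp [denom, ModularGroup.coe_T]
  rwa [hd, one_zpow, mul_one, UpperHalfPlane.modular_T_smul] at e

/-- Periods `p ^ (-k)` for all `k`. -/
theorem periodic_pow_inv {p : ℕ} (hp : p.Prime) (hpN : ¬ p ∣ N) (k : ℕ) :
    ∀ φ : ℍ → ℂ, InvOne N φ → InvOne N (φ ∣[(1 : ℤ)] heckeDiagMatrix p) →
      ∀ τ : ℍ, φ (((p : ℝ) ^ k)⁻¹ +ᵥ τ) = φ τ := by
  have hp0 : (p : ℂ) ≠ 0 := by exact_mod_cast hp.ne_zero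
  induction k with
  | zero => intro φ h₁ _ τ; simpa using h₁.vAdd_one τ
  | succ k ih =>
    intro φ h₁ h₂ τ
    set ψ := φ ∣[(1 : ℤ)] heckeMatrix p 0 with hψ
    have hψ₁ : InvOne N ψ := InvOne.slash_heckeMatrix_zero hp hpN h₁ h₂
    have hval : ∀ z : ℍ, (ψ ∣[(1 : ℤ)] heckeDiagMatrix p) z = (p : ℂ)⁻¹ * φ z := by
      intro z
      rw [slash_heckeDiagMatrix_apply 1 hp.ne_zero, hψ, slash_heckeMatrix_apply 1 hp.ne_zero]
      rw [show heckeMatrix p 0 • heckeDiagMatrix p • z = z from UpperHalfPlane.ext (by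
        rw [coe_heckeMatrix_smul hp.ne_zero, coe_heckeDiagMatrix_smul hp.ne_zero]
        push_cast; field_simp; ring)]
      simp
    have hψ₂ : InvOne N (ψ ∣[(1 : ℤ)] heckeDiagMatrix p) := by
      intro g hg
      rw [show ψ ∣[(1 : ℤ)] heckeDiagMatrix p = (p : ℂ)⁻¹ • φ from funext hval,
        ModularForm.SL_smul_slash, h₁ g hg]
    set z : ℍ := heckeDiagMatrix p • τ with hz
    have h := ih ψ hψ₁ hψ₂ z
    rw [hψ, slash_heckeMatrix_apply 1 hp.ne_zero, slash_heckeMatrix_apply 1 hp.ne_zero] at h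
    have h' := mul_left_cancel₀ (inv_ne_zero hp0) h
    rw [show heckeMatrix p 0 • ((((p : ℝ) ^ k)⁻¹) +ᵥ z) = ((p : ℝ) ^ (k + 1))⁻¹ +ᵥ τ from
      UpperHalfPlane.ext (by
        rw [coe_heckeMatrix_smul hp.ne_zero, coe_vadd, hz, coe_heckeDiagMatrix_smul hp.ne_zero,
          coe_vadd]
        push_cast; field_simp; ring),
      show heckeMatrix p 0 • z = τ from UpperHalfPlane.ext (by
        rw [coe_heckeMatrix_smul hp.ne_zero, hz, coe_heckeDiagMatrix_smul hp.ne_zero]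
        push_cast; field_simp; ring)] at h'
    exact h'

/-- A form `φ` with `φ` and `φ(pτ)` both of level `N` vanishes. -/
theorem InvOne.eq_zero_of_diag {p : ℕ} (hp : p.Prime) (hpN : ¬ p ∣ N) {φ : ℍ → ℂ}
    (h₁ : InvOne N φ) (h₂ : InvOne N (φ ∣[(1 : ℤ)] heckeDiagMatrix p))
    (hd : MDiff φ) (h0 : IsZeroAtImInfty φ) : φ = 0 := by
  set S : AddSubgroup ℝ :=
    { carrier := {t | ∀ τ : ℍ, φ (t +ᵥ τ) = φ τ}
      zero_mem' := fun τ => by rw [zero_vadd]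
      add_mem' := fun {a b} ha hb τ => by rw [add_vadd, ha, hb]
      neg_mem' := fun {a} ha τ => by
        have := ha ((-a) +ᵥ τ)
        rw [vadd_vadd, add_neg_cancel, zero_vadd] at this
        exact this.symm }
  have hcont : Continuous φ := hd.continuous
  have hclosed : IsClosed (S : Set ℝ) := by
    have e : (S : Set ℝ) = ⋂ τ : ℍ, {t | φ (t +ᵥ τ) = φ τ} := by ext t; simp [S]
    rw [e]
    refine isClosed_iInter fun τ => isClosed_eq (hcont.comp ?_) continuous_const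
    refine UpperHalfPlane.isEmbedding_coe.continuous_iff.mpr ?_
    simp only [Function.comp_def, coe_vadd]
    fun_prop
  have hall : ∀ t : ℝ, ∀ τ : ℍ, φ (t +ᵥ τ) = φ τ := by
    intro t
    have hdense : Dense (S : Set ℝ) := by
      refine AddSubgroup.dense_of_not_isolated_zero S fun ε hε => ?_
      have hp1 : (1 : ℝ) < p := by exact_mod_cast hp.one_lt
      obtain ⟨k, hk⟩ := pow_unbounded_of_one_lt ε⁻¹ hp1
      refine ⟨((p : ℝ) ^ k)⁻¹, periodic_pow_inv hp hpN k φ h₁ h₂, by positivity, ?_⟩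
      exact inv_lt_of_inv_lt₀ hε hk
    have : t ∈ closure (S : Set ℝ) := hdense t
    rw [hclosed.closure_eq] at this
    exact this
  -- a holomorphic function constant on horizontal lines is constant
  have hF : DifferentiableOn ℂ (φ ∘ ofComplex) {z : ℂ | 0 < z.im} :=
    UpperHalfPlane.mdifferentiable_iff.mp hd
  have hopen : IsOpen {z : ℂ | 0 < z.im} := isOpen_lt continuous_const Complex.continuous_im
  have hderiv : Set.EqOn (deriv (φ ∘ ofComplex)) 0 {z : ℂ | 0 < z.im} := by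
    intro z hz
    have hz' : 0 < z.im := hz
    have hd0 := (hF.differentiableAt (hopen.mem_nhds hz)).hasDerivAt
    have hline : HasDerivAt (fun t : ℝ => (φ ∘ ofComplex) (z + t)) (deriv (φ ∘ ofComplex) z) 0 := by
      have h2 : HasDerivAt (fun w : ℂ => (φ ∘ ofComplex) (z + w)) (deriv (φ ∘ ofComplex) z)
          ((0 : ℝ) : ℂ) := by
        exact HasDerivAt.comp_const_add z _ (by simpa using hd0)
      exact h2.comp_ofReal
    have hconst : (fun t : ℝ => (φ ∘ ofComplex) (z + t)) = fun _ => (φ ∘ ofComplex) z := by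
      funext t
      have : 0 < (z + t).im := by simpa using hz'
      simp only [Function.comp_apply, ofComplex_apply_of_im_pos this,
        ofComplex_apply_of_im_pos hz']
      refine Eq.trans (congrArg φ (UpperHalfPlane.ext ?_)) (hall t ⟨z, hz'⟩)
      simp [add_comm]
    rw [hconst] at hline
    exact hline.unique (hasDerivAt_const 0 _)
  have hconn : IsPreconnected {z : ℂ | 0 < z.im} :=
    (convex_halfSpace_im_gt 0).isPreconnected
  obtain ⟨c, hc⟩ := hopen.exists_is_const_of_deriv_eq_zero hconn hF hderiv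
  have hφ : φ = fun _ => c := funext fun τ => by
    have := hc (τ : ℂ) τ.im_pos
    simpa using this
  rw [hφ] at h0 ⊢
  funext τ
  exact tendsto_nhds_unique tendsto_const_nhds h0

open P2MW.S_ModularForm_heckeT_slash_eq_self_of_mem_Gamma0.ModularForm.HeckeSlashInvariance in
/-- `U_p f + (⟨p⟩ f)(pτ)` has level `N`. -/
theorem InvOne.heckeT_one {p : ℕ} (hp : p.Prime) (hpN : ¬ p ∣ N) {f : ℍ → ℂ} (hf : InvOne N f)
    {σ : SL(2, ℤ)} (hσ : σ ∈ Gamma0 N) (hσp : ((σ 1 1 : ℤ) : ZMod N) = (p : ZMod N)) :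
    InvOne N (heckeU 1 p f + (f ∣[(1 : ℤ)] σ) ∣[(1 : ℤ)] heckeDiagMatrix p) := by
  classical
  have : Fact p.Prime := ⟨hp⟩
  have : NeZero p := ⟨hp.ne_zero⟩
  let s : OnePoint (ZMod p) → SL(2, ℤ) := fun x => x.elim σ (fun _ => 1)
  have hs : ∀ x, s x ∈ Gamma0 N := fun x => by
    induction x using OnePoint.rec with
    | infty => exact hσ
    | coe j => exact one_mem _
  have hrep : ∀ x, (((s x) 1 1 : ℤ) : ℝ) = ((s x) 1 1 : ℤ) ∧
      ∃ r : ℕ, ((heckeRep p x : GL (Fin 2) ℝ) : Matrix (Fin 2) (Fin 2) ℝ) 1 1 = r ∧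
        (r : ZMod N) * (((s x) 1 1 : ℤ) : ZMod N) = (p : ZMod N) ∧ IsUnit (r : ZMod N) ∧
        ∃ r' : ℤ, ((heckeRep p x : GL (Fin 2) ℝ) : Matrix (Fin 2) (Fin 2) ℝ) 0 1 = r' := by
    intro x
    refine ⟨rfl, ?_⟩
    induction x using OnePoint.rec with
    | infty =>
      refine ⟨1, ?_, ?_, by simp, 0, ?_⟩
      · simp [hp.ne_zero]
      · rw [Nat.cast_one, one_mul]; exact hσp
      · simp [hp.ne_zero]
    | coe j =>
      refine ⟨p, ?_, ?_, ?_, (j.val : ℤ), ?_⟩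
      · simp [hp.ne_zero]
      · simp [s]
      · exact (ZMod.isUnit_iff_coprime p N).mpr ((Nat.Prime.coprime_iff_not_dvd hp).mpr hpN)
      · simp [hp.ne_zero]
  have hT : heckeU 1 p f + (f ∣[(1 : ℤ)] σ) ∣[(1 : ℤ)] heckeDiagMatrix p
      = ∑ x : OnePoint (ZMod p), (f ∣[(1 : ℤ)] s x) ∣[(1 : ℤ)] heckeRep p x := by
    rw [heckeU_eq_sum_zmod, add_comm]
    refine Eq.trans ?_ (Fintype.sum_option
      (fun x : OnePoint (ZMod p) => (f ∣[(1 : ℤ)] s x) ∣[(1 : ℤ)] heckeRep p x)).symm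
    refine congrArg₂ (· + ·) rfl (Finset.sum_congr rfl fun j _ => ?_)
    show f ∣[(1 : ℤ)] heckeMatrix p j.val
      = (f ∣[(1 : ℤ)] (1 : SL(2, ℤ))) ∣[(1 : ℤ)] heckeMatrix p j.val
    rw [SlashAction.slash_one]
  intro g hg
  have hg0 : g ∈ Gamma0 N := Gamma1_in_Gamma0 N hg
  have hcN : (N : ℤ) ∣ g 1 0 := (ZMod.intCast_zmod_eq_zero_iff_dvd _ _).mp (Gamma0_mem.mp hg0)
  rw [hT]
  have key : ∀ x, ((f ∣[(1 : ℤ)] s x) ∣[(1 : ℤ)] heckeRep p x) ∣[(1 : ℤ)] g
      = (f ∣[(1 : ℤ)] s (redMatrix p g • x)) ∣[(1 : ℤ)] heckeRep p (redMatrix p g • x) := by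
    intro x
    obtain ⟨g', hg', hmul⟩ := heckeRep_mul hpN g hcN x
    have hg'0 : g' ∈ Gamma0 N := Gamma0_mem.mpr ((ZMod.intCast_zmod_eq_zero_iff_dvd _ _).mpr hg')
    set y := redMatrix p g • x
    obtain ⟨-, r, hr, hrs, -, a, ha⟩ := hrep x
    obtain ⟨-, r', hr', hrs', hu', b, hb⟩ := hrep y
    -- compare lower right entries
    have hent := congrArg (fun M : GL (Fin 2) ℝ => (M : Matrix (Fin 2) (Fin 2) ℝ) 1 1) hmul
    have hx10 : ((heckeRep p x : GL (Fin 2) ℝ) : Matrix (Fin 2) (Fin 2) ℝ) 1 0 = 0 := by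
      induction x using OnePoint.rec <;> simp [hp.ne_zero]
    simp only [Matrix.GeneralLinearGroup.coe_mul, Matrix.mul_apply, Fin.sum_univ_two, hr, hr',
      hx10, hb, zero_mul, zero_add, mapGL_apply] at hent
    have hentZ : (r : ℤ) * g 1 1 = g' 1 0 * b + g' 1 1 * r' := by exact_mod_cast hent
    have hentN := congrArg (fun z : ℤ => (z : ZMod N)) hentZ
    push_cast at hentN
    rw [((Gamma1_mem N g).mp hg).2.1, Gamma0_mem.mp hg'0, mul_one, zero_mul, zero_add] at hentN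
    have h11 : (((s x * g') 1 1 : ℤ) : ZMod N) = (((s y) 1 1 : ℤ) : ZMod N) := by
      rw [mul_apply_eleven (hs x)]
      refine hu'.mul_left_cancel ?_
      rw [hrs', ← hrs, hentN]
      ring
    show ((f ∣[(1 : ℤ)] s x) ∣[(1 : ℤ)] heckeRep p x) ∣[(1 : ℤ)] (mapGL ℝ g : GL (Fin 2) ℝ) = _
    rw [← SlashAction.slash_mul, hmul, SlashAction.slash_mul]
    congr 1
    show (f ∣[(1 : ℤ)] s x) ∣[(1 : ℤ)] g' = _
    rw [← SlashAction.slash_mul]
    exact hf.slash_congr (mul_mem (hs x) hg'0) (hs y) h11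
  show (∑ x, (f ∣[(1 : ℤ)] s x) ∣[(1 : ℤ)] heckeRep p x) ∣[(1 : ℤ)] g = _
  rw [SlashAction.sum_slash, Finset.sum_congr rfl fun x _ => key x]
  exact Equiv.sum_comp (MulAction.toPerm (redMatrix p g))
    (fun x => (f ∣[(1 : ℤ)] s x) ∣[(1 : ℤ)] heckeRep p x)

theorem one_mem_strictPeriods_Gamma1 (N : ℕ) :
    (1 : ℝ) ∈ (Gamma1 N : Subgroup (GL (Fin 2) ℝ)).strictPeriods := by simp

open Fermat.Agent.Integral ModularFormClass in
/-- The Hecke relations on coefficients as an identity of functions. -/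
theorem heckeU_add_eq_smul (ε : DirichletCharacter ℂ N) (f : CuspForm (Gamma1 N) 1) {p : ℕ}
    (hp : p.Prime)
    (hT : ∀ n : ℕ, qCoeff f (p * n) +
      ε (p : ZMod N) * (if p ∣ n then qCoeff f (n / p) else 0) = qCoeff f p * qCoeff f n) :
    heckeU 1 p f + ε (p : ZMod N) • ((⇑f) ∣[(1 : ℤ)] heckeDiagMatrix p) = qCoeff f p • ⇑f := by
  have hf : ⇑f ∈ nice := mem_nice_of_modularForm (one_mem_strictPeriods_Gamma1 N) f
  obtain ⟨hfd, hfb, hfp⟩ := mem_nice.mp hf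
  have hfp' : Function.Periodic (⇑f ∘ ofComplex) (1 : ℂ) := by simpa using hfp
  have hU : heckeU 1 p f ∈ nice := mem_nice.mpr ⟨ModularForm.mdifferentiable_heckeU hfd 1 p,
    ModularForm.isBoundedAtImInfty_heckeU hfb 1 p,
    by simpa using ModularForm.periodic_heckeU_comp_ofComplex hfp' 1 p⟩
  have hH : heckeT 1 p f ∈ nice := mem_nice.mpr ⟨ModularForm.mdifferentiable_heckeT hfd 1 p,
    ModularForm.isBoundedAtImInfty_heckeT hfb 1 p,
    by simpa using ModularForm.periodic_heckeT_comp_ofComplex hfp' 1 p⟩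
  set u : nice := ⟨_, hU⟩ with hu
  set t : nice := ⟨_, hH⟩ with ht
  set w : nice := ⟨_, hf⟩ with hw
  have key : u + ε (p : ZMod N) • (t - u) = qCoeff f p • w := by
    apply qExp_injective
    ext n
    have h1 : (qExp u).coeff n = coeffHeckeU p (qCoeff f) n :=
      UpperHalfPlane.qCoeff_heckeU hfp' hfd hfb 1 hp.ne_zero n
    have h2 : (qExp t).coeff n = coeffHeckeT 1 p (qCoeff f) n :=
      UpperHalfPlane.qCoeff_heckeT hfp' hfd hfb 1 hp.ne_zero n
    have h3 : (qExp w).coeff n = qCoeff f n := rfl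
    simp only [map_add, map_smul, map_sub, smul_eq_mul, h1, h2, h3, coeffHeckeU_apply,
      coeffHeckeT_apply, sub_self, zpow_zero, one_mul, add_sub_cancel_left]
    rw [Nat.mul_comm n p]
    exact hT n
  have h := congrArg (fun v : nice => (v : ℍ → ℂ)) key
  simp only [hu, ht, hw, AddMemClass.coe_add, SetLike.val_smul, AddSubgroupClass.coe_sub,
    heckeT_eq_heckeU_add, add_sub_cancel_left] at h
  exact h

/-- Being a nebentypus. -/
def HasNebentypusOne (N : ℕ) (c : ZMod N → ℂ) (φ : ℍ → ℂ) : Prop :=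
  ∀ γ : SL(2, ℤ), γ ∈ Gamma0 N → φ ∣[(1 : ℤ)] γ = c ((γ 1 1 : ℤ) : ZMod N) • φ

theorem exists_gamma0_lowerRight (N : ℕ) [NeZero N] {d : ℕ} (hd : d.Coprime N) :
    ∃ γ : SL(2, ℤ), γ ∈ Gamma0 N ∧ γ 1 1 = (d : ℤ) := by
  obtain ⟨x, y, hxy⟩ : IsCoprime (d : ℤ) (N : ℤ) := Nat.isCoprime_iff_coprime.mpr hd
  refine ⟨⟨!![x, -y; (N : ℤ), d], by rw [Matrix.det_fin_two_of]; linarith⟩,
    Gamma0_mem.mpr (by simp), by simp⟩

open ModularFormClass in
/-- The Hecke relations determine the nebentypus. -/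
theorem hasNebentypusOne_of_hecke [NeZero N] (ε : DirichletCharacter ℂ N)
    (f : CuspForm (Gamma1 N) 1)
    (hT : ∀ p : ℕ, p.Prime → ¬ p ∣ N → ∀ n : ℕ, qCoeff f (p * n) +
      ε (p : ZMod N) * (if p ∣ n then qCoeff f (n / p) else 0) = qCoeff f p * qCoeff f n) :
    HasNebentypusOne N ε f := by
  have hf : InvOne N f := fun γ hγ => SlashInvariantFormClass.slash_action_eq f _ ⟨γ, hγ, rfl⟩
  intro γ hγ
  have hu : IsUnit ((γ 1 1 : ℤ) : ZMod N) := by
    have hd := γ.det_coe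
    rw [Matrix.det_fin_two] at hd
    have h' := congrArg (fun x : ℤ => (x : ZMod N)) hd
    push_cast at h'
    rw [Gamma0_mem.mp hγ, mul_zero, sub_zero] at h'
    exact isUnit_iff_exists_inv'.mpr ⟨_, h'⟩
  obtain ⟨p, -, hp, hpd⟩ := Nat.forall_exists_prime_gt_and_eq_mod hu N
  have hpN : ¬ p ∣ N := by
    intro h
    have hcop := (ZMod.isUnit_iff_coprime p N).mp (hpd ▸ hu)
    exact (Nat.Prime.coprime_iff_not_dvd hp).mp hcop h
  obtain ⟨σ, hσ, hσ11⟩ := exists_gamma0_lowerRight N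
    ((Nat.Prime.coprime_iff_not_dvd hp).mpr hpN)
  have hσp : ((σ 1 1 : ℤ) : ZMod N) = (p : ZMod N) := by rw [hσ11]; simp
  rw [hf.slash_congr hγ hσ (by rw [hσp, hpd]), ← hpd]
  set a := qCoeff f p
  set φ : ℍ → ℂ := (⇑f) ∣[(1 : ℤ)] σ - ε (p : ZMod N) • ⇑f with hφ
  have hsm : ∀ (c : ℂ) {ψ : ℍ → ℂ}, InvOne N ψ → InvOne N (c • ψ) := fun c ψ hψ g hg => by
    rw [ModularForm.SL_smul_slash, hψ g hg]
  have hsub : ∀ {ψ χ : ℍ → ℂ}, InvOne N ψ → InvOne N χ → InvOne N (ψ - χ) :=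
    fun {ψ χ} hψ hχ g hg => by
      rw [sub_eq_add_neg, SlashAction.add_slash, SlashAction.neg_slash, hψ g hg, hχ g hg]
  have h₁ : InvOne N φ := hsub (hf.slash hσ) (hsm _ hf)
  have hsd : ∀ (c : ℂ) (ψ : ℍ → ℂ), (c • ψ) ∣[(1 : ℤ)] heckeDiagMatrix p
      = c • (ψ ∣[(1 : ℤ)] heckeDiagMatrix p) := fun c ψ => by
    rw [ModularForm.smul_slash, σ_heckeDiagMatrix]
    rfl
  have h₂ : InvOne N (φ ∣[(1 : ℤ)] heckeDiagMatrix p) := by
    have e : φ ∣[(1 : ℤ)] heckeDiagMatrix p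
        = (heckeU 1 p f + ((⇑f) ∣[(1 : ℤ)] σ) ∣[(1 : ℤ)] heckeDiagMatrix p) - a • ⇑f := by
      rw [← heckeU_add_eq_smul ε f hp (hT p hp hpN), hφ, sub_eq_add_neg, SlashAction.add_slash,
        SlashAction.neg_slash, hsd]
      abel
    rw [e]
    exact hsub (InvOne.heckeT_one hp hpN hf hσ hσp) (hsm _ hf)
  have hσd : MDiff ((⇑f) ∣[(1 : ℤ)] σ) := (CuspFormClass.holo f).slash 1 _
  have hz : IsZeroAtImInfty φ := by
    have hc : IsCusp OnePoint.infty (Gamma1 N : Subgroup (GL (Fin 2) ℝ)) :=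
      Subgroup.isCusp_of_mem_strictPeriods one_pos (one_mem_strictPeriods_Gamma1 N)
    have z1 : IsZeroAtImInfty (⇑f) :=
      OnePoint.isZeroAt_infty_iff.mp (CuspFormClass.zero_at_cusps f hc)
    have z2 : IsZeroAtImInfty ((⇑f) ∣[(1 : ℤ)] σ) := by
      have hc' : IsCusp ((mapGL ℝ σ : GL (Fin 2) ℝ) • (OnePoint.infty : OnePoint ℝ))
          (Gamma1 N : Subgroup (GL (Fin 2) ℝ)) := by
        rw [Subgroup.IsArithmetic.isCusp_iff_isCusp_SL2Z, isCusp_SL2Z_iff']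
        exact ⟨σ, rfl⟩
      exact (CuspFormClass.zero_at_cusps f hc') _ rfl
    simpa [hφ, IsZeroAtImInfty, ZeroAtFilter, Pi.sub_def] using Tendsto.sub z2 (Tendsto.const_smul z1 (ε (p : ZMod N)))
  have h0 := InvOne.eq_zero_of_diag hp hpN h₁ h₂
    (hσd.sub ((CuspFormClass.holo f).const_smul _)) hz
  exact sub_eq_zero.mp h0

end Fermat.Agent.DeligneSerre
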