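import Fermat.Agent.DeligneSerre.MainCongruence

/-!
# The theorem of Deligne and Serre
-/

set_option autoImplicit false

noncomputable section

open CongruenceSubgroup ModularFormClass
open scoped MatrixGroups

namespace Fermat.Agent.DeligneSerre

local notation "ℚbar" => AlgebraicClosure ℚ
local notation "Γℚ" => AlgebraicClosure ℚ ≃ₐ[ℚ] AlgebraicClosure ℚ
local notation "ℚalg" => algebraicClosure ℚ ℂ

theorem isAlgebraic_embC (y : ℚbar) : IsAlgebraic ℚ (embC y) :=
  mem_algebraicClosure_iff.mp (qbarEquiv y).2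

/-- Embeddings of `ℚ̄` extend to endomorphisms of `ℂ`. -/
theorem exists_ringHom_embC (τ : ℚbar →+* ℂ) : ∃ σ : ℂ →+* ℂ, ∀ y, σ (embC y) = τ y := by
  classical
  have hτ : ∀ x : ℚalg, τ (qbarEquiv.symm x) ∈ ℚalg := fun x =>
    mem_algebraicClosure_iff.mpr
      (((Algebra.IsAlgebraic.isAlgebraic (qbarEquiv.symm x))).algHom τ.toRatAlgHom)
  let t : ℚalg →+* ℚalg :=
    (τ.comp qbarEquiv.symm.toAlgHom.toRingHom).codRestrict (algebraicClosure ℚ ℂ).toSubfield hτ
  obtain ⟨s, hs⟩ := exists_isTranscendenceBasis ℚalg ℂ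
  obtain ⟨σ, hσ⟩ := Integral.exists_ringHom_of_transcendenceBasis hs (MvPolynomial.map t)
    (MvPolynomial.map_injective _ t.injective)
  refine ⟨σ, fun y => ?_⟩
  have := hσ (MvPolynomial.C (qbarEquiv y))
  simp only [MvPolynomial.aeval_C, MvPolynomial.map_C] at this
  refine this.trans ?_
  show τ (qbarEquiv.symm (qbarEquiv y)) = τ y
  rw [AlgEquiv.symm_apply_apply]

theorem RankinBound.congr' {N : ℕ} {c c' : ℕ → ℝ} (h : RankinBound N c)
    (hc : ∀ p : ℕ, p.Prime → ¬ p ∣ N → c p = c' p) : RankinBound N c' := by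
  obtain ⟨C, hC⟩ := h
  refine ⟨C, fun s hs hs' T hT => le_trans (le_of_eq ?_) (hC s hs hs' T hT)⟩
  exact Finset.sum_congr rfl fun p hp => by rw [hc p (hT p hp).1 (hT p hp).2]

/-- A two-dimensional Artin representation attached to a weight one eigenform. -/
theorem exists_galoisRep_weightOne
    (N : ℕ) [NeZero N] (ε : DirichletCharacter ℂ N) (f : CuspForm (Gamma1 N) 1)
    (hf₁ : ModularFormClass.qCoeff f 1 = 1)
    (hT : ∀ p : ℕ, p.Prime → ¬ p ∣ N → ∀ n : ℕ,
        ModularFormClass.qCoeff f (p * n) +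
            ε (p : ZMod N) * (if p ∣ n then ModularFormClass.qCoeff f (n / p) else 0) =
          ModularFormClass.qCoeff f p * ModularFormClass.qCoeff f n) :
    ∃ ρ : Γℚ →* GL (Fin 2) ℂ, GaloisFactorsThroughFiniteLevel ρ ∧
      (Deformation.matrixRepresentation ρ).IsIrreducible ∧
      ∀ p : ℕ, p.Prime → ¬ p ∣ N →
        ∀ A : ValuationSubring (AlgebraicClosure ℚ), A.LiesOverPrime p →
          (∀ σ ∈ A.inertiaSubgroupIn ℚ, ρ σ = 1) ∧
          ∀ σ : Γℚ, A.IsFrobeniusAt σ p →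
            ((ρ σ : GL (Fin 2) ℂ) : Matrix (Fin 2) (Fin 2) ℂ).trace = ModularFormClass.qCoeff f p ∧
            ((ρ σ : GL (Fin 2) ℂ) : Matrix (Fin 2) (Fin 2) ℂ).det = ε (p : ZMod N) := by
  classical
  obtain ⟨hodd, hf⟩ := eigenOne_of_hecke ε f hf₁ hT
  obtain ⟨hint, ⟨V, hVfin, hV⟩, ψ, D, hD, hψ, hψint⟩ := exists_algebraic_eigen ε hodd hf
  obtain ⟨S₀, hS₀⟩ := hasReductionAt_eigen ε hψ hD hψint hint
  have halga : ∀ p : ℕ, p.Prime → ¬ p ∣ N → IsAlgebraic ℚ (qCoeff f p) := fun p hp hpN =>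
    ((hint p hp hpN).tower_top (A := ℚ)).isAlgebraic
  have halge : ∀ p : ℕ, IsAlgebraic ℚ (ε (p : ZMod N)) := fun p =>
    ((isIntegral_char ε _).tower_top (A := ℚ)).isAlgebraic
  let ι : ℚbar →ₗ[ℚ] ℂ := embC.toRatAlgHom.toLinearMap
  have hι : Function.Injective ι := embC.injective
  have hWfin : FiniteDimensional ℚ (V.comap ι) :=
    Module.Finite.of_injective (ι.restrict (p := V.comap ι) (q := V) fun _ hx => hx)
      (fun x y e => Subtype.ext (hι (show ι (x : ℚbar) = ι (y : ℚbar) from congrArg (Subtype.val (p := (· ∈ V))) e)))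
  obtain ⟨T, hTspan⟩ := Module.Finite.iff_fg.mp hWfin
  obtain ⟨ρ, hfac, hirr, hρ⟩ := exists_rep_of_reductions embC N
    (fun p => preC (qCoeff f p)) (fun p => preC (ε (p : ZMod N)))
    (fun p hp hpN => isIntegral_preC (hint p hp hpN))
    ⟨IntermediateField.adjoin ℚ (T : Set ℚbar),
      IntermediateField.finiteDimensional_adjoin fun x _ =>
        (Algebra.IsAlgebraic.isAlgebraic x).isIntegral,
      fun p hp hpN => by
        have hmem : preC (qCoeff f p) ∈ V.comap ι := by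
          show embC (preC (qCoeff f p)) ∈ V
          rw [embC_preC (halga p hp hpN)]
          exact hV p hp hpN
        rw [← hTspan] at hmem
        exact (Submodule.span_le (p := (IntermediateField.adjoin ℚ
          (T : Set ℚbar)).toSubalgebra.toSubmodule)).mpr (IntermediateField.subset_adjoin ℚ _) hmem⟩
    (Fintype.card (ZMod N)ˣ) Fintype.card_pos
    (fun p hp hpN => embC.injective (by
      rw [map_pow, embC_preC (halge p), map_one, ← map_pow]
      obtain ⟨u, hu⟩ : IsUnit (p : ZMod N) :=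
        (ZMod.isUnit_iff_coprime p N).mpr ((Nat.Prime.coprime_iff_not_dvd hp).mpr hpN)
      rw [← hu, ← Units.val_pow_eq_pow_val, pow_card_eq_one, Units.val_one, map_one]))
    (fun τ => by
      obtain ⟨σ, hσ⟩ := exists_ringHom_embC τ
      refine (rankinBound_ringHom ε hodd hf σ).congr' fun p hp hpN => ?_
      rw [if_pos ⟨hp, hpN⟩, ← hσ, embC_preC (halga p hp hpN)])
    S₀ hS₀
  refine ⟨ρ, hfac, hirr, fun p hp hpN A hA => ?_⟩
  obtain ⟨h1, h2⟩ := hρ p hp hpN A hA
  refine ⟨h1, fun σ hσ => ?_⟩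
  have := h2 σ hσ
  rwa [embC_preC (halga p hp hpN), embC_preC (halge p)] at this

end Fermat.Agent.DeligneSerre
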