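import Fermat.Agent.DeligneSerre.RepsTorsion
import Fermat.Agent.Igusa.FibreCusp
import Mathlib.RingTheory.RootsOfUnity.Lemmas

/-!
# Families of functions indexed by `SL₂(ℤ / M) / ±1`

`XGrp M` is the quotient of `SL(2, ℤ)` by `pmGroup M = ± Γ(M)`.  A family `u : XGrp M → Gd M R` of
holomorphic functions with expansions over `R` is *equivariant* if `u g (γ τ) = u (g γ) τ`; the
Lagrange polynomial of two equivariant families has coefficients in `R[j]`.
-/

set_option autoImplicit false
set_option linter.unusedSectionVars false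

noncomputable section

open UpperHalfPlane Function Polynomial ModularCurve CongruenceSubgroup
open scoped MatrixGroups

namespace Fermat.Agent.DeligneSerre.Level

open Fermat.Agent.ModFun (HasQExp zetaU)
open Fermat.Agent.Igusa.Fibre (Gd jt mem_range_of_invariant coeffMap_aeval_jt algebraMap_eq_C)

section Lag

variable {Q : Type*} [Fintype Q] [DecidableEq Q] {B B' : Type*} [CommRing B] [CommRing B']

/-- `∏ (X - θ g)`. -/
def nodePoly (θ : Q → B) : B[X] := ∏ g, (X - C (θ g))

/-- The numerator of Lagrange interpolation. -/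
def lagPoly (θ u : Q → B) : B[X] :=
  ∑ g, C (u g) * ∏ h ∈ Finset.univ.erase g, (X - C (θ h))

theorem lagPoly_one (θ : Q → B) : lagPoly θ (fun _ => 1) = derivative (nodePoly θ) := by
  rw [nodePoly, derivative_prod_finset, lagPoly]
  refine Finset.sum_congr rfl fun g _ => ?_
  simp [mul_comm]

theorem nodePoly_map (φ : B →+* B') (θ : Q → B) :
    (nodePoly θ).map φ = nodePoly fun g => φ (θ g) := by
  simp [nodePoly, Polynomial.map_prod]

theorem lagPoly_map (φ : B →+* B') (θ u : Q → B) :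
    (lagPoly θ u).map φ = lagPoly (fun g => φ (θ g)) fun g => φ (u g) := by
  simp [lagPoly, Polynomial.map_sum, Polynomial.map_prod]

theorem nodePoly_comp (e : Q ≃ Q) (θ : Q → B) : nodePoly (fun g => θ (e g)) = nodePoly θ :=
  Fintype.prod_equiv e _ _ fun _ => rfl

theorem lagPoly_comp (e : Q ≃ Q) (θ u : Q → B) :
    lagPoly (fun g => θ (e g)) (fun g => u (e g)) = lagPoly θ u := by
  refine Fintype.sum_equiv e _ _ fun g => ?_
  congr 1
  refine Finset.prod_nbij' (fun h => e h) (fun h => e.symm h) ?_ ?_ ?_ ?_ ?_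
  · intro h hh; simpa using hh
  · intro h hh
    simp only [Finset.mem_erase, Finset.mem_univ, and_true, ne_eq] at hh ⊢
    exact fun h0 => hh (by rw [← h0, Equiv.apply_symm_apply])
  · intro h _; simp
  · intro h _; simp
  · intro h _; rfl

theorem nodePoly_monic (θ : Q → B) : (nodePoly θ).Monic :=
  monic_prod_of_monic _ _ fun g _ => monic_X_sub_C _

theorem eval_nodePoly (θ : Q → B) (g : Q) : (nodePoly θ).eval (θ g) = 0 := by
  rw [nodePoly, eval_prod]
  exact Finset.prod_eq_zero (Finset.mem_univ g) (by simp)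

theorem eval_lagPoly (θ u : Q → B) (g : Q) :
    (lagPoly θ u).eval (θ g) = u g * (derivative (nodePoly θ)).eval (θ g) := by
  have h : ∀ v : Q → B, (lagPoly θ v).eval (θ g) =
      v g * ∏ h ∈ Finset.univ.erase g, (θ g - θ h) := by
    intro v
    rw [lagPoly, eval_finsetSum, Finset.sum_eq_single g]
    · simp [eval_prod]
    · intro g' _ hne
      rw [eval_mul, eval_prod]
      exact mul_eq_zero_of_right _ (Finset.prod_eq_zero
        (Finset.mem_erase.2 ⟨Ne.symm hne, Finset.mem_univ g⟩) (by simp))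
    · simp
  rw [← lagPoly_one, h, h, one_mul]

end Lag

variable {M : ℕ} [NeZero M]

/-! The group -/

variable (M) in
/-- Reduction modulo `M` as a monoid homomorphism. -/
def modHom : SL(2, ℤ) →* Matrix (Fin 2) (Fin 2) (ZMod M) where
  toFun := modM M
  map_one' := modM_one
  map_mul' := modM_mul

theorem modM_mul_inv (γ : SL(2, ℤ)) : modM M γ * modM M γ⁻¹ = 1 := by
  rw [← modM_mul, mul_inv_cancel, modM_one]

theorem modM_inv_mul (γ : SL(2, ℤ)) : modM M γ⁻¹ * modM M γ = 1 := by
  rw [← modM_mul, inv_mul_cancel, modM_one]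

variable (M) in
/-- `± Γ(M)`. -/
def pmGroup : Subgroup SL(2, ℤ) where
  carrier := {γ | modM M γ = 1 ∨ modM M γ = -1}
  mul_mem' {a b} ha hb := by
    simp only [Set.mem_ofPred_eq, modM_mul] at *
    rcases ha with ha | ha <;> rcases hb with hb | hb <;> simp [ha, hb]
  one_mem' := Or.inl modM_one
  inv_mem' {a} ha := by
    simp only [Set.mem_ofPred_eq] at *
    rcases ha with ha | ha
    · left; simpa [ha] using modM_mul_inv (M := M) a
    · right
      have h := modM_mul_inv (M := M) a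
      rw [ha, neg_one_mul, neg_eq_iff_eq_neg] at h
      exact h

theorem mem_pmGroup_iff {γ : SL(2, ℤ)} : γ ∈ pmGroup M ↔ modM M γ = 1 ∨ modM M γ = -1 := Iff.rfl

instance pmGroup_normal : (pmGroup M).Normal where
  conj_mem a ha g := by
    rw [mem_pmGroup_iff, modM_mul, modM_mul]
    rcases ha with h | h
    · left; rw [h, mul_one, modM_mul_inv]
    · right; rw [h, mul_neg, mul_one, neg_mul, modM_mul_inv]

theorem Gamma_le_pmGroup : Gamma M ≤ pmGroup M := by
  intro γ hγ
  left
  rw [Gamma_mem] at hγ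
  ext i j
  fin_cases i <;> fin_cases j <;> simp [hγ.1, hγ.2.1, hγ.2.2.1, hγ.2.2.2]

instance pmGroup_finiteIndex : (pmGroup M).FiniteIndex :=
  Subgroup.finiteIndex_of_le Gamma_le_pmGroup

variable (M) in
/-- `SL₂(ℤ / M) / ±1`. -/
abbrev XGrp : Type := SL(2, ℤ) ⧸ pmGroup M

instance fintypeXGrp : Fintype (XGrp M) := Fintype.ofFinite _

instance decEqXGrp : DecidableEq (XGrp M) := Classical.decEq _

/-- The right action of a class on an index, through a chosen lift. -/
def idxG (i : Idx M) (g : XGrp M) : Idx M := idxMul i (modM M g.out)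

theorem exists_out_mul (g : XGrp M) (γ : SL(2, ℤ)) :
    ∃ s : Matrix (Fin 2) (Fin 2) (ZMod M), (s = 1 ∨ s = -1) ∧
      modM M (g.out * γ) = modM M ((g * (γ : XGrp M)).out) * s := by
  refine ⟨modM M ((g * (γ : XGrp M)).out⁻¹ * (g.out * γ)), ?_, by
    rw [← modM_mul, mul_inv_cancel_left]⟩
  exact mem_pmGroup_iff.1 (QuotientGroup.eq.1 (by
    rw [QuotientGroup.out_eq', QuotientGroup.mk_mul, QuotientGroup.out_eq']))

theorem yFun_idxMul_pm {s : Matrix (Fin 2) (Fin 2) (ZMod M)} (hs : s = 1 ∨ s = -1) (i : Idx M)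
    (τ : ℍ) : yFun (idxMul i s) τ = yFun i τ := by
  rcases hs with rfl | rfl
  · rw [idxMul_one]
  · have h : modM M (-1) = -1 := by
      ext a b
      fin_cases a <;> fin_cases b <;> simp
    rw [← h, ← yFun_smul, ModularGroup.SL_neg_smul, one_smul]

theorem yFun_idxG_smul (i : Idx M) (g : XGrp M) (γ : SL(2, ℤ)) (τ : ℍ) :
    yFun (idxG i g) (γ • τ) = yFun (idxG i (g * (γ : XGrp M))) τ := by
  obtain ⟨s, hs, e⟩ := exists_out_mul g γ
  rw [yFun_smul, idxG, ← idxMul_mul, ← modM_mul, e, idxMul_mul, yFun_idxMul_pm hs]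
  rfl

theorem ySer_idxMul_pm {K : Type*} [Field K] {ζ : K} (hζ : ζ ^ M = 1)
    {s : Matrix (Fin 2) (Fin 2) (ZMod M)} (hs : s = 1 ∨ s = -1) (i : Idx M) :
    ySer K ζ (idxMul i s) = ySer K ζ i := by
  rcases hs with rfl | rfl
  · rw [idxMul_one]
  · simp only [ySer, idxMul, Matrix.vecMul_neg, Matrix.vecMul_one, neg_eq_zero, xSer_neg ζ hζ]

theorem ySer_idxG_mk {K : Type*} [Field K] {ζ : K} (hζ : ζ ^ M = 1) (γ : SL(2, ℤ)) (i : Idx M) :
    ySer K ζ (idxG i (γ : XGrp M)) = ySer K ζ (idxMul i (modM M γ)) := by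
  obtain ⟨s, hs, e⟩ : ∃ s : Matrix (Fin 2) (Fin 2) (ZMod M), (s = 1 ∨ s = -1) ∧
      modM M γ = modM M (γ : XGrp M).out * s :=
    ⟨modM M ((γ : XGrp M).out⁻¹ * γ),
      mem_pmGroup_iff.1 (QuotientGroup.eq.1 (QuotientGroup.out_eq' _)),
      by rw [← modM_mul, mul_inv_cancel_left]⟩
  rw [e, idxMul_mul, ySer_idxMul_pm hζ hs]
  rfl

/-! The base ring -/

variable (M) in
/-- A subring of `ℂ` containing `ζ_M` in which `M` is a unit. -/
structure Base (R : Subring ℂ) : Prop where
  zeta_mem : zetaC M ∈ R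
  isUnit : IsUnit (M : R)

section Base

variable {R : Subring ℂ} (hR : Base M R)

include hR

/-- `ζ_M` in `R`. -/
def Base.ζ : R := ⟨zetaC M, hR.zeta_mem⟩

theorem Base.isPrimitiveRoot : IsPrimitiveRoot hR.ζ M :=
  IsPrimitiveRoot.of_map_of_injective (f := R.subtype) isPrimitiveRoot_zetaC
    Subtype.val_injective

theorem Base.root (d : ℕ) (hd : d ∣ M) : ∃ z : Rˣ, Units.map R.subtype z = zetaU d := by
  obtain ⟨e, he⟩ := hd
  have hd0 : d ≠ 0 := fun h => NeZero.ne M (by rw [he, h, zero_mul])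
  have he0 : e ≠ 0 := fun h => NeZero.ne M (by rw [he, h, mul_zero])
  have h1 : (hR.ζ ^ e) ^ d = 1 := by
    rw [← pow_mul, mul_comm, ← he]; exact hR.isPrimitiveRoot.pow_eq_one
  refine ⟨Units.ofPowEqOne _ d h1 hd0, Units.ext ?_⟩
  show (zetaC M) ^ e = Complex.exp (2 * Real.pi * Complex.I / d)
  rw [zetaC, ← Complex.exp_nat_mul, he]
  have h2 : (e : ℂ) ≠ 0 := Nat.cast_ne_zero.2 he0
  have h3 : (d : ℂ) ≠ 0 := Nat.cast_ne_zero.2 hd0
  congr 1
  push_cast
  field_simp

theorem Base.map_isPrimitiveRoot {K : Type*} [Field K] (f : R →+* K) :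
    IsPrimitiveRoot (f hR.ζ) M := by
  have : NeZero (M : K) := ⟨by
    have h := (hR.isUnit.map f).ne_zero
    rwa [map_natCast] at h⟩
  have hroot : (cyclotomic M K).IsRoot (f hR.ζ) := by
    rw [← map_cyclotomic M f]
    exact (hR.isPrimitiveRoot.isRoot_cyclotomic (NeZero.pos M)).map
  exact isRoot_cyclotomic_iff.1 hroot

theorem Base.isUnit_one_sub {a : ZMod M} (ha : a ≠ 0) : IsUnit (1 - hR.ζ ^ a.val) := by
  obtain ⟨m, hm⟩ : ∃ m, M = m + 1 := ⟨M - 1, by have := NeZero.pos M; omega⟩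
  have hμ : IsPrimitiveRoot hR.ζ (m + 1) := hm ▸ hR.isPrimitiveRoot
  have hv : a.val ≠ 0 := fun h => ha ((ZMod.val_eq_zero a).1 h)
  have hlt : a.val < M := ZMod.val_lt a
  refine isUnit_of_dvd_unit ?_ hR.isUnit
  have hM : (M : R) = (m : R) + 1 := by rw [hm]; push_cast; ring
  rw [hM, ← hμ.prod_one_sub_pow_eq_order]
  have := Finset.dvd_prod_of_mem (fun k => 1 - hR.ζ ^ (k + 1))
    (show a.val - 1 ∈ Finset.range m by rw [Finset.mem_range]; omega)
  rwa [Nat.sub_add_cancel (Nat.one_le_iff_ne_zero.2 hv)] at this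

/-- The coefficients over `R`. -/
def cR (v : Vec M) : ℕ → R
  | 0 => if v 0 = 0 then hR.ζ ^ (v 1).val * Ring.inverse ((1 - hR.ζ ^ (v 1).val) ^ 2) else 0
  | n + 1 => ∑ kd ∈ (n + 1).divisorsAntidiagonal,
      (kd.1 : R) * ((if (kd.2 : ZMod M) = v 0 then hR.ζ ^ ((kd.1 : ZMod M) * v 1).val else 0) +
        (if (kd.2 : ZMod M) = -v 0 then hR.ζ ^ (-((kd.1 : ZMod M) * v 1)).val else 0))

/-- The expansion of a generator over `R`. -/
def yR (i : Idx M) : LaurentSeries R :=
  if i.1 = 0 ∨ i.2 = 0 then 0 else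
    (HahnSeries.ofPowerSeries ℤ R (PowerSeries.mk (cR hR i.1)) -
      HahnSeries.ofPowerSeries ℤ R (PowerSeries.mk (cR hR i.2))) *
    qExpand R M (HahnSeries.single (-1 : ℤ) 1 * HahnSeries.ofPowerSeries ℤ R
      ((eisenstein4 * eisenstein6 * dedekindEtaUnitInv).map (Int.castRingHom R)))

theorem map_cR {K : Type*} [Field K] (f : R →+* K) {v : Vec M} (hv : v ≠ 0) (n : ℕ) :
    f (cR hR v n) = xCoeff K (f hR.ζ) v n := by
  cases n with
  | zero =>
    simp only [cR, xCoeff, zpowZ]
    by_cases h0 : v 0 = 0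
    · have h1 : v 1 ≠ 0 := by
        intro h1
        apply hv
        ext j
        fin_cases j
        · exact h0
        · exact h1
      obtain ⟨u, hu⟩ := (hR.isUnit_one_sub h1).pow 2
      rw [if_pos h0, if_pos h0, ← hu, Ring.inverse_unit, map_mul, map_units_inv, hu]
      simp [div_eq_mul_inv]
    · simp [if_neg h0]
  | succ n => simp [cR, xCoeff, zpowZ, apply_ite f]

theorem map_yR {K : Type*} [Field K] (f : R →+* K) (i : Idx M) :
    coeffMap f (yR hR i) = ySer K (f hR.ζ) i := by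
  simp only [yR, ySer]
  split
  · exact map_zero _
  · next h =>
    push Not at h
    have hx : ∀ {v : Vec M}, v ≠ 0 →
        coeffMap f (HahnSeries.ofPowerSeries ℤ R (PowerSeries.mk (cR hR v))) =
          xSer K (f hR.ζ) v := by
      intro v hv
      rw [xSer, if_neg hv, coeffMap_ofPowerSeries]
      congr 1
      ext n
      simp [map_cR hR f hv n]
    rw [map_mul, map_sub, hx h.1, hx h.2, coeffMap_qExpand, map_mul, coeffMap_single, map_one,
      coeffMap_ofPowerSeries, wSer, wSerQ,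
      ← RingHom.comp_apply (PowerSeries.map f) (PowerSeries.map (Int.castRingHom R)),
      ← PowerSeries.map_comp, RingHom.ext_int (f.comp (Int.castRingHom R)) (Int.castRingHom K)]

/-- The generators as elements of `Gd M R`. -/
def yG (i : Idx M) : Gd M R :=
  ⟨(yFun i, yR hR i), mdifferentiable_yFun i, by
    rw [map_yR hR R.subtype]
    exact hasQExp_yFun i⟩

end Base

section Families

variable {R : Subring ℂ}

theorem Gd_ext {a b : Gd M R} (h : ∀ τ, a.1.1 τ = b.1.1 τ) : a = b := by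
  have h1 : a.1.1 = b.1.1 := funext h
  refine Subtype.ext (Prod.ext h1 ?_)
  have h2 := a.2.2.unique (h1 ▸ b.2.2)
  ext k
  simpa using congrArg (fun s : LaurentSeries ℂ => s.coeff k) h2

/-- Constants. -/
def constG : R →+* Gd M R where
  toFun r := ⟨(fun _ => (r : ℂ), HahnSeries.C r), mdifferentiable_const, by
    have : coeffMap R.subtype (HahnSeries.C r) = HahnSeries.C (r : ℂ) := by
      rw [HahnSeries.C_apply, HahnSeries.C_apply, coeffMap_single]
      rfl
    rw [this]
    exact HasQExp.const _⟩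
  map_one' := Subtype.ext (Prod.ext rfl (map_one _))
  map_mul' r s := Subtype.ext (Prod.ext rfl (map_mul _ r s))
  map_zero' := Subtype.ext (Prod.ext rfl (map_zero _))
  map_add' r s := Subtype.ext (Prod.ext rfl (map_add _ r s))

/-- Evaluation at a point. -/
def evalG (τ : ℍ) : Gd M R →+* ℂ :=
  ((Pi.evalRingHom (fun _ : ℍ => ℂ) τ).comp (RingHom.fst _ _)).comp (Gd M R).subtype

/-- The expansion over `R`. -/
def serG : Gd M R →+* LaurentSeries R := (RingHom.snd _ _).comp (Gd M R).subtype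

/-- Equivariance. -/
def Equivariant (u : XGrp M → Gd M R) : Prop :=
  ∀ (γ : SL(2, ℤ)) (g : XGrp M) (τ : ℍ), evalG (γ • τ) (u g) = evalG τ (u (g * (γ : XGrp M)))

theorem Equivariant.const (r : R) : Equivariant (M := M) (fun _ => constG r) := fun _ _ _ => rfl

theorem Equivariant.shift {u : XGrp M → Gd M R} (hu : Equivariant u) (x : XGrp M) :
    Equivariant fun g => u (x * g) := fun γ g τ => by
  rw [hu γ (x * g) τ, mul_assoc]

theorem Equivariant.sum {ι : Type*} (s : Finset ι) {u : ι → XGrp M → Gd M R}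
    (hu : ∀ i, Equivariant (u i)) : Equivariant fun g => ∑ i ∈ s, u i g := fun γ g τ => by
  rw [map_sum, map_sum]
  exact Finset.sum_congr rfl fun i _ => hu i γ g τ

theorem Equivariant.mul {u v : XGrp M → Gd M R} (hu : Equivariant u) (hv : Equivariant v) :
    Equivariant fun g => u g * v g := fun γ g τ => by
  rw [map_mul, map_mul, hu γ g τ, hv γ g τ]

theorem equivariant_yG (hR : Base M R) (i : Idx M) :
    Equivariant fun g => yG hR (idxG i g) := fun γ g τ => yFun_idxG_smul i g γ τ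

/-- **The symmetric functions of equivariant families are polynomials in `j` over `R`.** -/
theorem coeff_lagPoly_mem {θ u : XGrp M → Gd M R} (hθ : Equivariant θ) (hu : Equivariant u)
    (i : ℕ) :
    (lagPoly (fun g => serG (θ g)) fun g => serG (u g)).coeff i ∈
      (aeval (R := R) (jt M R)).toRingHom.range := by
  have h : ∀ (γ : SL(2, ℤ)) τ, evalG (γ • τ) ((lagPoly θ u).coeff i) =
      evalG τ ((lagPoly θ u).coeff i) := by
    intro γ τ
    rw [← coeff_map, ← coeff_map, lagPoly_map, lagPoly_map,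
      ← lagPoly_comp (Equiv.mulRight (γ : XGrp M)) (fun g => evalG τ (θ g))
        (fun g => evalG τ (u g))]
    simp only [Equiv.coe_mulRight, hθ γ _ τ, hu γ _ τ]
  have hm := mem_range_of_invariant M R ((lagPoly θ u).coeff i).2 h
  rwa [show ((lagPoly θ u).coeff i).1.2 = serG ((lagPoly θ u).coeff i) from rfl, ← coeff_map,
    lagPoly_map] at hm

theorem coeff_nodePoly_mem {θ : XGrp M → Gd M R} (hθ : Equivariant θ) (i : ℕ) :
    (nodePoly fun g => serG (θ g)).coeff i ∈ (aeval (R := R) (jt M R)).toRingHom.range := by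
  have h : ∀ (γ : SL(2, ℤ)) τ, evalG (γ • τ) ((nodePoly θ).coeff i) =
      evalG τ ((nodePoly θ).coeff i) := by
    intro γ τ
    rw [← coeff_map, ← coeff_map, nodePoly_map, nodePoly_map,
      ← nodePoly_comp (Equiv.mulRight (γ : XGrp M)) (fun g => evalG τ (θ g))]
    simp only [Equiv.coe_mulRight, hθ γ _ τ]
  have hm := mem_range_of_invariant M R ((nodePoly θ).coeff i).2 h
  rwa [show ((nodePoly θ).coeff i).1.2 = serG ((nodePoly θ).coeff i) from rfl, ← coeff_map,
    nodePoly_map] at hm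

end Families

end Fermat.Agent.DeligneSerre.Level

end
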