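import Fermat.Agent.DeligneSerre.RepsFamily
import Fermat.Agent.Igusa.FibreIrred
import Mathlib.FieldTheory.Separable
import Mathlib.LinearAlgebra.Matrix.FixedDetMatrices

/-!
# The function field of full level `M`, uniformly in the characteristic

Let `f : R →+* K` be a homomorphism of the base ring to a field and `c` constants of `R` such that
the `θ g = ∑ f (c i) y (i g)` are distinct.  Then `θ 1` has degree `|SL₂(ℤ / M) / ±1|` over
`K (j)`, and every equivariant family is a polynomial in `θ` over `K (j)`.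
-/

set_option autoImplicit false
set_option linter.unusedSectionVars false

noncomputable section

open UpperHalfPlane Function Polynomial ModularCurve CongruenceSubgroup IntermediateField
open scoped MatrixGroups

namespace Fermat.Agent.DeligneSerre.Level

open Fermat.Agent.Igusa.Fibre (Gd jt coeffMap_aeval_jt algebraMap_eq_C q₀ jG jX jV_smul
  injective_red independent_jqNModC jX_q₀)

variable {M : ℕ} [NeZero M]

theorem pmGroup_le_Gamma0 : pmGroup M ≤ Gamma0 M := by
  intro γ hγ
  rw [Gamma0_mem]
  rcases hγ with h | h <;>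
    simpa using congrArg (fun A : Matrix (Fin 2) (Fin 2) (ZMod M) => A 1 0) h

theorem pmGroup_smul_coset {ε : SL(2, ℤ)} (hε : ε ∈ pmGroup M) (q : Gamma0.Coset M) :
    ε • q = q := by
  obtain ⟨x, rfl⟩ := Gamma0.mk_surjective q
  rw [MulAction.Quotient.smul_coe, smul_eq_mul]
  refine QuotientGroup.eq.2 (pmGroup_le_Gamma0 ?_)
  rw [mul_inv_rev, mul_assoc]
  have := pmGroup_normal.conj_mem _ (inv_mem hε) x⁻¹
  simpa [mul_assoc] using this

theorem xGrp_mk_eq_of_modM {γ δ : SL(2, ℤ)} (h : modM M γ = modM M δ) :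
    (γ : XGrp M) = (δ : XGrp M) := by
  refine QuotientGroup.eq.2 (Or.inl ?_)
  rw [modM_mul, ← h, modM_inv_mul]

/-- The coset attached to a class. -/
def qOf (g : XGrp M) : Gamma0.Coset M := g.out⁻¹ • q₀

theorem qOf_mul (g : XGrp M) (γ : SL(2, ℤ)) : qOf (g * (γ : XGrp M)) = γ⁻¹ • qOf g := by
  have hε : (g * (γ : XGrp M)).out⁻¹ * (g.out * γ) ∈ pmGroup M := QuotientGroup.eq.1 (by
    rw [QuotientGroup.out_eq', QuotientGroup.mk_mul, QuotientGroup.out_eq'])
  rw [qOf, qOf, smul_smul, ← mul_inv_rev,
    show (g.out * γ) = (g * (γ : XGrp M)).out * ((g * (γ : XGrp M)).out⁻¹ * (g.out * γ)) by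
      rw [mul_inv_cancel_left], mul_inv_rev, ← smul_smul, pmGroup_smul_coset (inv_mem hε)]

theorem qOf_one : qOf (1 : XGrp M) = q₀ :=
  pmGroup_smul_coset (inv_mem (((QuotientGroup.eq_one_iff _).1
    (QuotientGroup.out_eq' (1 : XGrp M))))) q₀

theorem qOf_mul_eq_smul (g δ : XGrp M) : qOf (g * δ) = δ.out⁻¹ • qOf g := by
  conv_lhs => rw [← QuotientGroup.out_eq' δ, qOf_mul]

variable {R : Subring ℂ} (hR : Base M R) {K : Type*} [Field K] (f : R →+* K)

/-- Expansions over `K`. -/
def redG : Gd M R →+* LaurentSeries K := (coeffMap f).comp serG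

variable (M K) in
/-- `K (j)`. -/
abbrev jField : IntermediateField K (LaurentSeries K) := K⟮jt M K⟯

theorem redG_constG (r : R) : redG (M := M) f (constG r) = HahnSeries.C (f r) := by
  show coeffMap f (HahnSeries.C r) = _
  rw [HahnSeries.C_apply, HahnSeries.C_apply, coeffMap_single]

theorem redG_yG (i : Idx M) : redG f (yG hR i) = ySer K (f hR.ζ) i := map_yR hR f i

theorem coeff_lagPoly_mem_jField {θ u : XGrp M → Gd M R} (hθ : Equivariant θ) (hu : Equivariant u)
    (i : ℕ) : (lagPoly (fun g => redG f (θ g)) fun g => redG f (u g)).coeff i ∈ jField M K := by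
  obtain ⟨p, hp⟩ := coeff_lagPoly_mem hθ hu i
  have h : (lagPoly (fun g => redG f (θ g)) fun g => redG f (u g)).coeff i =
      aeval (jt M K) (p.map f) := by
    rw [← coeffMap_aeval_jt M f, show aeval (jt M R) p = _ from hp, ← coeff_map, lagPoly_map]
    rfl
  rw [h]
  exact algebra_adjoin_le_adjoin K _ (aeval_mem_adjoin_singleton K _)

theorem coeff_nodePoly_mem_jField {θ : XGrp M → Gd M R} (hθ : Equivariant θ) (i : ℕ) :
    (nodePoly fun g => redG f (θ g)).coeff i ∈ jField M K := by
  obtain ⟨p, hp⟩ := coeff_nodePoly_mem hθ i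
  have h : (nodePoly fun g => redG f (θ g)).coeff i = aeval (jt M K) (p.map f) := by
    rw [← coeffMap_aeval_jt M f, show aeval (jt M R) p = _ from hp, ← coeff_map, nodePoly_map]
    rfl
  rw [h]
  exact algebra_adjoin_le_adjoin K _ (aeval_mem_adjoin_singleton K _)

variable (c : Idx M → R)

/-- The primitive element as a family. -/
def thetaG (g : XGrp M) : Gd M R := ∑ i, constG (c i) * yG hR (idxG i g)

theorem equivariant_thetaG : Equivariant (thetaG hR c) :=
  Equivariant.sum _ fun i => (Equivariant.const (c i)).mul (equivariant_yG hR i)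

/-- The primitive element and its conjugates over `K`. -/
def theta (g : XGrp M) : LaurentSeries K := redG f (thetaG hR c g)

theorem theta_eq (g : XGrp M) :
    theta hR f c g = ∑ i, HahnSeries.C (f (c i)) * ySer K (f hR.ζ) (idxG i g) := by
  simp only [theta, thetaG, map_sum, map_mul, redG_constG, redG_yG]

/-- `c` separates the classes after applying `f`. -/
def Separating : Prop := Injective (theta hR f c)

theorem exists_nodePoly_lift :
    ∃ P : (jField M K)[X], P.Monic ∧
      P.map (algebraMap (jField M K) (LaurentSeries K)) = nodePoly (theta hR f c) := by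
  obtain ⟨P, hP⟩ : nodePoly (theta hR f c) ∈
      Polynomial.lifts (algebraMap (jField M K) (LaurentSeries K)) :=
    (lifts_iff_coeff_lifts _).2 fun i =>
      ⟨⟨_, coeff_nodePoly_mem_jField f (equivariant_thetaG hR c) i⟩, rfl⟩
  refine ⟨P, ?_, hP⟩
  have h := nodePoly_monic (theta hR f c)
  rw [← hP] at h
  exact monic_of_injective (algebraMap (jField M K) (LaurentSeries K)).injective h

theorem isIntegral_theta (g : XGrp M) : IsIntegral (jField M K) (theta hR f c g) := by
  obtain ⟨P, hP1, hP2⟩ := exists_nodePoly_lift hR f c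
  exact ⟨P, hP1, by rw [← eval_map, hP2, eval_nodePoly]⟩

section Separated

variable {hR f c} (hsep : Separating hR f c)

include hsep

/-- **Every equivariant family is a polynomial in `θ` over `K (j)`.** -/
theorem exists_interp {u : XGrp M → Gd M R} (hu : Equivariant u) :
    ∃ S : (jField M K)[X], ∀ g, aeval (theta hR f c g) S = redG f (u g) := by
  obtain ⟨P, -, hP⟩ := exists_nodePoly_lift hR f c
  obtain ⟨N, hN⟩ : (lagPoly (theta hR f c) fun g => redG f (u g)) ∈
      Polynomial.lifts (algebraMap (jField M K) (LaurentSeries K)) :=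
    (lifts_iff_coeff_lifts _).2 fun i =>
      ⟨⟨_, coeff_lagPoly_mem_jField f (equivariant_thetaG hR c) hu i⟩, rfl⟩
  have hPs : P.Separable := by
    rw [← separable_map (algebraMap (jField M K) (LaurentSeries K)), hP]
    exact separable_prod_X_sub_C_iff.2 hsep
  obtain ⟨a, b, hab⟩ := hPs
  refine ⟨N * b, fun g => ?_⟩
  have h1 := congrArg (aeval (theta hR f c g)) hab
  rw [map_add, map_mul, map_mul, map_one] at h1
  have hP0 : aeval (theta hR f c g) P = 0 := by
    rw [aeval_def, ← eval_map, hP, eval_nodePoly]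
  have hP' : aeval (theta hR f c g) (derivative P) =
      (derivative (nodePoly (theta hR f c))).eval (theta hR f c g) := by
    rw [aeval_def, ← eval_map, ← derivative_map, hP]
  rw [hP0, mul_zero, zero_add, hP', mul_comm] at h1
  rw [map_mul, aeval_def, ← eval_map,
    show N.map (algebraMap (jField M K) (LaurentSeries K)) = _ from hN, eval_lagPoly, mul_assoc,
    h1, mul_one]

end Separated

/-- The classes `g` for which `θ g` is a root of the minimal polynomial of `θ 1`. -/
def DSet : Set (XGrp M) :=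
  {g | aeval (theta hR f c g) (minpoly (jField M K) (theta hR f c 1)) = 0}

/-- `D` as a finset. -/
def DFin : Finset (XGrp M) :=
  haveI := Classical.decPred (· ∈ DSet hR f c)
  Finset.univ.filter (· ∈ DSet hR f c)

theorem one_mem_DSet : (1 : XGrp M) ∈ DSet hR f c := minpoly.aeval _ _

/-- `t ↦ ζ t`, fixing `K (j)`. -/
def twistJ : LaurentSeries K →ₐ[jField M K] LaurentSeries K :=
  { twist (zetaUnit (f hR.ζ) (hR.map_isPrimitiveRoot f).pow_eq_one) with
    commutes' := by
      rintro ⟨x, hx⟩
      show twist _ x = x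
      induction hx using IntermediateField.adjoin_induction with
      | mem x hx =>
        rw [Set.mem_singleton_iff] at hx
        subst hx
        exact twist_jSer (M := M) _ _
      | algebraMap a => simp [algebraMap_eq_C, HahnSeries.C_apply]
      | add x y _ _ hx hy => rw [map_add, hx, hy]
      | inv x _ hx => rw [map_inv₀, hx]
      | mul x y _ _ hx hy => rw [map_mul, hx, hy] }

theorem twistJ_apply (x : LaurentSeries K) :
    twistJ hR f x = twist (zetaUnit (f hR.ζ) (hR.map_isPrimitiveRoot f).pow_eq_one) x := rfl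

theorem modM_T : modM M ModularGroup.T = tMat M := by
  ext i j
  fin_cases i <;> fin_cases j <;> simp [tMat, ModularGroup.coe_T]

theorem twistJ_theta_one :
    twistJ hR f (theta hR f c 1) = theta hR f c (ModularGroup.T : XGrp M) := by
  have hz := (hR.map_isPrimitiveRoot f).pow_eq_one
  rw [theta_eq, theta_eq, map_sum]
  refine Finset.sum_congr rfl fun i _ => ?_
  rw [map_mul, twistJ_apply, twistJ_apply, HahnSeries.C_apply, twist_single, zpow_zero,
    Units.val_one, one_mul, twist_ySer (f hR.ζ) hz]
  congr 1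
  have h : ((ModularGroup.T : SL(2, ℤ)) : XGrp M) =
      (((1 : XGrp M).out * ModularGroup.T : SL(2, ℤ)) : XGrp M) := by
    rw [QuotientGroup.mk_mul, QuotientGroup.out_eq', one_mul]
  rw [h, ySer_idxG_mk hz, modM_mul, idxMul_mul, modM_T]
  rfl

theorem T_mem_DSet : (ModularGroup.T : XGrp M) ∈ DSet hR f c := by
  show aeval _ _ = 0
  rw [← twistJ_theta_one, aeval_algHom_apply, minpoly.aeval, map_zero]

/-- The family of the `j (M g τ)`. -/
def jFam (g : XGrp M) : Gd M R := jG hR.root (dvd_refl M) (qOf g)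

theorem equivariant_jFam : Equivariant (jFam hR) := fun γ g τ => by
  show Igusa.Fibre.jV M (qOf g) (γ • τ) = Igusa.Fibre.jV M (qOf (g * (γ : XGrp M))) τ
  rw [jV_smul (dvd_refl M), qOf_mul]

/-- The expansion of `j (M g τ)` over `K`, as a function of the coset. -/
def jCoset (q : Gamma0.Coset M) : LaurentSeries K := coeffMap f (jX hR.root (dvd_refl M) q)

theorem jCoset_injective : Injective (jCoset hR f) := injective_red hR.root f hR.isUnit

theorem redG_jFam (g : XGrp M) : redG f (jFam hR g) = jCoset hR f (qOf g) := rfl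

theorem jCoset_q₀ : jCoset hR f q₀ = qExpand K M (jqNModC K M) := by
  rw [jCoset, jX_q₀, coeffMap_qExpand, coeffMap_jqNModC]

include hR f in
/-- `j (M τ)` has degree at least the index of `Γ₀(M)` over `K (j)`. -/
theorem card_coset_le_natDegree {Q : (jField M K)[X]} (hQ : Q ≠ 0)
    (h0 : aeval (jCoset hR f q₀) Q = 0) : Fintype.card (Gamma0.Coset M) ≤ Q.natDegree := by
  classical
  by_contra hlt
  push Not at hlt
  set n := Fintype.card (Gamma0.Coset M)
  have hfrac : ∀ i : Fin n, ∃ r s : K[X], aeval (jt M K) s ≠ 0 ∧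
      (Q.coeff i : LaurentSeries K) * aeval (jt M K) s = aeval (jt M K) r := by
    intro i
    obtain ⟨r, s, hrs⟩ := (mem_adjoin_simple_iff K _).1 (Q.coeff i).2
    rcases eq_or_ne (aeval (jt M K) s) 0 with hs | hs
    · refine ⟨0, 1, by simp, ?_⟩
      rw [hrs, hs]
      simp
    · exact ⟨r, s, hs, by rw [hrs, div_mul_cancel₀ _ hs]⟩
  choose r s hs hrs using hfrac
  let a : Fin n → K[X] := fun i => r i * ∏ l ∈ Finset.univ.erase i, s l
  have hprod : ∀ i : Fin n, aeval (jt M K) (a i) =
      (Q.coeff i : LaurentSeries K) * aeval (jt M K) (∏ l, s l) := by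
    intro i
    simp only [a]
    rw [map_mul, ← hrs i, ← Finset.mul_prod_erase _ _ (Finset.mem_univ i), map_mul]
    ring
  have ha : a = 0 := by
    refine independent_jqNModC (N := M) hR.root hR.isUnit f a (qExpand_injective M ?_)
    rw [map_sum, map_zero]
    have e : ∀ i : Fin n, qExpand K M (aeval (jqModC K) (a i) * jqNModC K M ^ (i : ℕ)) =
        aeval (jt M K) (∏ l, s l) *
          ((Q.coeff i : LaurentSeries K) * jCoset hR f q₀ ^ (i : ℕ)) := by
      intro i
      rw [map_mul, map_pow, ← jCoset_q₀ hR f,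
        show qExpand K M (aeval (jqModC K) (a i)) = aeval (jt M K) (a i) from
          (aeval_algHom_apply (qExpandAlgHomC K M) (jqModC K) (a i)).symm, hprod i]
      ring
    rw [Finset.sum_congr rfl fun i _ => e i, ← Finset.mul_sum]
    refine mul_eq_zero_of_right _ ?_
    rw [Fin.sum_univ_eq_sum_range fun i : ℕ =>
      (Q.coeff i : LaurentSeries K) * jCoset hR f q₀ ^ i]
    rw [aeval_eq_sum_range' hlt] at h0
    simpa [Algebra.smul_def] using h0
  apply hQ
  ext i : 1
  rcases lt_or_ge i n with hi | hi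
  · have h := hprod ⟨i, hi⟩
    rw [show a ⟨i, hi⟩ = 0 from congrFun ha _, map_zero, eq_comm, mul_eq_zero] at h
    rw [coeff_zero]
    refine Subtype.ext (h.resolve_right ?_)
    rw [map_prod]
    exact Finset.prod_ne_zero_iff.2 fun l _ => hs l
  · rw [coeff_eq_zero_of_natDegree_lt (lt_of_lt_of_le hlt hi), coeff_zero]

section Separated

variable {hR f c} (hsep : Separating hR f c)

include hsep

theorem mul_mem_DSet {g h : XGrp M} (hg : g ∈ DSet hR f c) (hh : h ∈ DSet hR f c) :
    g * h ∈ DSet hR f c := by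
  obtain ⟨S, hS⟩ := exists_interp hsep ((equivariant_thetaG hR c).shift g)
  set m := minpoly (jField M K) (theta hR f c 1)
  have hdvd : m ∣ m.comp S := by
    refine minpoly.dvd _ _ ?_
    rw [aeval_comp, hS, mul_one]
    exact hg
  obtain ⟨w, hw⟩ := hdvd
  have h2 := congrArg (aeval (theta hR f c h)) hw
  rw [map_mul, show aeval (theta hR f c h) m = 0 from hh, zero_mul, aeval_comp, hS] at h2
  exact h2

/-- `DSet` as a subgroup. -/
def DGrp : Subgroup (XGrp M) where
  carrier := DSet hR f c
  mul_mem' := mul_mem_DSet hsep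
  one_mem' := one_mem_DSet hR f c
  inv_mem' {g} hg := by
    have hpow : ∀ n : ℕ, g ^ n ∈ DSet hR f c := by
      intro n
      induction n with
      | zero => rw [pow_zero]; exact one_mem_DSet hR f c
      | succ n ih => rw [pow_succ]; exact mul_mem_DSet hsep ih hg
    have e : g⁻¹ = g ^ (Fintype.card (XGrp M) - 1) := by
      refine inv_eq_of_mul_eq_one_right ?_
      rw [← pow_succ', Nat.sub_add_cancel Fintype.card_pos, pow_card_eq_one]
    rw [e]
    exact hpow _

theorem mem_DFin {g : XGrp M} : g ∈ DFin hR f c ↔ g ∈ DGrp hsep := by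
  simp only [DFin, Finset.mem_filter, Finset.mem_univ, true_and]
  rfl

/-- The roots of the minimal polynomial of `θ 1` are the `θ g`, `g ∈ D`, simply. -/
theorem minpoly_map_eq :
    (minpoly (jField M K) (theta hR f c 1)).map (algebraMap (jField M K) (LaurentSeries K)) =
      ∏ g ∈ DFin hR f c, (X - C (theta hR f c g)) := by
  classical
  obtain ⟨P, hP1, hP2⟩ := exists_nodePoly_lift hR f c
  set m := minpoly (jField M K) (theta hR f c 1)
  set m' := m.map (algebraMap (jField M K) (LaurentSeries K)) with hm'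
  have hdvd : m' ∣ nodePoly (theta hR f c) := by
    rw [← hP2]
    exact Polynomial.map_dvd _ (minpoly.dvd _ _ (by rw [aeval_def, ← eval_map, hP2, eval_nodePoly]))
  have hm0 : m'.Monic := (minpoly.monic (isIntegral_theta hR f c 1)).map _
  have hs : m'.Splits :=
    (Splits.prod fun g _ => Splits.X_sub_C _).of_dvd (nodePoly_monic _).ne_zero hdvd
  have hnd : m'.roots.Nodup :=
    nodup_roots ((separable_prod_X_sub_C_iff.2 hsep).of_dvd hdvd)
  have hroots : m'.roots.toFinset = (DFin hR f c).image (theta hR f c) := by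
    ext x
    rw [Multiset.mem_toFinset, mem_roots hm0.ne_zero, Finset.mem_image]
    constructor
    · intro hx
      have hx' : (nodePoly (theta hR f c)).eval x = 0 := eval_eq_zero_of_dvd_of_eval_eq_zero hdvd hx
      rw [nodePoly, eval_prod, Finset.prod_eq_zero_iff] at hx'
      obtain ⟨g, -, hg⟩ := hx'
      rw [eval_sub, eval_X, eval_C, sub_eq_zero] at hg
      refine ⟨g, (mem_DFin hsep).2 ?_, hg.symm⟩
      show aeval _ _ = 0
      rw [← hg, aeval_def, ← eval_map]
      exact hx
    · rintro ⟨g, hg, rfl⟩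
      rw [IsRoot, hm', eval_map, ← aeval_def]
      exact (mem_DFin hsep).1 hg
  rw [hs.eq_prod_roots_of_monic hm0, ← Multiset.dedup_eq_self.2 hnd]
  show (Multiset.map _ m'.roots.toFinset.1).prod = _
  rw [hroots]
  show ∏ x ∈ (DFin hR f c).image (theta hR f c), (X - C x) = _
  rw [Finset.prod_image fun a _ b _ h => hsep h]

theorem natDegree_minpoly_eq_card :
    (minpoly (jField M K) (theta hR f c 1)).natDegree = (DFin hR f c).card := by
  rw [← (minpoly.monic (isIntegral_theta hR f c 1)).natDegree_map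
    (algebraMap (jField M K) (LaurentSeries K)), minpoly_map_eq hsep,
    natDegree_prod _ _ fun g _ => X_sub_C_ne_zero _]
  simp

/-- A polynomial in `θ` with the same value at all `θ g`, `g ∈ D`, is constant. -/
theorem mem_jField_of_forall {h : (jField M K)[X]} {x : LaurentSeries K}
    (hx : ∀ g ∈ DFin hR f c, aeval (theta hR f c g) h = x) : x ∈ jField M K := by
  classical
  set m := minpoly (jField M K) (theta hR f c 1) with hm
  have hmm : m.Monic := minpoly.monic (isIntegral_theta hR f c 1)
  set r := h %ₘ m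
  have hr : ∀ g ∈ DFin hR f c, aeval (theta hR f c g) r = x := by
    intro g hg
    rw [aeval_modByMonic_eq_self_of_root ((mem_DFin hsep).1 hg), hx g hg]
  have hdeg : r.natDegree < (DFin hR f c).card := by
    rw [← natDegree_minpoly_eq_card hsep]
    exact natDegree_modByMonic_lt _ hmm (minpoly.ne_one _ _)
  have hz : r.map (algebraMap (jField M K) (LaurentSeries K)) - C x = 0 := by
    refine eq_zero_of_natDegree_lt_card_of_eval_eq_zero' _ ((DFin hR f c).image (theta hR f c))
      (fun y hy => ?_) ?_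
    · rw [Finset.mem_image] at hy
      obtain ⟨g, hg, rfl⟩ := hy
      rw [eval_sub, eval_C, eval_map, ← aeval_def, hr g hg, sub_self]
    · rw [natDegree_sub_C, natDegree_map, Finset.card_image_of_injective _ hsep]
      exact hdeg
  have h0 := congrArg (fun p : (LaurentSeries K)[X] => p.coeff 0) hz
  simp only [coeff_sub, coeff_map, coeff_C_zero, coeff_zero, sub_eq_zero] at h0
  rw [← h0]
  exact (r.coeff 0).2

/-- The orbit of `j (M τ)` is everything. -/
theorem qOf_surjective (q : Gamma0.Coset M) : ∃ g ∈ DGrp hsep, qOf g = q := by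
  classical
  set O := (DFin hR f c).image qOf with hO
  suffices hall : O = Finset.univ by
    have := Finset.mem_univ q
    rw [← hall, hO, Finset.mem_image] at this
    obtain ⟨g, hg, hgq⟩ := this
    exact ⟨g, (mem_DFin hsep).1 hg, hgq⟩
  have hex : ∀ p : Gamma0.Coset M, ∃ g : XGrp M, p ∈ O → g ∈ DFin hR f c ∧ qOf g = p := by
    intro p
    by_cases hp : p ∈ O
    · obtain ⟨g, hg⟩ := Finset.mem_image.1 hp
      exact ⟨g, fun _ => hg⟩
    · exact ⟨1, fun h => absurd h hp⟩
  choose s hs using hex
  choose S hS using fun g : XGrp M => exists_interp hsep ((equivariant_jFam hR).shift g)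
  let H : ((jField M K)[X])[X] := ∏ p ∈ O, (X - C (S (s p)))
  have hH : ∀ g ∈ DFin hR f c, H.map (aeval (theta hR f c g)).toRingHom =
      ∏ p ∈ O, (X - C (jCoset hR f p)) := by
    intro g hg
    have e : H.map (aeval (theta hR f c g)).toRingHom =
        ∏ p ∈ O, (X - C (jCoset hR f (qOf (s p * g)))) := by
      simp only [H, Polynomial.map_prod, Polynomial.map_sub, map_X, map_C, AlgHom.toRingHom_eq_coe,
        RingHom.coe_coe, hS, redG_jFam]
    rw [e]
    have hinj : ∀ p₁ ∈ O, ∀ p₂ ∈ O, qOf (s p₁ * g) = qOf (s p₂ * g) → p₁ = p₂ := by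
      intro p₁ h₁ p₂ h₂ h
      rw [qOf_mul_eq_smul, qOf_mul_eq_smul, (hs p₁ h₁).2, (hs p₂ h₂).2] at h
      exact MulAction.injective _ h
    have himg : O.image (fun p => qOf (s p * g)) = O := by
      refine Finset.eq_of_subset_of_card_le (fun x hx => ?_) ?_
      · obtain ⟨p, hp, rfl⟩ := Finset.mem_image.1 hx
        exact Finset.mem_image.2 ⟨s p * g, (mem_DFin hsep).2
          (mul_mem ((mem_DFin hsep).1 (hs p hp).1) ((mem_DFin hsep).1 hg)), rfl⟩
      · rw [Finset.card_image_of_injOn hinj]
    conv_rhs => rw [← himg]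
    rw [Finset.prod_image hinj]
  obtain ⟨Q, hQ⟩ : (∏ p ∈ O, (X - C (jCoset hR f p))) ∈
      Polynomial.lifts (algebraMap (jField M K) (LaurentSeries K)) := by
    refine (lifts_iff_coeff_lifts _).2 fun i => ⟨⟨(∏ p ∈ O, (X - C (jCoset hR f p))).coeff i,
      mem_jField_of_forall hsep (h := H.coeff i) fun g hg => ?_⟩, rfl⟩
    exact ((congrArg (fun P : (LaurentSeries K)[X] => P.coeff i) (hH g hg)).symm.trans
      (coeff_map _ _)).symm
  have hQ0 : Q ≠ 0 := fun h => by
    have := (monic_prod_of_monic O _ fun p _ => monic_X_sub_C (jCoset hR f p)).ne_zero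
    exact this (by rw [← show Q.map (algebraMap (jField M K) (LaurentSeries K)) = _ from hQ, h,
      Polynomial.map_zero])
  have hq₀ : q₀ ∈ O :=
    Finset.mem_image.2 ⟨1, (mem_DFin hsep).2 (one_mem _), qOf_one⟩
  have hroot : aeval (jCoset hR f q₀) Q = 0 := by
    rw [aeval_def, ← eval_map,
      show Q.map (algebraMap (jField M K) (LaurentSeries K)) = _ from hQ, eval_prod]
    exact Finset.prod_eq_zero hq₀ (by simp)
  have hcard := card_coset_le_natDegree hR f hQ0 hroot
  rw [← natDegree_map (algebraMap (jField M K) (LaurentSeries K)),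
    show Q.map (algebraMap (jField M K) (LaurentSeries K)) = _ from hQ,
    natDegree_prod _ _ fun p _ => X_sub_C_ne_zero _] at hcard
  simp only [natDegree_X_sub_C, Finset.sum_const, smul_eq_mul, mul_one] at hcard
  exact Finset.eq_univ_of_card _ (le_antisymm (Finset.card_le_univ _) hcard)

/-- **The Galois group is everything.** -/
theorem DGrp_eq_top : DGrp hsep = ⊤ := by
  obtain ⟨g, hg, hgq⟩ := qOf_surjective hsep (ModularGroup.S • q₀)
  -- `g` lifts to `β S⁻¹` with `β ∈ Γ₀(M)`
  have hβ : g.out * ModularGroup.S ∈ Gamma0 M := by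
    have h := hgq
    rw [qOf, eq_comm, ← inv_smul_eq_iff, smul_smul, inv_inv] at h
    have h2 : Gamma0.mk M (g.out * ModularGroup.S) = Gamma0.mk M 1 := by
      change (g.out * ModularGroup.S) • (Gamma0.mk M 1 : Gamma0.Coset M) = Gamma0.mk M 1 at h
      rwa [MulAction.Quotient.smul_coe, smul_eq_mul, mul_one] at h
    have h3 := QuotientGroup.eq.1 h2.symm
    simpa using h3
  set β := g.out * ModularGroup.S with hβdef
  set S' : SL(2, ℤ) := ModularGroup.S
  set T' : SL(2, ℤ) := ModularGroup.T
  have hT : ((T' : SL(2, ℤ)) : XGrp M) ∈ DGrp hsep := T_mem_DSet hR f c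
  have hconj : (((β⁻¹ * T' ^ ((β 0 0) ^ 2) * β : SL(2, ℤ))) : XGrp M) = (T' : XGrp M) := by
    refine xGrp_mk_eq_of_modM ?_
    have hc : ((β 1 0 : ℤ) : ZMod M) = 0 := Gamma0_mem.1 hβ
    have hd : ((β 0 0 : ℤ) : ZMod M) * ((β 1 1 : ℤ) : ZMod M) = 1 := by
      have h := congrArg (Int.cast : ℤ → ZMod M) β.det_coe
      rw [Matrix.det_fin_two] at h
      push_cast at h
      rw [hc, mul_zero, sub_zero] at h
      exact h
    rw [modM_mul, modM_mul, modM_T]
    ext i j
    fin_cases i <;> fin_cases j <;>
      simp [T', tMat, Matrix.mul_apply, Fin.sum_univ_two, ModularGroup.coe_T_zpow,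
        Matrix.SpecialLinearGroup.coe_inv, Matrix.adjugate_fin_two, hc]
    · linear_combination hd
    · linear_combination (((β 0 0 : ℤ) : ZMod M) * ((β 1 1 : ℤ) : ZMod M) + 1) * hd
    · linear_combination hd
  have hL : (((S' * T' * S'⁻¹ : SL(2, ℤ))) : XGrp M) ∈ DGrp hsep := by
    have hg' : ((g.out : SL(2, ℤ)) : XGrp M) ∈ DGrp hsep := by
      rw [QuotientGroup.out_eq']; exact hg
    have := (DGrp hsep).mul_mem ((DGrp hsep).mul_mem ((DGrp hsep).inv_mem hg')
      ((DGrp hsep).zpow_mem hT ((β 0 0) ^ 2))) hg'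
    rw [← QuotientGroup.mk_zpow, ← QuotientGroup.mk_inv, ← QuotientGroup.mk_mul,
      ← QuotientGroup.mk_mul] at this
    have hgout : g.out = β * S'⁻¹ := by rw [hβdef, mul_inv_cancel_right]
    rw [hgout, mul_inv_rev, inv_inv,
      show S' * β⁻¹ * T' ^ ((β 0 0) ^ 2) * (β * S'⁻¹) =
        S' * (β⁻¹ * T' ^ ((β 0 0) ^ 2) * β) * S'⁻¹ by group] at this
    rw [QuotientGroup.mk_mul, QuotientGroup.mk_mul, hconj, ← QuotientGroup.mk_mul,
      ← QuotientGroup.mk_mul] at this
    exact this
  have hS : ((S' : SL(2, ℤ)) : XGrp M) ∈ DGrp hsep := by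
    have e : S'⁻¹ = T' * (S' * T' * S'⁻¹) * T' := by
      ext i j
      fin_cases i <;> fin_cases j <;>
        simp [S', T', Matrix.mul_apply, Fin.sum_univ_two, ModularGroup.coe_T, ModularGroup.coe_S,
          Matrix.SpecialLinearGroup.coe_inv, Matrix.adjugate_fin_two]
    rw [← inv_mem_iff, ← QuotientGroup.mk_inv, e, QuotientGroup.mk_mul, QuotientGroup.mk_mul]
    exact mul_mem (mul_mem hT hL) hT
  have htop : (DGrp hsep).comap (QuotientGroup.mk' (pmGroup M)) = ⊤ := by
    rw [eq_top_iff, ← SpecialLinearGroup.SL2Z_generators, Subgroup.closure_le]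
    rintro x (rfl | rfl)
    · exact hS
    · exact hT
  rw [eq_top_iff]
  intro x _
  have h : x.out ∈ (DGrp hsep).comap (QuotientGroup.mk' (pmGroup M)) := by
    rw [htop]; exact Subgroup.mem_top _
  rw [Subgroup.mem_comap, QuotientGroup.mk'_apply, QuotientGroup.out_eq'] at h
  exact h

theorem DFin_eq_univ : DFin hR f c = Finset.univ :=
  Finset.eq_univ_of_forall fun _ => (mem_DFin hsep).2 (by rw [DGrp_eq_top hsep]; trivial)

/-- **Degree.** -/
theorem natDegree_minpoly_theta :
    (minpoly (jField M K) (theta hR f c 1)).natDegree = Fintype.card (XGrp M) := by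
  rw [natDegree_minpoly_eq_card hsep, DFin_eq_univ hsep, Finset.card_univ]

theorem minpoly_theta_map :
    (minpoly (jField M K) (theta hR f c 1)).map (algebraMap (jField M K) (LaurentSeries K)) =
      nodePoly (theta hR f c) := by
  rw [minpoly_map_eq hsep, DFin_eq_univ hsep, nodePoly]

theorem finrank_adjoin_theta :
    Module.finrank (jField M K) (jField M K)⟮theta hR f c 1⟯ = Fintype.card (XGrp M) := by
  rw [IntermediateField.adjoin.finrank (isIntegral_theta hR f c 1), natDegree_minpoly_theta hsep]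

theorem redG_mem_adjoin {u : XGrp M → Gd M R} (hu : Equivariant u) (g : XGrp M) :
    redG f (u g) ∈ (jField M K)⟮theta hR f c 1⟯ := by
  obtain ⟨S, hS⟩ := exists_interp hsep (hu.shift g)
  have h := hS 1
  rw [mul_one] at h
  rw [← h]
  exact algebra_adjoin_le_adjoin _ _ (aeval_mem_adjoin_singleton _ _)

end Separated

/-! The field -/

variable (M K) in
/-- The function field of full level `M`: generated by `j` and the `ySer`. -/
def fieldX (ζ : K) : IntermediateField K (LaurentSeries K) :=
  IntermediateField.adjoin K (insert (jt M K) (Set.range (ySer (M := M) K ζ)))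

section Separated

variable {hR f c} (hsep : Separating hR f c)

include hsep

/-- **Primitive element.** -/
theorem fieldX_eq_adjoin :
    fieldX M K (f hR.ζ) = ((jField M K)⟮theta hR f c 1⟯).restrictScalars K := by
  apply le_antisymm
  · rw [fieldX, adjoin_le_iff]
    rintro x (rfl | ⟨i, rfl⟩)
    · exact IntermediateField.algebraMap_mem ((jField M K)⟮theta hR f c 1⟯) ⟨_, mem_adjoin_simple_self K _⟩
    · have h := redG_mem_adjoin hsep (equivariant_yG hR i) ((1 : SL(2, ℤ)) : XGrp M)
      rw [redG_yG, ySer_idxG_mk (hR.map_isPrimitiveRoot f).pow_eq_one, modM_one, idxMul_one] at h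
      exact h
  · rw [adjoin_simple_adjoin_simple, adjoin_le_iff]
    rintro x (rfl | hx)
    · exact subset_adjoin _ _ (Set.mem_insert _ _)
    · rw [Set.mem_singleton_iff] at hx
      subst hx
      rw [theta_eq]
      refine sum_mem fun i _ => mul_mem ?_ (subset_adjoin _ _ (Set.mem_insert_of_mem _ ⟨_, rfl⟩))
      rw [← algebraMap_eq_C]
      exact IntermediateField.algebraMap_mem _ _

theorem redG_mem_fieldX {u : XGrp M → Gd M R} (hu : Equivariant u) (g : XGrp M) :
    redG f (u g) ∈ fieldX M K (f hR.ζ) := by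
  rw [fieldX_eq_adjoin hsep]
  exact redG_mem_adjoin hsep hu g

end Separated

/-- Distinct vectors of series stay distinct under some linear form. -/
theorem exists_injective_comb {ι Q : Type*} [Fintype ι] [Fintype Q] [Infinite K]
    (v : Q → ι → LaurentSeries K) (hv : Injective v) :
    ∃ a : ι → K, Injective fun q => ∑ i, HahnSeries.C (a i) * v q i := by
  classical
  let e := Fintype.equivFin ι
  have hex : ∀ gh : Q × Q, ∃ P : K[X], P ≠ 0 ∧ (gh.1 ≠ gh.2 → ∀ x : K,
      (∑ i, HahnSeries.C (x ^ (e i : ℕ)) * v gh.1 i) =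
        (∑ i, HahnSeries.C (x ^ (e i : ℕ)) * v gh.2 i) → P.eval x = 0) := by
    rintro ⟨g, h⟩
    by_cases hgh : g = h
    · exact ⟨1, one_ne_zero, fun h' => absurd hgh h'⟩
    obtain ⟨i₀, k, hk⟩ : ∃ i, ∃ k : ℤ, (v g i).coeff k ≠ (v h i).coeff k := by
      by_contra hcon
      push Not at hcon
      exact hgh (hv (funext fun i => HahnSeries.ext (funext (hcon i))))
    refine ⟨∑ i, Polynomial.monomial (e i : ℕ) ((v g i).coeff k - (v h i).coeff k),
      fun h0 => ?_, fun _ x hx => ?_⟩
    · have h1 := congrArg (fun q : K[X] => q.coeff (e i₀ : ℕ)) h0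
      simp only [finsetSum_coeff, coeff_monomial, coeff_zero] at h1
      rw [Finset.sum_eq_single i₀] at h1
      · rw [if_pos rfl, sub_eq_zero] at h1
        exact hk h1
      · intro i _ hi
        rw [if_neg fun h' => hi (e.injective (Fin.ext h'))]
      · simp
    · have h2 := congrArg (fun z : LaurentSeries K => z.coeff k) hx
      simp only [HahnSeries.coeff_sum, HahnSeries.C_mul_eq_smul, HahnSeries.coeff_smul,
        smul_eq_mul] at h2
      simp only [eval_finsetSum, eval_monomial, sub_mul, Finset.sum_sub_distrib, sub_eq_zero]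
      simpa [mul_comm] using h2
  choose P hP0 hP using hex
  obtain ⟨x, hx⟩ : ∃ x : K, (∏ gh, P gh).eval x ≠ 0 := by
    by_contra hcon
    push Not at hcon
    exact Finset.prod_ne_zero_iff.2 (fun gh _ => hP0 gh)
      (Polynomial.funext fun x => by rw [hcon x, eval_zero])
  refine ⟨fun i => x ^ (e i : ℕ), fun g h hgh => ?_⟩
  by_contra hne
  rw [eval_prod, Finset.prod_ne_zero_iff] at hx
  exact hx (g, h) (Finset.mem_univ _) (hP (g, h) hne x hgh)

/-- **A separating choice exists** when `f` is onto an infinite field. -/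
theorem exists_separating [Infinite K] (hf : Surjective f) (hM : 3 ≤ M) :
    ∃ c : Idx M → R, Separating hR f c := by
  have hζ := hR.map_isPrimitiveRoot f
  have hinj : Injective fun (g : XGrp M) (i : Idx M) => ySer K (f hR.ζ) (idxG i g) := by
    intro g h hgh
    have key : ∀ i : Idx M,
        ySer K (f hR.ζ) (idxMul i (modM M (h.out⁻¹ * g.out))) = ySer K (f hR.ζ) i := by
      intro i
      have e := congrFun hgh (idxMul i (modM M h.out⁻¹))
      simp only [idxG, ← idxMul_mul] at e
      rw [modM_inv_mul, idxMul_one] at e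
      rw [modM_mul, e]
    have hm : h.out⁻¹ * g.out ∈ pmGroup M :=
      eq_one_or_neg_one_of_ySer_eq hζ hM _ (det_modM _) key
    rw [← QuotientGroup.out_eq' g, ← QuotientGroup.out_eq' h]
    exact (QuotientGroup.eq.2 hm).symm
  obtain ⟨a, ha⟩ := exists_injective_comb _ hinj
  choose c hc using fun i => hf (a i)
  refine ⟨c, fun g h hgh => ha ?_⟩
  simp only [theta_eq, hc] at hgh
  exact hgh

end Fermat.Agent.DeligneSerre.Level

end
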