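import Fermat.Agent.DeligneSerre.RepsField
import Fermat.Agent.Curve.BasicFunctionField
import Mathlib.FieldTheory.Relrank

/-!
# The field of level `M` over a subfield of `ℂ`

For a field `K` with an embedding `φ` in `ℂ` and `ζ ∈ K` going to `exp (2 π i / M)`: the degree
over `K (j)`, the substitutions `τ ↦ γ τ`, descent of the constants and the action of the
automorphisms of `K`.
-/

set_option autoImplicit false

noncomputable section

open ModularCurve IntermediateField Function
open scoped MatrixGroups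

namespace Fermat.Agent.DeligneSerre.Level

open Fermat.Agent.Igusa.Fibre (jt algebraMap_eq_C Gd)

variable {M : ℕ} [NeZero M]

section Gen

variable {K : Type*} [Field K] (ζ : K)

theorem jt_mem_fieldX' : jt M K ∈ fieldX M K ζ :=
  subset_adjoin _ _ (Set.mem_insert _ _)

theorem ySer_mem_fieldX' (i : Idx M) : ySer K ζ i ∈ fieldX M K ζ :=
  subset_adjoin _ _ (Set.mem_insert_of_mem _ ⟨i, rfl⟩)

/-- Two homomorphisms out of the field of level `M` agree when they do on the generators. -/
theorem fieldX_hom_ext {A : Type*} [DivisionRing A] {g₁ g₂ : fieldX M K ζ →+* A}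
    (hc : ∀ a : K, g₁ (algebraMap K (fieldX M K ζ) a) = g₂ (algebraMap K (fieldX M K ζ) a))
    (hj : g₁ ⟨_, jt_mem_fieldX' ζ⟩ = g₂ ⟨_, jt_mem_fieldX' ζ⟩)
    (hy : ∀ i : Idx M, g₁ ⟨_, ySer_mem_fieldX' ζ i⟩ = g₂ ⟨_, ySer_mem_fieldX' ζ i⟩) :
    g₁ = g₂ := by
  refine RingHom.ext fun x => ?_
  obtain ⟨x, hx⟩ := x
  induction hx using IntermediateField.adjoin_induction with
  | mem y hy' =>
    rcases hy' with rfl | ⟨i, rfl⟩
    · exact hj
    · exact hy i
  | algebraMap a => exact hc a
  | add y z hy hz h₁ h₂ =>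
    rw [show (⟨y + z, _⟩ : fieldX M K ζ) = ⟨y, hy⟩ + ⟨z, hz⟩ from rfl, map_add, map_add, h₁, h₂]
  | inv y hy h₁ =>
    rw [show (⟨y⁻¹, _⟩ : fieldX M K ζ) = (⟨y, hy⟩ : fieldX M K ζ)⁻¹ from rfl, map_inv₀, map_inv₀,
      h₁]
  | mul y z hy hz h₁ h₂ =>
    rw [show (⟨y * z, _⟩ : fieldX M K ζ) = ⟨y, hy⟩ * ⟨z, hz⟩ from rfl, map_mul, map_mul, h₁, h₂]

variable {L : Type*} [Field L] (f : K →+* L)

theorem coeffMap_algebraMap' (a : K) :
    coeffMap f (algebraMap K (LaurentSeries K) a) = algebraMap L (LaurentSeries L) (f a) := by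
  rw [algebraMap_eq_C, algebraMap_eq_C, HahnSeries.C_apply, HahnSeries.C_apply, coeffMap_single]

theorem coeffMap_mem_fieldX {x : LaurentSeries K} (hx : x ∈ fieldX M K ζ) :
    coeffMap f x ∈ fieldX M L (f ζ) := by
  induction hx using IntermediateField.adjoin_induction with
  | mem y hy =>
    rcases hy with rfl | ⟨i, rfl⟩
    · rw [Igusa.Fibre.coeffMap_jt]; exact jt_mem_fieldX' _
    · rw [coeffMap_ySer]; exact ySer_mem_fieldX' _ i
  | algebraMap a => rw [coeffMap_algebraMap']; exact IntermediateField.algebraMap_mem _ _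
  | add y z _ _ hy hz => rw [map_add]; exact add_mem hy hz
  | inv y _ hy => rw [map_inv₀]; exact inv_mem hy
  | mul y z _ _ hy hz => rw [map_mul]; exact mul_mem hy hz

/-- An automorphism of the constants preserves the field of level `M`. -/
theorem coeffMap_self_mem_fieldX {ζ : K} (hζ : IsPrimitiveRoot ζ M) (σ : K →+* K)
    {x : LaurentSeries K} (hx : x ∈ fieldX M K ζ) : coeffMap σ x ∈ fieldX M K ζ := by
  obtain ⟨u, -, hu, hσ⟩ := hζ.isPrimitiveRoot_iff.1
    (hζ.map_of_injective σ.injective)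
  have hle : fieldX M K (σ ζ) ≤ fieldX M K ζ := by
    rw [fieldX, adjoin_le_iff]
    rintro y (rfl | ⟨i, rfl⟩)
    · exact jt_mem_fieldX' _
    · rw [← hσ, ySer_pow ζ hζ.pow_eq_one hu]
      exact ySer_mem_fieldX' _ _
  exact hle (coeffMap_mem_fieldX ζ σ hx)

end Gen

/-! Descent of the constants -/

section Descent

variable {K L : Type*} [Field K] [Field L] [Algebra K L]

/-- A linear form on the constants, coefficient by coefficient. -/
def coeffLin (ℓ : L →ₗ[K] K) (y : LaurentSeries L) : LaurentSeries K where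
  coeff k := ℓ (y.coeff k)
  isPWO_support' := y.isPWO_support'.mono fun k hk h0 => hk (by
    show ℓ (y.coeff k) = 0
    rw [show y.coeff k = 0 from h0, map_zero])

@[simp] theorem coeffLin_coeff (ℓ : L →ₗ[K] K) (y : LaurentSeries L) (k : ℤ) :
    (coeffLin ℓ y).coeff k = ℓ (y.coeff k) := rfl

theorem coeffLin_coeffMap_mul (ℓ : L →ₗ[K] K) (x : LaurentSeries K) (y : LaurentSeries L) :
    coeffLin ℓ (coeffMap (algebraMap K L) x * y) = x * coeffLin ℓ y := by
  classical
  ext k
  have hs : (coeffLin ℓ y).support ⊆ y.support := fun a ha h0 => ha (by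
    rw [coeffLin_coeff, show y.coeff a = 0 from h0, map_zero])
  rw [coeffLin_coeff, HahnSeries.coeff_mul, map_sum,
    HahnSeries.coeff_mul_right' y.isPWO_support hs]
  refine Finset.sum_congr ?_ fun ij _ => ?_
  · ext ij
    simp only [Finset.mem_antidiagonal, HahnSeries.mem_support, coeffMap_coeff, ne_eq,
      map_eq_zero]
  · rw [coeffMap_coeff, coeffLin_coeff, ← Algebra.smul_def, map_smul, smul_eq_mul]

/-- **Descent of the constants** for fields generated by series over the smaller field. -/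
theorem mem_of_coeffMap_mem_adjoin (F : IntermediateField K (LaurentSeries K))
    {x : LaurentSeries K}
    (hx : coeffMap (algebraMap K L) x ∈
      IntermediateField.adjoin L (coeffMap (algebraMap K L) '' (F : Set (LaurentSeries K)))) :
    x ∈ F := by
  set A := Algebra.adjoin L (coeffMap (algebraMap K L) '' (F : Set (LaurentSeries K))) with hA
  have hC : ∀ (ℓ : L →ₗ[K] K) (r : L) (z : LaurentSeries L),
      coeffLin ℓ (algebraMap L (LaurentSeries L) r * z) =
        coeffLin (ℓ.comp (LinearMap.mulLeft K r)) z := by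
    intro ℓ r z
    ext k
    rw [coeffLin_coeff, coeffLin_coeff, algebraMap_laurentSeries_eq_single,
      HahnSeries.coeff_single_zero_mul]
    rfl
  have key : ∀ y ∈ A, ∀ z : LaurentSeries L,
      (∀ ℓ : L →ₗ[K] K, coeffLin ℓ z ∈ F) → ∀ ℓ : L →ₗ[K] K, coeffLin ℓ (y * z) ∈ F := by
    intro y hy
    induction hy using Algebra.adjoin_induction with
    | mem y hy =>
      obtain ⟨g, hg, rfl⟩ := hy
      intro z hz ℓ
      rw [coeffLin_coeffMap_mul]
      exact mul_mem hg (hz ℓ)
    | algebraMap r =>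
      intro z hz ℓ
      rw [hC]
      exact hz _
    | add y₁ y₂ _ _ h₁ h₂ =>
      intro z hz ℓ
      have : coeffLin ℓ ((y₁ + y₂) * z) = coeffLin ℓ (y₁ * z) + coeffLin ℓ (y₂ * z) := by
        ext k
        simp [add_mul]
      rw [this]
      exact add_mem (h₁ z hz ℓ) (h₂ z hz ℓ)
    | mul y₁ y₂ _ _ h₁ h₂ =>
      intro z hz ℓ
      rw [mul_assoc]
      exact h₁ _ (h₂ z hz) ℓ
  have hmem : ∀ y ∈ A, ∀ ℓ : L →ₗ[K] K, coeffLin ℓ y ∈ F := by
    intro y hy ℓ
    rw [← mul_one y]
    refine key y hy 1 (fun ℓ' => ?_) ℓ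
    have : coeffLin ℓ' (1 : LaurentSeries L) = algebraMap K (LaurentSeries K) (ℓ' 1) := by
      ext k
      rw [coeffLin_coeff, algebraMap_laurentSeries_eq_single]
      by_cases hk : k = 0
      · subst hk; simp [HahnSeries.coeff_one]
      · simp [HahnSeries.coeff_one, hk]
    rw [this]
    exact IntermediateField.algebraMap_mem _ _
  rw [IntermediateField.mem_adjoin_iff_div] at hx
  obtain ⟨a, ha, b, hb, hab⟩ := hx
  by_cases hx0 : x = 0
  · rw [hx0]; exact zero_mem _
  have hb0 : b ≠ 0 := by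
    rintro rfl
    rw [div_zero] at hab
    exact hx0 (HahnSeries.ext (funext fun k => by
      simpa using congrArg (fun s : LaurentSeries L => s.coeff k) hab))
  obtain ⟨k, hk⟩ : ∃ k, b.coeff k ≠ 0 := by
    by_contra h
    push Not at h
    exact hb0 (HahnSeries.ext (funext h))
  obtain ⟨ℓ, hℓ⟩ := Module.Projective.exists_dual_ne_zero K hk
  have hbl : coeffLin ℓ b ≠ 0 := fun h => hℓ (by
    rw [← coeffLin_coeff ℓ b k, h, HahnSeries.coeff_zero])
  have e : x * coeffLin ℓ b = coeffLin ℓ a := by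
    rw [← coeffLin_coeffMap_mul, hab, div_mul_cancel₀ _ hb0]
  rw [eq_div_of_mul_eq hbl e]
  exact div_mem (hmem a ha ℓ) (hmem b hb ℓ)

theorem mem_fieldX_of_coeffMap_mem (ζ : K) {x : LaurentSeries K}
    (hx : coeffMap (algebraMap K L) x ∈ fieldX M L (algebraMap K L ζ)) : x ∈ fieldX M K ζ := by
  refine mem_of_coeffMap_mem_adjoin (L := L) (fieldX M K ζ) (SetLike.le_def.1 ?_ hx)
  rw [fieldX, adjoin_le_iff]
  rintro y (rfl | ⟨i, rfl⟩)
  · exact subset_adjoin _ _ ⟨_, jt_mem_fieldX' ζ, Igusa.Fibre.coeffMap_jt _ _⟩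
  · exact subset_adjoin _ _ ⟨_, ySer_mem_fieldX' ζ i, coeffMap_ySer ζ _ i⟩

end Descent

/-! Separation in characteristic zero -/

section CharZero

variable {K : Type*} [Field K] [CharZero K]

/-- The generators separate `SL₂ (ℤ / 2)`. -/
theorem eq_one_of_ySer_eq_two {ζ : K} (hζ : IsPrimitiveRoot ζ 2)
    (g : Matrix (Fin 2) (Fin 2) (ZMod 2)) (hdet : g.det = 1)
    (h : ∀ i : Idx 2, ySer K ζ (idxMul i g) = ySer K ζ i) : g = 1 := by
  obtain rfl : ζ = -1 := hζ.eq_neg_one_of_two_right
  have hinj : ∀ {v : Vec 2}, v ≠ 0 → Matrix.vecMul v g ≠ 0 := by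
    intro v hv h0
    apply hv
    have := congrArg (fun w => Matrix.vecMul w g.adjugate) h0
    simpa [Matrix.vecMul_vecMul, Matrix.mul_adjugate, hdet] using this
  have ha : (![0, 1] : Vec 2) ≠ 0 := by decide
  have hb : (![1, 0] : Vec 2) ≠ 0 := by decide
  have key : ∀ n : ℕ,
      xCoeff K (-1) (Matrix.vecMul ![0, 1] g) n - xCoeff K (-1) (Matrix.vecMul ![1, 0] g) n =
        xCoeff K (-1) (![0, 1] : Vec 2) n - xCoeff K (-1) (![1, 0] : Vec 2) n := by
    intro n
    have e := h (![0, 1], ![1, 0])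
    simp only [ySer, idxMul, hinj ha, hinj hb, ha, hb, or_self, if_false] at e
    replace e := mul_right_cancel₀ (wSer_ne_zero K) e
    have e' := congrArg (fun z : LaurentSeries K => z.coeff (n : ℤ)) e
    simp only [HahnSeries.coeff_sub, xSer_coeff_natCast K (-1) ha,
      xSer_coeff_natCast K (-1) hb, xSer_coeff_natCast K (-1) (hinj ha),
      xSer_coeff_natCast K (-1) (hinj hb)] at e'
    exact e'
  have hv : ∀ v : Vec 2, v ≠ 0 → v = ![0, 1] ∨ v = ![1, 0] ∨ v = ![1, 1] := by decide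
  have z0 : zpowZ K (-1) (0 : ZMod 2) = 1 := zpowZ_zero (-1)
  have z1 : zpowZ K (-1) (1 : ZMod 2) = -1 := by
    rw [zpowZ, show (1 : ZMod 2).val = 1 from rfl, pow_one]
  have v1 : ∀ n, xCoeff K (-1) (![0, 1] : Vec 2) n =
      if n = 0 then -1 / 4 else xCoeff K (-1) (![0, 1] : Vec 2) n := by
    intro n
    split_ifs with hn
    · subst hn
      simp [xCoeff, z1]
      norm_num
    · rfl
  have a0 : xCoeff K (-1) (![0, 1] : Vec 2) 0 = -1 / 4 := by rw [v1, if_pos rfl]
  have b0 : xCoeff K (-1) (![1, 0] : Vec 2) 0 = 0 := by simp [xCoeff]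
  have c0 : xCoeff K (-1) (![1, 1] : Vec 2) 0 = 0 := by simp [xCoeff]
  have n1 : (-1 : ZMod 2) = 1 := by decide
  have a1 : xCoeff K (-1) (![0, 1] : Vec 2) 1 = 0 := by simp [xCoeff_one]
  have b1 : xCoeff K (-1) (![1, 0] : Vec 2) 1 = 2 := by
    simp [xCoeff_one, n1, z0]
    norm_num
  have c1 : xCoeff K (-1) (![1, 1] : Vec 2) 1 = -2 := by
    simp [xCoeff_one, n1, z1]
    norm_num
  have k0 := key 0
  have k1 := key 1
  rw [a0, b0] at k0
  rw [a1, b1] at k1
  obtain ⟨ea, eb⟩ : Matrix.vecMul ![0, 1] g = ![0, 1] ∧ Matrix.vecMul ![1, 0] g = ![1, 0] := by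
    rcases hv _ (hinj ha) with e | e | e <;> rcases hv _ (hinj hb) with e' | e' | e' <;>
      rw [e, e'] at k0 k1 <;>
      simp only [a0, b0, c0, a1, b1, c1] at k0 k1 <;>
      first
        | exact ⟨e, e'⟩
        | (exfalso; revert k0 k1; norm_num)
  ext i j
  fin_cases i
  · have := congrFun eb j
    fin_cases j <;> simpa [Matrix.vecMul, dotProduct, Fin.sum_univ_two] using this
  · have := congrFun ea j
    fin_cases j <;> simpa [Matrix.vecMul, dotProduct, Fin.sum_univ_two] using this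

/-- **Faithfulness** in characteristic zero, at every level. -/
theorem eq_one_or_neg_one_of_ySer_eq' {ζ : K} (hζ : IsPrimitiveRoot ζ M)
    (g : Matrix (Fin 2) (Fin 2) (ZMod M)) (hdet : g.det = 1)
    (h : ∀ i : Idx M, ySer K ζ (idxMul i g) = ySer K ζ i) : g = 1 ∨ g = -1 := by
  rcases lt_or_ge M 3 with hM | hM
  · have := NeZero.pos M
    interval_cases M
    · exact Or.inl (Subsingleton.elim _ _)
    · exact Or.inl (eq_one_of_ySer_eq_two hζ g hdet h)
  · exact eq_one_or_neg_one_of_ySer_eq hζ hM g hdet h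

/-- **A separating choice exists** in characteristic zero, at every level. -/
theorem exists_separating_charZero {R : Subring ℂ} (hR : Base M R) (f : R →+* K)
    (hf : Surjective f) : ∃ c : Idx M → R, Separating hR f c := by
  have hζ := hR.map_isPrimitiveRoot f
  have hinj : Injective fun (g : XGrp M) (i : Idx M) => ySer K (f hR.ζ) (idxG i g) := by
    intro g h hgh
    have key : ∀ i : Idx M,
        ySer K (f hR.ζ) (idxMul i (modM M (h.out⁻¹ * g.out))) = ySer K (f hR.ζ) i := by
      intro i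
      have e := congrFun hgh (idxMul i (modM M h.out⁻¹))
      simp only [idxG, ← idxMul_mul] at e
      rw [modM_inv_mul, idxMul_one] at e
      rw [modM_mul, e]
    have hm : h.out⁻¹ * g.out ∈ pmGroup M :=
      eq_one_or_neg_one_of_ySer_eq' hζ _ (det_modM _) key
    rw [← QuotientGroup.out_eq' g, ← QuotientGroup.out_eq' h]
    exact (QuotientGroup.eq.2 hm).symm
  obtain ⟨a, ha⟩ := exists_injective_comb _ hinj
  choose c hc using fun i => hf (a i)
  refine ⟨c, fun g h hgh => ha ?_⟩
  simp only [theta_eq, hc] at hgh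
  exact hgh

end CharZero

/-! Over a subfield of `ℂ` -/

section Embedded

variable {K : Type*} [Field K] (φ : K →+* ℂ) {ζ : K} (hζ : φ ζ = zetaC M)

include φ in
theorem charZero_of_embedding : CharZero K :=
  φ.charZero

include φ hζ in
theorem exists_base_sep : ∃ (R : Subring ℂ) (hR : Base M R) (f : R →+* K) (c : Idx M → R),
    f hR.ζ = ζ ∧ Separating hR f c := by
  have := charZero_of_embedding φ
  let e : K ≃+* φ.range := RingEquiv.ofBijective φ.rangeRestrict
    ⟨fun a b h => φ.injective (congrArg Subtype.val h), φ.rangeRestrict_surjective⟩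
  have hR : Base M φ.range := by
    refine ⟨⟨ζ, hζ⟩, ?_⟩
    rw [← map_natCast e M]
    exact (IsUnit.mk0 _ (Nat.cast_ne_zero.2 (NeZero.ne M))).map e
  have he : e.symm.toRingHom hR.ζ = ζ := by
    apply e.injective
    show e (e.symm hR.ζ) = e ζ
    rw [RingEquiv.apply_symm_apply]
    exact Subtype.ext hζ.symm
  obtain ⟨c, hc⟩ := exists_separating_charZero hR e.symm.toRingHom e.symm.surjective
  exact ⟨φ.range, hR, e.symm.toRingHom, c, he, hc⟩

/-- A conjugate of a primitive element inside the field gives an automorphism. -/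
theorem exists_algEquiv_adjoin {F Ω : Type*} [Field F] [Field Ω] [Algebra F Ω] {x x' : Ω}
    (hint : IsIntegral F x) (hx' : x' ∈ F⟮x⟯) (h0 : Polynomial.aeval x' (minpoly F x) = 0) :
    ∃ e : F⟮x⟯ ≃ₐ[F] F⟮x⟯, ∀ (S : Polynomial F) (y : F⟮x⟯),
      (y : Ω) = Polynomial.aeval x S → (e y : Ω) = Polynomial.aeval x' S := by
  have := IntermediateField.adjoin.finiteDimensional hint
  let pb := IntermediateField.adjoin.powerBasis hint
  have hgen : pb.gen = AdjoinSimple.gen F x := rfl
  let z : F⟮x⟯ := ⟨x', hx'⟩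
  have hroot : Polynomial.aeval z (minpoly F pb.gen) = 0 := by
    rw [hgen, IntermediateField.minpoly_gen]
    apply Subtype.ext
    show F⟮x⟯.val (Polynomial.aeval z (minpoly F x)) = 0
    rw [← Polynomial.aeval_algHom_apply]
    exact h0
  let ψ := pb.lift z hroot
  refine ⟨AlgEquiv.ofBijective ψ (Algebra.IsAlgebraic.algHom_bijective ψ), fun S y hy => ?_⟩
  obtain rfl : y = Polynomial.aeval pb.gen S := by
    apply Subtype.ext
    show (y : Ω) = F⟮x⟯.val (Polynomial.aeval pb.gen S)
    rw [← Polynomial.aeval_algHom_apply]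
    exact hy
  show F⟮x⟯.val (ψ (Polynomial.aeval pb.gen S)) = _
  rw [← Polynomial.aeval_algHom_apply ψ, PowerBasis.lift_gen, ← Polynomial.aeval_algHom_apply]
  rfl

include φ hζ in
theorem finrank_fieldX :
    Module.finrank K⟮(⟨_, jt_mem_fieldX' ζ⟩ : fieldX M K ζ)⟯ (fieldX M K ζ) =
      (pmGroup M).index := by
  obtain ⟨R, hR, f, c, rfl, hsep⟩ := exists_base_sep φ hζ
  rw [Subgroup.index_eq_card, Nat.card_eq_fintype_card, ← finrank_adjoin_theta hsep,
    ← IntermediateField.relfinrank_top_right,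
    ← IntermediateField.relfinrank_map_map _ _ (fieldX M K (f hR.ζ)).val]
  have h1 : (K⟮(⟨_, jt_mem_fieldX' (f hR.ζ)⟩ : fieldX M K (f hR.ζ))⟯).map
      (fieldX M K (f hR.ζ)).val = jField M K := by
    rw [IntermediateField.adjoin_map, Set.image_singleton]
    rfl
  rw [h1, ← AlgHom.fieldRange_eq_map, IntermediateField.fieldRange_val, fieldX_eq_adjoin hsep,
    IntermediateField.relfinrank_eq_finrank_of_le fun x hx =>
      IntermediateField.algebraMap_mem _ (⟨x, hx⟩ : jField M K)]
  congr 1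

theorem transcendental_jt : Transcendental K (jt M K) := by
  rw [jt, ← qExpandAlgHomC_apply]
  exact fun h => ModFun.transcendental_jqModC K
    ((isAlgebraic_algHom_iff _ (qExpand_injective M (R := K))).1 h)

set_option synthInstance.maxHeartbeats 400000 in
include φ hζ in
theorem isFunctionFieldOne_fieldX : Curve.IsFunctionFieldOne K (fieldX M K ζ) := by
  have ht : Transcendental K (⟨_, jt_mem_fieldX' ζ⟩ : fieldX M K ζ) := fun h =>
    transcendental_jt (M := M) (K := K) (h.algHom (fieldX M K ζ).val)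
  have : Module.Finite K⟮(⟨_, jt_mem_fieldX' ζ⟩ : fieldX M K ζ)⟯ (fieldX M K ζ) :=
    Module.finite_of_finrank_pos (by
      rw [finrank_fieldX φ hζ]; exact Nat.pos_of_ne_zero Subgroup.FiniteIndex.index_ne_zero)
  exact Curve.IsFunctionFieldOne.of_finite ht

/-- The substitution `τ ↦ δ τ`, on the separated model. -/
theorem exists_act_adjoin {R : Subring ℂ} {hR : Base M R} {f : R →+* K} {c : Idx M → R}
    (hsep : Separating hR f c) (δ : XGrp M) :
    ∃ e : ((jField M K)⟮theta hR f c 1⟯) ≃ₐ[jField M K] ((jField M K)⟮theta hR f c 1⟯),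
      ∀ (u : XGrp M → Gd M R) (hu : Equivariant u),
        (e ⟨_, redG_mem_adjoin hsep hu 1⟩ : LaurentSeries K) = redG f (u δ) := by
  obtain ⟨e, he⟩ := exists_algEquiv_adjoin (isIntegral_theta hR f c 1)
    (redG_mem_adjoin hsep (equivariant_thetaG hR c) δ)
    (show Polynomial.aeval (theta hR f c δ) (minpoly (jField M K) (theta hR f c 1)) = 0 by
      rw [Polynomial.aeval_def, ← Polynomial.eval_map, minpoly_theta_map hsep, eval_nodePoly])
  refine ⟨e, fun u hu => ?_⟩
  obtain ⟨S, hS⟩ := exists_interp hsep hu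
  rw [← hS δ]
  exact he S _ (hS 1).symm

include φ hζ in
/-- The substitution `τ ↦ γ τ`. -/
theorem exists_act (γ : SL(2, ℤ)) : ∃ e : fieldX M K ζ ≃ₐ[K] fieldX M K ζ,
    (e ⟨_, jt_mem_fieldX' ζ⟩ : LaurentSeries K) = jt M K ∧
    ∀ i : Idx M, (e ⟨_, ySer_mem_fieldX' ζ i⟩ : LaurentSeries K) =
      ySer K ζ (idxMul i (modM M γ)) := by
  obtain ⟨R, hR, f, c, rfl, hsep⟩ := exists_base_sep φ hζ
  have hz := (hR.map_isPrimitiveRoot f).pow_eq_one
  obtain ⟨e, he⟩ := exists_act_adjoin hsep (γ : XGrp M)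
  let a : fieldX M K (f hR.ζ) ≃ₐ[K] ((jField M K)⟮theta hR f c 1⟯).restrictScalars K :=
    IntermediateField.equivOfEq (fieldX_eq_adjoin hsep)
  let e' : ((jField M K)⟮theta hR f c 1⟯).restrictScalars K ≃ₐ[K]
      ((jField M K)⟮theta hR f c 1⟯).restrictScalars K := e.restrictScalars K
  refine ⟨(a.trans e').trans a.symm, ?_, fun i => ?_⟩
  · show ((e (algebraMap (jField M K) _ ⟨jt M K, mem_adjoin_simple_self K _⟩) :
      (jField M K)⟮theta hR f c 1⟯) : LaurentSeries K) = _
    rw [AlgEquiv.commutes]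
    rfl
  · have h1 : redG f (yG hR (idxG i (1 : XGrp M))) = ySer K (f hR.ζ) i := by
      rw [redG_yG, ← QuotientGroup.mk_one, ySer_idxG_mk hz, modM_one, idxMul_one]
    have h2 := (he _ (equivariant_yG hR i)).trans
      ((redG_yG hR f _).trans (ySer_idxG_mk hz γ i))
    refine Eq.trans ?_ h2
    show ((e ⟨ySer K (f hR.ζ) i, _⟩ : (jField M K)⟮theta hR f c 1⟯) : LaurentSeries K) = _
    simp only [h1]

end Embedded

end Fermat.Agent.DeligneSerre.Level

end
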