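import Fermat.Agent.DeligneSerre.RepsField
import Fermat.Agent.DeligneSerre.RepsFieldsB
import Fermat.Agent.Curve.BasicFunctionField
import Fermat.Agent.Curve.ConstExtModular
import Mathlib.FieldTheory.IsAlgClosed.AlgebraicClosure
import Mathlib.Analysis.Complex.Polynomial.Basic

/-!
# The fields of level `M` over `ℚ̄` and `ℂ`: substitutions and Galois action
-/

set_option autoImplicit false

noncomputable section

open ModularCurve IntermediateField
open scoped MatrixGroups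

namespace Fermat.Agent.DeligneSerre.Level

open Fermat.Agent.Igusa.Fibre (jt)

local notation "ℚbar" => AlgebraicClosure ℚ
local notation "Γℚ" => AlgebraicClosure ℚ ≃ₐ[ℚ] AlgebraicClosure ℚ

/-- A fixed embedding of `ℚ̄` in `ℂ`. -/
def qbarC : ℚbar →+* ℂ :=
  haveI : Algebra.IsAlgebraic ℚ ℚbar := AlgebraicClosure.isAlgebraic ℚ
  (IsAlgClosed.lift : ℚbar →ₐ[ℚ] ℂ).toRingHom

variable (M : ℕ) [NeZero M]

theorem exists_zetaQ : ∃ z : ℚbar, qbarC z = zetaC M := by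
  obtain ⟨z, hz⟩ := HasEnoughRootsOfUnity.exists_primitiveRoot ℚbar M
  obtain ⟨i, -, hi⟩ := (hz.map_of_injective qbarC.injective).eq_pow_of_pow_eq_one
    (isPrimitiveRoot_zetaC (M := M)).pow_eq_one
  exact ⟨z ^ i, by rw [map_pow]; exact hi⟩

/-- The root of unity of `ℚ̄` going to `exp (2 π i / M)`. -/
def zetaQ : ℚbar := (exists_zetaQ M).choose

theorem qbarC_zetaQ : qbarC (zetaQ M) = zetaC M := (exists_zetaQ M).choose_spec

theorem isPrimitiveRoot_zetaQ : IsPrimitiveRoot (zetaQ M) M :=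
  IsPrimitiveRoot.of_map_of_injective (f := qbarC) (by rw [qbarC_zetaQ]; exact isPrimitiveRoot_zetaC)
    qbarC.injective

/-- The field of level `M` over `ℚ̄`. -/
abbrev FQ : IntermediateField ℚbar (LaurentSeries ℚbar) := fieldX M ℚbar (zetaQ M)

/-- The field of level `M` over `ℂ`. -/
abbrev FC : IntermediateField ℂ (LaurentSeries ℂ) := fieldX M ℂ (zetaC M)

theorem coeffMap_mem_FC {x : LaurentSeries ℚbar} (hx : x ∈ FQ M) :
    coeffMap qbarC x ∈ FC M := by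
  have h := coeffMap_mem_fieldX (zetaQ M) qbarC hx
  rwa [qbarC_zetaQ] at h

/-- Descent of the constants. -/
theorem mem_FQ_of_coeffMap_mem {x : LaurentSeries ℚbar} (hx : coeffMap qbarC x ∈ FC M) :
    x ∈ FQ M := by
  let := qbarC.toAlgebra
  refine mem_fieldX_of_coeffMap_mem (L := ℂ) (zetaQ M) ?_
  show coeffMap qbarC x ∈ fieldX M ℂ (qbarC (zetaQ M))
  rw [qbarC_zetaQ]
  exact hx

/-- Extension of the constants. -/
def toFC : FQ M →+* FC M :=
  ((coeffMap qbarC).comp (FQ M).val.toRingHom).codRestrict _ fun x => coeffMap_mem_FC M x.2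

@[simp] theorem coe_toFC (x : FQ M) :
    (toFC M x : LaurentSeries ℂ) = coeffMap qbarC (x : LaurentSeries ℚbar) := rfl

theorem jt_mem_fieldX {K : Type*} [Field K] (ζ : K) : jt M K ∈ fieldX M K ζ :=
  subset_adjoin _ _ (Set.mem_insert _ _)

theorem ySer_mem_fieldX {K : Type*} [Field K] (ζ : K) (i : Idx M) :
    ySer K ζ i ∈ fieldX M K ζ :=
  subset_adjoin _ _ (Set.mem_insert_of_mem _ ⟨i, rfl⟩)

/-- `j` in `FC M`. -/
def jFC : FC M := ⟨jt M ℂ, jt_mem_fieldX M _⟩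

/-- `j` in `FQ M`. -/
def jFQ : FQ M := ⟨jt M ℚbar, jt_mem_fieldX M _⟩

theorem finrank_FC : Module.finrank ℂ⟮jFC M⟯ (FC M) = (pmGroup M).index :=
  finrank_fieldX (RingHom.id ℂ) (ζ := zetaC M) rfl

theorem finrank_FQ : Module.finrank ℚbar⟮jFQ M⟯ (FQ M) = (pmGroup M).index :=
  finrank_fieldX qbarC (qbarC_zetaQ M)

instance isFunctionFieldOne_FQ : Curve.IsFunctionFieldOne ℚbar (FQ M) :=
  isFunctionFieldOne_fieldX qbarC (qbarC_zetaQ M)

theorem exists_actC (γ : SL(2, ℤ)) : ∃ e : FC M ≃ₐ[ℂ] FC M,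
    (e (jFC M) : LaurentSeries ℂ) = jt M ℂ ∧
    ∀ i : Idx M, (e ⟨_, ySer_mem_fieldX M (zetaC M) i⟩ : LaurentSeries ℂ) =
      ySer ℂ (zetaC M) (idxMul i (modM M γ)) :=
  exists_act (RingHom.id ℂ) (ζ := zetaC M) rfl γ

/-- The substitution `τ ↦ γ τ` on `FC M`. -/
def actC (γ : SL(2, ℤ)) : FC M ≃ₐ[ℂ] FC M := (exists_actC M γ).choose

theorem coe_actC_jt (γ : SL(2, ℤ)) : (actC M γ (jFC M) : LaurentSeries ℂ) = jt M ℂ :=
  (exists_actC M γ).choose_spec.1

theorem coe_actC_ySer (γ : SL(2, ℤ)) (i : Idx M) :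
    (actC M γ ⟨_, ySer_mem_fieldX M (zetaC M) i⟩ : LaurentSeries ℂ) =
      ySer ℂ (zetaC M) (idxMul i (modM M γ)) :=
  (exists_actC M γ).choose_spec.2 i

theorem exists_actQ (γ : SL(2, ℤ)) : ∃ e : FQ M ≃ₐ[ℚbar] FQ M,
    (e (jFQ M) : LaurentSeries ℚbar) = jt M ℚbar ∧
    ∀ i : Idx M, (e ⟨_, ySer_mem_fieldX M (zetaQ M) i⟩ : LaurentSeries ℚbar) =
      ySer ℚbar (zetaQ M) (idxMul i (modM M γ)) :=
  exists_act qbarC (qbarC_zetaQ M) γ

/-- The substitution `τ ↦ γ τ` on `FQ M`. -/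
def actQ (γ : SL(2, ℤ)) : FQ M ≃ₐ[ℚbar] FQ M := (exists_actQ M γ).choose

theorem coe_actQ_jt (γ : SL(2, ℤ)) : (actQ M γ (jFQ M) : LaurentSeries ℚbar) = jt M ℚbar :=
  (exists_actQ M γ).choose_spec.1

theorem coe_actQ_ySer (γ : SL(2, ℤ)) (i : Idx M) :
    (actQ M γ ⟨_, ySer_mem_fieldX M (zetaQ M) i⟩ : LaurentSeries ℚbar) =
      ySer ℚbar (zetaQ M) (idxMul i (modM M γ)) :=
  (exists_actQ M γ).choose_spec.2 i

theorem actC_toFC (γ : SL(2, ℤ)) (x : FQ M) : actC M γ (toFC M x) = toFC M (actQ M γ x) := by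
  have h : ((actC M γ).toRingEquiv.toRingHom).comp (toFC M) =
      (toFC M).comp (actQ M γ).toRingEquiv.toRingHom := by
    refine fieldX_hom_ext (zetaQ M) (fun a => ?_) ?_ fun i => ?_
    · have hc : toFC M (algebraMap ℚbar (FQ M) a) = algebraMap ℂ (FC M) (qbarC a) :=
        Subtype.ext (coeffMap_algebraMap' qbarC a)
      show actC M γ (toFC M (algebraMap ℚbar (FQ M) a)) =
        toFC M (actQ M γ (algebraMap ℚbar (FQ M) a))
      rw [AlgEquiv.commutes, hc, AlgEquiv.commutes]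
    · show actC M γ (toFC M (jFQ M)) = toFC M (actQ M γ (jFQ M))
      apply Subtype.ext
      rw [show toFC M (jFQ M) = jFC M from Subtype.ext (Igusa.Fibre.coeffMap_jt M qbarC),
        coe_actC_jt, coe_toFC, coe_actQ_jt, Igusa.Fibre.coeffMap_jt]
    · show actC M γ (toFC M ⟨_, ySer_mem_fieldX M (zetaQ M) i⟩) =
        toFC M (actQ M γ ⟨_, ySer_mem_fieldX M (zetaQ M) i⟩)
      apply Subtype.ext
      rw [show toFC M ⟨_, ySer_mem_fieldX M (zetaQ M) i⟩ = ⟨_, ySer_mem_fieldX M (zetaC M) i⟩ from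
          Subtype.ext (by rw [coe_toFC, coeffMap_ySer, qbarC_zetaQ]),
        coe_actC_ySer, coe_toFC, coe_actQ_ySer, coeffMap_ySer, qbarC_zetaQ]
  exact DFunLike.congr_fun h x

theorem coeffMap_galois_mem (σ : Γℚ) {x : LaurentSeries ℚbar} (hx : x ∈ FQ M) :
    coeffMap (σ : ℚbar →+* ℚbar) x ∈ FQ M :=
  coeffMap_self_mem_fieldX (isPrimitiveRoot_zetaQ M) _ hx

/-- The coefficientwise Galois action. -/
def galX (σ : Γℚ) : FQ M →+* FQ M :=
  ((coeffMap (σ : ℚbar →+* ℚbar)).comp (FQ M).val.toRingHom).codRestrict _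
    fun x => coeffMap_galois_mem M σ x.2

theorem coe_galX (σ : Γℚ) (x : FQ M) :
    (galX M σ x : LaurentSeries ℚbar) = coeffMap (σ : ℚbar →+* ℚbar) (x : LaurentSeries ℚbar) :=
  rfl

/-- Galois commutes with the diagonal substitutions. -/
theorem galX_actQ (σ : Γℚ) {γ : SL(2, ℤ)} (h01 : modM M γ 0 1 = 0) (h10 : modM M γ 1 0 = 0)
    (x : FQ M) : galX M σ (actQ M γ x) = actQ M γ (galX M σ x) := by
  obtain ⟨u, -, hu, hσ⟩ := (isPrimitiveRoot_zetaQ M).isPrimitiveRoot_iff.1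
    ((isPrimitiveRoot_zetaQ M).map_of_injective (f := (σ : ℚbar →+* ℚbar)) σ.injective)
  have hy : ∀ i : Idx M, coeffMap (σ : ℚbar →+* ℚbar) (ySer ℚbar (zetaQ M) i) =
      ySer ℚbar (zetaQ M) (idxMul i (galMat (u : ZMod M))) := fun i => by
    rw [coeffMap_ySer, ← hσ, ySer_pow _ (isPrimitiveRoot_zetaQ M).pow_eq_one hu]
  have hcomm : galMat (u : ZMod M) * modM M γ = modM M γ * galMat (u : ZMod M) := by
    ext i j
    fin_cases i <;> fin_cases j <;>
      simp [galMat, Matrix.mul_apply, Fin.sum_univ_two, -modM_apply, h01, h10, mul_comm]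
  have h : (galX M σ).comp (actQ M γ).toRingEquiv.toRingHom =
      ((actQ M γ).toRingEquiv.toRingHom).comp (galX M σ) := by
    refine fieldX_hom_ext (zetaQ M) (fun a => ?_) ?_ fun i => ?_
    · have hc : galX M σ (algebraMap ℚbar (FQ M) a) = algebraMap ℚbar (FQ M) (σ a) :=
        Subtype.ext (coeffMap_algebraMap' _ a)
      show galX M σ (actQ M γ (algebraMap ℚbar (FQ M) a)) =
        actQ M γ (galX M σ (algebraMap ℚbar (FQ M) a))
      rw [AlgEquiv.commutes, hc, AlgEquiv.commutes]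
    · show galX M σ (actQ M γ (jFQ M)) = actQ M γ (galX M σ (jFQ M))
      apply Subtype.ext
      rw [show galX M σ (jFQ M) = jFQ M from Subtype.ext (Igusa.Fibre.coeffMap_jt M _), coe_galX,
        coe_actQ_jt, Igusa.Fibre.coeffMap_jt]
    · show galX M σ (actQ M γ ⟨_, ySer_mem_fieldX M (zetaQ M) i⟩) =
        actQ M γ (galX M σ ⟨_, ySer_mem_fieldX M (zetaQ M) i⟩)
      apply Subtype.ext
      rw [show galX M σ ⟨_, ySer_mem_fieldX M (zetaQ M) i⟩ =
          ⟨_, ySer_mem_fieldX M (zetaQ M) (idxMul i (galMat (u : ZMod M)))⟩ from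
          Subtype.ext (hy i), coe_galX, coe_actQ_ySer, coe_actQ_ySer, hy, ← idxMul_mul,
        ← idxMul_mul, hcomm]
  exact DFunLike.congr_fun h x

end Fermat.Agent.DeligneSerre.Level

end
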