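import Fermat.Agent.DeligneSerre.RepsHeckeFun

/-!
# The Hecke correspondence on functions and on Kummer characters
-/

set_option autoImplicit false

noncomputable section

open UpperHalfPlane ModularCurve AlgebraicCurve Matrix
open scoped MatrixGroups

namespace Fermat.Agent.DeligneSerre.Level

local notation "ℚbar" => AlgebraicClosure ℚ
local notation "Γℚ" => AlgebraicClosure ℚ ≃ₐ[ℚ] AlgebraicClosure ℚ

variable {M : ℕ} [NeZero M]

open Fermat.Agent.ModFun (HasQExp MeroH EqPunct nfH)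
open Fermat.Agent.Multiplier (IsRootH)

theorem twist_injective {R : Type*} [CommRing R] (u : Rˣ) : Function.Injective (twist u) :=
  fun x y h => by
    have := congrArg (twist u⁻¹) h
    rwa [← twist_mul_apply, ← twist_mul_apply, inv_mul_cancel, twist_one_apply,
      twist_one_apply] at this

theorem tpSer_ne_zero (p : ℕ) [NeZero p] {x : FQ M} (hx : x ≠ 0) : tpSer M p x ≠ 0 := by
  refine mul_ne_zero ?_ (Finset.prod_ne_zero_iff.2 fun i _ => ?_)
  · rw [map_ne_zero_iff _ (qExpand_injective _)]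
    exact fun h => hx ((actQ M (gam0 M p)).injective ((Subtype.ext h).trans (map_zero _).symm))
  · rw [map_ne_zero_iff _ (twist_injective _)]
    exact fun h => hx (Subtype.ext h)

theorem not_eqPunct_funQ {x : FQ M} (hx : x ≠ 0) : ¬ EqPunct (funQ M x) 0 :=
  (xModel M).not_eqPunct_zero (fun h => hx ((toFC M).injective (h.trans (map_zero _).symm)))

/-- Multiplication by constants commutes with normal forms. -/
theorem nfH_const_mul {G : ℍ → ℂ} (hG : MeroH G) {c : ℂ} (hc : c ≠ 0) (τ : ℍ) :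
    nfH (fun σ => c * G σ) τ = c * nfH G τ := by
  have hcG : MeroH fun σ => c * G σ := Places.meroH_mul (Places.meroH_const c) hG
  refine congrFun (ModFun.eq_of_eqPunct (ModFun.meromorphicNFAt_nfH _) (fun σ => ?_)
    ((ModFun.eqPunct_nfH hcG).trans (Places.eqPunct_mul (EqPunct.refl fun _ => c)
      (ModFun.eqPunct_nfH hG).symm))) τ
  exact Multiplier.meromorphicNFOn_const_mul (U := {(σ : ℂ)}) hc
    (fun z hz => by rw [Set.mem_singleton_iff] at hz; rw [hz]; exact ModFun.meromorphicNFAt_nfH G σ)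
    (Set.mem_singleton _)

theorem eqPunct_prod {ι : Type*} (s : Finset ι) {f f' : ι → ℍ → ℂ}
    (h : ∀ i ∈ s, EqPunct (f i) (f' i)) : EqPunct (∏ i ∈ s, f i) (∏ i ∈ s, f' i) := by
  classical
  induction s using Finset.induction with
  | empty => exact EqPunct.refl _
  | insert a s ha ih =>
    rw [Finset.prod_insert ha, Finset.prod_insert ha]
    exact Places.eqPunct_mul (h a (Finset.mem_insert_self a s))
      (ih fun i hi => h i (Finset.mem_insert_of_mem hi))

theorem addChar_map_sum {A R ι : Type*} [AddCommMonoid A] [CommMonoid R] (ψ : AddChar A R)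
    (s : Finset ι) (f : ι → A) : ψ (∑ i ∈ s, f i) = ∏ i ∈ s, ψ (f i) := by
  classical
  induction s using Finset.induction with
  | empty => simp
  | insert a s ha ih => rw [Finset.sum_insert ha, Finset.prod_insert ha, AddChar.map_add_eq_mul, ih]

/-- A root up to meromorphic equality gives a character. -/
theorem isChar_of_root {ℓ : ℕ} [NeZero ℓ] {z : FQ M} (hz : z ≠ 0) {G : ℍ → ℂ} (hG : MeroH G)
    (hpow : EqPunct (G ^ ℓ) (funQ M z)) {φ : Additive (pmGroup M) →+ ZMod ℓ}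
    (hφ : ParHom.IsParEllHom (pmGroup M) φ)
    (hG' : ∀ (γ : pmGroup M) (τ : ℍ),
      G ((γ : SL(2, ℤ)) • τ) = ZMod.stdAddChar (φ (Additive.ofMul γ)) * G τ)
    {v : Fin (rk M) → ZMod ℓ} (hv : ∀ i, φ (Additive.ofMul (genX M i)) = v i) :
    IsChar M ℓ z v := by
  have hpow' : EqPunct (nfH G ^ ℓ) (funQ M z) :=
    (Places.eqPunct_pow (ModFun.eqPunct_nfH hG) ℓ).trans hpow
  refine ⟨hz, nfH G, φ, hφ, ⟨fun w hw => ModFun.meromorphicNFAt_nfH G ⟨w, hw⟩,
    fun w hw => hpow' ⟨w, hw⟩, fun w hw htop => not_eqPunct_funQ hz ?_⟩, fun γ τ => ?_, hv⟩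
  · have h0 : EqPunct (nfH G) 0 :=
      (ModFun.ordH_eq_top_iff (ModFun.meroH_nfH G) (τ := ⟨w, hw⟩)).1 htop
    refine hpow'.symm.trans ((Places.eqPunct_pow h0 ℓ).trans (Places.eqPunct_of_eq ?_))
    exact zero_pow (NeZero.ne ℓ)
  · have h1 := congrFun (ModFun.nfH_comp_smul hG (γ : SL(2, ℤ))) τ
    rw [show (fun σ => G ((γ : SL(2, ℤ)) • σ)) =
      fun σ => ZMod.stdAddChar (φ (Additive.ofMul γ)) * G σ from funext (hG' γ)] at h1
    rw [h1, nfH_const_mul hG ((AddChar.val_isUnit _ _).ne_zero) τ]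


/-- The image under the correspondence is again a function of level `M`. -/
theorem exists_isTp (hM : 3 ≤ M) {p : ℕ} [NeZero p] (hp : p.Prime) (hpM : ¬ p ∣ M) (x : FQ M) :
    ∃ z, IsTp M p x z := by
  obtain ⟨y, hy⟩ := exists_isFun_tpFun hp hpM x
  obtain ⟨z, hz, hzy⟩ := exists_eq_qExpand qbarC.injective p
    ((hasQExp_tpFun (p := p) x).unique (hy.hasQExp.expand_period p))
  exact ⟨⟨z, mem_FQ_of_coeffMap_mem M (hzy ▸ mem_FC_of_isFun hM hy)⟩, hz.symm⟩

theorem IsTp.ne_zero {p : ℕ} [NeZero p] {x z : FQ M} (h : IsTp M p x z) (hx : x ≠ 0) : z ≠ 0 := by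
  rintro rfl
  exact tpSer_ne_zero p hx (h.symm.trans (map_zero _))

/-- Galois commutes with the correspondence. -/
theorem IsTp.galX {p : ℕ} [NeZero p] (hp : p.Prime) (hpM : ¬ p ∣ M) {x z : FQ M}
    (h : IsTp M p x z) (σ : Γℚ) : IsTp M p (galX M σ x) (galX M σ z) := by
  obtain ⟨h01, h10, -⟩ := modM_gam0 M ((Nat.Prime.coprime_iff_not_dvd hp).mpr hpM)
  obtain ⟨a, -, ha, hσ⟩ := (isPrimitiveRoot_zetaQ p).isPrimitiveRoot_iff.1
    ((isPrimitiveRoot_zetaQ p).map_of_injective (f := (σ : ℚbar →+* ℚbar)) σ.injective)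
  have hu : Units.map ((σ : ℚbar →+* ℚbar) : ℚbar →* ℚbar) (zetaP p) = zetaP p ^ a :=
    Units.ext (by rw [Units.val_pow_eq_pow_val]; exact hσ.symm)
  have hp1 : zetaP p ^ p = 1 :=
    Units.ext (by rw [Units.val_pow_eq_pow_val]; exact (isPrimitiveRoot_zetaQ p).pow_eq_one)
  unfold IsTp at h ⊢
  rw [coe_galX, ← coeffMap_qExpand_ring, h, map_mul, map_prod, coeffMap_qExpand_ring,
    ← coe_galX M σ (actQ M (gam0 M p) x), galX_actQ M σ h01 h10]
  congr 1
  refine Finset.prod_bij (fun i _ => a * i % p) ?_ ?_ ?_ ?_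
  · exact fun i _ => Finset.mem_range.2 (Nat.mod_lt _ hp.pos)
  · intro i hi j hj hij
    exact Nat.ModEq.eq_of_lt_of_lt (Nat.ModEq.cancel_left_of_coprime
      (Nat.Coprime.symm ha) hij) (Finset.mem_range.1 hi) (Finset.mem_range.1 hj)
  · intro b hb
    obtain ⟨c, -, hc⟩ := Nat.exists_mul_mod_eq_one_of_coprime ha hp.one_lt
    refine ⟨c * b % p, Finset.mem_range.2 (Nat.mod_lt _ hp.pos), ?_⟩
    show a * (c * b % p) % p = b
    rw [Nat.mul_mod, Nat.mod_mod, ← Nat.mul_mod, ← mul_assoc, Nat.mul_mod, hc, one_mul,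
      Nat.mod_mod, Nat.mod_eq_of_lt (Finset.mem_range.1 hb)]
  · intro i _
    rw [coeffMap_twist, map_pow, hu, ← pow_mul, pow_eq_pow_mod _ hp1, coe_galX]

/-- On characters the correspondence is `matT`. -/
theorem IsChar.hecke (_hM : 3 ≤ M) {ℓ : ℕ} [NeZero ℓ] {p : ℕ} [NeZero p] (hp : p.Prime)
    (hpM : ¬ p ∣ M) {x z : FQ M} {v : Fin (rk M) → ZMod ℓ} (hx : IsChar M ℓ x v)
    (h : IsTp M p x z) :
    IsChar M ℓ z ((matT M p).map (Int.castRingHom (ZMod ℓ)) *ᵥ v) := by
  obtain ⟨hx0, g, φ, hφ, hg, hgφ, hv⟩ := hx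
  have hcs := isCosetSystem_betaP M hp hpM
  have hG : MeroH (∏ i : Option (Fin p), fun τ => g (betaP M p i • τ)) :=
    meroH_prod _ fun i _ => Residual.meroH_comp_gl hg.meroH (det_betaP_pos hp.ne_zero i)
  refine isChar_of_root (h.ne_zero hx0) hG ?_ (transP_isParEllHom M p hφ) (fun γ τ => ?_)
    fun i => ?_
  · refine EqPunct.trans ?_ h.eqPunct.symm
    rw [← Finset.prod_pow, tpFun]
    exact eqPunct_prod _ fun i _ =>
      Residual.eqPunct_comp_gl hg.eqPunct (det_betaP_pos hp.ne_zero i)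
  · rw [Finset.prod_apply, Finset.prod_apply, transP, dif_pos ⟨hp, hpM⟩, hcs.transfer_apply,
      addChar_map_sum,
      ← Equiv.prod_comp (hcs.permEquiv γ) (fun i => g (betaP M p i • τ)),
      ← Finset.prod_mul_distrib]
    refine Finset.prod_congr rfl fun i _ => ?_
    show g (betaP M p i • pmGL M γ • τ) = _
    rw [← mul_smul, hcs.spec, mul_smul]
    exact hgφ _ _
  · rw [transP_eq_sum M p hφ]
    simp [Matrix.mulVec, dotProduct, hv]

/-- On characters the substitution `gam0` is `matD`. -/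
theorem IsChar.dia {ℓ : ℕ} [NeZero ℓ] (p : ℕ) {x : FQ M} {v : Fin (rk M) → ZMod ℓ}
    (hx : IsChar M ℓ x v) :
    IsChar M ℓ (actQ M (gam0 M p) x) ((matD M p).map (Int.castRingHom (ZMod ℓ)) *ᵥ v) := by
  obtain ⟨hx0, g, φ, hφ, hg, hgφ, hv⟩ := hx
  refine isChar_of_root (fun h0 => hx0 ((actQ M (gam0 M p)).injective (h0.trans (map_zero _).symm)))
    (hg.meroH.comp_smul (gam0 M p))
    (((Places.eqPunct_comp_smul hg.eqPunct (gam0 M p))).trans (funQ_actQ _ _).symm)
    (diaP_isParEllHom M p hφ) (fun γ τ => ?_) fun i => ?_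
  · show g (gam0 M p • (γ : SL(2, ℤ)) • τ) =
      ZMod.stdAddChar (φ (Additive.ofMul (conjG M p γ))) * g (gam0 M p • τ)
    rw [← hgφ, smul_smul, smul_smul]
    refine congrArg g (congrArg (fun δ : SL(2, ℤ) => δ • τ) ?_)
    show _ = gam0 M p * (γ : SL(2, ℤ)) * (gam0 M p)⁻¹ * gam0 M p
    group
  · rw [diaP_eq_sum M p hφ]
    simp [Matrix.mulVec, dotProduct, hv]

end Fermat.Agent.DeligneSerre.Level

end
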