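import Fermat.Agent.DeligneSerre.RepsMero
import Fermat.Agent.Igusa.BranchValues
import Fermat.Agent.Curve.GaussReduction

/-!
# Ramification of `j` on the curve of level `M`, and isolated branch values
-/

set_option autoImplicit false
set_option linter.style.haveILetI false

noncomputable section

open AlgebraicCurve ModularCurve IntermediateField

namespace Fermat.Agent.DeligneSerre.Level

open Fermat.Agent.Igusa.Fibre (jt coeffMap_jt)

local notation "ℚbar" => AlgebraicClosure ℚ

theorem jRamified_FC (M : ℕ) [NeZero M] (v : Place ℂ (FC M)) :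
    Igusa.JRamified v (jFC M) := by
  have key : ∀ (c : ℂ) (m : ℕ), (∀ τ, ModFun.jfun τ = c → Places.ellPeriod ⊤ τ = m) →
      v.ord ((xModel M).jF - algebraMap ℂ _ c) ≤ m := by
    intro c m hc
    rcases le_or_gt (v.ord ((xModel M).jF - algebraMap ℂ _ c)) 0 with h | h
    · exact h.trans (by positivity)
    obtain ⟨τ, hτ, rfl⟩ := ((xModel M).ord_jF_sub_pos_iff v c).1 h
    have h2 := (xModel M).ord_jF_sub_jfun τ
    rw [hc τ hτ, hτ] at h2
    have h3 := Places.ellPeriod_pos (xModel M).neg_one_mem τ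
    nlinarith
  refine ⟨?_, ?_, fun c h0 h1 => (xModel M).ord_jF_sub_le_one v h0 h1⟩
  · have h := key 0 3 fun τ hτ => by rw [Places.ellPeriod_top_eq, if_pos hτ]
    rw [map_zero, sub_zero] at h
    exact_mod_cast h
  · exact_mod_cast key 1728 2 fun τ hτ => by
      rw [Places.ellPeriod_top_eq, hτ, if_neg (by norm_num), if_pos rfl]

/-- `j` on the curve of level `M` is ramified at most as the modular `j`. -/
theorem jRamified_FQ (M : ℕ) [NeZero M] (P : Place ℚbar (FQ M)) :
    Igusa.JRamified P (jFQ M) := by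
  haveI : Algebra.IsAlgebraic ℚ ℚbar := AlgebraicClosure.isAlgebraic ℚ
  letI : Algebra ℚbar ℂ := qbarC.toAlgebra
  letI : Algebra ℚbar (FC M) := ((algebraMap ℂ (FC M)).comp qbarC).toAlgebra
  letI : Algebra (FQ M) (FC M) := (toFC M).toAlgebra
  haveI : IsScalarTower ℚbar ℂ (FC M) := IsScalarTower.of_algebraMap_eq' rfl
  haveI : IsScalarTower ℚbar (FQ M) (FC M) := by
    refine IsScalarTower.of_algebraMap_eq fun a => Subtype.ext ?_
    show algebraMap ℂ (LaurentSeries ℂ) (qbarC a) =
      coeffMap qbarC (algebraMap ℚbar (LaurentSeries ℚbar) a)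
    rw [algebraMap_laurentSeries_eq_single, algebraMap_laurentSeries_eq_single, coeffMap_single]
  have h : ∀ x : FQ M, ((algebraMap (FQ M) (FC M) x : FC M) : LaurentSeries ℂ) =
      coeffMap qbarC (x : LaurentSeries ℚbar) := fun _ => rfl
  haveI : Curve.IsConstExt ℚbar (FQ M) ℂ (FC M) := by
    refine Curve.isConstExt_laurent h (IntermediateField.adjoin.mono _ _ _ ?_)
    rintro x (rfl | ⟨i, rfl⟩)
    · exact ⟨jt M ℚbar, jt_mem_fieldX M _, coeffMap_jt M _⟩
    · refine ⟨ySer ℚbar (zetaQ M) i, ySer_mem_fieldX M _ i, ?_⟩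
      rw [coeffMap_ySer, show algebraMap ℚbar ℂ (zetaQ M) = zetaC M from qbarC_zetaQ M]
  have hC := jRamified_FC M (Curve.placeExt ℂ (FC M) P)
  have hj : algebraMap (FQ M) (FC M) (jFQ M) = jFC M := Subtype.ext (coeffMap_jt M _)
  have hord : ∀ c : ℚbar, P.ord (jFQ M - algebraMap _ _ c) =
      (Curve.placeExt ℂ (FC M) P).ord (jFC M - algebraMap ℂ _ (qbarC c)) := by
    intro c
    rw [← Curve.ord_placeExt (Ω := ℂ) (E := FC M) P, map_sub, hj,
      ← IsScalarTower.algebraMap_apply, IsScalarTower.algebraMap_apply ℚbar ℂ]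
    rfl
  refine ⟨?_, ?_, fun c h0 h1 => ?_⟩
  · have h' := hord 0
    rw [map_zero, map_zero, map_zero, sub_zero, sub_zero] at h'
    rw [h']
    exact hC.le_three
  · rw [hord 1728, map_ofNat]
    exact hC.le_two
  · rw [hord c]
    exact hC.le_one _ ((map_ne_zero qbarC).2 h0) fun hh => h1 (qbarC.injective (by rw [hh, map_ofNat]))

section Isolated

variable {K : Type*} [Field K] {A : ValuationSubring K} {F : Type*} [Field F] [Algebra K F]
  {k : Type*} [Field k] {Fb : Type*} [Field Fb] [Algebra k Fb]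

/-- If the only branch values are `0` and `b`, with `b` a unit, they are isolated. -/
theorem branchIsolated_of_two (G : Curve.GaussReduction A F k Fb) (b : A) (hb : G.π b ≠ 0)
    (hord : ∀ α : K, α ≠ 0 → α ≠ (b : K) → ∀ P : Place K F,
      0 < P.ord ((G.x : F) - algebraMap K F α) → P.ord ((G.x : F) - algebraMap K F α) = 1) :
    G.BranchIsolated := by
  intro a
  by_cases ha0 : G.π a = 0
  · refine ⟨0, by rw [map_zero, ha0], fun α hα hne => hord α (fun h => hne (Subtype.ext h)) ?_⟩
    intro h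
    rw [show α = b from Subtype.ext h, ha0] at hα
    exact hb hα
  by_cases hab : G.π a = G.π b
  · refine ⟨b, hab.symm, fun α hα hne => hord α ?_ fun h => hne (Subtype.ext h)⟩
    intro h
    rw [show α = 0 from Subtype.ext h, map_zero] at hα
    exact ha0 hα.symm
  · refine ⟨a, rfl, fun α hα _ => hord α ?_ ?_⟩
    · intro h
      rw [show α = 0 from Subtype.ext h, map_zero] at hα
      exact ha0 hα.symm
    · intro h
      rw [show α = b from Subtype.ext h] at hα
      exact hab hα.symm

/-- The same for `1 / x`. -/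
theorem branchIsolated_swap_of_two (G : Curve.GaussReduction A F k Fb) {b : A} (hb : IsUnit b)
    (hord : ∀ α : K, α ≠ 0 → α ≠ (b : K) → ∀ P : Place K F,
      0 < P.ord ((G.x : F) - algebraMap K F α) → P.ord ((G.x : F) - algebraMap K F α) = 1) :
    G.swap.BranchIsolated := by
  obtain ⟨u, rfl⟩ := hb
  have huu : ((u : A) : K) * ((↑u⁻¹ : A) : K) = 1 := by
    rw [← MulMemClass.coe_mul, ← Units.val_mul, mul_inv_cancel]
    rfl
  refine branchIsolated_of_two G.swap (↑u⁻¹ : A)
    ((u⁻¹.isUnit.map G.swap.π).ne_zero) fun α h0 hα P hP => ?_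
  rw [Curve.GaussReduction.coe_swap_x] at hP ⊢
  have hx : (G.x : F) ≠ 0 := G.x_ne_zero
  have ha : algebraMap K F α ≠ 0 := by simpa using h0
  have hne : (G.x : F)⁻¹ - algebraMap K F α ≠ 0 := fun h => by
    rw [h, Place.ord_zero] at hP; omega
  have hne' : (G.x : F) - algebraMap K F α⁻¹ ≠ 0 := fun h => hne (by
    rw [sub_eq_zero] at h
    rw [h, map_inv₀, inv_inv, sub_self])
  have hfac : (G.x : F)⁻¹ - algebraMap K F α =
      -(algebraMap K F α * (G.x : F)⁻¹) * ((G.x : F) - algebraMap K F α⁻¹) := by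
    rw [map_inv₀]
    field_simp
    ring
  have hinv : P.ord (G.x : F)⁻¹ = 0 := by
    have h1 : (G.x : F)⁻¹ = algebraMap K F α + ((G.x : F)⁻¹ - algebraMap K F α) := by ring
    have h2 := Curve.ord_algebraMap P α
    rw [h1, Curve.ord_add_eq_left P ha (fun _ => by rw [h2]; exact hP), h2]
  have hordeq : P.ord ((G.x : F)⁻¹ - algebraMap K F α) =
      P.ord ((G.x : F) - algebraMap K F α⁻¹) := by
    rw [hfac, P.ord_mul (by simp [ha, hx]) hne', Curve.ord_neg, P.ord_mul ha (inv_ne_zero hx),
      Curve.ord_algebraMap, hinv]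
    ring
  rw [hordeq] at hP ⊢
  refine hord α⁻¹ (inv_ne_zero h0) (fun h => hα ?_) P hP
  rw [← inv_inv α, h, inv_eq_of_mul_eq_one_right huu]

end Isolated

end Fermat.Agent.DeligneSerre.Level

end
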