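import Fermat.Agent.DeligneSerre.RepsFields
import Fermat.Agent.Igusa.HauptmodulSeries
import Fermat.Prelude.Def_AlgebraicCurve_Correspondence
import Mathlib.GroupTheory.Perm.Cycle.Type

/-!
# Changing the level by a factor `2` or `3`
-/

set_option autoImplicit false
set_option linter.unusedSectionVars false
set_option linter.style.haveILetI false
set_option synthInstance.maxHeartbeats 400000

noncomputable section

open ModularCurve AlgebraicCurve IntermediateField
open scoped MatrixGroups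

namespace Fermat.Agent.DeligneSerre.Level

open Fermat.Agent.Igusa.Fibre (jt q₀ jG jX_q₀ jV_smul independent_jqNModC)

local notation "ℚbar" => AlgebraicClosure ℚ

variable (M r : ℕ) [NeZero M] [NeZero r]

/-! Scaling the indices -/

/-- Multiplication by `r` from `ℤ / M` to `ℤ / M r`. -/
def scZ : ZMod M →+ ZMod (M * r) :=
  ZMod.lift M ⟨(AddMonoidHom.mulLeft (r : ZMod (M * r))).comp (Int.castAddHom (ZMod (M * r))), by
    show (r : ZMod (M * r)) * ((M : ℤ) : ZMod (M * r)) = 0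
    rw [Int.cast_natCast, ← Nat.cast_mul, mul_comm, ZMod.natCast_self]⟩

theorem scZ_natCast (n : ℕ) : scZ M r (n : ZMod M) = ((r * n : ℕ) : ZMod (M * r)) := by
  rw [show (n : ZMod M) = ((n : ℤ) : ZMod M) from (Int.cast_natCast n).symm, scZ, ZMod.lift_coe]
  show (r : ZMod (M * r)) * ((n : ℤ) : ZMod (M * r)) = _
  rw [Int.cast_natCast, Nat.cast_mul]

theorem scZ_injective : Function.Injective (scZ M r) := by
  refine (injective_iff_map_eq_zero _).2 fun a ha => ?_
  rw [← ZMod.natCast_zmod_val a, scZ_natCast, ZMod.natCast_eq_zero_iff, mul_comm M r,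
    Nat.mul_dvd_mul_iff_left (NeZero.pos r)] at ha
  rw [← ZMod.natCast_zmod_val a, (ZMod.natCast_eq_zero_iff _ _).2 ha]

theorem scZ_natCast_mul (k : ℕ) (a : ZMod M) :
    scZ M r ((k : ZMod M) * a) = (k : ZMod (M * r)) * scZ M r a := by
  rw [← nsmul_eq_mul, map_nsmul, nsmul_eq_mul]

/-- The index scaled by `r`. -/
abbrev scVec (v : Vec M) : Vec (M * r) := fun i => scZ M r (v i)

theorem scVec_eq_zero_iff {v : Vec M} : scVec M r v = 0 ↔ v = 0 := by
  constructor
  · intro h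
    funext i
    exact scZ_injective M r ((congrFun h i).trans (map_zero _).symm)
  · rintro rfl
    exact funext fun _ => map_zero _

section Scale

variable {K : Type*} [Field K] (ζ : K) (hζ : ζ ^ (M * r) = 1)

include hζ

theorem zpowZ_scZ (a : ZMod M) : zpowZ K ζ (scZ M r a) = zpowZ K (ζ ^ r) a := by
  conv_lhs => rw [← ZMod.natCast_zmod_val a]
  rw [scZ_natCast, zpowZ_natCast ζ hζ, zpowZ, pow_mul]

theorem xCoeff_scVec_zero (v : Vec M) :
    xCoeff K ζ (scVec M r v) 0 = xCoeff K (ζ ^ r) v 0 := by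
  simp only [xCoeff, scVec, zpowZ_scZ M r ζ hζ, map_eq_zero_iff _ (scZ_injective M r)]

theorem xCoeff_scVec (v : Vec M) (n : ℕ) :
    xCoeff K ζ (scVec M r v) (r * (n + 1)) = xCoeff K (ζ ^ r) v (n + 1) := by
  obtain ⟨m, hm⟩ := Nat.exists_eq_succ_of_ne_zero (n := r * (n + 1))
    (Nat.mul_ne_zero (NeZero.ne r) n.succ_ne_zero)
  rw [hm]
  simp only [xCoeff, scVec]
  rw [show m + 1 = r * (n + 1) from hm.symm]
  symm
  refine Finset.sum_of_injOn (fun kd => (kd.1, r * kd.2)) ?_ ?_ ?_ ?_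
  · intro a _ b _ h
    simp only [Prod.mk.injEq] at h
    exact Prod.ext h.1 (Nat.eq_of_mul_eq_mul_left (NeZero.pos r) h.2)
  · intro a ha
    simp only [Finset.mem_coe, Nat.mem_divisorsAntidiagonal] at ha ⊢
    exact ⟨by rw [← ha.1]; ring, Nat.mul_ne_zero (NeZero.ne r) ha.2⟩
  · intro a ha hna
    have key : ∀ c : ZMod M, (a.2 : ZMod (M * r)) ≠ scZ M r c := by
      intro c hc
      rw [← ZMod.natCast_zmod_val c, scZ_natCast, ZMod.natCast_eq_natCast_iff] at hc
      have hra : r ∣ a.2 :=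
        Nat.modEq_zero_iff_dvd.1 ((hc.of_dvd (dvd_mul_left r M)).trans
          (Nat.modEq_zero_iff_dvd.2 (dvd_mul_right r _)))
      obtain ⟨d, hd⟩ := hra
      refine hna ⟨(a.1, d), ?_, by rw [Prod.ext_iff]; exact ⟨rfl, hd.symm⟩⟩
      simp only [Finset.mem_coe, Nat.mem_divisorsAntidiagonal] at ha ⊢
      refine ⟨Nat.eq_of_mul_eq_mul_left (NeZero.pos r) ?_, n.succ_ne_zero⟩
      rw [← ha.1, hd]
      ring
    rw [if_neg (key _), if_neg (by rw [← map_neg]; exact key _)]
    simp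
  · intro a _
    have h : ∀ c : ZMod M, ((a.2 : ZMod M) = c ↔ ((r * a.2 : ℕ) : ZMod (M * r)) = scZ M r c) :=
      fun c => by rw [← scZ_natCast, (scZ_injective M r).eq_iff]
    have e1 : (a.1 : ZMod (M * r)) * scZ M r (v 1) = scZ M r ((a.1 : ZMod M) * v 1) :=
      (scZ_natCast_mul M r _ _).symm
    show _ = (a.1 : K) * _
    rw [e1, ← map_neg (scZ M r) ((a.1 : ZMod M) * v 1), ← map_neg (scZ M r) (v 0),
      zpowZ_scZ M r ζ hζ, zpowZ_scZ M r ζ hζ]
    simp only [← h]

theorem xCoeff_scVec_of_not_dvd (v : Vec M) {n : ℕ} (hn : ¬ r ∣ n) :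
    xCoeff K ζ (scVec M r v) n = 0 := by
  cases n with
  | zero => exact absurd (dvd_zero r) hn
  | succ n =>
    simp only [xCoeff, scVec]
    refine Finset.sum_eq_zero fun a ha => ?_
    have key : ∀ c : ZMod M, (a.2 : ZMod (M * r)) ≠ scZ M r c := by
      intro c hc
      rw [← ZMod.natCast_zmod_val c, scZ_natCast, ZMod.natCast_eq_natCast_iff] at hc
      have hra : r ∣ a.2 :=
        Nat.modEq_zero_iff_dvd.1 ((hc.of_dvd (dvd_mul_left r M)).trans
          (Nat.modEq_zero_iff_dvd.2 (dvd_mul_right r _)))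
      rw [Nat.mem_divisorsAntidiagonal] at ha
      exact hn (ha.1 ▸ dvd_mul_of_dvd_right hra _)
    rw [if_neg (key _), if_neg (by rw [← map_neg]; exact key _)]
    simp

theorem qExpand_xSer (v : Vec M) :
    qExpand K r (xSer K (ζ ^ r) v) = xSer K ζ (scVec M r v) := by
  by_cases hv : v = 0
  · subst hv
    rw [(scVec_eq_zero_iff M r).2 rfl, xSer_zero, xSer_zero, map_zero]
  have hv' : scVec M r v ≠ 0 := fun h => hv ((scVec_eq_zero_iff M r).1 h)
  ext k
  by_cases hk : (r : ℤ) ∣ k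
  · obtain ⟨m, rfl⟩ := hk
    rw [qExpand_coeff_mul]
    rcases lt_or_ge m 0 with hm | hm
    · rw [xSer_coeff_of_neg K _ v hm, xSer_coeff_of_neg K _ _
        (mul_neg_of_pos_of_neg (by exact_mod_cast NeZero.pos r) hm)]
    · obtain ⟨n, rfl⟩ := Int.eq_ofNat_of_zero_le hm
      rw [xSer_coeff_natCast K _ hv, ← Nat.cast_mul, xSer_coeff_natCast K _ hv']
      cases n with
      | zero => rw [mul_zero, xCoeff_scVec_zero M r ζ hζ]
      | succ n => rw [xCoeff_scVec M r ζ hζ]
  · rw [qExpand_coeff_of_not_dvd r _ hk]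
    rcases lt_or_ge k 0 with hm | hm
    · rw [xSer_coeff_of_neg K _ _ hm]
    · obtain ⟨n, rfl⟩ := Int.eq_ofNat_of_zero_le hm
      rw [xSer_coeff_natCast K _ hv',
        xCoeff_scVec_of_not_dvd M r ζ hζ v fun h => hk (by exact_mod_cast h)]

theorem qExpand_ySer (i : Idx M) :
    qExpand K r (ySer K (ζ ^ r) i) = ySer K ζ ((scVec M r i.1, scVec M r i.2) : Idx (M * r)) := by
  simp only [ySer, scVec_eq_zero_iff]
  split
  · exact map_zero _
  · rw [map_mul, map_sub, qExpand_xSer M r ζ hζ, qExpand_xSer M r ζ hζ, wSer, wSer,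
      qExpand_qExpand, qExpand_congr (mul_comm r M)]

end Scale

theorem qExpand_jt (K : Type*) [Field K] : qExpand K r (jt M K) = jt (M * r) K := by
  rw [jt, jt, qExpand_qExpand, qExpand_congr (mul_comm r M)]

theorem zetaQ_mul_pow : zetaQ (M * r) ^ r = zetaQ M := by
  apply qbarC.injective
  rw [map_pow, qbarC_zetaQ, qbarC_zetaQ, zetaC, zetaC, ← Complex.exp_nat_mul]
  have h1 : (M : ℂ) ≠ 0 := Nat.cast_ne_zero.2 (NeZero.ne M)
  have h2 : (r : ℂ) ≠ 0 := Nat.cast_ne_zero.2 (NeZero.ne r)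
  congr 1
  push_cast
  field_simp

theorem map_FQ_le : (FQ M).map (qExpandAlgHomC ℚbar r) ≤ FQ (M * r) := by
  rw [FQ, fieldX, adjoin_map, adjoin_le_iff]
  rintro _ ⟨x, rfl | ⟨i, rfl⟩, rfl⟩
  · rw [qExpandAlgHomC_apply, qExpand_jt]
    exact jt_mem_fieldX _ _
  · rw [qExpandAlgHomC_apply, ← zetaQ_mul_pow M r,
      qExpand_ySer M r _ (isPrimitiveRoot_zetaQ (M * r)).pow_eq_one]
    exact ySer_mem_fieldX _ _ _

/-- In the parameter of level `M r` the field of level `M` is `qExpand r` of itself. -/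
theorem qExpand_mem_FQ_mul {x : LaurentSeries ℚbar} (hx : x ∈ FQ M) :
    qExpand ℚbar r x ∈ FQ (M * r) :=
  map_FQ_le M r ⟨x, hx, rfl⟩

/-- The inclusion of levels. -/
def levelUp : FQ M →+* FQ (M * r) :=
  ((qExpand ℚbar r).comp (FQ M).val.toRingHom).codRestrict _
    fun x => qExpand_mem_FQ_mul M r x.2

theorem coe_levelUp (x : FQ M) :
    (levelUp M r x : LaurentSeries ℚbar) = qExpand ℚbar r (x : LaurentSeries ℚbar) := rfl

/-! Degrees -/

theorem relfinrank_adjoin_jt (N : ℕ) [NeZero N] :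
    relfinrank ℚbar⟮jt N ℚbar⟯ (FQ N) = (pmGroup N).index := by
  rw [← finrank_FQ N, ← relfinrank_top_right ℚbar⟮jFQ N⟯,
    ← relfinrank_map_map ℚbar⟮jFQ N⟯ ⊤ (FQ N).val, adjoin_map, Set.image_singleton,
    ← AlgHom.fieldRange_eq_map, fieldRange_val]
  rfl

theorem pmGroup_mul_le : pmGroup (M * r) ≤ pmGroup M := by
  intro γ hγ
  have key : modM M γ = (modM (M * r) γ).map (ZMod.castHom (dvd_mul_right M r) (ZMod M)) := by
    ext i j
    simp [modM]
  rcases hγ with h | h
  · left; rw [key, h, Matrix.map_one _ (map_zero _) (map_one _)]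
  · right
    rw [key, h, Matrix.map_neg _ (map_neg _), Matrix.map_one _ (map_zero _) (map_one _)]

theorem relfinrank_map_FQ : relfinrank ((FQ M).map (qExpandAlgHomC ℚbar r)) (FQ (M * r)) =
    (pmGroup (M * r)).relIndex (pmGroup M) := by
  have hj : ℚbar⟮jt (M * r) ℚbar⟯ = ℚbar⟮jt M ℚbar⟯.map (qExpandAlgHomC ℚbar r) := by
    rw [adjoin_map, Set.image_singleton, qExpandAlgHomC_apply, qExpand_jt]
  have h1 : ℚbar⟮jt M ℚbar⟯ ≤ FQ M := adjoin_simple_le_iff.2 (jt_mem_fieldX M _)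
  have h2 := relfinrank_mul_relfinrank (IntermediateField.map_mono (qExpandAlgHomC ℚbar r) h1)
    (map_FQ_le M r)
  rw [relfinrank_map_map, ← hj, relfinrank_adjoin_jt, relfinrank_adjoin_jt,
    ← Subgroup.relIndex_mul_index (pmGroup_mul_le M r), mul_comm _ (pmGroup M).index] at h2
  exact Nat.eq_of_mul_eq_mul_left
    (Nat.pos_of_ne_zero (pmGroup_finiteIndex (M := M)).index_ne_zero) h2

theorem relIndex_pmGroup_ne_zero : (pmGroup (M * r)).relIndex (pmGroup M) ≠ 0 := fun h => by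
  have h2 := Subgroup.relIndex_mul_index (pmGroup_mul_le M r)
  rw [h, zero_mul] at h2
  exact (pmGroup_finiteIndex (M := M * r)).index_ne_zero h2.symm

theorem finite_extendScalars :
    Module.Finite ((FQ M).map (qExpandAlgHomC ℚbar r)) (extendScalars (map_FQ_le M r)) :=
  Module.finite_of_finrank_pos (Nat.pos_of_ne_zero (by
    rw [← relfinrank_eq_finrank_of_le, relfinrank_map_FQ]
    exact relIndex_pmGroup_ne_zero M r))

/-- The inclusion of levels as a homomorphism of algebras. -/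
def levelUpAlg : FQ M →ₐ[ℚbar] FQ (M * r) :=
  ((qExpandAlgHomC ℚbar r).comp (FQ M).val).codRestrict (FQ (M * r)).toSubalgebra
    fun x => qExpand_mem_FQ_mul M r x.2

theorem isIntegral_levelUpAlg : (levelUpAlg M r).toRingHom.IsIntegral := by
  intro y
  haveI := finite_extendScalars M r
  obtain ⟨P, hP, hP0⟩ := Algebra.IsIntegral.isIntegral (R := (FQ M).map (qExpandAlgHomC ℚbar r))
    (⟨(y : LaurentSeries ℚbar), y.2⟩ : extendScalars (map_FQ_le M r))
  let e := equivMap (FQ M) (qExpandAlgHomC ℚbar r)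
  refine ⟨P.map e.symm.toRingHom, hP.map _, ?_⟩
  rw [Polynomial.eval₂_map]
  apply (FQ (M * r)).val.toRingHom.injective
  have h0 := congrArg (fun z : extendScalars (map_FQ_le M r) => (z : LaurentSeries ℚbar)) hP0
  rw [Polynomial.hom_eval₂, map_zero]
  refine Eq.trans ?_ h0
  show _ = (extendScalars (map_FQ_le M r)).val.toRingHom _
  rw [Polynomial.hom_eval₂]
  refine Polynomial.eval₂_congr (RingHom.ext fun a => ?_) rfl rfl
  show qExpand ℚbar r ((e.symm a : FQ M) : LaurentSeries ℚbar) = (a : LaurentSeries ℚbar)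
  exact congrArg Subtype.val (e.apply_symm_apply a)

theorem dvd_ord_levelUp {n : ℕ} {x : FQ M} (_hx : x ≠ 0)
    (hdvd : ∀ v : Place ℚbar (FQ M), (n : ℤ) ∣ v.ord x) (v : Place ℚbar (FQ (M * r))) :
    (n : ℤ) ∣ v.ord (levelUp M r x) := by
  show (n : ℤ) ∣ v.ord (levelUpAlg M r x)
  rw [Place.ord_restrictAlong _ (isIntegral_levelUpAlg M r)]
  exact (hdvd _).mul_left _

/-- `j (e τ)` lies in the field of every level divisible by `e`. -/
theorem qExpand_jqNModC_mem_fieldX {R : Subring ℂ} (hR : Base M R) {K : Type*} [Field K]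
    (f : R →+* K) (hsep : ∃ c : Idx M → R, Separating hR f c) {e : ℕ} [NeZero e] (he : e ∣ M) :
    qExpand K M (jqNModC K e) ∈ fieldX M K (f hR.ζ) := by
  obtain ⟨c, hc⟩ := hsep
  have hu : Equivariant (fun g => jG hR.root he (qOf (M := M) g)) := fun γ g τ => by
    show Igusa.Fibre.jV e (qOf g) (γ • τ) = Igusa.Fibre.jV e (qOf (g * (γ : XGrp M))) τ
    rw [jV_smul he, qOf_mul]
  have h := redG_mem_fieldX hc hu 1
  rw [show redG f (jG hR.root he (qOf (M := M) 1)) =
    coeffMap f (Igusa.Fibre.jX hR.root he (qOf (M := M) 1)) from rfl, qOf_one, jX_q₀,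
    coeffMap_qExpand, coeffMap_jqNModC] at h
  exact h

open Polynomial in
/-- The degree of `j (e τ)` over `K (j)` is at least the index of `Γ₀(e)`. -/
theorem card_coset_le_relfinrank {V : Subring ℂ} {K : Type*} [Field K] (f : V →+* K)
    {e : ℕ} [NeZero e] (hroot : ∀ d, d ∣ e → ∃ z : Vˣ, Units.map V.subtype z = ModFun.zetaU d)
    (hN : IsUnit (e : V)) {E : IntermediateField K (LaurentSeries K)}
    (h1 : K⟮jqModC K⟯ ≤ E) (hx : jqNModC K e ∈ E) (h0 : relfinrank K⟮jqModC K⟯ E ≠ 0) :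
    Fintype.card (Gamma0.Coset e) ≤ relfinrank K⟮jqModC K⟯ E := by
  rw [relfinrank_eq_finrank_of_le h1] at h0 ⊢
  haveI : Module.Finite K⟮jqModC K⟯ (extendScalars h1) :=
    Module.finite_of_finrank_pos (Nat.pos_of_ne_zero h0)
  have hind : LinearIndependent K⟮jqModC K⟯
      fun i : Fin (Fintype.card (Gamma0.Coset e)) =>
        (⟨jqNModC K e ^ (i : ℕ), pow_mem hx _⟩ : extendScalars h1) := by
    refine LinearIndependent.of_comp (extendScalars h1).val.toLinearMap ?_
    rw [Fintype.linearIndependent_iff]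
    intro g hg
    simp only [Function.comp_apply, AlgHom.toLinearMap_apply, IntermediateField.coe_val] at hg
    have key : ∀ i, ∃ P Q : K[X], aeval (jqModC K) Q ≠ 0 ∧
        (g i : LaurentSeries K) * aeval (jqModC K) Q = aeval (jqModC K) P := by
      intro i
      obtain ⟨P, Q, h⟩ := (mem_adjoin_simple_iff K (g i : LaurentSeries K)).1 (g i).2
      rcases eq_or_ne (aeval (jqModC K) Q) 0 with hQ | hQ
      · exact ⟨0, 1, by simp, by simp [h, hQ]⟩
      · exact ⟨P, Q, hQ, by rw [h, div_mul_cancel₀ _ hQ]⟩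
    choose P Q hQ hPQ using key
    have ha := independent_jqNModC hroot hN f
      (fun i => P i * ∏ j ∈ Finset.univ.erase i, Q j) (by
        rw [← mul_zero (aeval (jqModC K) (∏ j, Q j)), ← hg, Finset.mul_sum]
        refine Finset.sum_congr rfl fun i _ => ?_
        rw [← Finset.mul_prod_erase _ _ (Finset.mem_univ i), map_mul, map_mul, ← hPQ i]
        show _ = _ * ((g i : LaurentSeries K) * jqNModC K e ^ (i : ℕ))
        ring)
    intro i
    have h := congrArg (aeval (jqModC K)) (congrFun ha i)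
    rw [map_mul, ← hPQ i, map_prod, Pi.zero_apply, map_zero, mul_assoc, mul_eq_zero] at h
    exact Subtype.ext (h.resolve_right (mul_ne_zero (hQ i)
      (Finset.prod_ne_zero_iff.2 fun j _ => hQ j)))
  simpa using hind.fintype_card_le_finrank

/-- A Hauptmodul of `X₀(e)` lies in `K (j, j (e τ))`. -/
theorem mem_adjoin_pair_of_hauptmodul {V : Subring ℂ} {K : Type*} [Field K] (f : V →+* K)
    {e : ℕ} [NeZero e] (hroot : ∀ d, d ∣ e → ∃ z : Vˣ, Units.map V.subtype z = ModFun.zetaU d)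
    (hN : IsUnit (e : V)) {t : LaurentSeries K} (hj : jqModC K ∈ K⟮t⟯)
    (hjN : jqNModC K e ∈ K⟮t⟯) {n : ℕ} (hn : n = Fintype.card (Gamma0.Coset e))
    (hdeg : relfinrank K⟮jqModC K⟯ K⟮t⟯ = n) (hn0 : n ≠ 0) :
    t ∈ adjoin K ({jqModC K, jqNModC K e} : Set (LaurentSeries K)) := by
  have h1 : K⟮jqModC K⟯ ≤ adjoin K ({jqModC K, jqNModC K e} : Set (LaurentSeries K)) :=
    adjoin.mono _ _ _ (by simp)
  have h2 : adjoin K ({jqModC K, jqNModC K e} : Set (LaurentSeries K)) ≤ K⟮t⟯ := by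
    rw [adjoin_le_iff]
    rintro x (rfl | rfl)
    · exact hj
    · exact hjN
  have h3 := relfinrank_mul_relfinrank h1 h2
  rw [hdeg] at h3
  have hne := left_ne_zero_of_mul (h3.trans_ne hn0)
  have hle := card_coset_le_relfinrank f hroot hN h1 (subset_adjoin _ _ (by simp)) hne
  rw [← hn] at hle
  have hne2 := right_ne_zero_of_mul (h3.trans_ne hn0)
  have hone : relfinrank (adjoin K ({jqModC K, jqNModC K e} : Set (LaurentSeries K))) K⟮t⟯ = 1 := by
    rcases Nat.lt_or_ge 1 (relfinrank (adjoin K ({jqModC K, jqNModC K e} : Set (LaurentSeries K)))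
      K⟮t⟯) with h | h
    · nlinarith [Nat.pos_of_ne_zero hne]
    · omega
  exact relfinrank_eq_one_iff.1 hone (mem_adjoin_simple_self K t)

theorem qExpand_mem_of_mem_adjoin_pair {R : Subring ℂ} (hR : Base M R) {K : Type*} [Field K]
    (f : R →+* K) (hsep : ∃ c : Idx M → R, Separating hR f c) {e : ℕ} [NeZero e] (he : e ∣ M)
    {t : LaurentSeries K}
    (ht : t ∈ adjoin K ({jqModC K, jqNModC K e} : Set (LaurentSeries K))) :
    qExpand K M t ∈ fieldX M K (f hR.ζ) := by
  have hle : (adjoin K ({jqModC K, jqNModC K e} : Set (LaurentSeries K))).map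
      (qExpandAlgHomC K M) ≤ fieldX M K (f hR.ζ) := by
    rw [adjoin_map, adjoin_le_iff]
    rintro _ ⟨x, rfl | rfl, rfl⟩
    · exact jt_mem_fieldX M _
    · exact qExpand_jqNModC_mem_fieldX M hR f hsep he
  exact hle ⟨t, ht, rfl⟩

theorem Base.isUnit_of_dvd {R : Subring ℂ} (hR : Base M R) {e : ℕ} (he : e ∣ M) :
    IsUnit (e : R) := by
  obtain ⟨d, rfl⟩ := he
  exact (IsUnit.mul_iff.1 (by simpa using hR.isUnit)).1

/-- `t₂` lies in the field of every even level. -/
theorem t2Series_mem_fieldX {R : Subring ℂ} (hR : Base M R) {K : Type*} [Field K] (f : R →+* K)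
    (hsep : ∃ c : Idx M → R, Separating hR f c) (h2 : 2 ∣ M) :
    qExpand K M (Igusa.t2Series K) ∈ fieldX M K (f hR.ζ) := by
  have hu := hR.isUnit_of_dvd M h2
  have h2K : (2 : K) ≠ 0 := by
    have := (hu.map f).ne_zero
    rwa [map_natCast] at this
  refine qExpand_mem_of_mem_adjoin_pair M hR f hsep h2 (mem_adjoin_pair_of_hauptmodul f
    (fun d hd => hR.root d (hd.trans h2)) hu
    (Igusa.adjoin_jq_le_adjoin_t2Series K (mem_adjoin_simple_self K _)) ?_ ?_
    (Igusa.relfinrank_t2Series K h2K) three_ne_zero)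
  · rw [(eq_div_iff Igusa.t2Series_ne_zero).2 (Igusa.jqN_mul_t2Series K)]
    exact div_mem (pow_mem (add_mem (mem_adjoin_simple_self K _) (ofNat_mem _ _)) _)
      (mem_adjoin_simple_self K _)
  · rw [← Nat.card_eq_fintype_card, Gamma0.card_coset]
    decide +kernel

/-- `t₃` lies in the field of every level divisible by `3`. -/
theorem t3Series_mem_fieldX {R : Subring ℂ} (hR : Base M R) {K : Type*} [Field K] (f : R →+* K)
    (hsep : ∃ c : Idx M → R, Separating hR f c) (h3 : 3 ∣ M) :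
    qExpand K M (Igusa.t3Series K) ∈ fieldX M K (f hR.ζ) := by
  have hu := hR.isUnit_of_dvd M h3
  have h3K : (3 : K) ≠ 0 := by
    have := (hu.map f).ne_zero
    rwa [map_natCast] at this
  refine qExpand_mem_of_mem_adjoin_pair M hR f hsep h3 (mem_adjoin_pair_of_hauptmodul f
    (fun d hd => hR.root d (hd.trans h3)) hu
    (Igusa.adjoin_jq_le_adjoin_t3Series K (mem_adjoin_simple_self K _)) ?_ ?_
    (Igusa.relfinrank_t3Series K h3K) four_ne_zero)
  · rw [(eq_div_iff Igusa.t3Series_ne_zero).2 (Igusa.jqN_mul_t3Series K)]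
    exact div_mem (mul_mem (add_mem (mem_adjoin_simple_self K _) (ofNat_mem _ _))
      (pow_mem (add_mem (mem_adjoin_simple_self K _) (ofNat_mem _ _)) _))
      (mem_adjoin_simple_self K _)
  · rw [← Nat.card_eq_fintype_card, Gamma0.card_coset]
    decide +kernel

/-- Units of `ℤ / r`-matrices of determinant one have exponent `24` for `r = 2, 3`. -/
theorem pow_eq_one_of_det_eq_one {r : ℕ} (hr : r = 2 ∨ r = 3) :
    ∀ g : Matrix (Fin 2) (Fin 2) (ZMod r), g.det = 1 → g ^ 24 = 1 := by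
  rcases hr with rfl | rfl
  · decide +kernel
  · decide +kernel

theorem map_castHom_modM {a b : ℕ} (h : a ∣ b) (γ : SL(2, ℤ)) :
    (modM b γ).map (ZMod.castHom h (ZMod a)) = modM a γ := by
  ext i j
  simp [modM]

theorem pow_mem_pmGroup_mul (hr : r = 2 ∨ r = 3) {γ : SL(2, ℤ)} (hγ : γ ∈ pmGroup M) :
    γ ^ 48 ∈ pmGroup (M * r) := by
  rw [show (48 : ℕ) = 2 * 24 from rfl, pow_mul]
  set δ := γ ^ 2
  have hδ : modM M δ = 1 := by
    rw [show δ = γ * γ from sq γ, modM_mul]
    rcases hγ with h | h <;> rw [h] <;> simp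
  have hMδ : modM M (δ ^ 24) = 1 := by
    rw [show modM M (δ ^ 24) = modM M δ ^ 24 from map_pow (modHom M) δ 24, hδ, one_pow]
  left
  rw [show modM (M * r) (δ ^ 24) = modM (M * r) δ ^ 24 from map_pow (modHom (M * r)) δ 24]
  by_cases hrM : r ∣ M
  · -- `(1 + M X) ^ r = 1` modulo `M r`
    obtain ⟨X, hX⟩ : ∃ X : Matrix (Fin 2) (Fin 2) (ZMod (M * r)),
        modM (M * r) δ = 1 + (M : ZMod (M * r)) • X := by
      have h1 : ∀ i j, (M : ℤ) ∣ (δ : Matrix (Fin 2) (Fin 2) ℤ) i j -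
          (1 : Matrix (Fin 2) (Fin 2) ℤ) i j := fun i j => by
        rw [← ZMod.intCast_zmod_eq_zero_iff_dvd, Int.cast_sub, sub_eq_zero]
        have h := congrArg (fun A : Matrix (Fin 2) (Fin 2) (ZMod M) => A i j) hδ
        simp only [modM_apply] at h
        rw [h]
        fin_cases i <;> fin_cases j <;> simp
      choose X hX using h1
      refine ⟨Matrix.of fun i j => (X i j : ZMod (M * r)), ?_⟩
      ext i j
      rw [modM_apply, sub_eq_iff_eq_add.1 (hX i j)]
      fin_cases i <;> fin_cases j <;> simp [add_comm]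
    obtain ⟨m, hm⟩ := hrM
    have hMM : ((M : ZMod (M * r)) * M) = 0 := by
      rw [← Nat.cast_mul, ZMod.natCast_eq_zero_iff]
      exact ⟨m, by rw [hm]; ring⟩
    have hrr : ((r : ZMod (M * r)) * M) = 0 := by
      rw [← Nat.cast_mul, mul_comm, ZMod.natCast_self]
    have hpow : (1 + (M : ZMod (M * r)) • X) ^ r = 1 := by
      have hsq : ((M : ZMod (M * r)) • X) * ((M : ZMod (M * r)) • X) = 0 := by
        rw [smul_mul_smul_comm, hMM, zero_smul]
      have hlin : ∀ k : ℕ, (1 + (M : ZMod (M * r)) • X) ^ k =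
          1 + (k : ZMod (M * r)) • ((M : ZMod (M * r)) • X) := by
        intro k
        induction k with
        | zero => simp
        | succ k ih =>
          rw [pow_succ, ih, mul_add, mul_one, add_mul, one_mul, smul_mul_assoc, hsq, smul_zero,
            add_zero, Nat.cast_succ, add_smul, one_smul, add_assoc]
      rw [hlin, smul_smul, hrr, zero_smul, add_zero]
    obtain ⟨k, hk⟩ : r ∣ 24 := by rcases hr with rfl | rfl <;> norm_num
    rw [hX, hk, pow_mul, hpow, one_pow]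
  · have hrp : r.Prime := by rcases hr with rfl | rfl <;> norm_num
    have hcop : Nat.Coprime M r := (hrp.coprime_iff_not_dvd.2 hrM).symm
    have hrδ : modM r δ ^ 24 = 1 := pow_eq_one_of_det_eq_one hr _ (det_modM δ)
    ext i j
    have hA : ((modM (M * r) δ ^ 24).map (ZMod.castHom (dvd_mul_right M r) (ZMod M))) = 1 := by
      rw [Matrix.map_pow, map_castHom_modM, hδ, one_pow]
    have hB : ((modM (M * r) δ ^ 24).map (ZMod.castHom (dvd_mul_left r M) (ZMod r))) = 1 := by
      rw [Matrix.map_pow, map_castHom_modM, hrδ]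
    have h1 := congrArg (fun A : Matrix (Fin 2) (Fin 2) (ZMod M) => A i j) hA
    have h2 := congrArg (fun A : Matrix (Fin 2) (Fin 2) (ZMod r) => A i j) hB
    simp only [Matrix.map_apply] at h1 h2
    obtain ⟨a, ha⟩ := ZMod.natCast_zmod_surjective
      ((modM (M * r) δ ^ 24) i j - (1 : Matrix (Fin 2) (Fin 2) (ZMod (M * r))) i j)
    have ha1 := congrArg (ZMod.castHom (dvd_mul_right M r) (ZMod M)) ha
    have ha2 := congrArg (ZMod.castHom (dvd_mul_left r M) (ZMod r)) ha
    rw [map_natCast, map_sub, h1] at ha1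
    rw [map_natCast, map_sub, h2] at ha2
    have hz1 : (a : ZMod M) = 0 := by
      rw [ha1]; fin_cases i <;> fin_cases j <;> simp
    have hz2 : (a : ZMod r) = 0 := by
      rw [ha2]; fin_cases i <;> fin_cases j <;> simp
    rw [ZMod.natCast_eq_zero_iff] at hz1 hz2
    rw [← sub_eq_zero, ← ha, ZMod.natCast_eq_zero_iff]
    exact hcop.mul_dvd_of_dvd_of_dvd hz1 hz2

theorem not_dvd_relIndex_pmGroup (hr : r = 2 ∨ r = 3) {ℓ : ℕ} (hℓ : ℓ.Prime) (hℓ5 : 5 ≤ ℓ) :
    ¬ ℓ ∣ (pmGroup (M * r)).relIndex (pmGroup M) := by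
  intro h
  haveI := Fact.mk hℓ
  set H := (pmGroup (M * r)).subgroupOf (pmGroup M)
  have hcard : (pmGroup (M * r)).relIndex (pmGroup M) = Nat.card (pmGroup M ⧸ H) := rfl
  haveI : Finite (pmGroup M ⧸ H) :=
    Nat.finite_of_card_ne_zero (hcard ▸ relIndex_pmGroup_ne_zero M r)
  obtain ⟨g, hg⟩ := exists_prime_orderOf_dvd_card' ℓ (hcard ▸ h)
  have h48 : g ^ 48 = 1 := by
    induction g using QuotientGroup.induction_on with
    | H x =>
      rw [← QuotientGroup.mk_pow, QuotientGroup.eq_one_iff, Subgroup.mem_subgroupOf,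
        Subgroup.coe_pow]
      exact pow_mem_pmGroup_mul M r hr x.2
  have hd : ℓ ∣ 2 ^ 4 * 3 := hg ▸ orderOf_dvd_of_pow_eq_one h48
  rcases hℓ.dvd_mul.1 hd with h' | h'
  · have := Nat.le_of_dvd two_pos (hℓ.dvd_of_dvd_pow h')
    omega
  · have := Nat.le_of_dvd (by norm_num) h'
    omega

/-- An element which becomes an `ℓ`th power at level `M r`, `r = 2, 3`, is one. -/
theorem exists_pow_of_levelUp (hr : r = 2 ∨ r = 3) {ℓ : ℕ} (hℓ : ℓ.Prime) (hℓ5 : 5 ≤ ℓ)
    {x : FQ M} (hx : ∃ y : FQ (M * r), y ^ ℓ = levelUp M r x) : ∃ y : FQ M, y ^ ℓ = x := by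
  obtain ⟨y, hy⟩ := hx
  haveI := finite_extendScalars M r
  set E := (FQ M).map (qExpandAlgHomC ℚbar r)
  set d := (pmGroup (M * r)).relIndex (pmGroup M)
  have hd : Module.finrank E (extendScalars (map_FQ_le M r)) = d := by
    rw [← relfinrank_eq_finrank_of_le, relfinrank_map_FQ]
  let e := equivMap (FQ M) (qExpandAlgHomC ℚbar r)
  have h1 : (⟨(y : LaurentSeries ℚbar), y.2⟩ : extendScalars (map_FQ_le M r)) ^ ℓ =
      algebraMap E (extendScalars (map_FQ_le M r)) (e x) :=
    Subtype.ext (congrArg (fun z : FQ (M * r) => (z : LaurentSeries ℚbar)) hy)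
  have h2 := congrArg (Algebra.norm E) h1
  rw [map_pow, Algebra.norm_algebraMap, hd] at h2
  have hcop : Nat.Coprime d ℓ :=
    ((hℓ.coprime_iff_not_dvd).2 (not_dvd_relIndex_pmGroup M r hr hℓ hℓ5)).symm
  obtain ⟨c, hc⟩ : ∃ c, (e x) ^ d = c ^ ℓ := ⟨_, h2.symm⟩
  set z := e.symm c
  have hz : x ^ d = z ^ ℓ := e.injective (by rw [map_pow, map_pow, hc, e.apply_symm_apply])
  obtain ⟨u, w, huw⟩ := Nat.isCoprime_iff_coprime.2 hcop
  refine ⟨z ^ u * x ^ w, ?_⟩
  rcases eq_or_ne x 0 with rfl | hx0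
  · have hd0 : d ≠ 0 := relIndex_pmGroup_ne_zero M r
    rw [zero_pow hd0] at hz
    have hz0 : z = 0 := eq_zero_of_pow_eq_zero hz.symm
    rw [hz0, mul_pow, pow_eq_zero_iff hℓ.ne_zero |>.2 (zero_zpow u ?_), zero_mul]
    intro hu
    rw [hu, zero_mul, zero_add] at huw
    have := Int.eq_one_or_neg_one_of_mul_eq_one' huw
    omega
  · rw [mul_pow, ← zpow_natCast (z ^ u), ← zpow_mul, mul_comm, ← zpow_natCast (x ^ w), ← zpow_mul,
      mul_comm u, zpow_mul z, zpow_natCast, ← hz, ← zpow_natCast, ← zpow_mul, ← zpow_add₀ hx0,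
      show w * (ℓ : ℤ) + (d : ℤ) * u = 1 by linear_combination huw, zpow_one]

end Fermat.Agent.DeligneSerre.Level

end
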