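import Fermat.Agent.DeligneSerre.RepsGoodLevel
import Fermat.Agent.DeligneSerre.RepsGoodBranch
import Fermat.Agent.DeligneSerre.RepsLevel
import Fermat.Agent.Igusa.TameChart
import Fermat.Agent.Curve.ModelGenus
import Fermat.Agent.Curve.ConnectedTorsion
import Fermat.Prelude.Def_FLTPrelim_Ramification

/-!
# Good reduction of the field of level `M` at `p ∤ M`, in Kummer form

For `p ≥ 5` the chart function is `j`, whose branch values `0, 1728, ∞` are distinct modulo `p`.
For `p = 3` we pass to level `2 M` and use the Hauptmodul of `Γ₀(2)`, for `p = 2` to level `3 M`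
and use that of `Γ₀(3)`.
-/

set_option autoImplicit false
set_option linter.style.haveILetI false
set_option synthInstance.maxHeartbeats 400000

noncomputable section

open ModularCurve AlgebraicCurve IntermediateField

namespace Fermat.Agent.DeligneSerre.Level

open Fermat.Agent.Igusa.Fibre (jt coeffMap_jt)

local notation "ℚbar" => AlgebraicClosure ℚ
local notation "kk" A => IsLocalRing.ResidueField A

theorem isUnit_natCast_of_coprime {A : ValuationSubring ℚbar} {p : ℕ} (hA : A.LiesOverPrime p)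
    {n : ℕ} (hn : Nat.Coprime p n) : IsUnit (n : A) := by
  obtain ⟨a, b, hab⟩ := Nat.isCoprime_iff_coprime.2 hn
  have h1 : (p : A) ∈ IsLocalRing.maximalIdeal A := by
    have h : ((p : A) : ℚbar) ∈ A.nonunits := by
      simpa [ValuationSubring.LiesOverPrime] using hA
    exact ValuationSubring.coe_mem_nonunits_iff.mp h
  by_contra hnu
  have h2 : (n : A) ∈ IsLocalRing.maximalIdeal A := (IsLocalRing.mem_maximalIdeal _).2 hnu
  have h3 : ((a : A) * (p : A) + (b : A) * (n : A)) ∈ IsLocalRing.maximalIdeal A :=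
    add_mem (Ideal.mul_mem_left _ _ h1) (Ideal.mul_mem_left _ _ h2)
  have h4 : (a : A) * (p : A) + (b : A) * (n : A) = 1 := by exact_mod_cast congrArg (Int.cast : ℤ → A) hab
  rw [h4] at h3
  exact (IsLocalRing.maximalIdeal.isMaximal A).ne_top ((Ideal.eq_top_iff_one _).2 h3)

theorem adjoin_qExpand (K : Type*) [Field K] (M : ℕ) [NeZero M] (s : LaurentSeries K) :
    K⟮qExpand K M s⟯ = K⟮s⟯.map (qExpandAlgHomC K M) := by
  rw [adjoin_map, Set.image_singleton, qExpandAlgHomC_apply]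

theorem transcendental_qExpand {K : Type*} [Field K] (M : ℕ) [NeZero M] {s : LaurentSeries K}
    (h : Transcendental K s) : Transcendental K (qExpand K M s) := fun h' =>
  h ((isAlgebraic_algHom_iff (qExpandAlgHomC K M) (qExpandAlgHomC K M).injective).1 h')

/-- Degree over `K (qExpand M s)` from the degree over `K (j)`. -/
theorem relfinrank_mul_eq {K : Type*} [Field K] (M : ℕ) [NeZero M] {s : LaurentSeries K}
    (hj : jqModC K ∈ K⟮s⟯) {E : IntermediateField K (LaurentSeries K)}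
    (hs : qExpand K M s ∈ E) :
    relfinrank K⟮jqModC K⟯ K⟮s⟯ * relfinrank K⟮qExpand K M s⟯ E =
      relfinrank (jField M K) E := by
  have h1 : jField M K = K⟮jqModC K⟯.map (qExpandAlgHomC K M) := adjoin_qExpand K M _
  rw [← relfinrank_map_map K⟮jqModC K⟯ K⟮s⟯ (qExpandAlgHomC K M), ← h1, ← adjoin_qExpand]
  refine relfinrank_mul_relfinrank ?_ (adjoin_simple_le_iff.2 hs)
  rw [h1, adjoin_qExpand]
  exact IntermediateField.map_mono _ (adjoin_simple_le_iff.2 hj)

theorem jt_mem_adjoin_qExpand {K : Type*} [Field K] (M : ℕ) [NeZero M] {s : LaurentSeries K}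
    (hj : jqModC K ∈ K⟮s⟯) : jt M K ∈ K⟮qExpand K M s⟯ := by
  rw [adjoin_qExpand]
  exact ⟨_, hj, rfl⟩

/-- **Kummer injectivity from a tame chart function.** -/
theorem exists_eq_pow_of_chart {M : ℕ} [NeZero M] {A : ValuationSubring ℚbar}
    (hMA : IsUnit (M : A)) (hM : 3 ≤ M) (S : LaurentSeries A) {m : ℕ}
    (hjQ : jqModC ℚbar ∈ ℚbar⟮coeffMap A.subtype S⟯)
    (hjk : jqModC (kk A) ∈ (kk A)⟮coeffMap (IsLocalRing.residue A) S⟯)
    (hdQ : relfinrank ℚbar⟮jqModC ℚbar⟯ ℚbar⟮coeffMap A.subtype S⟯ = m)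
    (hdk : relfinrank (kk A)⟮jqModC (kk A)⟯ (kk A)⟮coeffMap (IsLocalRing.residue A) S⟯ = m)
    (htr : Transcendental (kk A) (coeffMap (IsLocalRing.residue A) S))
    (hmem : qExpand ℚbar M (coeffMap A.subtype S) ∈ FQ M)
    (b : A) (hb : IsUnit b)
    (hord : ∀ α : ℚbar, α ≠ 0 → α ≠ (b : ℚbar) → ∀ P : Place ℚbar (FQ M),
      0 < P.ord ((⟨_, hmem⟩ : FQ M) - algebraMap ℚbar (FQ M) α) →
        P.ord ((⟨_, hmem⟩ : FQ M) - algebraMap ℚbar (FQ M) α) = 1)
    {ℓ : ℕ} (hℓ : (ℓ : kk A) ≠ 0) {x : FQ M} (hx : x ≠ 0)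
    (hdvd : ∀ v : Place ℚbar (FQ M), (ℓ : ℤ) ∣ v.ord x)
    (u w : LaurentSeries A)
    (hxuw : (x : LaurentSeries ℚbar) * coeffMap A.subtype w = coeffMap A.subtype u)
    (hred : coeffMap (IsLocalRing.residue A) u = coeffMap (IsLocalRing.residue A) w)
    (hw0 : coeffMap (IsLocalRing.residue A) w ≠ 0) :
    ∃ y : FQ M, y ^ ℓ = x := by
  set D := datum hMA hM
  have hcoe : coeffMap A.subtype (qExpand A M S) = qExpand ℚbar M (coeffMap A.subtype S) :=
    coeffMap_qExpand _ _ _
  have hred' : coeffMap (IsLocalRing.residue A) (qExpand A M S) =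
      qExpand (kk A) M (coeffMap (IsLocalRing.residue A) S) := coeffMap_qExpand _ _ _
  have hyF : coeffMap A.subtype (qExpand A M S) ∈ FQ M := hcoe ▸ hmem
  have hyK : qExpand (kk A) M (coeffMap (IsLocalRing.residue A) S) ∈ FK hMA := by
    rw [← hred', ← SeriesGauss.coe_φ_elt D _ hyF]
    exact Subtype.coe_prop _
  have hQ := (relfinrank_mul_eq M hjQ hmem).trans (relfinrank_FQ hMA hM)
  have hK := (relfinrank_mul_eq M hjk hyK).trans (relfinrank_FK hMA hM)
  rw [hdQ] at hQ
  rw [hdk] at hK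
  have hN : Fintype.card (XGrp M) ≠ 0 := Fintype.card_ne_zero
  have hm : 0 < m := Nat.pos_of_ne_zero fun h => hN (by rw [← hQ, h, zero_mul])
  let G := SeriesGauss.gauss D (qExpand A M S) hyF (by rw [hred']; exact transcendental_qExpand M htr)
    (n := relfinrank ℚbar⟮qExpand ℚbar M (coeffMap A.subtype S)⟯ (FQ M))
    (Nat.pos_of_ne_zero fun h => hN (by rw [← hQ, h, mul_zero]))
    (by rw [hcoe]) (by rw [hred']; exact Nat.eq_of_mul_eq_mul_left hm (hK.trans hQ.symm))
  have hGx : (G.x : FQ M) = ⟨_, hmem⟩ := Subtype.ext hcoe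
  have hord' : ∀ α : ℚbar, α ≠ 0 → α ≠ (b : ℚbar) → ∀ P : Place ℚbar (FQ M),
      0 < P.ord ((G.x : FQ M) - algebraMap ℚbar (FQ M) α) →
        P.ord ((G.x : FQ M) - algebraMap ℚbar (FQ M) α) = 1 := by
    rw [hGx]; exact hord
  have hφx : ((G.φ G.x : FK hMA) : LaurentSeries (kk A)) =
      qExpand (kk A) M (coeffMap (IsLocalRing.residue A) S) :=
    (SeriesGauss.coe_φ_elt D _ hyF).trans hred'
  haveI : Algebra.IsSeparable (kk A)⟮G.φ G.x⟯ (FK hMA) := by
    refine isSeparable_FK hMA hM (G.φ G.x) ?_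
    rw [hφx]
    exact jt_mem_adjoin_qExpand M hjk
  haveI : Algebra.IsSeparable (kk A)⟮G.swap.φ G.swap.x⟯ (FK hMA) := by
    refine isSeparable_FK hMA hM (G.swap.φ G.swap.x) ?_
    have hinv : ((G.swap.φ G.swap.x : FK hMA) : LaurentSeries (kk A)) =
        ((G.φ G.x : FK hMA) : LaurentSeries (kk A))⁻¹ :=
      congrArg Subtype.val G.φ_x_inv
    have hle : (kk A)⟮((G.φ G.x : FK hMA) : LaurentSeries (kk A))⟯ ≤
        (kk A)⟮((G.swap.φ G.swap.x : FK hMA) : LaurentSeries (kk A))⟯ := by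
      rw [adjoin_simple_le_iff, hinv]
      simpa using inv_mem (mem_adjoin_simple_self (kk A)
        ((G.φ G.x : FK hMA) : LaurentSeries (kk A))⁻¹)
    refine hle ?_
    rw [hφx]
    exact jt_mem_adjoin_qExpand M hjk
  have h0 := Igusa.chartSurjective_of_branchIsolated G
    (branchIsolated_of_two G b ((hb.map G.π).ne_zero) hord')
  have h1 := Igusa.chartSurjective_of_branchIsolated G.swap
    (branchIsolated_swap_of_two G hb hord')
  haveI : IsAlgClosed (kk A) := isAlgClosed_residueField A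
  haveI : Curve.IsFunctionFieldOne (kk A) (FK hMA) := G.isFunctionFieldOne_residue
  obtain ⟨hxV, hxφ⟩ := SeriesGauss.φ_of_mul_eq D x hw0 hxuw
  obtain ⟨y, hy⟩ := (G.goodReductionOfChartSurjective h0 h1).exists_eq_pow_of_φ_eq_pow hℓ hx hdvd
    hxV ⟨1, one_ne_zero, by
      rw [one_pow]
      exact Subtype.ext (hxφ.trans (by rw [hred, div_self hw0]; rfl))⟩
  exact ⟨y, hy.symm⟩

theorem residue_natCast_ne_zero {A : ValuationSubring ℚbar} {n : ℕ} (h : IsUnit (n : A)) :
    (n : kk A) ≠ 0 := by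
  have := (h.map (IsLocalRing.residue A)).ne_zero
  rwa [map_natCast] at this

/-- **Reduction is injective on Kummer classes**: a function with divisor divisible by `ℓ`
which is a ratio of integral series with the same non-zero reduction is an `ℓ`th power. -/
theorem exists_eq_pow_of_reduction (M : ℕ) [NeZero M] (hM : 5 ≤ M) {p : ℕ} (hp : p.Prime)
    (hpM : ¬ p ∣ M) (A : ValuationSubring ℚbar) (hA : A.LiesOverPrime p) {ℓ : ℕ} (hℓ : ℓ.Prime)
    (hℓ5 : 5 ≤ ℓ) (hℓp : ℓ ≠ p) {x : FQ M} (hx : x ≠ 0)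
    (hdvd : ∀ v : Place ℚbar (FQ M), (ℓ : ℤ) ∣ v.ord x)
    (u w : LaurentSeries A)
    (hxuw : (x : LaurentSeries ℚbar) * coeffMap A.subtype w = coeffMap A.subtype u)
    (hred : coeffMap (IsLocalRing.residue A) u = coeffMap (IsLocalRing.residue A) w)
    (hw0 : coeffMap (IsLocalRing.residue A) w ≠ 0) :
    ∃ y : FQ M, y ^ ℓ = x := by
  haveI := Fact.mk hp
  have hunit : ∀ n : ℕ, ¬ p ∣ n → IsUnit (n : A) := fun n hn =>
    isUnit_natCast_of_coprime hA (hp.coprime_iff_not_dvd.2 hn)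
  have hℓk : (ℓ : kk A) ≠ 0 := residue_natCast_ne_zero
    (hunit ℓ fun h => hℓp ((Nat.prime_dvd_prime_iff_eq hp hℓ).1 h).symm)
  have hMA := hunit M hpM
  -- passing to level `M r`
  have hlift : ∀ r : ℕ, [NeZero r] → (r = 2 ∨ r = 3) →
      (∀ (x' : FQ (M * r)) (u' w' : LaurentSeries A), x' ≠ 0 →
        (∀ v : Place ℚbar (FQ (M * r)), (ℓ : ℤ) ∣ v.ord x') →
        (x' : LaurentSeries ℚbar) * coeffMap A.subtype w' = coeffMap A.subtype u' →
        coeffMap (IsLocalRing.residue A) u' = coeffMap (IsLocalRing.residue A) w' →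
        coeffMap (IsLocalRing.residue A) w' ≠ 0 → ∃ y : FQ (M * r), y ^ ℓ = x') →
      ∃ y : FQ M, y ^ ℓ = x := by
    intro r _ hr h
    refine exists_pow_of_levelUp M r hr hℓ hℓ5 (h (levelUp M r x) (qExpand A r u) (qExpand A r w)
      (fun h0 => hx ((levelUp M r).injective (h0.trans (map_zero _).symm)))
      (dvd_ord_levelUp M r hx hdvd) ?_ ?_ ?_)
    · rw [coe_levelUp, coeffMap_qExpand, coeffMap_qExpand, ← map_mul, hxuw]
    · rw [coeffMap_qExpand, coeffMap_qExpand, hred]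
    · rw [coeffMap_qExpand]
      exact fun h0 => hw0 (qExpand_injective r (h0.trans (map_zero _).symm))
  by_cases h3 : p = 3
  · subst h3
    refine hlift 2 (Or.inl rfl) fun x' u' w' hx' hdvd' hxuw' hred' hw0' => ?_
    have hM' : IsUnit ((M * 2 : ℕ) : A) := by
      rw [Nat.cast_mul]; exact hMA.mul (hunit 2 (by norm_num))
    obtain ⟨c, -, hc⟩ := exists_sep hM' (show 3 ≤ M * 2 by omega)
    have hmem : qExpand ℚbar (M * 2) (coeffMap A.subtype (Igusa.t2Series A)) ∈ FQ (M * 2) := by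
      rw [Igusa.coeffMap_t2Series]
      have h := t2Series_mem_fieldX (M * 2) (base_gR hM') (gQ A) ⟨c, hc⟩ (dvd_mul_left 2 M)
      rwa [gQ_ζ hM'] at h
    refine exists_eq_pow_of_chart hM' (by omega) (Igusa.t2Series A) (m := 3) ?_ ?_ ?_ ?_ ?_ hmem
      (-((64 : ℕ) : A)) (hunit 64 (by norm_num)).neg ?_ hℓk hx' hdvd' u' w' hxuw' hred' hw0'
    · rw [Igusa.coeffMap_t2Series]
      exact Igusa.adjoin_jq_le_adjoin_t2Series ℚbar (mem_adjoin_simple_self _ _)
    · rw [Igusa.coeffMap_t2Series]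
      exact Igusa.adjoin_jq_le_adjoin_t2Series _ (mem_adjoin_simple_self _ _)
    · rw [Igusa.coeffMap_t2Series]
      exact Igusa.relfinrank_t2Series ℚbar two_ne_zero
    · rw [Igusa.coeffMap_t2Series]
      exact Igusa.relfinrank_t2Series _ (by exact_mod_cast residue_natCast_ne_zero (hunit 2 (by norm_num)))
    · rw [Igusa.coeffMap_t2Series]
      exact Igusa.transcendental_t2Series _
    · intro α h0 h64 P hP
      refine Igusa.ord_sub_eq_one_of_t2_relation (jRamified_FQ _ P) ?_ h0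
        (fun h => h64 (by rw [h]; simp; exact (map_ofNat A.subtype 64).symm)) hP
      apply (FQ (M * 2)).val.injective
      simp only [map_mul, map_pow, map_add, map_ofNat]
      show jt (M * 2) ℚbar * qExpand ℚbar (M * 2) (coeffMap A.subtype (Igusa.t2Series A)) ^ 2 =
        (qExpand ℚbar (M * 2) (coeffMap A.subtype (Igusa.t2Series A)) + 256) ^ 3
      rw [Igusa.coeffMap_t2Series]
      exact (by simpa [map_ofNat, jt] using
        congrArg (qExpand ℚbar (M * 2)) (Igusa.jq_mul_t2Series ℚbar))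
  by_cases h2 : p = 2
  · subst h2
    refine hlift 3 (Or.inr rfl) fun x' u' w' hx' hdvd' hxuw' hred' hw0' => ?_
    have hM' : IsUnit ((M * 3 : ℕ) : A) := by
      rw [Nat.cast_mul]; exact hMA.mul (hunit 3 (by norm_num))
    obtain ⟨c, -, hc⟩ := exists_sep hM' (show 3 ≤ M * 3 by omega)
    have hmem : qExpand ℚbar (M * 3) (coeffMap A.subtype (Igusa.t3Series A)) ∈ FQ (M * 3) := by
      rw [Igusa.coeffMap_t3Series]
      have h := t3Series_mem_fieldX (M * 3) (base_gR hM') (gQ A) ⟨c, hc⟩ (dvd_mul_left 3 M)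
      rwa [gQ_ζ hM'] at h
    refine exists_eq_pow_of_chart hM' (by omega) (Igusa.t3Series A) (m := 4) ?_ ?_ ?_ ?_ ?_ hmem
      (-((27 : ℕ) : A)) (hunit 27 (by norm_num)).neg ?_ hℓk hx' hdvd' u' w' hxuw' hred' hw0'
    · rw [Igusa.coeffMap_t3Series]
      exact Igusa.adjoin_jq_le_adjoin_t3Series ℚbar (mem_adjoin_simple_self _ _)
    · rw [Igusa.coeffMap_t3Series]
      exact Igusa.adjoin_jq_le_adjoin_t3Series _ (mem_adjoin_simple_self _ _)
    · rw [Igusa.coeffMap_t3Series]
      exact Igusa.relfinrank_t3Series ℚbar three_ne_zero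
    · rw [Igusa.coeffMap_t3Series]
      exact Igusa.relfinrank_t3Series _ (by exact_mod_cast residue_natCast_ne_zero (hunit 3 (by norm_num)))
    · rw [Igusa.coeffMap_t3Series]
      exact Igusa.transcendental_t3Series _
    · intro α h0 h27 P hP
      refine Igusa.ord_sub_eq_one_of_t3_relation (jRamified_FQ _ P) ?_ h0
        (fun h => h27 (by rw [h]; simp; exact (map_ofNat A.subtype 27).symm)) hP
      apply (FQ (M * 3)).val.injective
      simp only [map_mul, map_pow, map_add, map_ofNat]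
      show jt (M * 3) ℚbar * qExpand ℚbar (M * 3) (coeffMap A.subtype (Igusa.t3Series A)) ^ 3 =
        (qExpand ℚbar (M * 3) (coeffMap A.subtype (Igusa.t3Series A)) + 27) *
          (qExpand ℚbar (M * 3) (coeffMap A.subtype (Igusa.t3Series A)) + 243) ^ 3
      rw [Igusa.coeffMap_t3Series]
      exact (by simpa [map_ofNat, jt] using
        congrArg (qExpand ℚbar (M * 3)) (Igusa.jq_mul_t3Series ℚbar))
  have h1728 : ¬ p ∣ 1728 := fun h => by
    have h' : p ∣ 2 ^ 6 * 3 ^ 3 := by norm_num; exact h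
    rcases hp.dvd_mul.1 h' with hd | hd
    · exact h2 ((Nat.prime_dvd_prime_iff_eq hp Nat.prime_two).1 (hp.dvd_of_dvd_pow hd))
    · exact h3 ((Nat.prime_dvd_prime_iff_eq hp Nat.prime_three).1 (hp.dvd_of_dvd_pow hd))
  have hmem : qExpand ℚbar M (coeffMap A.subtype (jqModC A)) ∈ FQ M := by
    rw [coeffMap_jqModC]; exact jt_mem_fieldX M _
  refine exists_eq_pow_of_chart hMA (by omega) (jqModC A) (m := 1) ?_ ?_ ?_ ?_ ?_ hmem
    ((1728 : ℕ) : A) (hunit 1728 h1728) ?_ hℓk hx hdvd u w hxuw hred hw0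
  · rw [coeffMap_jqModC]; exact mem_adjoin_simple_self _ _
  · rw [coeffMap_jqModC]; exact mem_adjoin_simple_self _ _
  · rw [coeffMap_jqModC]; exact relfinrank_self _
  · rw [coeffMap_jqModC]; exact relfinrank_self _
  · rw [coeffMap_jqModC]; exact Igusa.transcendental_jqModC _
  · intro α h0 hα P hP
    have e : (⟨_, hmem⟩ : FQ M) = jFQ M := Subtype.ext (by
      show qExpand ℚbar M (coeffMap A.subtype (jqModC A)) = jt M ℚbar
      rw [coeffMap_jqModC]; rfl)
    rw [e] at hP ⊢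
    have := (jRamified_FQ M P).le_one α h0 (fun h => hα (by rw [h]; simp; exact (map_ofNat A.subtype 1728).symm))
    omega

end Fermat.Agent.DeligneSerre.Level

end
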