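import Fermat.Agent.Igusa.GaussX0

/-!
# Gauss reduction of a field of Laurent series, coefficient by coefficient

`F` is a field of Laurent series over `ℚ̄` in which every element is a constant times a quotient
of series with coefficients in `A` and non-zero reductions, and `Fb` a field of series over the
residue field generated by reductions of integral elements of `F`.  Then the functions which are
quotients of integral series form a valuation ring of `F` with residue field `Fb`.
-/

set_option autoImplicit false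

noncomputable section

open AlgebraicCurve ModularCurve IntermediateField Polynomial

namespace Fermat.Agent.DeligneSerre.SeriesGauss

open Fermat.Agent.Igusa

set_option synthInstance.maxHeartbeats 400000

local notation "Qb" => AlgebraicClosure ℚ
local notation "kk" A => IsLocalRing.ResidueField A

variable (A : ValuationSubring (AlgebraicClosure ℚ))
  (F : IntermediateField (AlgebraicClosure ℚ) (LaurentSeries (AlgebraicClosure ℚ)))
  (Fb : IntermediateField (IsLocalRing.ResidueField A) (LaurentSeries (IsLocalRing.ResidueField A)))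

/-- The input of the construction. -/
structure Datum : Prop where
  normal : ∀ x : F, x ≠ 0 → ∃ (c : Qb) (u v : LaurentSeries A), c ≠ 0 ∧
    coeffMap (IsLocalRing.residue A) u ≠ 0 ∧ coeffMap (IsLocalRing.residue A) v ≠ 0 ∧
    coeffMap (IsLocalRing.residue A) u ∈ Fb ∧ coeffMap (IsLocalRing.residue A) v ∈ Fb ∧
    (x : LaurentSeries Qb) * coeffMap A.subtype v = HahnSeries.C c * coeffMap A.subtype u
  gens : ∃ S : Set (LaurentSeries (kk A)), Fb = IntermediateField.adjoin (kk A) S ∧
    ∀ y ∈ S, ∃ z : LaurentSeries A, coeffMap A.subtype z ∈ F ∧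
      coeffMap (IsLocalRing.residue A) z = y

variable {A F Fb}

theorem coe_algebraMap_eq_C (a : Qb) :
    ((algebraMap Qb F a : F) : LaurentSeries Qb) = HahnSeries.C a := by
  show algebraMap Qb (LaurentSeries Qb) a = _
  rw [algebraMap_laurentSeries_eq_single]
  rfl

variable (D : Datum A F Fb)
include D

/-- The Gauss valuation ring. -/
def V : ValuationSubring F where
  toSubring := (quotSeries A).comap F.val.toRingHom
  mem_or_inv_mem' f := by
    rcases eq_or_ne f 0 with rfl | hf
    · exact Or.inl (Subring.zero_mem _)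
    obtain ⟨c, u, v, hc, hu, hv, -, -, h⟩ := D.normal f hf
    rcases A.mem_or_inv_mem c with hcA | hcA
    · exact Or.inl (GaussX0.mem_quotSeries_of_normal hcA hv h).1
    · refine Or.inr (GaussX0.mem_quotSeries_of_normal (x := ((f⁻¹ : F) : LaurentSeries Qb))
        (u := v) (v := u) hcA hu ?_).1
      have hf' : (f : LaurentSeries Qb) ≠ 0 := fun h0 => hf (Subtype.ext h0)
      have hC : (HahnSeries.C c⁻¹ : LaurentSeries Qb) * HahnSeries.C c = 1 := by
        rw [← map_mul, inv_mul_cancel₀ hc, map_one]
      show ((f : LaurentSeries Qb))⁻¹ * _ = _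
      rw [inv_mul_eq_div, div_eq_iff hf', mul_assoc, mul_comm (coeffMap A.subtype v), h,
        ← mul_assoc, hC, one_mul]

theorem mem_V {f : F} : f ∈ V D ↔ (f : LaurentSeries Qb) ∈ quotSeries A := Iff.rfl

/-- Reduction, as Laurent series. -/
def red : V D →+* LaurentSeries (kk A) :=
  (redSeries A).comp
    ((F.val.toRingHom.comp (V D).subtype).codRestrict (quotSeries A) fun f => f.2)

theorem red_apply (f : V D) : red D f = redSeries A ⟨((f : F) : LaurentSeries Qb), f.2⟩ := rfl

theorem exists_normal_V (f : V D) (hf : (f : F) ≠ 0) :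
    ∃ (c : A) (u v : LaurentSeries A), c ≠ 0 ∧
      coeffMap (IsLocalRing.residue A) u ≠ 0 ∧ coeffMap (IsLocalRing.residue A) v ≠ 0 ∧
      coeffMap (IsLocalRing.residue A) u ∈ Fb ∧ coeffMap (IsLocalRing.residue A) v ∈ Fb ∧
      ((f : F) : LaurentSeries Qb) * coeffMap A.subtype v =
        HahnSeries.C (c : Qb) * coeffMap A.subtype u ∧
      red D f = HahnSeries.C (IsLocalRing.residue A c) * coeffMap (IsLocalRing.residue A) u /
        coeffMap (IsLocalRing.residue A) v := by
  obtain ⟨c, u, v, hc, hu, hv, hu', hv', h⟩ := D.normal (f : F) hf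
  have hcA := GaussX0.mem_of_mem_quotSeries hu h f.2
  exact ⟨⟨c, hcA⟩, u, v, fun h0 => hc (congrArg Subtype.val h0), hu, hv, hu', hv', h,
    (red_apply D f).trans (GaussX0.mem_quotSeries_of_normal hcA hv h).2⟩

theorem red_mem (f : V D) : red D f ∈ Fb := by
  rcases eq_or_ne (f : F) 0 with h0 | h0
  · rw [show f = 0 from Subtype.ext h0, map_zero]
    exact zero_mem _
  obtain ⟨c, u, v, -, -, -, hu', hv', -, hr⟩ := exists_normal_V D f h0
  rw [hr]
  refine div_mem (mul_mem ?_ hu') hv'
  rw [show HahnSeries.C (IsLocalRing.residue A c) =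
    algebraMap (kk A) (LaurentSeries (kk A)) (IsLocalRing.residue A c) by
      rw [algebraMap_laurentSeries_eq_single]; rfl]
  exact IntermediateField.algebraMap_mem _ _

/-- The reduction. -/
def φ : V D →+* Fb := (red D).codRestrict Fb.toSubfield (red_mem D)

theorem coe_φ (f : V D) : (φ D f : LaurentSeries (kk A)) = red D f := rfl

theorem algebraMap_mem_iff (a : Qb) : algebraMap Qb F a ∈ V D ↔ a ∈ A := by
  have h : ((algebraMap Qb F a : F) : LaurentSeries Qb) * coeffMap A.subtype 1 =
      HahnSeries.C a * coeffMap A.subtype 1 := by rw [coe_algebraMap_eq_C]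
  have h1 : coeffMap (IsLocalRing.residue A) 1 ≠ 0 := by rw [map_one]; exact one_ne_zero
  exact ⟨fun hx => GaussX0.mem_of_mem_quotSeries h1 h hx,
    fun ha => (GaussX0.mem_quotSeries_of_normal ha h1 h).1⟩

theorem φ_algebraMap (a : A) :
    φ D ⟨algebraMap Qb F a, (algebraMap_mem_iff D a).2 a.2⟩ =
      algebraMap (kk A) Fb (IsLocalRing.residue A a) := by
  apply Subtype.ext
  rw [coe_φ, red_apply]
  have h1 : coeffMap (IsLocalRing.residue A) 1 ≠ 0 := by rw [map_one]; exact one_ne_zero
  have h : ((algebraMap Qb F a : F) : LaurentSeries Qb) * coeffMap A.subtype 1 =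
      HahnSeries.C (a : Qb) * coeffMap A.subtype 1 := by rw [coe_algebraMap_eq_C]
  rw [(GaussX0.mem_quotSeries_of_normal a.2 h1 h).2, map_one, mul_one, div_one]
  show _ = algebraMap (kk A) (LaurentSeries (kk A)) _
  rw [algebraMap_laurentSeries_eq_single]
  rfl

/-- Quotients of integral series reduce to the quotient of the reductions. -/
theorem φ_of_mul_eq (f : F) {u w : LaurentSeries A}
    (hw : coeffMap (IsLocalRing.residue A) w ≠ 0)
    (h : (f : LaurentSeries Qb) * coeffMap A.subtype w = coeffMap A.subtype u) :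
    ∃ hf : f ∈ V D, (φ D ⟨f, hf⟩ : LaurentSeries (kk A)) =
      coeffMap (IsLocalRing.residue A) u / coeffMap (IsLocalRing.residue A) w := by
  have hf : f ∈ V D := ⟨u, w, hw, h⟩
  refine ⟨hf, ?_⟩
  rw [coe_φ, red_apply]
  exact redSeries_eq_div A _ hw h

/-- Functions with integral expansion reduce coefficientwise. -/
theorem φ_coeffMap (y : LaurentSeries A) (f : F)
    (hf : (f : LaurentSeries Qb) = coeffMap A.subtype y) :
    ∃ h : f ∈ V D, (φ D ⟨f, h⟩ : LaurentSeries (kk A)) = coeffMap (IsLocalRing.residue A) y := by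
  obtain ⟨h, h'⟩ := φ_of_mul_eq D f (u := y) (w := 1) (by rw [map_one]; exact one_ne_zero)
    (by rw [map_one, mul_one, hf])
  exact ⟨h, by rw [h', map_one, div_one]⟩

theorem isUnit_of_φ_ne_zero {f : V D} (hf : φ D f ≠ 0) : IsUnit f := by
  have hf0 : (f : F) ≠ 0 := fun h0 => hf (by rw [show f = 0 from Subtype.ext h0, map_zero])
  obtain ⟨c, u, v, -, hu, hv, -, -, h, hr⟩ := exists_normal_V D f hf0
  have hcu : IsUnit c := by
    by_contra hnu
    apply hf
    apply Subtype.ext
    rw [coe_φ, hr, (IsLocalRing.residue_eq_zero_iff c).2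
      ((IsLocalRing.mem_maximalIdeal c).2 hnu), map_zero, zero_mul, zero_div]
    rfl
  obtain ⟨w, hw⟩ := hcu.exists_right_inv
  have hw' : (c : Qb) * (w : Qb) = 1 := congrArg Subtype.val hw
  have hinv : (f : F)⁻¹ ∈ V D := by
    refine (GaussX0.mem_quotSeries_of_normal (x := (((f : F)⁻¹ : F) : LaurentSeries Qb))
      (u := v) (v := u) w.2 hu ?_).1
    have hf' : ((f : F) : LaurentSeries Qb) ≠ 0 := fun h0 => hf0 (Subtype.ext h0)
    show (((f : F) : LaurentSeries Qb))⁻¹ * _ = _
    have hC : (HahnSeries.C (w : Qb) : LaurentSeries Qb) * HahnSeries.C (c : Qb) = 1 := by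
      rw [← map_mul, mul_comm, hw', map_one]
    rw [inv_mul_eq_div, div_eq_iff hf', mul_assoc, mul_comm (coeffMap A.subtype v), h, ← mul_assoc,
      hC, one_mul]
  exact IsUnit.of_mul_eq_one ⟨_, hinv⟩ (Subtype.ext (mul_inv_cancel₀ hf0))

theorem φ_surjective : Function.Surjective (φ D) := by
  rintro ⟨x, hx⟩
  suffices h : ∃ f, (φ D f : LaurentSeries (kk A)) = x by
    obtain ⟨f, hf⟩ := h
    exact ⟨f, Subtype.ext hf⟩
  obtain ⟨S, hS, hlift⟩ := D.gens
  have hx' : x ∈ IntermediateField.adjoin (kk A) S := hS ▸ hx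
  clear hx
  induction hx' using IntermediateField.adjoin_induction with
  | mem x hx =>
    obtain ⟨z, hz, rfl⟩ := hlift x hx
    obtain ⟨h, h'⟩ := φ_coeffMap D z ⟨_, hz⟩ rfl
    exact ⟨_, h'⟩
  | algebraMap c =>
    obtain ⟨a, rfl⟩ := IsLocalRing.residue_surjective c
    exact ⟨_, congrArg Subtype.val (φ_algebraMap D a)⟩
  | add x y _ _ hx hy =>
    obtain ⟨f, rfl⟩ := hx
    obtain ⟨g, rfl⟩ := hy
    exact ⟨f + g, by rw [map_add]; rfl⟩
  | mul x y _ _ hx hy =>
    obtain ⟨f, rfl⟩ := hx
    obtain ⟨g, rfl⟩ := hy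
    exact ⟨f * g, by rw [map_mul]; rfl⟩
  | inv x _ hx =>
    obtain ⟨f, rfl⟩ := hx
    by_cases h0 : φ D f = 0
    · exact ⟨0, by simp [h0]⟩
    · obtain ⟨w, rfl⟩ := isUnit_of_φ_ne_zero D h0
      exact ⟨↑w⁻¹, eq_inv_of_mul_eq_one_left (by
        rw [← MulMemClass.coe_mul, ← map_mul, Units.inv_mul, map_one]; rfl)⟩

/-- An integral series in `F` as an element of the valuation ring. -/
def elt (y : LaurentSeries A) (hy : coeffMap A.subtype y ∈ F) : V D :=
  ⟨⟨_, hy⟩, (φ_coeffMap D y ⟨_, hy⟩ rfl).1⟩

theorem coe_elt (y : LaurentSeries A) (hy : coeffMap A.subtype y ∈ F) :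
    ((elt D y hy : F) : LaurentSeries Qb) = coeffMap A.subtype y := rfl

theorem coe_φ_elt (y : LaurentSeries A) (hy : coeffMap A.subtype y ∈ F) :
    (φ D (elt D y hy) : LaurentSeries (kk A)) = coeffMap (IsLocalRing.residue A) y :=
  (φ_coeffMap D y ⟨_, hy⟩ rfl).2

theorem φ_elt_transcendental (y : LaurentSeries A) (hy : coeffMap A.subtype y ∈ F)
    (htr : Transcendental (kk A) (coeffMap (IsLocalRing.residue A) y)) :
    Transcendental (kk A) (φ D (elt D y hy)) := fun h => by
  have := h.algHom Fb.val
  rw [show Fb.val (φ D (elt D y hy)) = coeffMap (IsLocalRing.residue A) y from coe_φ_elt D y hy]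
    at this
  exact htr this

omit D in
/-- The degree over `K (x)` computed among Laurent series. -/
theorem finrank_adjoin_simple_eq {K : Type*} [Field K]
    (E : IntermediateField K (LaurentSeries K)) (x : E) :
    Module.finrank K⟮x⟯ E = relfinrank K⟮(x : LaurentSeries K)⟯ E := by
  have h1 : IntermediateField.lift K⟮x⟯ = K⟮(x : LaurentSeries K)⟯ := by
    rw [show IntermediateField.lift K⟮x⟯ = K⟮x⟯.map E.val from rfl, adjoin_map, Set.image_singleton]
    rfl
  have h2 : IntermediateField.lift (⊤ : IntermediateField K E) = E := IntermediateField.lift_top _ E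
  rw [← relfinrank_top_right K⟮x⟯, ← IntermediateField.relfinrank_map_map K⟮x⟯ ⊤ E.val,
    show K⟮x⟯.map E.val = IntermediateField.lift K⟮x⟯ from rfl,
    show (⊤ : IntermediateField K E).map E.val = IntermediateField.lift (⊤ : IntermediateField K E)
      from rfl, h1, h2]

/-- The Gauss reduction with respect to an integral series `y` of the same degree on both
fibres. -/
def gauss (y : LaurentSeries A) (hy : coeffMap A.subtype y ∈ F)
    (htr : Transcendental (kk A) (coeffMap (IsLocalRing.residue A) y)) {n : ℕ} (hn : 0 < n)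
    (hF : relfinrank Qb⟮coeffMap A.subtype y⟯ F = n)
    (hFb : relfinrank (kk A)⟮coeffMap (IsLocalRing.residue A) y⟯ Fb = n) :
    Curve.GaussReduction A F (kk A) Fb where
  π := IsLocalRing.residue A
  π_surjective := IsLocalRing.residue_surjective
  V := V D
  mem_V_iff := algebraMap_mem_iff D
  φ := φ D
  φ_surjective := φ_surjective D
  φ_algebraMap := φ_algebraMap D
  x := elt D y hy
  x_transcendental := φ_elt_transcendental D y hy htr
  degree_eq := by
    rw [finrank_adjoin_simple_eq, finrank_adjoin_simple_eq, coe_elt, coe_φ_elt, hF, hFb]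
  degree_pos := by rw [finrank_adjoin_simple_eq, coe_φ_elt, hFb]; exact hn

end Fermat.Agent.DeligneSerre.SeriesGauss

end
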