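import Fermat.Agent.DeligneSerre.RepsFields
import Fermat.Agent.DeligneSerre.RepsGoodSeries
import Fermat.Agent.DeligneSerre.GroupPlaces

/-!
# The field of level `M` at a place prime to `M`: normal forms, degrees, separability
-/

set_option autoImplicit false
set_option linter.unusedSectionVars false
set_option synthInstance.maxHeartbeats 400000

noncomputable section

open ModularCurve IntermediateField Polynomial

namespace Fermat.Agent.DeligneSerre.Level

open Fermat.Agent.Igusa.Fibre (Gd jt coeffMap_jt coeffMap_aeval_jt algebraMap_eq_C)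
open Fermat.Agent.Igusa (exists_primitive_polynomial)

local notation "ℚbar" => AlgebraicClosure ℚ
local notation "kk" A => IsLocalRing.ResidueField A

section General

variable {M : ℕ} [NeZero M] {R : Subring ℂ} {hR : Base M R} {K : Type*} [Field K] {f : R →+* K}
  {c : Idx M → R} (hsep : Separating hR f c)

theorem jField_le_fieldX (ζ : K) : jField M K ≤ fieldX M K ζ :=
  adjoin_simple_le_iff.2 (jt_mem_fieldX M ζ)

include hsep

/-- The degree over `K (j)`. -/
theorem relfinrank_fieldX :
    relfinrank (jField M K) (fieldX M K (f hR.ζ)) = Fintype.card (XGrp M) := by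
  have hle := jField_le_fieldX (M := M) (f hR.ζ)
  rw [relfinrank_eq_finrank_of_le hle,
    show extendScalars hle = (jField M K)⟮theta hR f c 1⟯ by
      ext x
      rw [mem_extendScalars, fieldX_eq_adjoin hsep]
      exact mem_restrictScalars K]
  exact finrank_adjoin_theta hsep

/-- Separability over `K (j)`. -/
theorem isSeparable_of_mem_fieldX {x : LaurentSeries K} (hx : x ∈ fieldX M K (f hR.ζ)) :
    IsSeparable (jField M K) x := by
  have hs : IsSeparable (jField M K) (theta hR f c 1) := by
    show (minpoly _ _).Separable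
    rw [← separable_map (algebraMap (jField M K) (LaurentSeries K)), minpoly_theta_map hsep]
    exact separable_prod_X_sub_C_iff.2 hsep
  have hA : Algebra.IsSeparable (jField M K) (jField M K)⟮theta hR f c 1⟯ :=
    (IntermediateField.isSeparable_adjoin_simple_iff_isSeparable (jField M K) (LaurentSeries K)).2 hs
  rw [fieldX_eq_adjoin hsep] at hx
  have hx' : x ∈ (jField M K)⟮theta hR f c 1⟯ := (mem_restrictScalars K).1 hx
  have h := @Algebra.IsSeparable.isSeparable _ _ _ _ _ hA (⟨x, hx'⟩ : (jField M K)⟮theta hR f c 1⟯)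
  show (minpoly (jField M K) x).Separable
  have e := minpoly.algHom_eq (IntermediateField.val (jField M K)⟮theta hR f c 1⟯)
    Subtype.val_injective (⟨x, hx'⟩ : (jField M K)⟮theta hR f c 1⟯)
  exact e.symm ▸ h

/-- Separability over any `K (y)` containing `j`. -/
theorem isSeparable_fieldX (y : fieldX M K (f hR.ζ))
    (hy : jt M K ∈ K⟮(y : LaurentSeries K)⟯) :
    Algebra.IsSeparable K⟮y⟯ (fieldX M K (f hR.ζ)) := by
  refine ⟨fun b => ?_⟩
  have hle : jField M K ≤ K⟮(y : LaurentSeries K)⟯ := adjoin_simple_le_iff.2 hy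
  have hlift : IntermediateField.lift K⟮y⟯ = K⟮(y : LaurentSeries K)⟯ := by
    rw [show IntermediateField.lift K⟮y⟯ = K⟮y⟯.map (fieldX M K (f hR.ζ)).val from rfl, adjoin_map,
      Set.image_singleton]
    rfl
  have hmem : ∀ a : jField M K,
      (⟨a, jField_le_fieldX (f hR.ζ) a.2⟩ : fieldX M K (f hR.ζ)) ∈ K⟮y⟯ := fun a => by
    have h : (a : LaurentSeries K) ∈ IntermediateField.lift K⟮y⟯ := by
      rw [hlift]; exact hle a.2
    exact (IntermediateField.mem_lift (⟨a, jField_le_fieldX (f hR.ζ) a.2⟩ :
      fieldX M K (f hR.ζ))).1 h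
  let ι : jField M K →+* K⟮y⟯ :=
    { toFun := fun a => ⟨_, hmem a⟩
      map_one' := rfl
      map_zero' := rfl
      map_mul' := fun _ _ => rfl
      map_add' := fun _ _ => rfl }
  set q := minpoly (jField M K) (b : LaurentSeries K)
  have hq : q.Separable := isSeparable_of_mem_fieldX hsep b.2
  have h0 : aeval b (q.map ι) = 0 := by
    apply Subtype.val_injective
    show (fieldX M K (f hR.ζ)).val.toRingHom (aeval b (q.map ι)) = 0
    rw [aeval_def, eval₂_map, hom_eval₂]
    exact minpoly.aeval (jField M K) (b : LaurentSeries K)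
  show (minpoly _ b).Separable
  exact hq.map.of_dvd (minpoly.dvd _ b h0)

end General

section Place

variable (A : ValuationSubring ℚbar)

/-- The image of `A` in `ℂ`. -/
abbrev gR : Subring ℂ := A.toSubring.map qbarC

/-- `A` and its image. -/
def gE : A.toSubring ≃+* gR A := A.toSubring.equivMapOfInjective qbarC qbarC.injective

/-- The image of `A` back in `A`. -/
def gA : gR A →+* A := (gE A).symm.toRingHom

/-- The image of `A` in `ℚ̄`. -/
def gQ : gR A →+* ℚbar := A.subtype.comp (gA A)

/-- The image of `A` in the residue field. -/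
def gK : gR A →+* (kk A) := (IsLocalRing.residue A).comp (gA A)

theorem qbarC_gQ (x : gR A) : qbarC (gQ A x) = x := by
  obtain ⟨a, rfl⟩ := (gE A).surjective x
  show qbarC (((gE A).symm (gE A a) : A.toSubring) : ℚbar) = _
  rw [RingEquiv.symm_apply_apply]
  rfl

theorem gQ_injective : Function.Injective (gQ A) := fun x y h =>
  Subtype.ext (by rw [← qbarC_gQ A x, h, qbarC_gQ])

theorem gK_surjective : Function.Surjective (gK A) :=
  IsLocalRing.residue_surjective.comp (gE A).symm.surjective

variable {A} {M : ℕ} [NeZero M] (hMA : IsUnit (M : A))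
include hMA

theorem base_gR : Base M (gR A) where
  zeta_mem := by
    refine ⟨zetaQ M, ?_, qbarC_zetaQ M⟩
    show zetaQ M ∈ A
    rcases A.mem_or_inv_mem (zetaQ M) with h | h
    · exact h
    · have h1 := (isPrimitiveRoot_zetaQ M).pow_eq_one
      have hz : zetaQ M ≠ 0 := (isPrimitiveRoot_zetaQ M).ne_zero (NeZero.ne M)
      have h2 : zetaQ M = (zetaQ M)⁻¹ ^ (M - 1) := by
        rw [inv_pow]
        refine eq_inv_of_mul_eq_one_left ?_
        rw [← pow_succ', Nat.sub_add_cancel (NeZero.one_le), h1]
      rw [h2]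
      exact pow_mem h _
  isUnit := by
    have := hMA.map (gE A).toRingHom
    rwa [map_natCast] at this

theorem gQ_ζ : gQ A (base_gR hMA).ζ = zetaQ M :=
  qbarC.injective (by rw [qbarC_gQ, qbarC_zetaQ]; rfl)

/-- The root of unity in the residue field. -/
abbrev zetaK : kk A := gK A (base_gR hMA).ζ

/-- The special fibre. -/
abbrev FK : IntermediateField (kk A) (LaurentSeries (kk A)) := fieldX M (kk A) (zetaK hMA)

theorem exists_sep (hM : 3 ≤ M) :
    ∃ c : Idx M → gR A, Separating (base_gR hMA) (gK A) c ∧ Separating (base_gR hMA) (gQ A) c := by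
  haveI := isAlgClosed_residueField A
  obtain ⟨c, hc⟩ := exists_separating (base_gR hMA) (gK A) (gK_surjective A) hM
  refine ⟨c, hc, fun g h hgh => hc ?_⟩
  have he : serG (thetaG (base_gR hMA) c g) = serG (thetaG (base_gR hMA) c h) := by
    ext k
    exact congrArg Subtype.val
      (gQ_injective A (by simpa [theta, redG] using congrArg (fun s => s.coeff k) hgh))
  show coeffMap (gK A) (serG _) = coeffMap (gK A) (serG _)
  rw [he]

theorem relfinrank_FQ (hM : 3 ≤ M) :
    relfinrank (jField M ℚbar) (FQ M) = Fintype.card (XGrp M) := by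
  obtain ⟨c, -, hc⟩ := exists_sep hMA hM
  rw [FQ, ← gQ_ζ hMA]
  exact relfinrank_fieldX hc

theorem relfinrank_FK (hM : 3 ≤ M) :
    relfinrank (jField M (kk A)) (FK hMA) = Fintype.card (XGrp M) := by
  obtain ⟨c, hc, -⟩ := exists_sep hMA hM
  exact relfinrank_fieldX hc

theorem isSeparable_FK (hM : 3 ≤ M) (y : FK hMA)
    (hy : jt M (kk A) ∈ (kk A)⟮(y : LaurentSeries (kk A))⟯) :
    Algebra.IsSeparable (kk A)⟮y⟯ (FK hMA) := by
  obtain ⟨c, hc, -⟩ := exists_sep hMA hM
  exact isSeparable_fieldX hc y hy

omit hMA in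
theorem coeffMap_gA_subtype (s : LaurentSeries (gR A)) :
    coeffMap A.subtype (coeffMap (gA A) s) = coeffMap (gQ A) s := by
  ext k; simp [gQ]

omit hMA in
theorem coeffMap_gA_residue (s : LaurentSeries (gR A)) :
    coeffMap (IsLocalRing.residue A) (coeffMap (gA A) s) = coeffMap (gK A) s := by
  ext k; simp [gK]

omit hMA in
/-- A non-zero family of polynomials is a constant times a primitive one. -/
theorem exists_primitive_family {n : ℕ} (P : Fin n → ℚbar[X]) (hP : ∃ i, P i ≠ 0) :
    ∃ (c : ℚbar) (R : Fin n → A[X]), c ≠ 0 ∧ (∀ i, P i = C c * (R i).map A.subtype) ∧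
      ∃ i, (R i).map (IsLocalRing.residue A) ≠ 0 := by
  classical
  choose! c Q hc hQ hPQ using fun i => exists_primitive_polynomial A (P i)
  obtain ⟨i₀, hi₀⟩ := hP
  obtain ⟨m, hm, hmax⟩ := Finset.exists_max_image (Finset.univ.filter fun i => P i ≠ 0)
    (fun i => A.valuation (c i)) ⟨i₀, by simp [hi₀]⟩
  replace hm : P m ≠ 0 := (Finset.mem_filter.1 hm).2
  have hdiv : ∀ i, P i ≠ 0 → c i / c m ∈ A := fun i hi => by
    rw [← A.valuation_le_one_iff, map_div₀]
    exact div_le_one_of_le₀ (hmax i (by simp [hi])) zero_le'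
  let R : Fin n → A[X] := fun i =>
    if h : P i ≠ 0 then C (⟨c i / c m, hdiv i h⟩ : A) * Q i else 0
  refine ⟨c m, R, hc m hm, fun i => ?_, m, ?_⟩
  · by_cases h : P i ≠ 0
    · simp only [R, dif_pos h, Polynomial.map_mul, Polynomial.map_C]
      rw [← mul_assoc, ← map_mul]
      show _ = C (c m * (c i / c m)) * _
      rw [mul_div_cancel₀ _ (hc m hm), ← hPQ i h]
    · simp only [R, dif_neg h, Polynomial.map_zero, mul_zero]
      exact not_not.1 h
  · have h1 : (⟨c m / c m, hdiv m hm⟩ : A) = 1 := Subtype.ext (div_self (hc m hm))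
    simp only [R, dif_pos hm, h1, map_one, one_mul]
    exact hQ m hm

theorem FQ_eq_adjoin {c : Idx M → gR A} (hc : Separating (base_gR hMA) (gQ A) c) :
    FQ M = ((jField M ℚbar)⟮theta (base_gR hMA) (gQ A) c 1⟯).restrictScalars ℚbar :=
  (congrArg (fieldX M ℚbar) (gQ_ζ hMA)).symm.trans (fieldX_eq_adjoin hc)

/-- **Normal form and generators: the Gauss datum of level `M`.** -/
theorem datum (hM : 3 ≤ M) : SeriesGauss.Datum A (FQ M) (FK hMA) where
  gens := by
    refine ⟨_, rfl, ?_⟩
    rintro y (rfl | ⟨i, rfl⟩)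
    · refine ⟨jt M A, ?_, coeffMap_jt M _⟩
      rw [coeffMap_jt]
      exact jt_mem_fieldX M _
    · refine ⟨coeffMap (gA A) (yR (base_gR hMA) i), ?_, ?_⟩
      · rw [coeffMap_gA_subtype, map_yR, gQ_ζ hMA]
        exact ySer_mem_fieldX M _ i
      · rw [coeffMap_gA_residue, map_yR]
  normal := by
    classical
    intro x hx
    obtain ⟨c, hck, hcQ⟩ := exists_sep hMA hM
    set hR := base_gR hMA
    set N := Fintype.card (XGrp M)
    set θ := theta hR (gQ A) c 1 with hθ
    have hint : IsIntegral (jField M ℚbar) θ := isIntegral_theta hR (gQ A) c 1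
    have hxE : (x : LaurentSeries ℚbar) ∈ Algebra.adjoin (jField M ℚbar) {θ} := by
      rw [← adjoin_simple_toSubalgebra_of_isAlgebraic hint.isAlgebraic]
      exact (mem_restrictScalars ℚbar).1 ((FQ_eq_adjoin hMA hcQ).le x.2)
    obtain ⟨p, hp⟩ := (Algebra.adjoin_singleton_eq_range_aeval (jField M ℚbar) θ).le hxE
    replace hp : aeval θ p = (x : LaurentSeries ℚbar) := hp
    set m := minpoly (jField M ℚbar) θ with hm
    have hdeg : m.natDegree = N := natDegree_minpoly_theta hcQ
    have hr : aeval θ (p %ₘ m) = (x : LaurentSeries ℚbar) := by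
      rw [aeval_modByMonic_eq_self_of_root (minpoly.aeval _ _), hp]
    have hrdeg : (p %ₘ m).natDegree < N := by
      rw [← hdeg]
      exact natDegree_modByMonic_lt _ (minpoly.monic hint) (minpoly.ne_one _ _)
    obtain ⟨S, P, hS, hSx, hSP⟩ := Igusa.GaussX0.exists_common_denom (K := ℚbar) (x := jt M ℚbar)
      (fun i : Fin N => (p %ₘ m).coeff i)
    have key : (x : LaurentSeries ℚbar) * aeval (jt M ℚbar) S =
        ∑ i : Fin N, aeval (jt M ℚbar) (P i) * θ ^ (i : ℕ) := by
      rw [← hr, aeval_eq_sum_range' hrdeg, Finset.sum_mul,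
        ← Fin.sum_univ_eq_sum_range (fun i => (p %ₘ m).coeff i • θ ^ i * aeval (jt M ℚbar) S)]
      refine Finset.sum_congr rfl fun i _ => ?_
      rw [Algebra.smul_def, ← hSP i]
      exact mul_right_comm _ _ _
    have hex : ∃ i, P i ≠ 0 := by
      by_contra hall
      push Not at hall
      simp only [hall, map_zero, zero_mul, Finset.sum_const_zero] at key
      exact mul_ne_zero (fun h => hx (Subtype.ext h)) hSx key
    obtain ⟨a, R, ha, hRP, i₀, hi₀⟩ := exists_primitive_family (A := A) P hex
    obtain ⟨b, S₀, hb, hS₀, hSb⟩ := exists_primitive_polynomial A S hS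
    let θA : LaurentSeries A := coeffMap (gA A) (serG (thetaG hR c 1))
    let u : LaurentSeries A := ∑ i : Fin N, aeval (jt M A) (R i) * θA ^ (i : ℕ)
    have hu : coeffMap (IsLocalRing.residue A) u = ∑ i : Fin N,
        aeval (jt M (kk A)) ((R i).map (IsLocalRing.residue A)) *
          theta hR (gK A) c 1 ^ (i : ℕ) := by
      simp only [u, θA, map_sum, map_mul, map_pow, coeffMap_aeval_jt, coeffMap_gA_residue]
      rfl
    have hjK : ∀ P : (kk A)[X], aeval (jt M (kk A)) P ∈ jField M (kk A) := fun P =>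
      algebra_adjoin_le_adjoin _ _ (aeval_mem_adjoin_singleton _ _)
    refine ⟨a / b, u, aeval (jt M A) S₀, div_ne_zero ha hb, ?_, ?_, ?_, ?_, ?_⟩
    · rw [hu]
      intro h0
      have hli := linearIndependent_pow (K := jField M (kk A)) (theta hR (gK A) c 1)
      rw [natDegree_minpoly_theta hck] at hli
      have h1 := Fintype.linearIndependent_iff.1 hli
        (fun i => ⟨_, hjK ((R i).map (IsLocalRing.residue A))⟩)
        (by simpa [Algebra.smul_def] using h0) i₀
      exact hi₀ (transcendental_iff.1 (transcendental_jt (M := M) (K := kk A)) _ (congrArg Subtype.val h1))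
    · rw [coeffMap_aeval_jt]
      exact fun h => hS₀ (transcendental_iff.1 (transcendental_jt (M := M) (K := kk A)) _ h)
    · rw [hu]
      exact sum_mem fun i _ => mul_mem (jField_le_fieldX _ (hjK _))
        (pow_mem (redG_mem_fieldX hck (equivariant_thetaG hR c) 1) _)
    · rw [coeffMap_aeval_jt]
      exact jField_le_fieldX _ (hjK _)
    · have hsum : coeffMap A.subtype u =
          ∑ i : Fin N, aeval (jt M ℚbar) ((R i).map A.subtype) * θ ^ (i : ℕ) := by
        simp only [u, θA, map_sum, map_mul, map_pow, coeffMap_aeval_jt, coeffMap_gA_subtype]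
        rfl
      rw [hSb] at key
      simp only [hRP, map_mul, aeval_C, algebraMap_eq_C, mul_assoc, ← Finset.mul_sum] at key
      rw [← hsum] at key
      rw [coeffMap_aeval_jt]
      have hb' : (HahnSeries.C b : LaurentSeries ℚbar) ≠ 0 := by simpa using hb
      rw [map_div₀, div_mul_eq_mul_div, eq_div_iff hb', mul_assoc,
        mul_comm _ (HahnSeries.C b : LaurentSeries ℚbar)]
      exact key

end Place

end Fermat.Agent.DeligneSerre.Level

end
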