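import Fermat.Agent.DeligneSerre.RepsHecke
import Fermat.Agent.DeligneSerre.RepsGood
import Fermat.Agent.DeligneSerre.RepsGoodLevel
import Fermat.Agent.Curve.BasicPlace
import Fermat.Prelude.Def_EllipticCurve_FrobeniusTrace

/-!
# Inertia and the Eichler–Shimura congruence relation on Kummer classes
-/

set_option autoImplicit false

noncomputable section

open UpperHalfPlane ModularCurve AlgebraicCurve IsLocalRing
open scoped MatrixGroups

namespace Fermat.Agent.DeligneSerre.Level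

local notation "ℚbar" => AlgebraicClosure ℚ
local notation "Γℚ" => AlgebraicClosure ℚ ≃ₐ[ℚ] AlgebraicClosure ℚ

section HasRed

variable {A : ValuationSubring ℚbar}

/-- `x` is a quotient of integral series reducing to `s`. -/
def HasRed (A : ValuationSubring ℚbar) (x : LaurentSeries ℚbar)
    (s : LaurentSeries (ResidueField A)) : Prop :=
  ∃ u v : LaurentSeries A, coeffMap (residue A) v ≠ 0 ∧
    x * coeffMap A.subtype v = coeffMap A.subtype u ∧
    s * coeffMap (residue A) v = coeffMap (residue A) u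

variable {x y : LaurentSeries ℚbar} {s t : LaurentSeries (ResidueField A)}

theorem coeffMap_subtype_injective (A : ValuationSubring ℚbar) :
    Function.Injective (coeffMap A.subtype) := fun a b h => by
  ext k
  simpa using congrArg (fun c => c.coeff k) h

theorem coeffMap_C_series {R S : Type*} [CommRing R] [CommRing S] (f : R →+* S) (r : R) :
    coeffMap f (HahnSeries.C r) = HahnSeries.C (f r) := by
  simp

theorem HasRed.unique (h : HasRed A x s) (h' : HasRed A x t) : s = t := by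
  obtain ⟨u, v, hv, h1, h2⟩ := h
  obtain ⟨u', v', hv', h1', h2'⟩ := h'
  have e : u * v' = u' * v := coeffMap_subtype_injective A (by
    rw [map_mul, map_mul, ← h1, ← h1']; ring)
  have e' := congrArg (coeffMap (residue A)) e
  rw [map_mul, map_mul, ← h2, ← h2'] at e'
  refine mul_right_cancel₀ (mul_ne_zero hv hv') ?_
  linear_combination e'

theorem HasRed.of_const (a : A) :
    HasRed A (HahnSeries.C (a : ℚbar)) (HahnSeries.C (residue A a)) :=
  ⟨HahnSeries.C a, 1, by rw [map_one]; exact one_ne_zero,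
    by rw [map_one, mul_one, coeffMap_C_series]; rfl,
    by rw [map_one, mul_one, coeffMap_C_series]⟩

theorem HasRed.mul (h : HasRed A x s) (h' : HasRed A y t) : HasRed A (x * y) (s * t) := by
  obtain ⟨u, v, hv, h1, h2⟩ := h
  obtain ⟨u', v', hv', h1', h2'⟩ := h'
  refine ⟨u * u', v * v', by rw [map_mul]; exact mul_ne_zero hv hv', ?_, ?_⟩
  · rw [map_mul, map_mul, ← h1, ← h1']; ring
  · rw [map_mul, map_mul, ← h2, ← h2']; ring

theorem HasRed.one : HasRed A 1 1 :=
  ⟨1, 1, by rw [map_one]; exact one_ne_zero, by simp, by simp⟩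

theorem HasRed.pow (h : HasRed A x s) : ∀ n : ℕ, HasRed A (x ^ n) (s ^ n)
  | 0 => by simpa using HasRed.one
  | n + 1 => by rw [pow_succ, pow_succ]; exact (HasRed.pow h n).mul h

theorem HasRed.prod {ι : Type*} (I : Finset ι) {X : ι → LaurentSeries ℚbar}
    {S : ι → LaurentSeries (ResidueField A)} (h : ∀ i ∈ I, HasRed A (X i) (S i)) :
    HasRed A (∏ i ∈ I, X i) (∏ i ∈ I, S i) := by
  classical
  induction I using Finset.induction with
  | empty => simpa using HasRed.one
  | insert a I ha ih =>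
    rw [Finset.prod_insert ha, Finset.prod_insert ha]
    exact (h a (Finset.mem_insert_self a I)).mul
      (ih fun i hi => h i (Finset.mem_insert_of_mem hi))

theorem HasRed.inv (h : HasRed A x s) (hs : s ≠ 0) : HasRed A x⁻¹ s⁻¹ := by
  obtain ⟨u, v, hv, h1, h2⟩ := h
  have hu : coeffMap (residue A) u ≠ 0 := h2 ▸ mul_ne_zero hs hv
  have hx : x ≠ 0 := by
    rintro rfl
    rw [zero_mul] at h1
    exact hu (by rw [show u = 0 from coeffMap_subtype_injective A (by rw [← h1, map_zero]),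
      map_zero])
  exact ⟨v, u, hu, by rw [← h1, inv_mul_cancel_left₀ hx],
    by rw [← h2, inv_mul_cancel_left₀ hs]⟩

theorem HasRed.div (h : HasRed A x s) (h' : HasRed A y t) (ht : t ≠ 0) :
    HasRed A (x / y) (s / t) := by
  rw [div_eq_mul_inv, div_eq_mul_inv]
  exact h.mul (h'.inv ht)

/-- Compatible ring maps preserve reductions. -/
theorem HasRed.map {F : LaurentSeries ℚbar →+* LaurentSeries ℚbar}
    {FA : LaurentSeries A →+* LaurentSeries A}
    {Fk : LaurentSeries (ResidueField A) →+* LaurentSeries (ResidueField A)}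
    (hF : ∀ w, F (coeffMap A.subtype w) = coeffMap A.subtype (FA w))
    (hk : ∀ w, coeffMap (residue A) (FA w) = Fk (coeffMap (residue A) w))
    (hinj : Function.Injective Fk) (h : HasRed A x s) : HasRed A (F x) (Fk s) := by
  obtain ⟨u, v, hv, h1, h2⟩ := h
  exact ⟨FA u, FA v, by rw [hk]; exact (map_ne_zero_iff _ hinj).2 hv,
    by rw [← hF, ← hF, ← map_mul, h1], by rw [hk, hk, ← map_mul, h2]⟩

theorem HasRed.qExpand (h : HasRed A x s) (n : ℕ) [NeZero n] :
    HasRed A (qExpand ℚbar n x) (qExpand (ResidueField A) n s) :=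
  h.map (fun w => (coeffMap_qExpand_ring _ n w).symm) (fun w => coeffMap_qExpand_ring _ n w)
    (qExpand_injective n)

theorem HasRed.twist (h : HasRed A x s) (a : Aˣ) (ha : residue A (a : A) = 1) :
    HasRed A (Level.twist (Units.map (A.subtype : A →* ℚbar) a) x) s :=
  h.map (Fk := RingHom.id _) (fun w => (coeffMap_twist A.subtype a w).symm)
    (fun w => by
      rw [coeffMap_twist, show Units.map (residue A : A →* ResidueField A) a = 1 from
        Units.ext ha, twist_one_apply]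
      rfl)
    Function.injective_id

/-- Two multiples with non-zero reductions differ by an integral constant. -/
theorem HasRed.exists_scalar (h : HasRed A x s) {d : ℚbar}
    (h' : HasRed A (HahnSeries.C d * x) t) (hs : s ≠ 0) :
    ∃ hd : d ∈ A, t = HahnSeries.C (residue A ⟨d, hd⟩) * s := by
  by_cases hd : d ∈ A
  · exact ⟨hd, h'.unique ((HasRed.of_const ⟨d, hd⟩).mul h)⟩
  · exfalso
    have hinv : d⁻¹ ∈ A := (A.mem_or_inv_mem d).resolve_left hd
    have hd0 : d ≠ 0 := fun h0 => hd (h0 ▸ zero_mem A)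
    have hnu : ¬ IsUnit (⟨d⁻¹, hinv⟩ : A) := fun hu => by
      obtain ⟨w, hw⟩ := hu.exists_right_inv
      have hw' : d⁻¹ * (w : ℚbar) = 1 := congrArg Subtype.val hw
      have hdw : d = (w : ℚbar) := by
        rw [← mul_one d, ← hw', ← mul_assoc, mul_inv_cancel₀ hd0, one_mul]
      exact hd (hdw ▸ w.2)
    have h2 := (HasRed.of_const ⟨d⁻¹, hinv⟩).mul h'
    rw [← mul_assoc, ← map_mul, inv_mul_cancel₀ hd0, map_one, one_mul] at h2
    refine hs ((h.unique h2).trans ?_)
    rw [(residue_eq_zero_iff _).2 ((mem_maximalIdeal _).2 hnu), map_zero, zero_mul]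

end HasRed

section Good

variable {M : ℕ} [NeZero M] {p : ℕ} {A : ValuationSubring ℚbar}

theorem isUnit_natCast_of_not_dvd (hp : p.Prime) (hA : A.LiesOverPrime p) {n : ℕ}
    (hn : ¬ p ∣ n) : IsUnit (n : A) := by
  by_contra h
  refine natCast_residueField_ne_zero hp hA hn ?_
  rw [← map_natCast (residue A), residue_eq_zero_iff]
  exact (mem_maximalIdeal _).2 h

theorem charP_residueField' (hp : p.Prime) (hA : A.LiesOverPrime p) :
    CharP (ResidueField A) p := by
  refine (CharP.charP_iff_prime_eq_zero hp).mpr ?_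
  rw [← map_natCast (residue A), residue_eq_zero_iff, ← ValuationSubring.coe_mem_nonunits_iff]
  exact_mod_cast hA

/-- Every non-zero function is a constant times one with non-zero reduction. -/
theorem exists_hasRed (hM : 3 ≤ M) (hp : p.Prime) (hpM : ¬ p ∣ M) (hA : A.LiesOverPrime p)
    {x : FQ M} (hx : x ≠ 0) :
    ∃ (c : ℚbar) (s : LaurentSeries (ResidueField A)), c ≠ 0 ∧ s ≠ 0 ∧
      HasRed A (HahnSeries.C c * (x : LaurentSeries ℚbar)) s := by
  obtain ⟨c, u, v, hc, hu, hv, -, -, h⟩ :=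
    (datum (isUnit_natCast_of_not_dvd hp hA hpM) hM).normal x hx
  refine ⟨c⁻¹, coeffMap (residue A) u / coeffMap (residue A) v, inv_ne_zero hc,
    div_ne_zero hu hv, u, v, hv, ?_, div_mul_cancel₀ _ hv⟩
  rw [mul_assoc, h, ← mul_assoc, ← map_mul, inv_mul_cancel₀ hc, map_one, one_mul]

/-- A function which is a constant times a quotient reducing to `1` is an `ℓ`th power. -/
theorem exists_pow_eq_of_hasRed (hM : 5 ≤ M) (hp : p.Prime) (hpM : ¬ p ∣ M)
    (hA : A.LiesOverPrime p) {ℓ : ℕ} (hℓ : ℓ.Prime) (hℓ5 : 5 ≤ ℓ) (hℓp : ℓ ≠ p) {Q : FQ M}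
    (hQ : Q ≠ 0) (hdvd : ∀ v : Place ℚbar (FQ M), (ℓ : ℤ) ∣ v.ord Q) {κ : ℚbar} (hκ : κ ≠ 0)
    (h : HasRed A (HahnSeries.C κ * (Q : LaurentSeries ℚbar)) 1) :
    ∃ y : FQ M, y ^ ℓ = Q := by
  have hcoe : ((algebraMap ℚbar (FQ M) κ * Q : FQ M) : LaurentSeries ℚbar) =
      HahnSeries.C κ * (Q : LaurentSeries ℚbar) := by
    show algebraMap ℚbar (LaurentSeries ℚbar) κ * _ = _
    rw [Igusa.Fibre.algebraMap_eq_C]
  have hκ' : algebraMap ℚbar (FQ M) κ ≠ 0 := (map_ne_zero _).2 hκ
  obtain ⟨u, v, hv, h1, h2⟩ := h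
  rw [one_mul] at h2
  obtain ⟨y, hy⟩ := exists_eq_pow_of_reduction M hM hp hpM A hA hℓ hℓ5 hℓp
    (mul_ne_zero hκ' hQ) (fun w => by
      rw [w.ord_mul hκ' hQ, Curve.ord_algebraMap w, zero_add]; exact hdvd w)
    u v (by rw [hcoe]; exact h1) h2.symm hv
  obtain ⟨μ, hμ⟩ := IsAlgClosed.exists_pow_nat_eq κ hℓ.pos
  refine ⟨y / algebraMap ℚbar (FQ M) μ, ?_⟩
  rw [div_pow, hy, ← map_pow, hμ, mul_div_cancel_left₀ _ hκ']

end Good

variable {M : ℕ} [NeZero M]

/-- Inertia at a good place fixes Kummer classes. -/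
theorem exists_pow_eq_of_inertia (hM : 5 ≤ M) {p : ℕ} (hp : p.Prime) (hpM : ¬ p ∣ M)
    (A : ValuationSubring ℚbar) (hA : A.LiesOverPrime p) {ℓ : ℕ} (hℓ : ℓ.Prime) (hℓ5 : 5 ≤ ℓ)
    (hℓp : ℓ ≠ p) {σ : Γℚ} (hσ : σ ∈ A.inertiaSubgroupIn ℚ) {x : FQ M} (hx : x ≠ 0)
    (hdvd : ∀ v : Place ℚbar (FQ M), (ℓ : ℤ) ∣ v.ord (galX M σ x / x)) :
    ∃ y : FQ M, y ^ ℓ = galX M σ x / x := by
  obtain ⟨g, hg, rfl⟩ := hσ
  set τ : Γℚ := (A.decompositionSubgroup ℚ).subtype g
  obtain ⟨c, s, hc, hs, hred⟩ := exists_hasRed (A := A) (by omega) hp hpM hA hx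
  let gA' : A →+* A := MulSemiringAction.toRingHom (A.decompositionSubgroup ℚ) A g
  have hker : MulSemiringAction.toRingAut (A.decompositionSubgroup ℚ)
      (ResidueField A) g = 1 := MonoidHom.mem_ker.1 hg
  have hgres : ∀ a : A, residue A (gA' a) = residue A a := fun a => by
    have h1 := DFunLike.congr_fun hker (residue A a)
    simp only [MulSemiringAction.toRingAut_apply, MulSemiringAction.toRingEquiv_apply_apply,
      RingAut.one_apply] at h1
    rw [← ResidueField.residue_smul] at h1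
    exact h1
  have hσred : HasRed A (coeffMap (τ : ℚbar →+* ℚbar)
      (HahnSeries.C c * (x : LaurentSeries ℚbar))) s :=
    hred.map (FA := coeffMap gA') (Fk := RingHom.id _) (fun w => by ext k; simp; rfl)
      (fun w => by ext k; simp [hgres]) Function.injective_id
  rw [map_mul, coeffMap_C_series, ← coe_galX] at hσred
  have h1 := hσred.div hred hs
  rw [div_self hs, mul_div_mul_comm, ← map_div₀] at h1
  have hgx : galX M τ x ≠ 0 := (map_ne_zero _).2 hx
  exact exists_pow_eq_of_hasRed hM hp hpM hA hℓ hℓ5 hℓp (div_ne_zero hgx hx) hdvd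
    (div_ne_zero ((map_ne_zero _).2 hc) hc) h1

/-- **The congruence relation**: at a Frobenius `σ` at a good place `σ σ x * (x ∘ γ₀) ^ p` is
`T_p (σ x)` up to an `ℓ`th power. -/
theorem exists_pow_eq_of_frobenius (hM : 5 ≤ M) {p : ℕ} [NeZero p] (hp : p.Prime) (hpM : ¬ p ∣ M)
    (A : ValuationSubring ℚbar) (hA : A.LiesOverPrime p) {ℓ : ℕ} (hℓ : ℓ.Prime) (hℓ5 : 5 ≤ ℓ)
    (hℓp : ℓ ≠ p) {σ : Γℚ} (hσ : A.IsFrobeniusAt σ p) {x z : FQ M} (hx : x ≠ 0)
    (hz : IsTp M p (galX M σ x) z)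
    (hdvd : ∀ v : Place ℚbar (FQ M),
      (ℓ : ℤ) ∣ v.ord (galX M σ (galX M σ x) * actQ M (gam0 M p) x ^ p / z)) :
    ∃ y : FQ M, y ^ ℓ = galX M σ (galX M σ x) * actQ M (gam0 M p) x ^ p / z := by
  have := Fact.mk hp
  have := charP_residueField' hp hA
  let k := ResidueField A
  let gA' : A →+* A := MulSemiringAction.toRingHom (A.decompositionSubgroup ℚ) A
    ⟨σ, hσ.mem_decompositionSubgroup⟩
  have hgres : ∀ a : A, residue A (gA' a) = frobenius k p (residue A a) := fun a => by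
    show residue A ((⟨σ, hσ.mem_decompositionSubgroup⟩ : A.decompositionSubgroup ℚ) • a) =
      residue A a ^ p
    rw [← hσ.smul_residue_eq, ResidueField.residue_smul]
  let Fr : LaurentSeries k →+* LaurentSeries k := coeffMap (frobenius k p)
  have hFr : Function.Injective Fr := fun a b h => by
    ext n
    exact (frobenius k p).injective (by simpa [Fr] using congrArg (fun c => c.coeff n) h)
  have hgal : ∀ {X : LaurentSeries ℚbar} {t : LaurentSeries k}, HasRed A X t →
      HasRed A (coeffMap (σ : ℚbar →+* ℚbar) X) (Fr t) := fun h =>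
    h.map (FA := coeffMap gA') (fun w => by ext n; simp; rfl)
      (fun w => by ext n; simp [Fr, hgres]) hFr
  obtain ⟨h01, h10, -⟩ := modM_gam0 M ((Nat.Prime.coprime_iff_not_dvd hp).mpr hpM)
  have hax : actQ M (gam0 M p) x ≠ 0 := (map_ne_zero _).2 hx
  obtain ⟨c, s, hc, hs, hr⟩ := exists_hasRed (A := A) (by omega) hp hpM hA hx
  obtain ⟨c', s', hc', hs', hr'⟩ := exists_hasRed (A := A) (by omega) hp hpM hA hax
  have hz0 : z ≠ 0 := hz.ne_zero ((map_ne_zero _).2 hx)
  obtain ⟨e, t, he, ht, hrz⟩ := exists_hasRed (A := A) (by omega) hp hpM hA hz0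
  -- the reductions of `σ x`, `σ σ x` and `σ (x ∘ γ₀)`
  have hr1 := hgal hr
  rw [map_mul, coeffMap_C_series, ← coe_galX] at hr1
  have hr2 := hgal hr1
  rw [map_mul, coeffMap_C_series, ← coe_galX] at hr2
  have hr1' := hgal hr'
  rw [map_mul, coeffMap_C_series, ← coe_galX, galX_actQ M σ h01 h10] at hr1'
  -- the roots of unity
  have hζ : ∀ i : ℕ, ∃ a : Aˣ, Units.map (A.subtype : A →* ℚbar) a = zetaP p ^ i ∧
      residue A (a : A) = 1 := by
    intro i
    have hpow : ((zetaP p ^ i : ℚbarˣ) : ℚbar) ^ p = 1 := by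
      rw [Units.val_pow_eq_pow_val, ← pow_mul, mul_comm, pow_mul]
      show (zetaQ p ^ p) ^ i = 1
      rw [(isPrimitiveRoot_zetaQ p).pow_eq_one, one_pow]
    have hmem : ((zetaP p ^ i : ℚbarˣ) : ℚbar) ∈ A :=
      Galois.mem_valuationSubring_of_isIntegral A
        ⟨Polynomial.X ^ p - Polynomial.C 1, Polynomial.monic_X_pow_sub_C 1 hp.ne_zero, by
          simpa [sub_eq_zero] using hpow⟩
    let a : A := ⟨_, hmem⟩
    have ha : a ^ p = 1 := Subtype.ext (by simpa [a] using hpow)
    refine ⟨Units.ofPowEqOne a p ha hp.ne_zero, Units.ext rfl, ?_⟩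
    show residue A a = 1
    refine (frobenius k p).injective ?_
    rw [map_one]
    show residue A a ^ p = 1
    rw [← map_pow, ha, map_one]
  -- `z` scaled to reduce like the numerator
  have hden : HasRed A
      (qExpand ℚbar (p * p) (HahnSeries.C ((σ : ℚbar →+* ℚbar) c') *
          (actQ M (gam0 M p) (galX M σ x) : LaurentSeries ℚbar)) *
        ∏ i ∈ Finset.range p, twist (zetaP p ^ i)
          (HahnSeries.C ((σ : ℚbar →+* ℚbar) c) * (galX M σ x : LaurentSeries ℚbar)))
      (qExpand k p (Fr (Fr s) * s' ^ p)) := by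
    have hstar : qExpand k (p * p) (Fr s') * ∏ _i ∈ Finset.range p, Fr s =
        qExpand k p (Fr (Fr s) * s' ^ p) := by
      rw [Finset.prod_const, Finset.card_range, map_mul, ← pow_char_eq (Fr s), ← qExpand_qExpand,
        ← pow_char_eq s', mul_comm]
    rw [← hstar]
    refine (hr1'.qExpand (p * p)).mul (HasRed.prod _ fun i _ => ?_)
    obtain ⟨a, ha, ha1⟩ := hζ i
    rw [← ha]
    exact hr1.twist a ha1
  set κ := (σ : ℚbar →+* ℚbar) c' * ((σ : ℚbar →+* ℚbar) c) ^ p with hκdef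
  have hκ0 : κ ≠ 0 := mul_ne_zero ((map_ne_zero _).2 hc') (pow_ne_zero _ ((map_ne_zero _).2 hc))
  have hC : ∀ (n : ℕ) [NeZero n] (a : ℚbar), qExpand ℚbar n (HahnSeries.C a) = HahnSeries.C a :=
    fun n _ a => by rw [HahnSeries.C_apply, qExpand_single, mul_zero]
  have heq : qExpand ℚbar (p * p) (HahnSeries.C ((σ : ℚbar →+* ℚbar) c') *
          (actQ M (gam0 M p) (galX M σ x) : LaurentSeries ℚbar)) *
        ∏ i ∈ Finset.range p, twist (zetaP p ^ i)
          (HahnSeries.C ((σ : ℚbar →+* ℚbar) c) * (galX M σ x : LaurentSeries ℚbar)) =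
      HahnSeries.C (κ / e) * qExpand ℚbar p (HahnSeries.C e * (z : LaurentSeries ℚbar)) := by
    rw [map_mul (qExpand ℚbar p), hz, hC, ← mul_assoc (HahnSeries.C (κ / e)),
      ← map_mul (HahnSeries.C), div_mul_cancel₀ _ he, hκdef]
    simp only [map_mul, hC, Finset.prod_mul_distrib, map_pow]
    rw [show ∏ i ∈ Finset.range p, twist (zetaP p ^ i) (HahnSeries.C ((σ : ℚbar →+* ℚbar) c)) =
      HahnSeries.C ((σ : ℚbar →+* ℚbar) c) ^ p by
        rw [Finset.prod_congr rfl fun i _ => ?_, Finset.prod_const, Finset.card_range]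
        rw [HahnSeries.C_apply, twist_single, zpow_zero, Units.val_one, one_mul]]
    ring
  rw [heq] at hden
  obtain ⟨hd, htN⟩ := (hrz.qExpand p).exists_scalar hden
    ((map_ne_zero_iff _ (qExpand_injective p)).2 ht)
  have hzN : HasRed A (HahnSeries.C κ * (z : LaurentSeries ℚbar)) (Fr (Fr s) * s' ^ p) := by
    have h1 := (HasRed.of_const ⟨κ / e, hd⟩).mul hrz
    rw [← mul_assoc, ← map_mul, div_mul_cancel₀ _ he] at h1
    have hCk : qExpand k p (HahnSeries.C (residue A ⟨κ / e, hd⟩)) =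
        HahnSeries.C (residue A ⟨κ / e, hd⟩) := by
      rw [HahnSeries.C_apply, qExpand_single, mul_zero]
    have h2 : HahnSeries.C (residue A ⟨κ / e, hd⟩) * t = Fr (Fr s) * s' ^ p :=
      qExpand_injective p (by rw [map_mul (qExpand k p), hCk]; exact htN.symm)
    rwa [h2] at h1
  have hN : Fr (Fr s) * s' ^ p ≠ 0 :=
    mul_ne_zero ((map_ne_zero_iff _ hFr).2 ((map_ne_zero_iff _ hFr).2 hs)) (pow_ne_zero _ hs')
  have h1 := (hr2.mul (hr'.pow p)).div hzN hN
  rw [div_self hN] at h1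
  refine exists_pow_eq_of_hasRed hM hp hpM hA hℓ hℓ5 hℓp
    (div_ne_zero (mul_ne_zero ((map_ne_zero _).2 ((map_ne_zero _).2 hx)) (pow_ne_zero _ hax)) hz0)
    hdvd (κ := (σ : ℚbar →+* ℚbar) ((σ : ℚbar →+* ℚbar) c) * c' ^ p / κ)
    (div_ne_zero (mul_ne_zero ((map_ne_zero _).2 ((map_ne_zero _).2 hc)) (pow_ne_zero _ hc')) hκ0)
    ?_
  convert h1 using 1
  push_cast
  simp only [map_div₀, map_mul, map_pow, mul_pow]
  ring

end Fermat.Agent.DeligneSerre.Level

end
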