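import Fermat.Agent.DeligneSerre.RepsKummer
import Fermat.Agent.DeligneSerre.RepsHecke
import Fermat.Agent.DeligneSerre.RepsSpecial

/-!
# The Galois action on the Kummer classes of level `M`
-/

set_option autoImplicit false

noncomputable section

open ModularCurve AlgebraicCurve Matrix
open scoped MatrixGroups

namespace Fermat.Agent.DeligneSerre.Level

open Fermat.Agent.Igusa.Fibre (jt coeffMap_jt)

local notation "ℚbar" => AlgebraicClosure ℚ
local notation "Γℚ" => AlgebraicClosure ℚ ≃ₐ[ℚ] AlgebraicClosure ℚ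

variable {M : ℕ} [NeZero M]

theorem galX_one (x : FQ M) : galX M 1 x = x := by
  apply Subtype.ext
  rw [coe_galX]
  ext n
  rfl

theorem galX_mul (σ τ : Γℚ) (x : FQ M) : galX M (σ * τ) x = galX M σ (galX M τ x) := by
  apply Subtype.ext
  rw [coe_galX, coe_galX, coe_galX]
  ext n
  rfl

/-- `galX σ` as a semilinear automorphism. -/
def galAut (σ : Γℚ) : SemilinearAut ℚbar (FQ M) :=
  ⟨(RingEquiv.ofRingHom (galX M σ) (galX M σ⁻¹)
      (RingHom.ext fun x => by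
        show galX M σ (galX M σ⁻¹ x) = x
        rw [← galX_mul, mul_inv_cancel, galX_one])
      (RingHom.ext fun x => by
        show galX M σ⁻¹ (galX M σ x) = x
        rw [← galX_mul, inv_mul_cancel, galX_one]),
    σ.toRingEquiv), fun a => by
      apply Subtype.ext
      show coeffMap (σ : ℚbar →+* ℚbar) (algebraMap ℚbar (LaurentSeries ℚbar) a)
        = algebraMap ℚbar (LaurentSeries ℚbar) (σ a)
      rw [algebraMap_laurentSeries_eq_single, algebraMap_laurentSeries_eq_single, coeffMap_single]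
      rfl⟩

theorem galAut_smul (σ : Γℚ) (x : FQ M) : galAut (M := M) σ • x = galX M σ x := rfl

variable {ℓ : ℕ}

theorem Divisible.galX (σ : Γℚ) {x : FQ M} (hx : Divisible M ℓ x) :
    Divisible M ℓ (galX M σ x) := by
  refine ⟨(map_ne_zero _).2 hx.1, fun v => ?_⟩
  have h := SemilinearAut.ord_smul (galAut σ) ((galAut (M := M) σ)⁻¹ • v) x
  rw [smul_inv_smul, galAut_smul] at h
  rw [h]
  exact hx.2 _

theorem Divisible.mul {x y : FQ M} (hx : Divisible M ℓ x) (hy : Divisible M ℓ y) :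
    Divisible M ℓ (x * y) :=
  ⟨mul_ne_zero hx.1 hy.1, fun v => by rw [v.ord_mul hx.1 hy.1]; exact dvd_add (hx.2 v) (hy.2 v)⟩

theorem Divisible.inv {x : FQ M} (hx : Divisible M ℓ x) : Divisible M ℓ x⁻¹ :=
  ⟨inv_ne_zero hx.1, fun v => by rw [v.ord_inv]; exact dvd_neg.2 (hx.2 v)⟩

theorem Divisible.div {x y : FQ M} (hx : Divisible M ℓ x) (hy : Divisible M ℓ y) :
    Divisible M ℓ (x / y) := by rw [div_eq_mul_inv]; exact hx.mul hy.inv

theorem Divisible.pow {x : FQ M} (hx : Divisible M ℓ x) (n : ℕ) : Divisible M ℓ (x ^ n) :=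
  ⟨pow_ne_zero n hx.1, fun v => by rw [ord_pow']; exact (hx.2 v).mul_left _⟩

variable [NeZero ℓ] (hM : 5 ≤ M)
include hM

theorem coordQ_one : coordQ (ℓ := ℓ) hM (1 : FQ M) = 0 := by
  simpa using coordQ_pow (ℓ := ℓ) hM (x := (1 : FQ M)) one_ne_zero

theorem coordQ_div {x y : FQ M} (hx : Divisible M ℓ x) (hy : Divisible M ℓ y) :
    coordQ (ℓ := ℓ) hM (x / y) = coordQ hM x - coordQ hM y := by
  rw [eq_sub_iff_add_eq, ← coordQ_mul hM (hx.div hy) hy, div_mul_cancel₀ _ hy.1]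

theorem coordQ_npow {x : FQ M} (hx : Divisible M ℓ x) (n : ℕ) :
    coordQ (ℓ := ℓ) hM (x ^ n) = n • coordQ hM x := by
  induction n with
  | zero => rw [pow_zero, zero_smul, coordQ_one]
  | succ n ih => rw [pow_succ, coordQ_mul hM (hx.pow n) hx, ih, succ_nsmul]

/-- Galois respects equality of classes. -/
theorem coordQ_galX_congr (σ : Γℚ) {x y : FQ M} (hx : Divisible M ℓ x) (hy : Divisible M ℓ y)
    (h : coordQ (ℓ := ℓ) hM x = coordQ hM y) :
    coordQ (ℓ := ℓ) hM (galX M σ x) = coordQ hM (galX M σ y) := by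
  obtain ⟨u, hu⟩ := (coordQ_eq_zero_iff hM (hx.div hy)).1 (by rw [coordQ_div hM hx hy, h, sub_self])
  rw [← sub_eq_zero, ← coordQ_div hM (hx.galX σ) (hy.galX σ)]
  exact (coordQ_eq_zero_iff hM ((hx.galX σ).div (hy.galX σ))).2
    ⟨galX M σ u, by rw [← map_pow, hu, map_div₀]⟩

/-- A function with the given coordinates. -/
def repOf (c : Fin (rk M) → ZMod ℓ) : FQ M := (exists_coordQ hM c).choose

theorem repOf_spec (c : Fin (rk M) → ZMod ℓ) :
    Divisible M ℓ (repOf hM c) ∧ coordQ hM (repOf hM c) = c :=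
  (exists_coordQ hM c).choose_spec

/-- The action of `σ` on coordinates. -/
def galCoord (σ : Γℚ) (c : Fin (rk M) → ZMod ℓ) : Fin (rk M) → ZMod ℓ :=
  coordQ hM (galX M σ (repOf hM c))

theorem galCoord_coordQ (σ : Γℚ) {x : FQ M} (hx : Divisible M ℓ x) :
    galCoord hM σ (coordQ (ℓ := ℓ) hM x) = coordQ hM (galX M σ x) :=
  coordQ_galX_congr hM σ (repOf_spec hM _).1 hx (repOf_spec hM _).2

theorem galCoord_add (σ : Γℚ) (c d : Fin (rk M) → ZMod ℓ) :
    galCoord hM σ (c + d) = galCoord hM σ c + galCoord hM σ d := by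
  obtain ⟨hc, hc'⟩ := repOf_spec hM c
  obtain ⟨hd, hd'⟩ := repOf_spec hM d
  conv_lhs => rw [← hc', ← hd', ← coordQ_mul hM hc hd, galCoord_coordQ hM σ (hc.mul hd),
    map_mul, coordQ_mul hM (hc.galX σ) (hd.galX σ)]
  rfl

theorem galCoord_one (c : Fin (rk M) → ZMod ℓ) : galCoord hM 1 c = c := by
  rw [galCoord, galX_one]
  exact (repOf_spec hM c).2

theorem galCoord_mul (σ τ : Γℚ) (c : Fin (rk M) → ZMod ℓ) :
    galCoord hM (σ * τ) c = galCoord hM σ (galCoord hM τ c) := by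
  obtain ⟨hc, hc'⟩ := repOf_spec hM c
  conv_rhs => rw [← hc', galCoord_coordQ hM τ hc, galCoord_coordQ hM σ (hc.galX τ)]
  rw [galCoord, galX_mul]

/-- The action of `σ` on coordinates, as a linear map. -/
def galLin (σ : Γℚ) : Module.End (ZMod ℓ) (Fin (rk M) → ZMod ℓ) :=
  AddMonoidHom.toZModLinearMap ℓ (AddMonoidHom.mk' (galCoord hM σ) (galCoord_add hM σ))

theorem galLin_apply (σ : Γℚ) (c : Fin (rk M) → ZMod ℓ) : galLin hM σ c = galCoord hM σ c := rfl

attribute [local irreducible] galCoord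

/-- The representation on coordinates. -/
def galEnd : Γℚ →* Module.End (ZMod ℓ) (Fin (rk M) → ZMod ℓ) where
  toFun := galLin hM
  map_one' := LinearMap.ext fun c => by rw [galLin_apply, galCoord_one]; rfl
  map_mul' σ τ := LinearMap.ext fun c => by
    rw [Module.End.mul_apply, galLin_apply, galLin_apply, galLin_apply, galCoord_mul]

theorem galEnd_eq (σ : Γℚ) (c : Fin (rk M) → ZMod ℓ) : galEnd hM σ c = galCoord hM σ c := rfl

theorem galEnd_apply (σ : Γℚ) {x : FQ M} (hx : Divisible M ℓ x) :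
    galEnd hM σ (coordQ (ℓ := ℓ) hM x) = coordQ hM (galX M σ x) := by
  rw [galEnd_eq, galCoord_coordQ hM σ hx]

omit hM [NeZero ℓ] in
/-- Every function is defined over a number field. -/
theorem exists_level (x : FQ M) :
    ∃ L : IntermediateField ℚ ℚbar, FiniteDimensional ℚ L ∧
      ∀ σ : Γℚ, (∀ a ∈ L, σ a = a) → galX M σ x = x := by
  have hfin : ∀ a : ℚbar, FiniteDimensional ℚ (IntermediateField.adjoin ℚ ({a} : Set ℚbar)) :=
    fun a => IntermediateField.adjoin.finiteDimensional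
      (Algebra.IsAlgebraic.isAlgebraic a).isIntegral
  obtain ⟨z, hz⟩ := x
  suffices h : ∃ L : IntermediateField ℚ ℚbar, FiniteDimensional ℚ L ∧
      ∀ σ : Γℚ, (∀ a ∈ L, σ a = a) → coeffMap (σ : ℚbar →+* ℚbar) z = z by
    obtain ⟨L, hL, h⟩ := h
    exact ⟨L, hL, fun σ hσ => Subtype.ext (h σ hσ)⟩
  refine IntermediateField.adjoin_induction ℚbar
    (p := fun z _ => ∃ L : IntermediateField ℚ ℚbar, FiniteDimensional ℚ L ∧
      ∀ σ : Γℚ, (∀ a ∈ L, σ a = a) → coeffMap (σ : ℚbar →+* ℚbar) z = z)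
    ?_ ?_ ?_ ?_ ?_ hz
  · rintro z (rfl | ⟨i, rfl⟩)
    · exact ⟨⊥, inferInstance, fun σ _ => coeffMap_jt _ _⟩
    · refine ⟨IntermediateField.adjoin ℚ {zetaQ M}, hfin _, fun σ hσ => ?_⟩
      rw [coeffMap_ySer]
      congr 1
      exact hσ _ (IntermediateField.mem_adjoin_simple_self ℚ _)
  · intro a
    refine ⟨IntermediateField.adjoin ℚ {a}, hfin _, fun σ hσ => ?_⟩
    rw [algebraMap_laurentSeries_eq_single, coeffMap_single]
    congr 1
    exact hσ _ (IntermediateField.mem_adjoin_simple_self ℚ _)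
  · rintro a b _ _ ⟨L, hL, ha⟩ ⟨L', hL', hb⟩
    exact ⟨L ⊔ L', inferInstance, fun σ hσ => by
      rw [map_add, ha σ (fun y hy => hσ y (le_sup_left (a := L) hy)),
        hb σ (fun y hy => hσ y (le_sup_right (b := L') hy))]⟩
  · rintro a _ ⟨L, hL, ha⟩
    exact ⟨L, hL, fun σ hσ => by rw [map_inv₀, ha σ hσ]⟩
  · rintro a b _ _ ⟨L, hL, ha⟩ ⟨L', hL', hb⟩
    exact ⟨L ⊔ L', inferInstance, fun σ hσ => by
      rw [map_mul, ha σ (fun y hy => hσ y (le_sup_left (a := L) hy)),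
        hb σ (fun y hy => hσ y (le_sup_right (b := L') hy))]⟩

theorem galEnd_finiteLevel :
    ∃ L : IntermediateField ℚ ℚbar, FiniteDimensional ℚ L ∧
      ∀ σ : Γℚ, (∀ a ∈ L, σ a = a) → galEnd (ℓ := ℓ) hM σ = 1 := by
  choose L hL hLσ using fun c : Fin (rk M) → ZMod ℓ => exists_level (repOf hM c)
  refine ⟨⨆ c, L c, IntermediateField.finiteDimensional_iSup_of_finite, fun σ hσ =>
    LinearMap.ext fun c => ?_⟩
  rw [galEnd_eq]
  show galCoord hM σ c = c
  rw [galCoord, hLσ c σ fun a ha => hσ a (le_iSup L c ha)]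
  exact (repOf_spec hM c).2

theorem galEnd_inertia {p : ℕ} (hp : p.Prime) (hpM : ¬ p ∣ M) (hℓ : ℓ.Prime) (hℓ5 : 5 ≤ ℓ)
    (hℓM : ℓ ∣ M) {A : ValuationSubring ℚbar} (hA : A.LiesOverPrime p) {σ : Γℚ}
    (hσ : σ ∈ A.inertiaSubgroupIn ℚ) : galEnd (ℓ := ℓ) hM σ = 1 := by
  refine LinearMap.ext fun c => ?_
  rw [galEnd_eq]
  show galCoord hM σ c = c
  obtain ⟨hc, hc'⟩ := repOf_spec hM c
  have hq := (hc.galX σ).div hc
  have h := (coordQ_eq_zero_iff hM hq).2 (exists_pow_eq_of_inertia hM hp hpM A hA hℓ hℓ5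
    (fun h => hpM (h ▸ hℓM)) hσ hc.1 hq.2)
  rw [coordQ_div hM (hc.galX σ) hc, sub_eq_zero, hc'] at h
  rw [galCoord]
  exact h

/-- Galois commutes with `matT`. -/
theorem galEnd_matT (σ : Γℚ) {p : ℕ} (hp : p.Prime) (hpM : ¬ p ∣ M) (c : Fin (rk M) → ZMod ℓ) :
    galEnd hM σ ((matT M p).map (Int.castRingHom (ZMod ℓ)) *ᵥ c)
      = (matT M p).map (Int.castRingHom (ZMod ℓ)) *ᵥ galEnd hM σ c := by
  have : NeZero p := ⟨hp.ne_zero⟩
  obtain ⟨hc, hc'⟩ := repOf_spec hM c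
  obtain ⟨z, hz⟩ := exists_isTp (by omega) hp hpM (repOf hM c)
  obtain ⟨hz1, hz2⟩ := divisible_of_isChar hM
    (IsChar.hecke (by omega) hp hpM (isChar_of_divisible hM hc) hz)
  obtain ⟨hz3, hz4⟩ := divisible_of_isChar hM
    (IsChar.hecke (by omega) hp hpM (isChar_of_divisible hM (hc.galX σ)) (hz.galX hp hpM σ))
  rw [← hc', ← hz2, galEnd_apply hM σ hz1, galEnd_apply hM σ hc]
  exact hz4

/-- Galois commutes with `matD`. -/
theorem galEnd_matD (σ : Γℚ) {p : ℕ} (hp : p.Prime) (hpM : ¬ p ∣ M) (c : Fin (rk M) → ZMod ℓ) :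
    galEnd hM σ ((matD M p).map (Int.castRingHom (ZMod ℓ)) *ᵥ c)
      = (matD M p).map (Int.castRingHom (ZMod ℓ)) *ᵥ galEnd hM σ c := by
  obtain ⟨hc, hc'⟩ := repOf_spec hM c
  obtain ⟨hz1, hz2⟩ := divisible_of_isChar hM (IsChar.dia p (isChar_of_divisible hM hc))
  obtain ⟨hz3, hz4⟩ := divisible_of_isChar hM (IsChar.dia p (isChar_of_divisible hM (hc.galX σ)))
  obtain ⟨h01, h10, -⟩ := modM_gam0 M ((Nat.Prime.coprime_iff_not_dvd hp).mpr hpM)
  rw [← hc', ← hz2, galEnd_apply hM σ hz1, galEnd_apply hM σ hc, galX_actQ M σ h01 h10]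
  exact hz4

/-- The congruence relation on coordinates. -/
theorem galEnd_frobenius {p : ℕ} (hp : p.Prime) (hpM : ¬ p ∣ M) (hℓ : ℓ.Prime) (hℓ5 : 5 ≤ ℓ)
    (hℓM : ℓ ∣ M) {A : ValuationSubring ℚbar} (hA : A.LiesOverPrime p) {σ : Γℚ}
    (hσ : A.IsFrobeniusAt σ p) (c : Fin (rk M) → ZMod ℓ) :
    galEnd hM σ (galEnd hM σ c) + p • ((matD M p).map (Int.castRingHom (ZMod ℓ)) *ᵥ c)
      = (matT M p).map (Int.castRingHom (ZMod ℓ)) *ᵥ galEnd hM σ c := by
  have : NeZero p := ⟨hp.ne_zero⟩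
  obtain ⟨hc, hc'⟩ := repOf_spec hM c
  obtain ⟨z, hz⟩ := exists_isTp (by omega) hp hpM (galX M σ (repOf hM c))
  obtain ⟨hz1, hz2⟩ := divisible_of_isChar hM
    (IsChar.hecke (by omega) hp hpM (isChar_of_divisible hM (hc.galX σ)) hz)
  obtain ⟨hd1, hd2⟩ := divisible_of_isChar hM (IsChar.dia p (isChar_of_divisible hM hc))
  have hnum := ((hc.galX σ).galX σ).mul (hd1.pow p)
  have hq := hnum.div hz1
  have h := (coordQ_eq_zero_iff hM hq).2 (exists_pow_eq_of_frobenius hM hp hpM A hA hℓ hℓ5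
    (fun h => hpM (h ▸ hℓM)) hσ hc.1 hz hq.2)
  rw [coordQ_div hM hnum hz1, coordQ_mul hM ((hc.galX σ).galX σ) (hd1.pow p),
    coordQ_npow hM hd1, hz2, hd2, sub_eq_zero, ← galEnd_apply hM σ (hc.galX σ),
    ← galEnd_apply hM σ hc, hc'] at h
  exact h

end Fermat.Agent.DeligneSerre.Level

end
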