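import Fermat.Agent.DeligneSerre.RepsMero
import Fermat.Agent.DeligneSerre.RepsCoset
import Mathlib.Analysis.Fourier.ZMod

/-!
# Kummer characters and the Hecke operators on the field of level `M` over `ℚ̄`: definitions
-/

set_option autoImplicit false

noncomputable section

open UpperHalfPlane ModularCurve AlgebraicCurve
open scoped MatrixGroups

namespace Fermat.Agent.DeligneSerre.Level

open Fermat.Agent.Multiplier (IsRootH)

local notation "ℚbar" => AlgebraicClosure ℚ

variable (M : ℕ) [NeZero M]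

/-- `x` is non-zero with divisor divisible by `ℓ`. -/
def Divisible (ℓ : ℕ) (x : FQ M) : Prop :=
  x ≠ 0 ∧ ∀ v : Place ℚbar (FQ M), (ℓ : ℤ) ∣ v.ord x

/-- `v` is the vector of values at the generators `genX` of the Kummer character of `x`: an
`ℓ`th root of the function of `x` transforms by `exp (2 π i φ γ / ℓ)`. -/
def IsChar (ℓ : ℕ) [NeZero ℓ] (x : FQ M) (v : Fin (rk M) → ZMod ℓ) : Prop :=
  x ≠ 0 ∧ ∃ (g : ℍ → ℂ) (φ : Additive (pmGroup M) →+ ZMod ℓ),
    ParHom.IsParEllHom (pmGroup M) φ ∧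
    IsRootH ℓ (funX M (toFC M x)) g ∧
    (∀ (γ : pmGroup M) (τ : ℍ),
      g ((γ : SL(2, ℤ)) • τ) = ZMod.stdAddChar (φ (Additive.ofMul γ)) * g τ) ∧
    ∀ i, φ (Additive.ofMul (genX M i)) = v i

/-- The root of unity of order `p` as a unit. -/
def zetaP (p : ℕ) [NeZero p] : ℚbarˣ :=
  zetaUnit (zetaQ p) (isPrimitiveRoot_zetaQ p).pow_eq_one

/-- `z` is the image of `x` under the multiplicative Hecke correspondence at `p`, in the
variable `q ^ (1 / p)`: `z τ = x (γ₀ p τ) * ∏ x ((τ + M i) / p)`. -/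
def IsTp (p : ℕ) [NeZero p] (x z : FQ M) : Prop :=
  qExpand ℚbar p (z : LaurentSeries ℚbar) =
    qExpand ℚbar (p * p) (actQ M (gam0 M p) x : LaurentSeries ℚbar) *
      ∏ i ∈ Finset.range p, twist (zetaP p ^ i) (x : LaurentSeries ℚbar)

end Fermat.Agent.DeligneSerre.Level

end
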