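import Fermat.Agent.DeligneSerre.RepsHeckeDefs
import Fermat.Agent.Residual.MobiusModular

/-!
# The product of a function over the cosets of the Hecke correspondence
-/

set_option autoImplicit false

noncomputable section

open Filter UpperHalfPlane ModularCurve Matrix.SpecialLinearGroup
open ModularForm (heckeDiagMatrix)
open scoped MatrixGroups Real

namespace Fermat.Agent.DeligneSerre.Level

open Fermat.Agent.ModFun (HasQExp MeroH EqPunct triPoint zetaU)
open Fermat.Agent.Ribet.Twisted (Mat toGL toGL_coe toGL_mul)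

local notation "ℚbar" => AlgebraicClosure ℚ
local notation "𝕢" => Function.Periodic.qParam

variable {M : ℕ} [NeZero M]

theorem twist_eq_modFun (u : ℂˣ) (x : LaurentSeries ℂ) : twist u x = ModFun.twist u x := rfl

/-- Composition with `τ ↦ (a τ + b) / d` for any period. -/
theorem hasQExp_comp_tri {h : ℕ} [NeZero h] (a b d : ℕ) [NeZero a] [NeZero d] {f : ℍ → ℂ}
    {x : LaurentSeries ℂ} (hf : HasQExp h f x) {u : ℂˣ}
    (hu : (u : ℂ) = Complex.exp (2 * π * Complex.I * b / (h * d))) :
    HasQExp (h * d) (fun τ => f (triPoint a b d τ)) (qExpand ℂ a (twist u x)) := by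
  filter_upwards [(ModFun.tendsto_triPoint_atImInfty a b d).eventually hf] with τ h1
  rw [ModFun.hasSum_reindex_iff]
  refine h1.congr_fun fun k => ?_
  have hh : (h : ℂ) ≠ 0 := Nat.cast_ne_zero.2 (NeZero.ne h)
  have hd : (d : ℂ) ≠ 0 := Nat.cast_ne_zero.2 (NeZero.ne d)
  have hq : 𝕢 (h : ℝ) (triPoint a b d τ : ℂ) =
      (u : ℂ) * 𝕢 ((h * d : ℕ) : ℝ) (τ : ℂ) ^ a := by
    rw [hu]
    simp only [Function.Periodic.qParam, ModFun.coe_triPoint,
      ← Complex.exp_nat_mul, ← Complex.exp_add]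
    congr 1
    push_cast
    field_simp
    ring
  rw [hq, twist_coeff, mul_zpow, Units.val_zpow_eq_zpow_val]
  ring

/-- `toGL` of an upper triangular matrix acts as `triPoint`. -/
theorem toGL_upper_smul (a b d : ℕ) [NeZero a] [NeZero d] (τ : ℍ) :
    toGL !![(a : ℤ), (b : ℤ); 0, (d : ℤ)] • τ = triPoint a b d τ := by
  have hdet : 0 < Matrix.det !![(a : ℤ), (b : ℤ); 0, (d : ℤ)] := by
    simp only [Matrix.det_fin_two_of, mul_zero, sub_zero]
    exact mul_pos (by exact_mod_cast NeZero.pos a) (by exact_mod_cast NeZero.pos d)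
  apply UpperHalfPlane.ext
  have hpos : 0 < (toGL !![(a : ℤ), (b : ℤ); 0, (d : ℤ)] : GL (Fin 2) ℝ).val.det := by
    rw [toGL_coe hdet.ne', ← Int.cast_det]
    exact_mod_cast hdet
  rw [coe_smul_of_det_pos hpos, ModFun.coe_triPoint]
  simp [UpperHalfPlane.num, UpperHalfPlane.denom, toGL_coe hdet.ne']

variable (M) in
/-- The function of an element of `FQ M`. -/
def funQ (x : FQ M) : ℍ → ℂ := funX M (toFC M x)

theorem isFun_funQ (x : FQ M) :
    IsFun M (funQ M x) (coeffMap qbarC (x : LaurentSeries ℚbar)) :=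
  isFun_funX M (toFC M x)

theorem funQ_actQ (γ : SL(2, ℤ)) (x : FQ M) :
    EqPunct (funQ M (actQ M γ x)) fun τ => funQ M x (γ • τ) := by
  rw [funQ, ← actC_toFC]
  exact funX_actC M γ _

theorem hasQExp_funQ_smul (γ : SL(2, ℤ)) (x : FQ M) :
    HasQExp M (fun τ => funQ M x (γ • τ)) (coeffMap qbarC (actQ M γ x : LaurentSeries ℚbar)) := by
  obtain ⟨y, hy⟩ := (isFun_funQ x).cusps γ
  refine hy.of_eq ?_
  exact ((isFun_funQ x).comp_smul γ hy).eq_of_eqPunct (isFun_funQ _) (funQ_actQ γ x).symm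

theorem coe_zetaP_map (p : ℕ) [NeZero p] :
    Units.map (qbarC : ℚbar →* ℂ) (zetaP p) = zetaU p := by
  apply Units.ext
  show qbarC (zetaQ p) = _
  rw [qbarC_zetaQ]
  rfl

theorem coeffMap_qExpand_ring {R S : Type*} [CommRing R] [CommRing S] (f : R →+* S) (n : ℕ)
    [NeZero n] (x : LaurentSeries R) :
    coeffMap f (qExpand R n x) = qExpand S n (coeffMap f x) := by
  ext k
  by_cases hk : (n : ℤ) ∣ k
  · obtain ⟨m, rfl⟩ := hk
    simp [qExpand_coeff_mul]
  · simp [qExpand_coeff_of_not_dvd n _ hk]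

theorem det_betaP_pos {p : ℕ} (hp : p ≠ 0) (i : Option (Fin p)) :
    0 < (betaP M p i).val.det := by
  have h0 : (matP M p i).det ≠ 0 := by rw [det_matP]; exact_mod_cast hp
  rw [← toGL_matP M hp, toGL_coe h0, ← Int.cast_det, det_matP]
  exact_mod_cast Nat.pos_of_ne_zero hp

variable (M) in
/-- The product of `funQ x` over the cosets. -/
def tpFun (p : ℕ) (x : FQ M) : ℍ → ℂ :=
  ∏ i : Option (Fin p), fun τ => funQ M x (betaP M p i • τ)

variable (M) in
/-- The expansion of `tpFun` in the variable `q ^ (1 / p)`. -/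
def tpSer (p : ℕ) [NeZero p] (x : FQ M) : LaurentSeries ℚbar :=
  qExpand ℚbar (p * p) (actQ M (gam0 M p) x : LaurentSeries ℚbar) *
    ∏ i ∈ Finset.range p, twist (zetaP p ^ i) (x : LaurentSeries ℚbar)

theorem tpFun_apply (p : ℕ) (x : FQ M) (τ : ℍ) :
    tpFun M p x τ = ∏ i : Option (Fin p), funQ M x (betaP M p i • τ) :=
  Finset.prod_apply τ _ _

theorem meroH_prod {ι : Type*} (s : Finset ι) {f : ι → ℍ → ℂ} (h : ∀ i ∈ s, MeroH (f i)) :
    MeroH (∏ i ∈ s, f i) := by
  classical
  induction s using Finset.induction with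
  | empty => rw [Finset.prod_empty]; exact Places.meroH_const 1
  | insert a s ha ih =>
    rw [Finset.prod_insert ha]
    exact Places.meroH_mul (h a (Finset.mem_insert_self a s))
      (ih fun i hi => h i (Finset.mem_insert_of_mem hi))

theorem hasQExp_prod {ι : Type*} (s : Finset ι) {h : ℕ} [NeZero h] {f : ι → ℍ → ℂ}
    {x : ι → LaurentSeries ℂ} (hf : ∀ i ∈ s, HasQExp h (f i) (x i)) :
    HasQExp h (∏ i ∈ s, f i) (∏ i ∈ s, x i) := by
  classical
  induction s using Finset.induction with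
  | empty => simpa using HasQExp.one
  | insert a s ha ih =>
    rw [Finset.prod_insert ha, Finset.prod_insert ha]
    exact (hf a (Finset.mem_insert_self a s)).mul
      (ih fun i hi => hf i (Finset.mem_insert_of_mem hi))

theorem meroH_tpFun {p : ℕ} [NeZero p] (x : FQ M) : MeroH (tpFun M p x) :=
  meroH_prod _ fun i _ =>
    Residual.meroH_comp_gl (isFun_funQ x).mero (det_betaP_pos (NeZero.ne p) i)

theorem tpFun_smul {p : ℕ} (hp : p.Prime) (hpM : ¬ p ∣ M) (x : FQ M) {γ : SL(2, ℤ)}
    (hγ : γ ∈ pmGroup M) (τ : ℍ) : tpFun M p x (γ • τ) = tpFun M p x τ := by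
  have h := isCosetSystem_betaP M hp hpM
  rw [tpFun_apply, tpFun_apply,
    ← Equiv.prod_comp (h.permEquiv ⟨γ, hγ⟩) (fun i => funQ M x (betaP M p i • τ))]
  refine Finset.prod_congr rfl fun i _ => ?_
  show funQ M x (betaP M p i • pmGL M ⟨γ, hγ⟩ • τ) = _
  rw [← mul_smul, h.spec, mul_smul]
  exact (isFun_funQ x).smul_eq (h.cocycle ⟨γ, hγ⟩ i).2 _

theorem hasQExp_tpFun {p : ℕ} [NeZero p] (x : FQ M) :
    HasQExp (M * p) (tpFun M p x) (coeffMap qbarC (tpSer M p x)) := by
  rw [tpFun, tpSer, map_mul, map_prod, Fintype.prod_option,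
    ← Fin.prod_univ_eq_prod_range (fun i => coeffMap qbarC
      (twist (zetaP p ^ i) (x : LaurentSeries ℚbar))) p]
  refine HasQExp.mul ?_ (hasQExp_prod _ fun i _ => ?_)
  · have h1 := ((hasQExp_funQ_smul (gam0 M p) x).comp_mul p).expand_period p
    rw [coeffMap_qExpand_ring, ← qExpand_qExpand]
    refine h1.congr (.of_forall fun τ => congrArg (funQ M x) ?_)
    show gam0 M p • triPoint p 0 1 τ = (mapGL ℝ (gam0 M p) * heckeDiagMatrix p) • τ
    rw [mul_smul]
    refine congrArg (fun σ : ℍ => mapGL ℝ (gam0 M p) • σ) ?_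
    have hd : toGL !![(p : ℤ), ((0 : ℕ) : ℤ); 0, ((1 : ℕ) : ℤ)] = heckeDiagMatrix p := by
      apply Units.ext
      rw [toGL_coe (by simp [NeZero.ne p])]
      ext a b; fin_cases a <;> fin_cases b <;> simp [NeZero.ne p]
    rw [← hd, toGL_upper_smul]
  · rw [coeffMap_twist, map_pow, coe_zetaP_map]
    have h1 := hasQExp_comp_tri 1 (M * i.val) p (isFun_funQ x).hasQExp (u := zetaU p ^ i.val) (by
      rw [Units.val_pow_eq_pow_val]
      show Complex.exp _ ^ i.val = _
      rw [← Complex.exp_nat_mul]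
      congr 1
      have hM : (M : ℂ) ≠ 0 := Nat.cast_ne_zero.2 (NeZero.ne M)
      push_cast
      field_simp)
    rw [qExpand_one_apply] at h1
    refine h1.congr (.of_forall fun τ => congrArg (funQ M x) ?_)
    rw [← toGL_upper_smul, ← toGL_matP M (NeZero.ne p)]
    rfl

theorem exists_isFun_tpFun {p : ℕ} [NeZero p] (hp : p.Prime) (hpM : ¬ p ∣ M) (x : FQ M) :
    ∃ y, IsFun M (tpFun M p x) y := by
  have hcusp : ∀ g : SL(2, ℤ), ∃ y, HasQExp M (fun τ => tpFun M p x (g • τ)) y := by
    intro g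
    have key : ∀ i, ∃ y, HasQExp (M * p) (fun τ => funQ M x (betaP M p i • g • τ)) y := by
      intro i
      have hdi : (matP M p i).det ≠ 0 := by rw [det_matP]; exact_mod_cast NeZero.ne p
      obtain ⟨η, a, b, d, ha, hd, he⟩ := Residual.exists_SL_mul_upper
        (X := matP M p i * (g : Mat))
        (by rw [Matrix.det_mul, det_matP, det_coe, mul_one]; exact_mod_cast NeZero.pos p)
      have : NeZero a := ⟨ha.ne'⟩
      have : NeZero d := ⟨hd.ne'⟩
      have had : p = d * a := by
        have := congrArg Matrix.det he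
        rw [Matrix.det_mul, Matrix.det_mul, det_matP, det_coe, det_coe,
          Matrix.det_fin_two_of, mul_one, one_mul, mul_zero, sub_zero] at this
        rw [mul_comm]
        exact_mod_cast this
      obtain ⟨y, hy⟩ := (isFun_funQ x).cusps η
      have h1 := (hasQExp_comp_tri a b d hy
        (u := Units.mk0 _ (Complex.exp_ne_zero _)) rfl).expand_period a
      rw [mul_assoc, ← had] at h1
      refine ⟨_, h1.congr (.of_forall fun τ => congrArg (funQ M x) ?_)⟩
      show mapGL ℝ η • triPoint a b d τ = betaP M p i • mapGL ℝ g • τ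
      rw [← mul_smul, ← toGL_matP M (NeZero.ne p), mapGL_eq_toGL, mapGL_eq_toGL,
        ← toGL_mul hdi (by simp), he, toGL_mul (by simp) (by simp [ha.ne', hd.ne']), mul_smul,
        toGL_upper_smul]
    choose y hy using key
    have h2 : HasQExp (M * p) (fun τ => tpFun M p x (g • τ)) (∏ i, y i) :=
      (hasQExp_prod _ fun i _ => hy i).congr (.of_forall fun τ => by
        show _ = tpFun M p x (g • τ)
        rw [Finset.prod_apply, tpFun_apply])
    obtain ⟨z, -, hz⟩ := h2.exists_of_periodic p (.of_forall fun τ => by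
      have hT : ((M : ℕ) : ℝ) +ᵥ τ = ModularGroup.T ^ (M : ℤ) • τ := by
        rw [modular_T_zpow_smul, Int.cast_natCast]
      rw [hT, smul_smul, show g * ModularGroup.T ^ (M : ℤ) =
        g * ModularGroup.T ^ (M : ℤ) * g⁻¹ * g by group, mul_smul,
        tpFun_smul hp hpM x (conj_T_pow_mem_pmGroup M g)])
    exact ⟨z, hz⟩
  obtain ⟨y, hy⟩ := hcusp 1
  exact ⟨y, meroH_tpFun x, fun γ hγ τ => tpFun_smul hp hpM x hγ τ, hcusp,
    by simpa only [one_smul] using hy⟩

/-- A series whose image only involves multiples of `n` does so itself. -/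
theorem exists_eq_qExpand {R S : Type*} [CommRing R] [CommRing S] {f : R →+* S}
    (hf : Function.Injective f) (n : ℕ) [NeZero n] {x : LaurentSeries R} {y : LaurentSeries S}
    (h : coeffMap f x = qExpand S n y) : ∃ z, x = qExpand R n z ∧ coeffMap f z = y := by
  have hn : (0 : ℤ) < n := by exact_mod_cast NeZero.pos n
  have hc : ∀ k, f (x.coeff k) = (qExpand S n y).coeff k := fun k => by
    rw [← h, coeffMap_coeff]
  have hbdd : BddBelow (Function.support fun k : ℤ => x.coeff (n * k)) := by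
    refine ⟨y.order, fun k hk => HahnSeries.order_le_of_coeff_ne_zero fun h0 => hk ?_⟩
    apply hf
    rw [hc, qExpand_coeff_mul, h0, map_zero]
  refine ⟨HahnSeries.ofSuppBddBelow _ hbdd, ?_, ?_⟩
  · ext k
    by_cases hk : (n : ℤ) ∣ k
    · obtain ⟨m, rfl⟩ := hk
      rw [qExpand_coeff_mul, HahnSeries.coeff_ofSuppBddBelow]
    · rw [qExpand_coeff_of_not_dvd n _ hk]
      exact hf (by rw [hc, qExpand_coeff_of_not_dvd n _ hk, map_zero])
  · ext k
    rw [coeffMap_coeff, HahnSeries.coeff_ofSuppBddBelow, hc, qExpand_coeff_mul]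

/-- The function of `z` is the product over the cosets of the function of `x`. -/
theorem IsTp.eqPunct {p : ℕ} [NeZero p] {x z : FQ M} (h : IsTp M p x z) :
    EqPunct (funQ M z) (tpFun M p x) := by
  have h1 := (isFun_funQ z).hasQExp.expand_period p
  rw [← coeffMap_qExpand_ring] at h1
  rw [show qExpand ℚbar p (z : LaurentSeries ℚbar) = tpSer M p x from h] at h1
  have h2 := h1.sub (hasQExp_tpFun (p := p) x)
  rw [sub_self] at h2
  intro τ
  have := (Places.qexp_eq_zero_iff
    (Places.meroH_sub (isFun_funQ z).mero (meroH_tpFun x)) h2).1 rfl τ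
  filter_upwards [this] with w hw
  exact sub_eq_zero.1 hw

end Fermat.Agent.DeligneSerre.Level

end
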