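import Fermat.Agent.DeligneSerre.RepsMero
import Fermat.Agent.DeligneSerre.RepsHeckeDefs
import Fermat.Agent.DeligneSerre.RepsCoset
import Fermat.Agent.Torsion.CharProps
import Fermat.Agent.Curve.ConstExtRigid
import Fermat.Agent.Curve.BasicInstances
import Mathlib.NumberTheory.LegendreSymbol.AddCharacter

/-!
# Kummer classes of the curve of level `M`: coordinates on the parabolic homomorphisms
-/

set_option autoImplicit false

noncomputable section

open UpperHalfPlane ModularCurve AlgebraicCurve Filter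
open scoped MatrixGroups Topology

namespace Fermat.Agent.DeligneSerre.Level

open Fermat.Agent.ModFun (MeroH EqPunct)
open Fermat.Agent.Multiplier (IsRootH IsEquivariantH H)

local notation "ℚbar" => AlgebraicClosure ℚ

variable (M ℓ : ℕ) [NeZero M] [NeZero ℓ]

instance isFunctionFieldOne_FC : Curve.IsFunctionFieldOne ℂ (FC M) :=
  (xModel M).isFunctionFieldOne

/-- The divisor of `x` is divisible by `ℓ`. -/
def DivBy {K F : Type*} [Field K] [Field F] [Algebra K F] (x : F) : Prop :=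
  x ≠ 0 ∧ ∀ v : Place K F, (ℓ : ℤ) ∣ v.ord x

/-- `c` are the coordinates of the multiplier of the `ℓ`th roots of `x`. -/
def IsCoord (x : FC M) (c : Fin (rk M) → ZMod ℓ) : Prop :=
  ∀ (g : ℍ → ℂ) (χ : pmGroup M →* ℂˣ), IsRootH ℓ (funX M x) g →
    IsEquivariantH (pmGroup M) χ g → ∀ i, (χ (genX M i) : ℂ) = ZMod.stdAddChar (c i)

variable {M ℓ}

theorem exists_stdAddChar_eq {z : ℂ} (hz : z ^ ℓ = 1) : ∃ k : ZMod ℓ, ZMod.stdAddChar k = z := by
  obtain ⟨i, -, rfl⟩ := (Complex.isPrimitiveRoot_exp ℓ (NeZero.ne ℓ)).eq_pow_of_pow_eq_one hz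
  refine ⟨((i : ℤ) : ZMod ℓ), ?_⟩
  rw [ZMod.stdAddChar_coe, ← Complex.exp_nat_mul]
  congr 1
  push_cast
  ring

/-- A multiplier as an additive homomorphism. -/
def addOfChar (χ : pmGroup M →* ℂˣ) : Additive (pmGroup M) →+ Additive ℂˣ :=
  MonoidHom.toAdditive χ

/-- A parabolic-elliptic multiplier is determined by its values on the generators. -/
theorem char_ext {χ χ' : pmGroup M →* ℂˣ}
    (h : ∀ γ : pmGroup M, ((γ : SL(2, ℤ)) : Matrix (Fin 2) (Fin 2) ℤ).trace ^ 2 ≤ 4 → χ γ = 1)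
    (h' : ∀ γ : pmGroup M, ((γ : SL(2, ℤ)) : Matrix (Fin 2) (Fin 2) ℤ).trace ^ 2 ≤ 4 → χ' γ = 1)
    (he : ∀ i, χ (genX M i) = χ' (genX M i)) : χ = χ' := by
  have e : addOfChar χ = addOfChar χ' :=
    ParHom.IsParEllHom.ext_parGen (neg_one_mem M)
      (fun γ hγ => congrArg Additive.ofMul (h γ hγ))
      (fun γ hγ => congrArg Additive.ofMul (h' γ hγ))
      fun i => congrArg Additive.ofMul (he i)
  exact MonoidHom.ext fun γ =>
    Additive.ofMul.injective (DFunLike.congr_fun e (Additive.ofMul γ))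

/-- Coordinates of any weak root. -/
theorem isCoord_of_weak {x : FC M} {c : Fin (rk M) → ZMod ℓ} {h : ℍ → ℂ}
    {χ : pmGroup M →* ℂˣ} (hm : MeroH h) (hpow : EqPunct (h ^ ℓ) (funX M x))
    (he : IsEquivariantH (pmGroup M) χ h) (hc : ∀ i, (χ (genX M i) : ℂ) = ZMod.stdAddChar (c i)) :
    IsCoord M ℓ x c := by
  intro g χ' hg hg' i
  have e : χ' = χ := Torsion.multiplier_eq_of_pow_eq (NeZero.pos ℓ) hg hg'.comp_ofComplex hm
    (fun z hz => hpow ⟨z, hz⟩) he.comp_ofComplex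
  rw [e]
  exact hc i

variable (hM : 5 ≤ M)
include hM

theorem exists_isCoord {x : FC M} (hx : DivBy ℓ (K := ℂ) x) : ∃ c, IsCoord M ℓ x c := by
  obtain ⟨g, χ, hg, he, hχ, -⟩ := exists_multiplier M hM hx.1 (NeZero.pos ℓ) hx.2
  have hex : ∀ i, ∃ k : ZMod ℓ, ZMod.stdAddChar k = (χ (genX M i) : ℂ) := fun i =>
    exists_stdAddChar_eq (by rw [← Units.val_pow_eq_pow_val, hχ, Units.val_one])
  choose c hc using hex
  refine ⟨c, fun g' χ' hg' he' i => ?_⟩
  rw [multiplier_unique M hx.1 (NeZero.pos ℓ) hg' he' hg he, hc]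

omit hM in
theorem isCoord_unique (hM : 5 ≤ M) {x : FC M} (hx : DivBy ℓ (K := ℂ) x)
    {c c' : Fin (rk M) → ZMod ℓ} (h : IsCoord M ℓ x c) (h' : IsCoord M ℓ x c') : c = c' := by
  obtain ⟨g, χ, hg, he, -, -⟩ := exists_multiplier M hM hx.1 (NeZero.pos ℓ) hx.2
  funext i
  exact ZMod.injective_stdAddChar ((h g χ hg he i).symm.trans (h' g χ hg he i))

omit hM in
theorem meroH_funX (x : FC M) : MeroH (funX M x) := (isFun_funX M x).1

omit hM in
theorem equivariant_funX (x : FC M) : IsEquivariantH (pmGroup M) 1 (funX M x) := fun γ τ => by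
  rw [(isFun_funX M x).2.1 _ γ.2 τ, MonoidHom.one_apply, Units.val_one, one_mul]

omit hM in
theorem funX_pow (x : FC M) (n : ℕ) : EqPunct (funX M (x ^ n)) (funX M x ^ n) :=
  funX_eqPunct M ((isFun_funX M x).pow n)

omit hM in
theorem isCoord_pow (x : FC M) : IsCoord M ℓ (x ^ ℓ) 0 :=
  isCoord_of_weak (meroH_funX x) (funX_pow x ℓ).symm (equivariant_funX x)
    fun i => by simp

theorem isCoord_mul {x y : FC M} {c d : Fin (rk M) → ZMod ℓ} (hx : DivBy ℓ (K := ℂ) x)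
    (hy : DivBy ℓ (K := ℂ) y) (hc : IsCoord M ℓ x c) (hd : IsCoord M ℓ y d) :
    IsCoord M ℓ (x * y) (c + d) := by
  obtain ⟨g, χ, hg, he, -, -⟩ := exists_multiplier M hM hx.1 (NeZero.pos ℓ) hx.2
  obtain ⟨g', χ', hg', he', -, -⟩ := exists_multiplier M hM hy.1 (NeZero.pos ℓ) hy.2
  refine isCoord_of_weak (χ := χ * χ') (Places.meroH_mul hg.meroH hg'.meroH) ?_ (fun γ τ => ?_)
    fun i => ?_
  · rw [mul_pow]
    exact (Places.eqPunct_mul hg.eqPunct hg'.eqPunct).trans (funX_mul M x y).symm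
  · rw [Pi.mul_apply, Pi.mul_apply, he, he', MonoidHom.mul_apply, Units.val_mul]
    ring
  · rw [MonoidHom.mul_apply, Units.val_mul, hc g χ hg he, hd g' χ' hg' he', Pi.add_apply,
      AddChar.map_add_eq_mul]

/-- Vanishing coordinates: a power. -/
theorem exists_pow_of_isCoord_zero {x : FC M} (hx : DivBy ℓ (K := ℂ) x)
    (h : IsCoord M ℓ x 0) : ∃ y : FC M, y ^ ℓ = x := by
  obtain ⟨g, χ, hg, he, -, hpe⟩ := exists_multiplier M hM hx.1 (NeZero.pos ℓ) hx.2
  have e : χ = 1 := char_ext hpe (fun _ _ => rfl) fun i => Units.ext (by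
    rw [h g χ hg he i]; simp)
  exact exists_pow_of_multiplier_one M (by omega) hx.1 (NeZero.pos ℓ) hg (e ▸ he)

theorem exists_of_coord (c : Fin (rk M) → ZMod ℓ) :
    ∃ x : FC M, DivBy ℓ (K := ℂ) x ∧ IsCoord M ℓ x c := by
  obtain ⟨φ, hφ, hφc⟩ := ParHom.exists_isParEllHom_eval (neg_one_mem M)
    (A := ZMod ℓ) c
  let χ : pmGroup M →* ℂˣ := MonoidHom.toHomUnits
    { toFun := fun γ => ZMod.stdAddChar (φ (Additive.ofMul γ))
      map_one' := by simp
      map_mul' := fun γ δ => by rw [ofMul_mul, map_add, AddChar.map_add_eq_mul] }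
  have hval : ∀ γ, (χ γ : ℂ) = ZMod.stdAddChar (φ (Additive.ofMul γ)) := fun _ => rfl
  obtain ⟨x, g, hx, hdvd, hg, he⟩ := exists_of_character M hM (NeZero.pos ℓ) χ
    (fun γ => Units.ext (by
      rw [Units.val_pow_eq_pow_val, hval, ← AddChar.map_nsmul_eq_pow, nsmul_eq_mul,
        ZMod.natCast_self, zero_mul, AddChar.map_zero_eq_one, Units.val_one]))
    (fun γ hγ => Units.ext (by rw [hval, hφ γ hγ, AddChar.map_zero_eq_one, Units.val_one]))
  refine ⟨x, ⟨hx, hdvd⟩, fun g' χ' hg' he' i => ?_⟩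
  rw [multiplier_unique M hx (NeZero.pos ℓ) hg' he' hg he, hval]
  exact congrArg _ (hφc i)

/-- The coordinates of the class of `x`. -/
def coordC (x : FC M) : Fin (rk M) → ZMod ℓ :=
  haveI := hM
  open scoped Classical in if h : DivBy ℓ (K := ℂ) x then (exists_isCoord hM h).choose else 0

theorem coordC_spec {x : FC M} (hx : DivBy ℓ (K := ℂ) x) : IsCoord M ℓ x (coordC hM x) := by
  rw [coordC, dif_pos hx]
  exact (exists_isCoord hM hx).choose_spec

theorem coordC_eq {x : FC M} (hx : DivBy ℓ (K := ℂ) x) {c : Fin (rk M) → ZMod ℓ}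
    (h : IsCoord M ℓ x c) : coordC hM x = c :=
  isCoord_unique hM hx (coordC_spec hM hx) h

end Fermat.Agent.DeligneSerre.Level

/-! ## Descent to `ℚ̄` -/

namespace Fermat.Agent.DeligneSerre.Level

open Fermat.Agent.Igusa.Fibre (jt coeffMap_jt)
open Fermat.Agent.Multiplier (IsRootH IsEquivariantH)

local notation "ℚbar" => AlgebraicClosure ℚ

variable (M : ℕ) [NeZero M]

/-- `ℂ` as an algebra over `ℚ̄` along `qbarC`. -/
@[reducible] def algQC : Algebra (AlgebraicClosure ℚ) ℂ := qbarC.toAlgebra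

/-- `FC M` as an algebra over `ℚ̄`. -/
@[reducible] def algQE : Algebra (AlgebraicClosure ℚ) (FC M) :=
  ((algebraMap ℂ (FC M)).comp qbarC).toAlgebra

/-- `FC M` as an algebra over `FQ M`. -/
@[reducible] def algFE : Algebra (FQ M) (FC M) := (toFC M).toAlgebra

attribute [local instance] algQC algQE algFE

theorem isScalarTower_QCE : IsScalarTower (AlgebraicClosure ℚ) ℂ (FC M) :=
  IsScalarTower.of_algebraMap_eq fun _ => rfl

theorem toFC_algebraMap (a : ℚbar) :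
    toFC M (algebraMap ℚbar (FQ M) a) = algebraMap ℂ (FC M) (qbarC a) := by
  refine Subtype.ext ?_
  show coeffMap qbarC (algebraMap ℚbar (LaurentSeries ℚbar) a)
    = algebraMap ℂ (LaurentSeries ℂ) _
  rw [algebraMap_laurentSeries_eq_single, algebraMap_laurentSeries_eq_single, coeffMap_single]

theorem isScalarTower_QFE : IsScalarTower (AlgebraicClosure ℚ) (FQ M) (FC M) :=
  IsScalarTower.of_algebraMap_eq fun a => (toFC_algebraMap M a).symm

attribute [local instance] isScalarTower_QCE isScalarTower_QFE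

theorem isConstExt_FC : Curve.IsConstExt ℚbar (FQ M) ℂ (FC M) := by
  refine Curve.isConstExt_laurent (fun x => rfl) ?_
  show fieldX M ℂ (zetaC M) ≤ _
  rw [fieldX, IntermediateField.adjoin_le_iff]
  rintro y (rfl | ⟨i, rfl⟩) <;> refine IntermediateField.subset_adjoin _ _ ?_
  · exact ⟨jt M ℚbar, jt_mem_fieldX M _, coeffMap_jt _ _⟩
  · refine ⟨ySer ℚbar (zetaQ M) i, ySer_mem_fieldX M _ i, ?_⟩
    show coeffMap qbarC _ = _
    rw [coeffMap_ySer, qbarC_zetaQ]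

attribute [local instance] isConstExt_FC

instance nonempty_place_FQ : Nonempty (Place ℚbar (FQ M)) :=
  Curve.nonempty_place_of_isFunctionFieldOne

variable (ℓ : ℕ) [NeZero ℓ]

variable {M ℓ}

/-- The quotient of the divisor by `ℓ`. -/
theorem exists_div {K F : Type*} [Field K] [Field F] [Algebra K F] [Curve.IsFunctionFieldOne K F]
    {x : F} (hx : DivBy ℓ (K := K) x) :
    ∃ D : Divisor.degZero (K := K) (F := F), ∀ v, (ℓ : ℤ) * (D : Divisor K F) v = v.ord x := by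
  set D : Divisor K F :=
    (Curve.divisorOf K x).mapRange (fun k => k / (ℓ : ℤ)) (Int.zero_ediv _) with hDdef
  have hD : ∀ v, (ℓ : ℤ) * D v = v.ord x := fun v => by
    rw [hDdef, Finsupp.mapRange_apply, Curve.divisorOf_apply, Int.mul_ediv_cancel' (hx.2 v)]
  have hdeg : D ∈ Divisor.degZero (K := K) (F := F) := by
    have h : ℓ • D = Curve.divisorOf K x := Finsupp.ext fun v => by
      rw [Finsupp.smul_apply, Curve.divisorOf_apply, nsmul_eq_mul]
      exact hD v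
    have h2 := congrArg Divisor.degree h
    rw [map_nsmul, Curve.degree_divisorOf] at h2
    exact Divisor.mem_degZero.2 ((smul_eq_zero.1 h2).resolve_left (NeZero.ne ℓ))
  exact ⟨⟨D, hdeg⟩, hD⟩

/-- The same divisor of functions: they differ by a constant. -/
theorem exists_const_mul {K F : Type*} [Field K] [IsAlgClosed K] [Field F] [Algebra K F]
    [Curve.IsFunctionFieldOne K F] {f g : F} (hf : f ≠ 0) (hg : g ≠ 0)
    (h : ∀ v : Place K F, v.ord f = v.ord g) : ∃ c : K, f = algebraMap K F c * g := by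
  obtain ⟨c, hc⟩ := Torsion.exists_const_of_ord_eq_zero (K := K) (f := f / g) fun v => by
    rw [div_eq_mul_inv, v.ord_mul hf (inv_ne_zero hg), v.ord_inv, h v]
    ring
  exact ⟨c, by rw [hc, div_mul_cancel₀ _ hg]⟩

theorem ord_pow' {K F : Type*} [Field K] [Field F] [Algebra K F] (v : Place K F) (f : F) (n : ℕ) :
    v.ord (f ^ n) = n * v.ord f := by
  rw [← zpow_natCast, v.ord_zpow]

theorem toFC_ne_zero {x : FQ M} (hx : x ≠ 0) : toFC M x ≠ 0 := (map_ne_zero _).2 hx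

omit [NeZero ℓ] in
theorem divExt_ord {x : FQ M} {D : Divisor ℚbar (FQ M)}
    (hD : ∀ v, (ℓ : ℤ) * D v = v.ord x) (w : Place ℂ (FC M)) :
    (ℓ : ℤ) * Curve.divExt ℂ (FC M) D w = w.ord (toFC M x) := by
  have h := Curve.ord_algebraMap_eq_divExt (Ω := ℂ) (E := FC M) (D := ℓ • D) (f := x)
    (fun v => by rw [Finsupp.smul_apply, nsmul_eq_mul]; exact hD v) w
  rw [map_nsmul, Finsupp.smul_apply, nsmul_eq_mul] at h
  exact h

theorem divBy_toFC {x : FQ M} (hx : DivBy ℓ (K := ℚbar) x) : DivBy ℓ (K := ℂ) (toFC M x) := by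
  obtain ⟨D, hD⟩ := exists_div hx
  exact ⟨toFC_ne_zero hx.1, fun w => ⟨_, (divExt_ord hD w).symm⟩⟩

/-- A power over `ℂ` is a power over `ℚ̄`. -/
theorem exists_pow_of_toFC {x : FQ M} (hx : DivBy ℓ (K := ℚbar) x) {y : FC M}
    (hy : y ^ ℓ = toFC M x) : ∃ u : FQ M, u ^ ℓ = x := by
  obtain ⟨D, hD⟩ := exists_div hx
  have hy0 : y ≠ 0 := fun h => toFC_ne_zero hx.1 (by rw [← hy, h, zero_pow (NeZero.ne ℓ)])
  have hp : Curve.divExt ℂ (FC M) (D : Divisor ℚbar (FQ M))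
      ∈ Divisor.principal (K := ℂ) (F := FC M) :=
    ⟨y, hy0, fun w => mul_left_cancel₀ (Int.natCast_ne_zero.2 (NeZero.ne ℓ))
      (by rw [divExt_ord hD w, ← hy, ord_pow'])⟩
  obtain ⟨u, hu, hDu⟩ := Curve.mem_principal_of_divExt_mem_principal hp
  obtain ⟨c, hc⟩ := exists_const_mul (K := ℚbar) hx.1 (pow_ne_zero ℓ hu) fun v => by
    rw [ord_pow', ← hD, hDu]
  obtain ⟨b, hb⟩ := IsAlgClosed.exists_pow_nat_eq c (NeZero.pos ℓ)
  exact ⟨algebraMap ℚbar (FQ M) b * u, by rw [mul_pow, ← map_pow, hb, ← hc]⟩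

variable (hM : 5 ≤ M)
include hM

theorem finite_torsion_FC : Finite (Pic0.torsion ℂ (FC M) ℓ) := by
  have hex : ∀ x : Pic0.torsion ℂ (FC M) ℓ, ∃ D f, DivBy ℓ (K := ℂ) f ∧
      Pic0.mk D = (x : Pic0 ℂ (FC M)) ∧
      ∀ v, (ℓ : ℤ) * (D : Divisor ℂ (FC M)) v = v.ord f := fun x => by
    obtain ⟨D, f, hx, hf, hD⟩ := Torsion.exists_nsmul_eq_ord x.2
    exact ⟨D, f, ⟨hf, fun v => ⟨_, (hD v).symm⟩⟩, hx, hD⟩
  choose D f hf hmk hD using hex
  refine Finite.of_injective (fun x => coordC (ℓ := ℓ) hM (f x)) fun x y hxy => Subtype.ext ?_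
  have hinv : DivBy ℓ (K := ℂ) (f y)⁻¹ :=
    ⟨inv_ne_zero (hf y).1, fun v => by rw [v.ord_inv]; exact dvd_neg.2 ((hf y).2 v)⟩
  have hq : DivBy ℓ (K := ℂ) (f x / f y) :=
    ⟨div_ne_zero (hf x).1 (hf y).1, fun v => by
      rw [div_eq_mul_inv, v.ord_mul (hf x).1 (inv_ne_zero (hf y).1)]
      exact dvd_add ((hf x).2 v) (hinv.2 v)⟩
  have hc := isCoord_mul hM hq (hf y) (coordC_spec hM hq) (coordC_spec hM (hf y))
  rw [div_mul_cancel₀ _ (hf y).1] at hc
  have h0 : coordC (ℓ := ℓ) hM (f x / f y) = 0 := by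
    have := coordC_eq hM (hf x) hc
    simp only at hxy
    rw [hxy] at this
    simpa using this
  obtain ⟨u, hu⟩ := exists_pow_of_isCoord_zero hM hq (h0 ▸ coordC_spec hM hq)
  have hu0 : u ≠ 0 := fun h => hq.1 (by rw [← hu, h, zero_pow (NeZero.ne ℓ)])
  rw [← hmk x, ← hmk y]
  refine QuotientAddGroup.eq_iff_sub_mem.2 (AddSubgroup.mem_addSubgroupOf.2
    ⟨u, hu0, fun v => mul_left_cancel₀ (Int.natCast_ne_zero.2 (NeZero.ne ℓ)) ?_⟩)
  rw [← ord_pow', hu, AddSubgroup.coe_sub, Finsupp.sub_apply, mul_sub, hD, hD, div_eq_mul_inv,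
    v.ord_mul (hf x).1 (inv_ne_zero (hf y).1), v.ord_inv]
  ring

/-- Every coordinate vector comes from a function over `ℚ̄`. -/
theorem exists_FQ_of_coord (c : Fin (rk M) → ZMod ℓ) :
    ∃ x : FQ M, DivBy ℓ (K := ℚbar) x ∧ coordC hM (toFC M x) = c := by
  have := finite_torsion_FC (ℓ := ℓ) hM
  obtain ⟨f, hf, hfc⟩ := exists_of_coord hM c
  obtain ⟨D, hD⟩ := exists_div hf
  have hy : Pic0.mk D ∈ Pic0.torsion ℂ (FC M) ℓ := by
    rw [Pic0.mem_torsion]
    refine (QuotientAddGroup.eq_zero_iff ((ℓ : ℤ) • D)).2 (AddSubgroup.mem_addSubgroupOf.2 ?_)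
    exact ⟨f, hf.1, fun v => by simpa using hD v⟩
  obtain ⟨z, hz, hze⟩ := Curve.mem_range_picExt_of_mem_torsion (K := ℚbar) (F := FQ M) hy
  obtain ⟨D', x, rfl, hx0, hD'⟩ := Torsion.exists_nsmul_eq_ord hz
  have hdiv : DivBy ℓ (K := ℚbar) x := ⟨hx0, fun v => ⟨_, (hD' v).symm⟩⟩
  refine ⟨x, hdiv, ?_⟩
  rw [Curve.picExt_mk] at hze
  obtain ⟨u, hu, hDu⟩ := AddSubgroup.mem_addSubgroupOf.1 (QuotientAddGroup.eq_iff_sub_mem.1 hze)
  obtain ⟨k, hk⟩ := exists_const_mul (K := ℂ) (toFC_ne_zero hx0)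
    (mul_ne_zero hf.1 (pow_ne_zero ℓ hu)) fun w => by
      rw [w.ord_mul hf.1 (pow_ne_zero ℓ hu), ord_pow', ← hD, ← divExt_ord hD' w, ← hDu w,
        AddSubgroup.coe_sub, Finsupp.sub_apply, Curve.coe_degZeroExt]
      ring
  obtain ⟨b, rfl⟩ := IsAlgClosed.exists_pow_nat_eq k (NeZero.pos ℓ)
  have hb : b ≠ 0 := fun h => toFC_ne_zero hx0 (by
    rw [hk, h, zero_pow (NeZero.ne ℓ), map_zero, zero_mul])
  have e : toFC M x = f * (algebraMap ℂ (FC M) b * u) ^ ℓ := by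
    rw [hk, mul_pow, map_pow]; ring
  have hbu : algebraMap ℂ (FC M) b * u ≠ 0 := mul_ne_zero ((map_ne_zero _).2 hb) hu
  refine coordC_eq hM (divBy_toFC hdiv) ?_
  rw [e, ← add_zero c]
  exact isCoord_mul hM hf
    ⟨pow_ne_zero _ hbu, fun v => ⟨_, ord_pow' v _ _⟩⟩ hfc (isCoord_pow _)

/-- The coordinates of the Kummer class of `x : FQ M`. -/
def coordQ (x : FQ M) : Fin (rk M) → ZMod ℓ := coordC hM (toFC M x)

theorem coordQ_mul {x y : FQ M} (hx : DivBy ℓ (K := ℚbar) x) (hy : DivBy ℓ (K := ℚbar) y) :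
    coordQ hM (x * y) = coordQ (ℓ := ℓ) hM x + coordQ hM y := by
  have hxy : DivBy ℓ (K := ℚbar) (x * y) := ⟨mul_ne_zero hx.1 hy.1, fun v => by
    rw [v.ord_mul hx.1 hy.1]; exact dvd_add (hx.2 v) (hy.2 v)⟩
  refine coordC_eq hM (divBy_toFC hxy) ?_
  rw [map_mul]
  exact isCoord_mul hM (divBy_toFC hx) (divBy_toFC hy) (coordC_spec hM (divBy_toFC hx))
    (coordC_spec hM (divBy_toFC hy))

theorem coordQ_pow {x : FQ M} (hx : x ≠ 0) : coordQ (ℓ := ℓ) hM (x ^ ℓ) = 0 := by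
  refine coordC_eq hM (divBy_toFC ⟨pow_ne_zero _ hx, fun v => ⟨_, ord_pow' v _ _⟩⟩) ?_
  rw [map_pow]
  exact isCoord_pow _

theorem coordQ_eq_zero_iff {x : FQ M} (hx : DivBy ℓ (K := ℚbar) x) :
    coordQ (ℓ := ℓ) hM x = 0 ↔ ∃ u : FQ M, u ^ ℓ = x := by
  refine ⟨fun h => ?_, ?_⟩
  · obtain ⟨y, hy⟩ := exists_pow_of_isCoord_zero hM (divBy_toFC hx)
      (h ▸ coordC_spec hM (divBy_toFC hx))
    exact exists_pow_of_toFC hx hy
  · rintro ⟨u, rfl⟩
    exact coordQ_pow hM fun h => hx.1 (by rw [h, zero_pow (NeZero.ne ℓ)])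

theorem exists_coordQ (c : Fin (rk M) → ZMod ℓ) :
    ∃ x : FQ M, DivBy ℓ (K := ℚbar) x ∧ coordQ hM x = c :=
  exists_FQ_of_coord hM c

/-! ### The interface with `IsChar` -/

theorem isChar_of_divisible {x : FQ M} (hx : Divisible M ℓ x) :
    IsChar M ℓ x (coordQ hM x) := by
  obtain ⟨g, χ, hg, he, hχ, hpe⟩ :=
    exists_multiplier M hM (toFC_ne_zero hx.1) (NeZero.pos ℓ) (divBy_toFC (ℓ := ℓ) hx).2
  choose k hk using fun γ => exists_stdAddChar_eq (ℓ := ℓ) (z := (χ γ : ℂ))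
    (by rw [← Units.val_pow_eq_pow_val, hχ, Units.val_one])
  let φ : Additive (pmGroup M) →+ ZMod ℓ := AddMonoidHom.mk' (fun a => k (Additive.toMul a))
    fun a b => ZMod.injective_stdAddChar (by
      show ZMod.stdAddChar (k (Additive.toMul (a + b))) = _
      rw [hk, toMul_add, map_mul, Units.val_mul, AddChar.map_add_eq_mul, hk, hk])
  refine ⟨hx.1, g, φ, fun γ hγ => ZMod.injective_stdAddChar ?_, hg, fun γ τ => ?_, fun i => ?_⟩
  · show ZMod.stdAddChar (k γ) = _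
    rw [hk, hpe γ hγ, Units.val_one, AddChar.map_zero_eq_one]
  · show g ((γ : SL(2, ℤ)) • τ) = ZMod.stdAddChar (k γ) * g τ
    rw [hk]
    exact he γ τ
  · refine ZMod.injective_stdAddChar ?_
    show ZMod.stdAddChar (k (genX M i)) = _
    rw [hk]
    exact coordC_spec hM (divBy_toFC (ℓ := ℓ) hx) g χ hg he i

theorem divisible_of_isChar {x : FQ M} {v : Fin (rk M) → ZMod ℓ} (h : IsChar M ℓ x v) :
    Divisible M ℓ x ∧ coordQ hM x = v := by
  obtain ⟨hx, g, φ, hpe, hg, he, hv⟩ := h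
  let χ : pmGroup M →* ℂˣ := MonoidHom.toHomUnits
    { toFun := fun γ => ZMod.stdAddChar (φ (Additive.ofMul γ))
      map_one' := by simp
      map_mul' := fun γ δ => by rw [ofMul_mul, map_add, AddChar.map_add_eq_mul] }
  have hval : ∀ γ, (χ γ : ℂ) = ZMod.stdAddChar (φ (Additive.ofMul γ)) := fun _ => rfl
  have he' : IsEquivariantH (pmGroup M) χ g := fun γ τ => by rw [hval]; exact he γ τ
  have hdvd : ∀ w : Place ℂ (FC M), (ℓ : ℤ) ∣ w.ord (toFC M x) :=
    dvd_ord_of_multiplier M hM (toFC_ne_zero hx) (NeZero.pos ℓ) hg he'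
      fun γ hγ => Units.ext (by rw [hval, hpe γ hγ, AddChar.map_zero_eq_one, Units.val_one])
  refine ⟨⟨hx, fun w => ?_⟩, funext fun i => ZMod.injective_stdAddChar ?_⟩
  · rw [← Curve.ord_placeExt (Ω := ℂ) (E := FC M) w x]
    exact hdvd _
  · rw [← hv i, ← hval]
    exact (coordC_spec hM (x := toFC M x) ⟨toFC_ne_zero hx, hdvd⟩ g χ hg he' i).symm

end Fermat.Agent.DeligneSerre.Level

end
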