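import Fermat.Agent.DeligneSerre.RepsFields
import Fermat.Agent.Places.Analytic
import Fermat.Agent.ModFun.LevelOne

/-!
# Meromorphic functions on `± Γ(M) \ ℍ*` and the field of level `M` over `ℂ`

`IsFun M h x`: `h` is meromorphic on `ℍ` and at the cusps, invariant under `± Γ(M)`, with
expansion `x`.  The expansions of these functions are exactly the elements of `FC M`.
-/

set_option autoImplicit false

noncomputable section

open Filter UpperHalfPlane ModularCurve Polynomial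
open scoped MatrixGroups Manifold Topology

namespace Fermat.Agent.DeligneSerre.Level

open Fermat.Agent.ModFun (HasQExp MeroH EqPunct jfun nfH ordH)
open Fermat.Agent.Igusa.Fibre (Gd jt algebraMap_eq_C)

variable (M : ℕ) [NeZero M]

theorem neg_one_mem_pmGroup : (-1 : SL(2, ℤ)) ∈ pmGroup M := by
  refine Or.inr ?_
  ext i j
  fin_cases i <;> fin_cases j <;> simp

theorem conj_T_pow_mem_pmGroup (A : SL(2, ℤ)) :
    A * ModularGroup.T ^ (M : ℤ) * A⁻¹ ∈ pmGroup M := by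
  refine pmGroup_normal.conj_mem _ (Gamma_le_pmGroup ?_) A
  rw [CongruenceSubgroup.Gamma_mem]
  simp only [ModularGroup.coe_T_zpow]
  simp

/-- `h` is the function with expansion `x`: meromorphic on `ℍ` and at the cusps, invariant under
`± Γ(M)`. -/
def IsFun (h : ℍ → ℂ) (x : LaurentSeries ℂ) : Prop :=
  MeroH h ∧ (∀ γ ∈ pmGroup M, ∀ τ : ℍ, h (γ • τ) = h τ) ∧
    (∀ g : SL(2, ℤ), ∃ y, HasQExp M (fun τ => h (g • τ)) y) ∧ HasQExp M h x

variable {M}

namespace IsFun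

variable {h h' : ℍ → ℂ} {x x' : LaurentSeries ℂ}

theorem mero (hx : IsFun M h x) : MeroH h := hx.1

theorem smul_eq (hx : IsFun M h x) {γ : SL(2, ℤ)} (hγ : γ ∈ pmGroup M) (τ : ℍ) :
    h (γ • τ) = h τ :=
  hx.2.1 γ hγ τ

theorem cusps (hx : IsFun M h x) (g : SL(2, ℤ)) : ∃ y, HasQExp M (fun τ => h (g • τ)) y :=
  hx.2.2.1 g

theorem hasQExp (hx : IsFun M h x) : HasQExp M h x := hx.2.2.2

protected theorem const (c : ℂ) : IsFun M (fun _ => c) (HahnSeries.C c) :=
  ⟨Places.meroH_const c, fun _ _ _ => rfl, fun _ => ⟨_, HasQExp.const c⟩, HasQExp.const c⟩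

protected theorem add (hx : IsFun M h x) (hy : IsFun M h' x') : IsFun M (h + h') (x + x') := by
  refine ⟨Places.meroH_add hx.mero hy.mero, fun γ hγ τ => ?_, fun g => ?_,
    hx.hasQExp.add hy.hasQExp⟩
  · rw [Pi.add_apply, Pi.add_apply, hx.smul_eq hγ, hy.smul_eq hγ]
  · obtain ⟨a, ha⟩ := hx.cusps g
    obtain ⟨b, hb⟩ := hy.cusps g
    exact ⟨a + b, ha.add hb⟩

protected theorem sub (hx : IsFun M h x) (hy : IsFun M h' x') : IsFun M (h - h') (x - x') := by
  refine ⟨Places.meroH_sub hx.mero hy.mero, fun γ hγ τ => ?_, fun g => ?_,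
    hx.hasQExp.sub hy.hasQExp⟩
  · rw [Pi.sub_apply, Pi.sub_apply, hx.smul_eq hγ, hy.smul_eq hγ]
  · obtain ⟨a, ha⟩ := hx.cusps g
    obtain ⟨b, hb⟩ := hy.cusps g
    exact ⟨a - b, ha.sub hb⟩

protected theorem mul (hx : IsFun M h x) (hy : IsFun M h' x') : IsFun M (h * h') (x * x') := by
  refine ⟨Places.meroH_mul hx.mero hy.mero, fun γ hγ τ => ?_, fun g => ?_,
    hx.hasQExp.mul hy.hasQExp⟩
  · rw [Pi.mul_apply, Pi.mul_apply, hx.smul_eq hγ, hy.smul_eq hγ]
  · obtain ⟨a, ha⟩ := hx.cusps g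
    obtain ⟨b, hb⟩ := hy.cusps g
    exact ⟨a * b, ha.mul hb⟩

protected theorem inv (hx : IsFun M h x) : IsFun M h⁻¹ x⁻¹ := by
  refine ⟨Places.meroH_inv hx.mero, fun γ hγ τ => ?_, fun g => ?_, hx.hasQExp.inv⟩
  · rw [Pi.inv_apply, Pi.inv_apply, hx.smul_eq hγ]
  · obtain ⟨a, ha⟩ := hx.cusps g
    exact ⟨a⁻¹, ha.inv⟩

protected theorem pow (hx : IsFun M h x) (n : ℕ) : IsFun M (h ^ n) (x ^ n) := by
  induction n with
  | zero =>
    rw [pow_zero, pow_zero, ← map_one HahnSeries.C]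
    exact IsFun.const 1
  | succ n ih => rw [pow_succ, pow_succ]; exact ih.mul hx

theorem hasQExp_nfH_smul (hx : IsFun M h x) (g : SL(2, ℤ)) {y : LaurentSeries ℂ}
    (hy : HasQExp M (fun τ => h (g • τ)) y) : HasQExp M (fun τ => nfH h (g • τ)) y := by
  refine hy.congr ?_
  filter_upwards [hy.eventually_analyticAt] with τ hτ
  rw [show nfH h (g • τ) = nfH (fun z => h (g • z)) τ from
    congrFun (ModFun.nfH_comp_smul hx.mero g) τ,
    ModFun.nfH_apply_of_analyticAt (hx.mero.comp_smul g) hτ]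

protected theorem nfH (hx : IsFun M h x) : IsFun M (nfH h) x := by
  refine ⟨ModFun.meroH_nfH h, fun γ hγ τ => ?_, fun g => ?_, ?_⟩
  · have h1 := congrFun (ModFun.nfH_comp_smul hx.mero γ) τ
    rwa [show (fun z => h (γ • z)) = h from funext (hx.smul_eq hγ)] at h1
  · obtain ⟨a, ha⟩ := hx.cusps g
    exact ⟨a, hx.hasQExp_nfH_smul g ha⟩
  · have h1 := hx.hasQExp_nfH_smul 1 (y := x) (by simpa only [one_smul] using hx.hasQExp)
    simpa only [one_smul] using h1

/-- Two functions with the same expansion are equal as meromorphic functions. -/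
theorem eqPunct (hx : IsFun M h x) (hy : IsFun M h' x) : EqPunct h h' := by
  have h1 := (hx.sub hy).hasQExp
  rw [sub_self] at h1
  intro τ
  filter_upwards [(Places.qexp_eq_zero_iff (hx.sub hy).mero h1).1 rfl τ] with z hz
  exact sub_eq_zero.1 hz

/-- Equal meromorphic functions have the same expansion. -/
theorem eq_of_eqPunct (hx : IsFun M h x) (hy : IsFun M h' x') (he : EqPunct h h') : x = x' :=
  Places.qexp_eq_of_eqPunct hx.hasQExp hy.hasQExp he

/-- Composition with `g ∈ SL(2, ℤ)`, which normalises `± Γ(M)`. -/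
theorem comp_smul (hx : IsFun M h x) (g : SL(2, ℤ)) {y : LaurentSeries ℂ}
    (hy : HasQExp M (fun τ => h (g • τ)) y) : IsFun M (fun τ => h (g • τ)) y := by
  refine ⟨hx.mero.comp_smul g, fun γ hγ τ => ?_, fun g' => ?_, hy⟩
  · show h (g • γ • τ) = h (g • τ)
    rw [smul_smul, show g * γ = g * γ * g⁻¹ * g by group, mul_smul,
      hx.smul_eq (pmGroup_normal.conj_mem _ hγ g)]
  · obtain ⟨a, ha⟩ := hx.cusps (g * g')
    exact ⟨a, by simpa only [mul_smul] using ha⟩

end IsFun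

/-! ### The generators -/

theorem hasQExp_jfun_level : HasQExp M jfun (jt M ℂ) := by
  have h := ModFun.hasQExp_jfun.expand_period M
  rwa [one_mul] at h

theorem isFun_jfun : IsFun M jfun (jt M ℂ) :=
  ⟨ModFun.meroH_of_mdifferentiable ModFun.mdifferentiable_jfun,
    fun γ _ τ => ModFun.jfun_smul γ τ,
    fun g => ⟨jt M ℂ, by simpa only [ModFun.jfun_smul] using hasQExp_jfun_level⟩,
    hasQExp_jfun_level⟩

theorem isFun_yFun (i : Idx M) : IsFun M (yFun i) (ySer ℂ (zetaC M) i) := by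
  refine ⟨ModFun.meroH_of_mdifferentiable (mdifferentiable_yFun i), fun γ hγ τ => ?_,
    fun g => ⟨ySer ℂ (zetaC M) (idxMul i (modM M g)), ?_⟩, hasQExp_yFun i⟩
  · rw [yFun_smul, yFun_idxMul_pm (mem_pmGroup_iff.1 hγ)]
  · simpa only [yFun_smul] using hasQExp_yFun (idxMul i (modM M g))

theorem isFun_eval_jfun (P : ℂ[X]) :
    IsFun M (fun τ => P.eval (jfun τ)) (aeval (jt M ℂ) P) := by
  have h : HasQExp M (fun τ => P.eval (jfun τ)) (aeval (jt M ℂ) P) := by
    have h1 := (ModFun.hasQExp_eval_jfun P).expand_period M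
    rw [one_mul] at h1
    rwa [show aeval (jt M ℂ) P = qExpand ℂ M (aeval (jqModC ℂ) P) from
      aeval_algHom_apply (qExpandAlgHomC ℂ M) (jqModC ℂ) P]
  exact ⟨ModFun.meroH_of_mdifferentiable (ModFun.mdifferentiable_eval_jfun P),
    fun γ _ τ => by simp only [ModFun.jfun_smul],
    fun g => ⟨aeval (jt M ℂ) P, by simpa only [ModFun.jfun_smul] using h⟩, h⟩

variable (M)

/-- An element of `FC M` is a function, and substitution is composition. -/
theorem exists_isFun_actC (γ : SL(2, ℤ)) (x : FC M) :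
    ∃ h, IsFun M h x ∧
      IsFun M (fun τ => h (γ • τ)) (actC M γ x : LaurentSeries ℂ) := by
  obtain ⟨z, hz⟩ := x
  refine IntermediateField.adjoin_induction ℂ
    (p := fun z hz => ∃ h, IsFun M h z ∧
      IsFun M (fun τ => h (γ • τ)) (actC M γ (⟨z, hz⟩ : FC M) : LaurentSeries ℂ))
    ?_ ?_ ?_ ?_ ?_ hz
  · rintro z (rfl | ⟨i, rfl⟩)
    · exact ⟨jfun, isFun_jfun,
        (coe_actC_jt M γ).symm ▸ (by simpa only [ModFun.jfun_smul] using isFun_jfun (M := M))⟩
    · refine ⟨yFun i, isFun_yFun i, ?_⟩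
      rw [show (actC M γ ⟨ySer ℂ (zetaC M) i, _⟩ : LaurentSeries ℂ) = _ from coe_actC_ySer M γ i]
      simpa only [yFun_smul] using isFun_yFun (idxMul i (modM M γ))
  · intro c
    refine ⟨fun _ => c, ?_, ?_⟩
    · rw [algebraMap_eq_C]; exact IsFun.const c
    · rw [show (⟨algebraMap ℂ (LaurentSeries ℂ) c, _⟩ : FC M) = algebraMap ℂ (FC M) c from rfl,
        AlgEquiv.commutes]
      show IsFun M (fun _ => c) (algebraMap ℂ (LaurentSeries ℂ) c)
      rw [algebraMap_eq_C]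
      exact IsFun.const c
  · rintro a b ha hb ⟨p, hp, hp'⟩ ⟨q, hq, hq'⟩
    refine ⟨p + q, hp.add hq, ?_⟩
    rw [show (⟨a + b, _⟩ : FC M) = ⟨a, ha⟩ + ⟨b, hb⟩ from rfl, map_add]
    exact hp'.add hq'
  · rintro a ha ⟨p, hp, hp'⟩
    refine ⟨p⁻¹, hp.inv, ?_⟩
    rw [show (⟨a⁻¹, _⟩ : FC M) = (⟨a, ha⟩ : FC M)⁻¹ from rfl, map_inv₀, IntermediateField.coe_inv]
    exact hp'.inv
  · rintro a b ha hb ⟨p, hp, hp'⟩ ⟨q, hq, hq'⟩
    refine ⟨p * q, hp.mul hq, ?_⟩
    rw [show (⟨a * b, _⟩ : FC M) = ⟨a, ha⟩ * ⟨b, hb⟩ from rfl, map_mul]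
    exact hp'.mul hq'

theorem exists_isFun (x : FC M) : ∃ h, IsFun M h x :=
  let ⟨h, hh, _⟩ := exists_isFun_actC M 1 x
  ⟨h, hh⟩

variable {M}

/-! ### Every function is in the field -/

/-- The poles lie in finitely many orbits: a polynomial in `j` clears them. -/
theorem IsFun.exists_polynomial_mul_mdifferentiable {f : ℍ → ℂ} {x : LaurentSeries ℂ}
    (hf : IsFun M f x) :
    ∃ P : ℂ[X], P.Monic ∧ MDiff (nfH fun τ => P.eval (jfun τ) * f τ) := by
  set F : XGrp M → ℍ → ℂ := fun q τ => f (q.out⁻¹ • τ) with hF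
  have hA : ∀ q, ∃ A : ℝ, ∀ τ : ℍ, A ≤ τ.im → AnalyticAt ℂ (F q ∘ ofComplex) (τ : ℂ) := by
    intro q
    obtain ⟨x, hx⟩ := hf.cusps q.out⁻¹
    exact (atImInfty_mem _).1 hx.eventually_analyticAt
  choose A hA using hA
  obtain ⟨A₀, hA₀⟩ := (Set.finite_range A).bddAbove
  set K := ModularGroup.truncatedFundamentalDomain A₀ with hK
  have hbad : ∀ q, {z ∈ K | ordH (F q) z < 0}.Finite := by
    intro q
    have hKc : IsCompact (((↑) : ℍ → ℂ) '' K) :=
      (ModularGroup.isCompact_truncatedFundamentalDomain A₀).image UpperHalfPlane.continuous_coe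
    have hm : MeromorphicOn (F q ∘ ofComplex) (((↑) : ℍ → ℂ) '' K) := by
      rintro z ⟨σ, -, rfl⟩
      exact (hf.mero.comp_smul q.out⁻¹) _ σ.im_pos
    have h1 := hKc.finite_sdiff_of_mem_codiscreteWithin hm.analyticAt_mem_codiscreteWithin
    refine Set.Finite.of_finite_image (f := ((↑) : ℍ → ℂ)) (h1.subset ?_) ?_
    · rintro z ⟨σ, ⟨hσ, hneg⟩, rfl⟩
      exact ⟨⟨σ, hσ, rfl⟩, fun h => (h.meromorphicOrderAt_nonneg.trans_lt hneg).ne rfl⟩
    · intro a _ b _ hab
      exact UpperHalfPlane.ext hab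
  set B : Set ℍ := ⋃ q, {z ∈ K | ordH (F q) z < 0} with hB
  have hBfin : B.Finite := Set.finite_iUnion hbad
  have hord_smul : ∀ γ ∈ pmGroup M, ∀ τ : ℍ, ordH f (γ • τ) = ordH f τ := fun γ hγ τ => by
    rw [← ModFun.ordH_comp_smul, show (fun z => f (γ • z)) = f from funext (hf.smul_eq hγ)]
  have hBord : ∀ τ : ℍ, ordH f τ < 0 →
      ∃ q, ∃ z ∈ B, ordH (F q) z = ordH f τ ∧ jfun z = jfun τ := by
    intro τ hτ
    obtain ⟨g, hg⟩ := ModularGroup.exists_smul_mem_fd τ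
    set q : XGrp M := QuotientGroup.mk g with hq
    have hmem : q.out⁻¹ * g ∈ pmGroup M :=
      QuotientGroup.eq.1 (by rw [hq, QuotientGroup.out_eq'])
    have hord : ordH (F q) (g • τ) = ordH f τ := by
      rw [hF, ModFun.ordH_comp_smul, ← mul_smul, hord_smul _ hmem]
    have hneg : ordH (F q) (g • τ) < 0 := hord ▸ hτ
    refine ⟨q, g • τ, Set.mem_iUnion.2 ⟨q, ⟨hg, ?_⟩, hneg⟩, hord, ModFun.jfun_smul g τ⟩
    by_contra hc
    have hle : A q ≤ (g • τ).im := (hA₀ ⟨q, rfl⟩).trans (not_le.1 hc).le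
    exact ((hA q _ hle).meromorphicOrderAt_nonneg.trans_lt hneg).ne rfl
  obtain ⟨m, hm⟩ : ∃ m : ℕ, ∀ q, ∀ z ∈ B, ordH (F q) z < 0 →
      ((-(m : ℤ) : ℤ) : WithTop ℤ) ≤ ordH (F q) z := by
    refine ⟨Finset.univ.sup fun q => hBfin.toFinset.sup fun z =>
      (-((ordH (F q) z).untopD 0)).toNat, fun q z hz hneg => ?_⟩
    obtain ⟨k, hk⟩ := WithTop.ne_top_iff_exists.1 hneg.ne_top
    have h2 : (-((ordH (F q) z).untopD 0)).toNat ≤
        Finset.univ.sup fun q => hBfin.toFinset.sup fun z =>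
          (-((ordH (F q) z).untopD 0)).toNat :=
      le_trans (Finset.le_sup (f := fun z => (-((ordH (F q) z).untopD 0)).toNat)
        (hBfin.mem_toFinset.2 hz))
        (Finset.le_sup (f := fun q => hBfin.toFinset.sup fun z =>
          (-((ordH (F q) z).untopD 0)).toNat) (Finset.mem_univ q))
    rw [← hk] at h2 ⊢
    rw [WithTop.untopD_coe] at h2
    exact WithTop.coe_le_coe.2 (by omega)
  classical
  set P₀ : ℂ[X] := ∏ c ∈ (hBfin.image jfun).toFinset, (X - C c) with hP₀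
  refine ⟨P₀ ^ m, (monic_prod_of_monic _ _ fun c _ => monic_X_sub_C c).pow m, ?_⟩
  have hmP : ∀ P : ℂ[X], ∀ τ : ℍ,
      AnalyticAt ℂ ((fun σ => P.eval (jfun σ)) ∘ ofComplex) (τ : ℂ) := fun P τ =>
    (UpperHalfPlane.mdifferentiable_iff.1 (ModFun.mdifferentiable_eval_jfun P)).analyticAt
      (isOpen_upperHalfPlaneSet.mem_nhds τ.im_pos)
  refine ModFun.mdifferentiable_nfH (MeromorphicOn.mul
    (ModFun.meroH_of_mdifferentiable (ModFun.mdifferentiable_eval_jfun _)) hf.mero) fun τ => ?_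
  have hmul : ordH (fun σ => (P₀ ^ m).eval (jfun σ) * f σ) τ =
      (m : WithTop ℤ) * ordH (fun σ => P₀.eval (jfun σ)) τ + ordH f τ := by
    have e : (fun σ => (P₀ ^ m).eval (jfun σ) * f σ) ∘ ofComplex =
        ((fun σ => P₀.eval (jfun σ)) ∘ ofComplex) ^ m * (f ∘ ofComplex) := by
      funext z; simp
    rw [ordH, e, meromorphicOrderAt_mul ((hmP P₀ τ).pow m).meromorphicAt (hf.mero _ τ.im_pos),
      meromorphicOrderAt_pow (hmP P₀ τ).meromorphicAt]
    rfl
  rw [hmul]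
  have hP0 : 0 ≤ ordH (fun σ => P₀.eval (jfun σ)) τ := (hmP P₀ τ).meromorphicOrderAt_nonneg
  rcases le_or_gt 0 (ordH f τ) with h | h
  · refine add_nonneg ?_ h
    simpa using ModFun.withTop_natMul_le m (c := 0) le_rfl hP0
  obtain ⟨q, z, hz, hord, hj⟩ := hBord τ h
  have hzero : P₀.eval (jfun τ) = 0 := by
    rw [hP₀, eval_prod]
    refine Finset.prod_eq_zero (i := jfun τ) ?_ (by simp)
    rw [Set.Finite.mem_toFinset]
    exact ⟨z, hz, hj⟩
  have hP1 : 1 ≤ ordH (fun σ => P₀.eval (jfun σ)) τ := by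
    have hne : analyticOrderAt ((fun σ => P₀.eval (jfun σ)) ∘ ofComplex) (τ : ℂ) ≠ 0 :=
      (hmP P₀ τ).analyticOrderAt_ne_zero.2 (by simp [hzero])
    rw [ordH, (hmP P₀ τ).meromorphicOrderAt_eq]
    generalize analyticOrderAt ((fun σ => P₀.eval (jfun σ)) ∘ ofComplex) (τ : ℂ) = o at hne
    induction o using ENat.recTopCoe with
    | top => simp
    | coe k =>
      have hk : 1 ≤ k := Nat.one_le_iff_ne_zero.2 (by exact_mod_cast hne)
      rw [ENat.map_natCast]
      exact_mod_cast hk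
  have hle := hm q z hz (hord ▸ h)
  rw [hord] at hle
  calc (0 : WithTop ℤ) = (((m : ℤ) * 1 : ℤ) : WithTop ℤ) + ((-(m : ℤ) : ℤ) : WithTop ℤ) := by
        rw [mul_one, ← WithTop.coe_add, add_neg_cancel, WithTop.coe_zero]
    _ ≤ _ := add_le_add (ModFun.withTop_natMul_le m zero_le_one hP1) hle

/-- All complex coefficients. -/
theorem baseTop : Base M (⊤ : Subring ℂ) where
  zeta_mem := Subring.mem_top _
  isUnit := by
    refine isUnit_iff_exists_inv.2 ⟨⟨((M : ℂ))⁻¹, Subring.mem_top _⟩, Subtype.ext ?_⟩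
    simp [NeZero.ne M]

/-- A holomorphic function is in the field. -/
theorem IsFun.mem_FC_of_mdifferentiable (hM : 3 ≤ M) {H : ℍ → ℂ} {x : LaurentSeries ℂ}
    (hx : IsFun M H x) (hH : MDiff H) : x ∈ FC M := by
  set f : (⊤ : Subring ℂ) →+* ℂ := (⊤ : Subring ℂ).subtype
  obtain ⟨c, hsep⟩ := exists_separating (baseTop (M := M)) f
    (fun z => ⟨⟨z, Subring.mem_top _⟩, rfl⟩) hM
  choose y hy using fun g : XGrp M => hx.cusps g.out
  set Y : XGrp M → LaurentSeries (⊤ : Subring ℂ) :=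
    fun g => coeffMap (Subring.topEquiv (R := ℂ)).symm.toRingHom (y g)
  have hY : ∀ g, coeffMap f (Y g) = y g := fun g => by
    ext k
    simp [Y, f]
  have hu : ∀ g : XGrp M, ((fun τ : ℍ => H (g.out • τ)), Y g) ∈ Gd M (⊤ : Subring ℂ) := fun g =>
    ⟨hH.comp (mdifferentiable_smul (g := ((g.out : SL(2, ℤ)) : GL (Fin 2) ℝ)) (by simp)),
      by rw [hY]; exact hy g⟩
  set u : XGrp M → Gd M (⊤ : Subring ℂ) := fun g => ⟨_, hu g⟩
  have heq : Equivariant u := by
    intro γ g τ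
    show H (g.out • γ • τ) = H ((g * (γ : XGrp M)).out • τ)
    have hε : (g * (γ : XGrp M)).out⁻¹ * (g.out * γ) ∈ pmGroup M := QuotientGroup.eq.1 (by
      rw [QuotientGroup.out_eq', QuotientGroup.mk_mul, QuotientGroup.out_eq'])
    have hε' := pmGroup_normal.conj_mem _ hε (g * (γ : XGrp M)).out
    rw [mul_inv_cancel_left] at hε'
    rw [smul_smul,
      show g.out * γ = g.out * γ * (g * (γ : XGrp M)).out⁻¹ * (g * (γ : XGrp M)).out by group,
      mul_smul, hx.smul_eq hε']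
  have hmem := redG_mem_fieldX hsep heq 1
  have h1 : y 1 = x := by
    refine (hy 1).unique ?_
    have h1' : ((1 : XGrp M).out : SL(2, ℤ)) ∈ pmGroup M :=
      (QuotientGroup.eq_one_iff _).1 (QuotientGroup.out_eq' (1 : XGrp M))
    simpa only [hx.smul_eq h1'] using hx.hasQExp
  have h2 : redG f (u 1) = x := (hY 1).trans h1
  rw [h2] at hmem
  exact hmem

theorem mem_FC_of_isFun (hM : 3 ≤ M) {h : ℍ → ℂ} {x : LaurentSeries ℂ} (hx : IsFun M h x) :
    x ∈ FC M := by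
  obtain ⟨P, hP, hhol⟩ := hx.exists_polynomial_mul_mdifferentiable
  have hmem : aeval (jt M ℂ) P * x ∈ FC M :=
    IsFun.mem_FC_of_mdifferentiable hM ((isFun_eval_jfun P).mul hx).nfH hhol
  have hne : aeval (jt M ℂ) P ≠ 0 := by
    intro h0
    rw [show aeval (jt M ℂ) P = qExpand ℂ M (aeval (jqModC ℂ) P) from
      aeval_algHom_apply (qExpandAlgHomC ℂ M) (jqModC ℂ) P] at h0
    exact hP.ne_zero (transcendental_iff.1 (ModFun.transcendental_jqModC ℂ) P
      (qExpand_injective M (by rw [h0, map_zero])))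
  have hj : aeval (jt M ℂ) P ∈ FC M := by
    rw [aeval_eq_sum_range]
    refine sum_mem fun i _ => ?_
    rw [Algebra.smul_def]
    exact mul_mem (IntermediateField.algebraMap_mem _ _) (pow_mem (jt_mem_fieldX M _) i)
  rw [← mul_div_cancel_left₀ x hne]
  exact div_mem hmem hj

end Fermat.Agent.DeligneSerre.Level

end
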