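import Fermat.Agent.Places.Main
import Fermat.Agent.Multiplier.BridgeGamma0

/-!
# Roots of functions with divisor divisible by `n`, for an arbitrary model
-/

set_option autoImplicit false

noncomputable section

open UpperHalfPlane AlgebraicCurve Filter
open scoped MatrixGroups Topology

namespace Fermat.Agent.DeligneSerre.Kummer

open Fermat.Agent.ModFun (HasQExp MeroH EqPunct ordH)
open Fermat.Agent.Multiplier (IsRootH IsEquivariantH IsRoot H)

variable {Γ : Subgroup SL(2, ℤ)} [Γ.FiniteIndex] {F : Type*} [Field F] [Algebra ℂ F]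
  (m : Places.Model Γ F)

/-- The multiplier is trivial on the translations fixing a cusp. -/
theorem map_translation_eq_one {f : F} (hf : f ≠ 0) {n : ℕ} (hn : 0 < n)
    (hdvd : ∀ v : Place ℂ F, (n : ℤ) ∣ v.ord f) {g : ℍ → ℂ} {χ : Γ →* ℂˣ}
    (hg : IsRootH n (m.ev f) g) (he : IsEquivariantH Γ χ g) (A : SL(2, ℤ)) (k : ℤ) (γ : Γ)
    (hγ : (γ : SL(2, ℤ)) = A * ModularGroup.T ^ k * A⁻¹) : χ γ = 1 := by
  suffices h : ∀ (k : ℕ) (γ : Γ),
      (γ : SL(2, ℤ)) = A * ModularGroup.T ^ (k : ℤ) * A⁻¹ → χ γ = 1 by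
    rcases Int.eq_nat_or_neg k with ⟨l, rfl | rfl⟩
    · exact h l γ hγ
    · rw [← inv_inj (b := (1 : ℂˣ)), ← map_inv, inv_one]
      refine h l γ⁻¹ ?_
      rw [Subgroup.coe_inv, hγ, zpow_neg]
      group
  intro k γ hγ
  rcases Nat.eq_zero_or_pos k with rfl | hk
  · have : γ = 1 := Subtype.ext (by rw [hγ]; simp)
    rw [this, map_one]
  haveI : NeZero k := ⟨hk.ne'⟩
  obtain ⟨d, hd⟩ : Places.cuspWidth Γ A⁻¹ ∣ k := by
    rw [← Int.natCast_dvd_natCast, ← Places.T_zpow_smul_eq_iff A⁻¹ (k : ℤ),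
      MulAction.Quotient.smul_coe, smul_eq_mul, QuotientGroup.eq]
    rw [show (ModularGroup.T ^ (k : ℤ) * A⁻¹)⁻¹ * A⁻¹
      = (A * ModularGroup.T ^ (k : ℤ) * A⁻¹)⁻¹ by group, ← hγ]
    exact inv_mem γ.2
  haveI : NeZero (Places.cuspWidth Γ A⁻¹) := ⟨(Places.cuspWidth_pos A⁻¹).ne'⟩
  haveI : NeZero d := ⟨fun h => hk.ne' (by rw [hd, h, mul_zero])⟩
  have hx := (m.hasQExp_cuspExp A⁻¹ f).expand_period d
  rw [← hd] at hx
  have horder := m.width_mul_order hf A⁻¹ hx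
  have hx' : HasQExp k (fun τ => m.ev f (A • τ))
      (ModularCurve.qExpand ℂ d (m.cuspExp A⁻¹ f)) := by
    simpa only [inv_inv] using hx
  refine (he.map_cusp_eq_one_iff hn hg A hx' γ hγ).2 ?_
  obtain ⟨e, he'⟩ := hdvd (m.cuspPlace A⁻¹)
  refine ⟨(d : ℤ) * e, mul_left_cancel₀
    (Int.natCast_ne_zero.2 (NeZero.ne (Places.cuspWidth Γ A⁻¹))) ?_⟩
  rw [horder, he', hd]
  push_cast
  ring

/-- A function with divisor divisible by `n` has a root with a parabolic-elliptic multiplier. -/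
theorem exists_root {f : F} (hf : f ≠ 0) {n : ℕ} (hn : 0 < n)
    (hdvd : ∀ v : Place ℂ F, (n : ℤ) ∣ v.ord f) :
    ∃ (g : ℍ → ℂ) (χ : Γ →* ℂˣ), IsRootH n (m.ev f) g ∧ IsEquivariantH Γ χ g ∧
      (∀ γ, χ γ ^ n = 1) ∧
      ∀ γ : Γ, ((γ : SL(2, ℤ)) : Matrix (Fin 2) (Fin 2) ℤ).trace ^ 2 ≤ 4 → χ γ = 1 := by
  choose d hd using hdvd
  have hord : ∀ τ : ℍ, ordH (m.ev f) τ =
      ((n * (Places.ellPeriod Γ τ * d (m.placeAt τ)) : ℤ) : WithTop ℤ) := fun τ => by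
    rw [m.ordH_ev hf τ, hd]
    congr 1
    ring
  obtain ⟨g, χ, hg, hχ, he⟩ := Multiplier.exists_rootH_multiplier hn Γ (m.mero f)
    (fun τ => ⟨_, hord τ⟩) (m.smul_eq f)
  refine ⟨g, χ, hg, he, hχ, fun γ hγ => ?_⟩
  rcases lt_or_eq_of_le hγ with hlt | heq
  · refine he.map_elliptic hg.meroH m.neg_one_mem (fun τ => ⟨d (m.placeAt τ), ?_⟩) γ hlt
    obtain ⟨k, hk, hk'⟩ := hg.ordH_eq τ
    rw [hord τ, WithTop.coe_eq_coe] at hk'
    rw [hk, WithTop.coe_eq_coe]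
    exact mul_left_cancel₀ (Int.natCast_ne_zero.2 hn.ne') hk'.symm
  · have hdvd' : ∀ v : Place ℂ F, (n : ℤ) ∣ v.ord f := fun v => ⟨d v, hd v⟩
    obtain ⟨A, k, hA | hA⟩ := Multiplier.exists_conj_T_zpow heq
    · exact map_translation_eq_one m hf hn hdvd' hg he A k γ hA
    · have h1 := map_translation_eq_one m hf hn hdvd' hg he A k
        (⟨-1, m.neg_one_mem⟩ * γ) (by simp [hA])
      rwa [map_mul, he.map_neg_one hg ⟨-1, m.neg_one_mem⟩ rfl, one_mul] at h1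

/-- A root with a parabolic-elliptic multiplier forces divisibility at every place. -/
theorem dvd_ord {f : F} (hf : f ≠ 0) {n : ℕ} (hn : 0 < n) {g : ℍ → ℂ} {χ : Γ →* ℂˣ}
    (hg : IsRootH n (m.ev f) g) (he : IsEquivariantH Γ χ g)
    (hpe : ∀ γ : Γ, ((γ : SL(2, ℤ)) : Matrix (Fin 2) (Fin 2) ℤ).trace ^ 2 ≤ 4 → χ γ = 1)
    (v : Place ℂ F) : (n : ℤ) ∣ v.ord f := by
  rcases m.exists_placeAt_or_cuspPlace v with ⟨τ, rfl⟩ | ⟨A, rfl⟩
  · obtain ⟨k, hk, hk'⟩ := hg.ordH_eq τ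
    obtain ⟨e, rfl⟩ := (he.forall_stabilizer_iff hg.meroH m.neg_one_mem hk).1 fun γ hγ =>
      hpe γ (Multiplier.trace_sq_le_of_smul_eq hγ)
    have h1 := m.ordH_ev hf τ
    rw [hk', WithTop.coe_eq_coe] at h1
    have hpos : (Places.ellPeriod Γ τ : ℤ) ≠ 0 :=
      Int.natCast_ne_zero.2 (Places.ellPeriod_pos m.neg_one_mem τ).ne'
    exact ⟨e, mul_left_cancel₀ hpos (by rw [← h1]; ring)⟩
  · haveI : NeZero (Places.cuspWidth Γ A) := ⟨(Places.cuspWidth_pos A).ne'⟩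
    have hx' : HasQExp (Places.cuspWidth Γ A) (fun τ => m.ev f (A⁻¹ • τ)) (m.cuspExp A f) :=
      m.hasQExp_cuspExp A f
    have hmem : A⁻¹ * ModularGroup.T ^ (Places.cuspWidth Γ A : ℤ) * A⁻¹⁻¹ ∈ Γ := by
      have h := (Places.T_zpow_smul_eq_iff (Γ := Γ) A (Places.cuspWidth Γ A : ℤ)).2 dvd_rfl
      rw [MulAction.Quotient.smul_coe, smul_eq_mul, QuotientGroup.eq] at h
      simpa [mul_assoc] using inv_mem h
    rw [← m.order_cuspExp hf A]
    refine (he.map_cusp_eq_one_iff hn hg A⁻¹ hx' ⟨_, hmem⟩ rfl).1 (hpe _ ?_)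
    refine le_of_eq ?_
    rw [Matrix.SpecialLinearGroup.coe_mul, Matrix.SpecialLinearGroup.coe_mul,
      Matrix.trace_mul_cycle, ← Matrix.SpecialLinearGroup.coe_mul, inv_mul_cancel,
      Matrix.SpecialLinearGroup.coe_one, one_mul, ModularGroup.coe_T_zpow, Matrix.trace_fin_two]
    norm_num

omit [Γ.FiniteIndex] in
/-- Two roots of the same function have the same multiplier. -/
theorem multiplier_unique {n : ℕ} (hn : 0 < n) {f g g' : ℍ → ℂ} {χ χ' : Γ →* ℂˣ}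
    (hg : IsRootH n f g) (he : IsEquivariantH Γ χ g)
    (hg' : IsRootH n f g') (he' : IsEquivariantH Γ χ' g') : χ = χ' := by
  obtain ⟨ζ, -, hζ⟩ := IsRoot.unique hn hg hg'
  refine Multiplier.IsEquivariant.unique hg'.meromorphicNFOn
    (hg'.order_ne_top _ Multiplier.I_mem_H) (fun γ z hz => ?_) he'.comp_ofComplex
  rw [hζ _ (Multiplier.act_mem hz), hζ _ hz, he.comp_ofComplex γ z hz]
  ring

omit [Γ.FiniteIndex] in
/-- A root with trivial multiplier of a function meromorphic at a cusp is meromorphic there. -/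
theorem exists_hasQExp_root {n : ℕ} (hn : 0 < n) {f g : ℍ → ℂ} (hg : IsRootH n f g)
    (he : IsEquivariantH Γ 1 g) (A : SL(2, ℤ)) {h : ℕ} [NeZero h] {x : LaurentSeries ℂ}
    (hx : HasQExp h (fun τ => f (A • τ)) x) (hmem : A * ModularGroup.T ^ (h : ℤ) * A⁻¹ ∈ Γ) :
    ∃ y, HasQExp h (fun τ => g (A • τ)) y := by
  obtain ⟨hx0, -⟩ := he.multiplier_cusp hn hg A hx ⟨_, hmem⟩ rfl
  obtain ⟨d, hd⟩ := (he.map_cusp_eq_one_iff hn hg A hx ⟨_, hmem⟩ rfl).1
    (MonoidHom.one_apply _)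
  obtain ⟨G, hG, ⟨Y, hY⟩, hord⟩ := Multiplier.exists_meromorphicAt_of_hasQExp hx
  have hroot : IsRoot n ((f ∘ ofComplex) ∘ Multiplier.act A)
      ((g ∘ ofComplex) ∘ Multiplier.act A) := IsRoot.comp_act hg A
  have hh : (0 : ℝ) < (h : ℕ) := Nat.cast_pos.2 (NeZero.pos h)
  have hY' : ∀ z : ℂ, max Y 0 < z.im →
      ((f ∘ ofComplex) ∘ Multiplier.act A) z = G (Function.Periodic.qParam (h : ℝ) z) := by
    intro z hz
    have hzH : z ∈ H := lt_of_le_of_lt (le_max_right _ _) hz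
    simp only [Function.comp_apply, Multiplier.ofComplex_act _ hzH]
    rw [ofComplex_apply_of_im_pos hzH]
    exact hY ⟨z, hzH⟩ (lt_of_le_of_lt (le_max_left _ _) hz)
  obtain ⟨k, hk, v, hv, -, Y', hg'⟩ := hroot.eventually_eq_at_infty hn hh hG hY'
  rw [hord hx0, hd, WithTop.coe_eq_coe] at hk
  refine Multiplier.exists_hasQExp_of_zpow_mul d hv
    ((atImInfty_mem _).2 ⟨max Y' 0 + 1, fun τ hτ => ?_⟩)
  have h1 := hg' τ (by rw [UpperHalfPlane.coe_im]; linarith [le_max_left Y' 0])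
  simp only [Function.comp_apply, Multiplier.ofComplex_act _ τ.coe_im_pos, ofComplex_apply] at h1
  show g (A • τ) = _
  rw [h1, ← hk, zpow_mul, zpow_natCast, Multiplier.qParam_natCast_mul_pow hn]

omit [Γ.FiniteIndex] in
/-- Changing the function up to `EqPunct`. -/
theorem isRootH_of_eqPunct {n : ℕ} {f f' g : ℍ → ℂ} (hg : IsRootH n f g) (h : EqPunct f f') :
    IsRootH n f' g where
  meromorphicNFOn := hg.meromorphicNFOn
  pow_eq z hz := (hg.pow_eq z hz).trans (h ⟨z, hz⟩)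
  order_ne_top := hg.order_ne_top

end Fermat.Agent.DeligneSerre.Kummer

end
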