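import Fermat.Agent.DeligneSerre.RepsFields
import Fermat.Agent.DeligneSerre.RepsMeroFun
import Fermat.Agent.DeligneSerre.RepsMeroKummer
import Fermat.Agent.Places.Main
import Fermat.Agent.Multiplier.BridgeGamma0

/-!
# The field of level `M` over `ℂ` as a field of meromorphic functions, and its Kummer theory
-/

set_option autoImplicit false

noncomputable section

open UpperHalfPlane ModularCurve AlgebraicCurve
open scoped MatrixGroups Manifold

namespace Fermat.Agent.DeligneSerre.Level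

open Fermat.Agent.ModFun (HasQExp MeroH EqPunct jfun)
open Fermat.Agent.Multiplier (IsRootH IsEquivariantH)

variable (M : ℕ) [NeZero M]

/-- The function of an element of `FC M`. -/
def funX (x : FC M) : ℍ → ℂ := (exists_isFun M x).choose

theorem isFun_funX (x : FC M) : IsFun M (funX M x) x := (exists_isFun M x).choose_spec

theorem funX_eqPunct {x : FC M} {h : ℍ → ℂ} (hh : IsFun M h x) : EqPunct (funX M x) h := by
  exact (isFun_funX M x).eqPunct hh

theorem funX_add (x y : FC M) : EqPunct (funX M (x + y)) (funX M x + funX M y) := by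
  exact funX_eqPunct M ((isFun_funX M x).add (isFun_funX M y))

theorem funX_mul (x y : FC M) : EqPunct (funX M (x * y)) (funX M x * funX M y) := by
  exact funX_eqPunct M ((isFun_funX M x).mul (isFun_funX M y))

theorem funX_const (c : ℂ) : EqPunct (funX M (algebraMap ℂ (FC M) c)) fun _ => c := by
  refine funX_eqPunct M ?_
  show IsFun M (fun _ => c) (algebraMap ℂ (LaurentSeries ℂ) c)
  rw [Fermat.Agent.Igusa.Fibre.algebraMap_eq_C]
  exact IsFun.const c

theorem funX_jFC : EqPunct (funX M (jFC M)) jfun := by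
  exact funX_eqPunct M isFun_jfun

theorem funX_actC (γ : SL(2, ℤ)) (x : FC M) :
    EqPunct (funX M (actC M γ x)) fun τ => funX M x (γ • τ) := by
  obtain ⟨h, h1, h2⟩ := exists_isFun_actC M γ x
  exact (funX_eqPunct M h2).trans (Places.eqPunct_comp_smul (funX_eqPunct M h1).symm γ)

/-- The analytic model. -/
def xModel : Places.Model (pmGroup M) (FC M) where
  neg_one_mem := neg_one_mem_pmGroup M
  jF := jFC M
  ev := funX M
  mero x := (isFun_funX M x).1
  smul_eq x := (isFun_funX M x).2.1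
  qexp x g := ⟨M, NeZero.pos M, (isFun_funX M x).2.2.1 g⟩
  ev_add := funX_add M
  ev_mul := funX_mul M
  ev_const := funX_const M
  ev_jF := funX_jFC M
  finrank_eq := finrank_FC M

/-- A function with divisor divisible by `n` has a root with a multiplier. -/
theorem exists_multiplier (hM : 5 ≤ M) {x : FC M} (hx : x ≠ 0) {n : ℕ} (hn : 0 < n)
    (hdvd : ∀ v : Place ℂ (FC M), (n : ℤ) ∣ v.ord x) :
    ∃ (g : ℍ → ℂ) (χ : pmGroup M →* ℂˣ), IsRootH n (funX M x) g ∧
      IsEquivariantH (pmGroup M) χ g ∧ (∀ γ, χ γ ^ n = 1) ∧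
      ∀ γ : pmGroup M,
        ((γ : SL(2, ℤ)) : Matrix (Fin 2) (Fin 2) ℤ).trace ^ 2 ≤ 4 → χ γ = 1 := by
  exact Kummer.exists_root (xModel M) hx hn hdvd

/-- Conversely a root with such a multiplier forces divisibility at every place. -/
theorem dvd_ord_of_multiplier (hM : 5 ≤ M) {x : FC M} (hx : x ≠ 0) {n : ℕ} (hn : 0 < n)
    {g : ℍ → ℂ} {χ : pmGroup M →* ℂˣ} (hg : IsRootH n (funX M x) g)
    (he : IsEquivariantH (pmGroup M) χ g)
    (hpe : ∀ γ : pmGroup M,
      ((γ : SL(2, ℤ)) : Matrix (Fin 2) (Fin 2) ℤ).trace ^ 2 ≤ 4 → χ γ = 1)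
    (v : Place ℂ (FC M)) : (n : ℤ) ∣ v.ord x := by
  exact Kummer.dvd_ord (xModel M) hx hn hg he hpe v

/-- The multiplier does not depend on the root. -/
theorem multiplier_unique {x : FC M} (hx : x ≠ 0) {n : ℕ} (hn : 0 < n)
    {g g' : ℍ → ℂ} {χ χ' : pmGroup M →* ℂˣ}
    (hg : IsRootH n (funX M x) g) (he : IsEquivariantH (pmGroup M) χ g)
    (hg' : IsRootH n (funX M x) g') (he' : IsEquivariantH (pmGroup M) χ' g') : χ = χ' := by
  exact Kummer.multiplier_unique hn hg he hg' he'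

/-- A root with trivial multiplier is in the field. -/
theorem exists_pow_of_multiplier_one (hM : 3 ≤ M) {x : FC M} (hx : x ≠ 0) {n : ℕ} (hn : 0 < n) {g : ℍ → ℂ}
    (hg : IsRootH n (funX M x) g) (he : IsEquivariantH (pmGroup M) 1 g) :
    ∃ y : FC M, y ^ n = x := by
  have hcusp : ∀ A : SL(2, ℤ), ∃ y, HasQExp M (fun τ => g (A • τ)) y := fun A => by
    obtain ⟨z, hz⟩ := (isFun_funX M x).cusps A
    exact Kummer.exists_hasQExp_root hn hg he A hz (conj_T_pow_mem_pmGroup M A)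
  obtain ⟨y, hy⟩ := hcusp 1
  simp only [one_smul] at hy
  have hgfun : IsFun M g y := by
    refine ⟨hg.meroH, fun γ hγ τ => ?_, hcusp, hy⟩
    simpa using he ⟨γ, hγ⟩ τ
  refine ⟨⟨y, mem_FC_of_isFun hM hgfun⟩, Subtype.ext ?_⟩
  exact (hgfun.pow n).eq_of_eqPunct (isFun_funX M x) hg.eqPunct

/-- Every parabolic-elliptic character of order dividing `n` is a multiplier. -/
theorem exists_of_character (hM : 5 ≤ M) {n : ℕ} (hn : 0 < n) (χ : pmGroup M →* ℂˣ)
    (hχ : ∀ γ, χ γ ^ n = 1)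
    (hpe : ∀ γ : pmGroup M,
      ((γ : SL(2, ℤ)) : Matrix (Fin 2) (Fin 2) ℤ).trace ^ 2 ≤ 4 → χ γ = 1) :
    ∃ (x : FC M) (g : ℍ → ℂ), x ≠ 0 ∧ (∀ v : Place ℂ (FC M), (n : ℤ) ∣ v.ord x) ∧
      IsRootH n (funX M x) g ∧ IsEquivariantH (pmGroup M) χ g := by
  obtain ⟨f, g, hg, he, hf, hinv, -, hcusp⟩ := Multiplier.exists_rootH_of_character
    (pmGroup M) (neg_one_mem_pmGroup M) χ hn hχ hpe
  have hcusps : ∀ A : SL(2, ℤ), ∃ y, HasQExp M (fun τ => f (A • τ)) y ∧ y ≠ 0 := fun A => by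
    obtain ⟨y, hy, hy0, -⟩ := hcusp A M (NeZero.pos M) (conj_T_pow_mem_pmGroup M A)
    exact ⟨y, hy, hy0⟩
  obtain ⟨y, hy, hy0⟩ := hcusps 1
  simp only [one_smul] at hy
  have hffun : IsFun M f y := ⟨hf, hinv, fun A => (hcusps A).imp fun _ h => h.1, hy⟩
  set x : FC M := ⟨y, mem_FC_of_isFun (by omega) hffun⟩
  have hx : x ≠ 0 := fun h => hy0 (congrArg Subtype.val h)
  have hg' : IsRootH n (funX M x) g :=
    Kummer.isRootH_of_eqPunct hg (funX_eqPunct M (x := x) hffun).symm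
  exact ⟨x, g, hx, fun v => Kummer.dvd_ord (xModel M) hx hn hg' he hpe v, hg', he⟩

end Fermat.Agent.DeligneSerre.Level

end
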