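import Fermat.Prelude.Def_ModularCurve_X0ModL
import Mathlib.RingTheory.RootsOfUnity.PrimitiveRoots
import Mathlib.Algebra.CharP.Frobenius
import Mathlib.Data.Matrix.Mul
import Mathlib.LinearAlgebra.Matrix.Notation
import Mathlib.RingTheory.Valuation.ValuationSubring

/-!
# Expansions of the generators of the function field of full level `M`

Everything here is algebra over an arbitrary field `K` in which `ζ` is a primitive `M`th root of
unity; the parameter is `t = q^(1/M)`.  For a row vector `v = (b, a)` modulo `M`, `xSer K ζ v` is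
the expansion of `℘ ((b τ + a) / M) / (2 π i) ^ 2 - 1 / 12`.
-/

set_option autoImplicit false
set_option linter.unusedSectionVars false

noncomputable section

open ModularCurve HahnSeries

namespace Fermat.Agent.DeligneSerre.Level

section Twist

variable {R : Type*} [CommRing R]

/-- The substitution `t ↦ u t`. -/
def twist (u : Rˣ) : LaurentSeries R →+* LaurentSeries R where
  toFun x :=
    { coeff := fun k => ((u ^ k : Rˣ) : R) * x.coeff k
      isPWO_support' := x.isPWO_support'.mono fun k hk h0 => hk (by simp [h0]) }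
  map_one' := by
    ext k
    by_cases hk : k = 0
    · subst hk; simp [HahnSeries.coeff_one]
    · simp [HahnSeries.coeff_one, hk]
  map_zero' := by ext k; simp
  map_add' x y := by ext k; simp [mul_add]
  map_mul' x y := by
    classical
    ext k
    have hsupp : ∀ z : LaurentSeries R,
        Function.support (fun k => ((u ^ k : Rˣ) : R) * z.coeff k) = Function.support z.coeff :=
      fun z => by ext k; simp [Function.mem_support]
    show ((u ^ k : Rˣ) : R) * (x * y).coeff k = _
    rw [HahnSeries.coeff_mul, HahnSeries.coeff_mul, Finset.mul_sum]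
    refine Finset.sum_congr ?_ fun ij hij => ?_
    · ext ij
      simp only [Finset.mem_antidiagonal, HahnSeries.mem_support, ne_eq,
        Units.mul_right_eq_zero]
    · rw [Finset.mem_antidiagonal] at hij
      rw [← hij.2.2, zpow_add, Units.val_mul]
      simp only
      ring

@[simp]
theorem twist_coeff (u : Rˣ) (x : LaurentSeries R) (k : ℤ) :
    (twist u x).coeff k = ((u ^ k : Rˣ) : R) * x.coeff k :=
  rfl

theorem twist_mul_apply (u v : Rˣ) (x : LaurentSeries R) :
    twist (u * v) x = twist u (twist v x) := by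
  ext k
  simp [mul_zpow, mul_assoc]

theorem twist_one_apply (x : LaurentSeries R) : twist 1 x = x := by
  ext k
  simp

theorem coeffMap_twist {S : Type*} [CommRing S] (f : R →+* S) (u : Rˣ) (x : LaurentSeries R) :
    coeffMap f (twist u x) = twist (Units.map (f : R →* S) u) (coeffMap f x) := by
  ext k
  simp only [coeffMap_coeff, twist_coeff, map_mul]
  congr 1
  rw [← map_zpow, Units.coe_map]
  rfl

theorem twist_qExpand (u : Rˣ) (n : ℕ) [NeZero n] (x : LaurentSeries R) :
    twist u (qExpand R n x) = qExpand R n (twist (u ^ n) x) := by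
  ext k
  by_cases hk : (n : ℤ) ∣ k
  · obtain ⟨m, rfl⟩ := hk
    rw [twist_coeff, qExpand_coeff_mul, qExpand_coeff_mul, twist_coeff, zpow_mul, zpow_natCast]
  · rw [twist_coeff, qExpand_coeff_of_not_dvd n _ hk, qExpand_coeff_of_not_dvd n _ hk, mul_zero]

theorem twist_eq_self_of_pow_eq_one {u : Rˣ} {n : ℕ} [NeZero n] (hu : u ^ n = 1)
    (x : LaurentSeries R) : twist u (qExpand R n x) = qExpand R n x := by
  rw [twist_qExpand, hu, twist_one_apply]

@[simp]
theorem twist_single (u : Rˣ) (k : ℤ) (r : R) :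
    twist u (HahnSeries.single k r) = HahnSeries.single k (((u ^ k : Rˣ) : R) * r) := by
  ext m
  rcases eq_or_ne m k with rfl | hm
  · simp
  · simp [HahnSeries.coeff_single_of_ne hm]

end Twist

section Vectors

variable {M : ℕ}

/-- Row vectors `(b, a)` modulo `M`. -/
abbrev Vec (M : ℕ) : Type := Fin 2 → ZMod M

/-- The generators are indexed by pairs of vectors. -/
abbrev Idx (M : ℕ) : Type := Vec M × Vec M

/-- The right action of a matrix on an index. -/
def idxMul (i : Idx M) (g : Matrix (Fin 2) (Fin 2) (ZMod M)) : Idx M :=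
  (Matrix.vecMul i.1 g, Matrix.vecMul i.2 g)

@[simp] theorem idxMul_one (i : Idx M) : idxMul i 1 = i := by simp [idxMul]

theorem idxMul_mul (i : Idx M) (g h : Matrix (Fin 2) (Fin 2) (ZMod M)) :
    idxMul i (g * h) = idxMul (idxMul i g) h := by
  simp [idxMul, Matrix.vecMul_vecMul]

end Vectors

section Series

variable {M : ℕ} [NeZero M] (K : Type*) [Field K] (ζ : K)

/-- `ζ ^ a` for `a` modulo `M`. -/
def zpowZ (a : ZMod M) : K := ζ ^ a.val

/-- The coefficients of the expansion attached to `v = (b, a)`. -/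
def xCoeff (v : Vec M) : ℕ → K
  | 0 => if v 0 = 0 then zpowZ K ζ (v 1) / (1 - zpowZ K ζ (v 1)) ^ 2 else 0
  | n + 1 => ∑ kd ∈ (n + 1).divisorsAntidiagonal,
      (kd.1 : K) * ((if (kd.2 : ZMod M) = v 0 then zpowZ K ζ ((kd.1 : ZMod M) * v 1) else 0) +
        (if (kd.2 : ZMod M) = -v 0 then zpowZ K ζ (-((kd.1 : ZMod M) * v 1)) else 0))

/-- The expansion attached to `v`. -/
def xSer (v : Vec M) : LaurentSeries K :=
  if v = 0 then 0 else HahnSeries.ofPowerSeries ℤ K (PowerSeries.mk (xCoeff K ζ v))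

/-- `E₆`. -/
def eisenstein6 : PowerSeries ℤ :=
  PowerSeries.mk fun n => if n = 0 then 1 else -504 * ∑ d ∈ n.divisors, (d : ℤ) ^ 5

@[simp]
theorem constantCoeff_eisenstein6 : PowerSeries.constantCoeff eisenstein6 = 1 := by
  rw [← PowerSeries.coeff_zero_eq_constantCoeff]
  simp [eisenstein6]

/-- `E₄ E₆ / Δ` in the variable `q`. -/
def wSerQ : LaurentSeries K :=
  HahnSeries.single (-1 : ℤ) 1 * HahnSeries.ofPowerSeries ℤ K
    ((eisenstein4 * eisenstein6 * dedekindEtaUnitInv).map (Int.castRingHom K))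

variable (M) in
/-- `E₄ E₆ / Δ` in the variable `t`. -/
def wSer : LaurentSeries K := qExpand K M (wSerQ K)

variable (M) in
/-- `j` in the variable `t`. -/
def jSer : LaurentSeries K := qExpand K M (jqModC K)

/-- The weight zero generators `(x_v - x_w) E₄ E₆ / Δ`. -/
def ySer (i : Idx M) : LaurentSeries K :=
  if i.1 = 0 ∨ i.2 = 0 then 0 else (xSer K ζ i.1 - xSer K ζ i.2) * wSer M K

theorem coeff_wSerQ_neg_one : (wSerQ K).coeff (-1) = 1 := by
  rw [wSerQ, HahnSeries.coeff_single_mul, one_mul, sub_neg_eq_add, neg_add_cancel,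
    show (0 : ℤ) = ((0 : ℕ) : ℤ) from rfl, HahnSeries.ofPowerSeries_apply_coeff,
    PowerSeries.coeff_map, PowerSeries.coeff_zero_eq_constantCoeff, map_mul, map_mul,
    map_mul, constantCoeff_eisenstein4, constantCoeff_eisenstein6,
    constantCoeff_dedekindEtaUnitInv]
  simp

theorem wSer_ne_zero : wSer M K ≠ 0 := by
  intro h
  have h1 : (wSer M K).coeff ((M : ℤ) * (-1)) = 1 := by
    rw [wSer, qExpand_coeff_mul, coeff_wSerQ_neg_one]
  simp [h] at h1

variable {K}

theorem zpowZ_mul (hζ : ζ ^ M = 1) (a b : ZMod M) :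
    zpowZ K ζ (a + b) = zpowZ K ζ a * zpowZ K ζ b := by
  rw [zpowZ, zpowZ, zpowZ, ← _root_.pow_add, ZMod.val_add]
  exact (pow_eq_pow_mod _ hζ).symm

@[simp] theorem zpowZ_zero : zpowZ K ζ (0 : ZMod M) = 1 := by simp [zpowZ]

theorem zpowZ_natCast (hζ : ζ ^ M = 1) (n : ℕ) : zpowZ K ζ (n : ZMod M) = ζ ^ n := by
  rw [zpowZ, ZMod.val_natCast]
  exact (pow_eq_pow_mod n hζ).symm

theorem zpowZ_ne_zero (hζ : ζ ^ M = 1) (a : ZMod M) : zpowZ K ζ a ≠ 0 := by
  intro h
  have := zpowZ_mul ζ hζ a (-a)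
  rw [add_neg_cancel, zpowZ_zero, h, zero_mul] at this
  exact one_ne_zero this

theorem zpowZ_neg (hζ : ζ ^ M = 1) (a : ZMod M) : zpowZ K ζ (-a) = (zpowZ K ζ a)⁻¹ := by
  refine eq_inv_of_mul_eq_one_left ?_
  rw [← zpowZ_mul ζ hζ, neg_add_cancel, zpowZ_zero]

variable {ζ} in
theorem zpowZ_eq_one_iff (hζ : IsPrimitiveRoot ζ M) {a : ZMod M} :
    zpowZ K ζ a = 1 ↔ a = 0 := by
  rw [zpowZ, hζ.pow_eq_one_iff_dvd]
  constructor
  · intro h
    exact (ZMod.val_eq_zero a).1 (Nat.eq_zero_of_dvd_of_lt h (ZMod.val_lt a))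
  · rintro rfl
    simp

theorem xCoeff_neg (hζ : ζ ^ M = 1) (v : Vec M) : xCoeff K ζ (-v) = xCoeff K ζ v := by
  funext n
  cases n with
  | zero =>
    simp only [xCoeff, Pi.neg_apply, neg_eq_zero]
    split
    · rw [zpowZ_neg ζ hζ]
      have h := zpowZ_ne_zero ζ hζ (v 1)
      field_simp
      rw [← neg_sq (zpowZ K ζ (v 1) - 1), neg_sub]
    · rfl
  | succ n =>
    simp only [xCoeff, Pi.neg_apply, neg_neg, mul_neg]
    exact Finset.sum_congr rfl fun kd _ => by rw [add_comm]

theorem xSer_neg (hζ : ζ ^ M = 1) (v : Vec M) : xSer K ζ (-v) = xSer K ζ v := by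
  simp only [xSer, neg_eq_zero, xCoeff_neg ζ hζ]

variable (K)

@[simp] theorem xSer_zero : xSer K ζ (0 : Vec M) = 0 := by simp [xSer]

theorem xSer_coeff_natCast {v : Vec M} (hv : v ≠ 0) (n : ℕ) :
    (xSer K ζ v).coeff (n : ℤ) = xCoeff K ζ v n := by
  rw [xSer, if_neg hv, HahnSeries.ofPowerSeries_apply_coeff, PowerSeries.coeff_mk]

theorem xSer_coeff_of_neg (v : Vec M) {k : ℤ} (hk : k < 0) : (xSer K ζ v).coeff k = 0 := by
  rw [xSer]
  split
  · rfl
  · exact ofPowerSeries_coeff_of_neg _ hk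

variable {K}

theorem xCoeff_one (v : Vec M) :
    xCoeff K ζ v 1 = (if (1 : ZMod M) = v 0 then zpowZ K ζ (v 1) else 0) +
      (if (1 : ZMod M) = -v 0 then zpowZ K ζ (-v 1) else 0) := by
  simp [xCoeff]

/-! Functoriality -/

section Map

variable {L : Type*} [Field L] (φ : K →+* L)

@[simp] theorem map_zpowZ (a : ZMod M) : φ (zpowZ K ζ a) = zpowZ L (φ ζ) a := by
  simp [zpowZ]

theorem map_xCoeff (v : Vec M) (n : ℕ) : φ (xCoeff K ζ v n) = xCoeff L (φ ζ) v n := by
  cases n with
  | zero => simp [xCoeff, apply_ite φ, map_div₀]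
  | succ n => simp [xCoeff, map_sum, apply_ite φ]

theorem coeffMap_xSer (v : Vec M) : coeffMap φ (xSer K ζ v) = xSer L (φ ζ) v := by
  simp only [xSer]
  split
  · exact map_zero _
  · rw [coeffMap_ofPowerSeries]
    congr 1
    ext n
    simp [map_xCoeff]

theorem coeffMap_wSerQ : coeffMap φ (wSerQ K) = wSerQ L := by
  rw [wSerQ, map_mul, coeffMap_single, map_one, coeffMap_ofPowerSeries,
    ← RingHom.comp_apply (PowerSeries.map φ) (PowerSeries.map (Int.castRingHom K)),
    ← PowerSeries.map_comp, RingHom.ext_int (φ.comp (Int.castRingHom K)) (Int.castRingHom L)]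
  rfl

theorem coeffMap_wSer : coeffMap φ (wSer M K) = wSer M L := by
  rw [wSer, wSer, coeffMap_qExpand, coeffMap_wSerQ]

theorem coeffMap_jSer : coeffMap φ (jSer M K) = jSer M L := by
  rw [jSer, jSer, coeffMap_qExpand, coeffMap_jqModC]

theorem coeffMap_ySer (i : Idx M) : coeffMap φ (ySer K ζ i) = ySer L (φ ζ) i := by
  simp only [ySer]
  split
  · exact map_zero _
  · rw [map_mul, map_sub, coeffMap_xSer, coeffMap_xSer, coeffMap_wSer]

end Map

/-- Replacing `ζ` by `ζ ^ u` amounts to multiplying `a` by `u`. -/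
theorem xSer_pow (hζ : ζ ^ M = 1) {u : ℕ} (hu : Nat.Coprime u M) (v : Vec M) :
    xSer K (ζ ^ u) v = xSer K ζ ![v 0, (u : ZMod M) * v 1] := by
  have hz : ∀ a : ZMod M, zpowZ K (ζ ^ u) a = zpowZ K ζ ((u : ZMod M) * a) := by
    intro a
    rw [zpowZ, zpowZ, ← pow_mul, ZMod.val_mul, ZMod.val_natCast, Nat.mod_mul_mod]
    exact pow_eq_pow_mod _ hζ
  have hv : (![v 0, (u : ZMod M) * v 1] : Vec M) = 0 ↔ v = 0 := by
    have hu' : IsUnit (u : ZMod M) := (ZMod.unitOfCoprime u hu).isUnit
    constructor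
    · intro h
      have h0 := congrFun h 0
      have h1 := congrFun h 1
      simp only [Matrix.cons_val_zero, Matrix.cons_val_one, Pi.zero_apply] at h0 h1
      ext i
      fin_cases i
      · exact h0
      · exact (IsUnit.mul_right_eq_zero hu').1 h1
    · rintro rfl
      ext i
      fin_cases i <;> simp
  simp only [xSer, hv]
  split
  · rfl
  · congr 2
    funext n
    cases n with
    | zero => simp [xCoeff, hz]
    | succ n =>
      simp only [xCoeff, hz, Matrix.cons_val_zero, Matrix.cons_val_one]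
      refine Finset.sum_congr rfl fun kd _ => ?_
      simp only [mul_left_comm (kd.1 : ZMod M) (u : ZMod M) (v 1), mul_neg]

/-- The Galois matrix `diag (1, u)`. -/
def galMat (u : ZMod M) : Matrix (Fin 2) (Fin 2) (ZMod M) := !![1, 0; 0, u]

theorem ySer_pow (hζ : ζ ^ M = 1) {u : ℕ} (hu : Nat.Coprime u M) (i : Idx M) :
    ySer K (ζ ^ u) i = ySer K ζ (idxMul i (galMat (u : ZMod M))) := by
  have h : ∀ v : Vec M, Matrix.vecMul v (galMat (u : ZMod M)) = ![v 0, (u : ZMod M) * v 1] := by
    intro v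
    ext j
    fin_cases j <;> simp [galMat, Matrix.vecMul, dotProduct, Fin.sum_univ_two, mul_comm]
  have hz : ∀ v : Vec M, (![v 0, (u : ZMod M) * v 1] : Vec M) = 0 ↔ v = 0 := by
    intro v
    rw [← h v]
    refine ⟨fun h0 => ?_, fun h0 => by rw [h0, Matrix.zero_vecMul]⟩
    have hg : (galMat (u : ZMod M)).det = (u : ZMod M) := by simp [galMat, Matrix.det_fin_two]
    have h1 := congrArg (fun w => Matrix.vecMul w (galMat (u : ZMod M)).adjugate) h0
    simp only [Matrix.vecMul_vecMul, Matrix.mul_adjugate, hg, Matrix.vecMul_smul,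
      Matrix.vecMul_one, Matrix.zero_vecMul] at h1
    exact ((ZMod.unitOfCoprime u hu).isUnit.smul_eq_zero).1 h1
  simp only [ySer, idxMul, h, hz, xSer_pow ζ hζ hu]

/-! The translation `τ ↦ τ + 1` -/

/-- `(1 1; 0 1)` modulo `M`. -/
def tMat (M : ℕ) : Matrix (Fin 2) (Fin 2) (ZMod M) := !![1, 1; 0, 1]

theorem vecMul_tMat (v : Vec M) : Matrix.vecMul v (tMat M) = ![v 0, v 0 + v 1] := by
  ext j
  fin_cases j <;> simp [tMat, Matrix.vecMul, dotProduct, Fin.sum_univ_two]

/-- `ζ` as a unit. -/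
def zetaUnit (hζ : ζ ^ M = 1) : Kˣ := Units.ofPowEqOne ζ M hζ (NeZero.ne M)

theorem coe_zetaUnit_pow (hζ : ζ ^ M = 1) (n : ℕ) :
    ((zetaUnit ζ hζ ^ n : Kˣ) : K) = zpowZ K ζ (n : ZMod M) := by
  rw [zpowZ_natCast ζ hζ]
  simp [zetaUnit]

theorem twist_xSer (hζ : ζ ^ M = 1) (v : Vec M) :
    twist (zetaUnit ζ hζ) (xSer K ζ v) = xSer K ζ (Matrix.vecMul v (tMat M)) := by
  have hv : Matrix.vecMul v (tMat M) = 0 ↔ v = 0 := by
    rw [vecMul_tMat]
    constructor
    · intro h
      have h0 := congrFun h 0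
      have h1 := congrFun h 1
      simp only [Matrix.cons_val_zero, Matrix.cons_val_one, Pi.zero_apply] at h0 h1
      ext i
      fin_cases i
      · exact h0
      · simpa [h0] using h1
    · rintro rfl
      ext i
      fin_cases i <;> simp
  ext k
  by_cases h0 : v = 0
  · simp [h0]
  have h0' : Matrix.vecMul v (tMat M) ≠ 0 := fun h => h0 (hv.1 h)
  rcases lt_or_ge k 0 with hk | hk
  · rw [twist_coeff, xSer_coeff_of_neg K ζ v hk, xSer_coeff_of_neg K ζ _ hk, mul_zero]
  lift k to ℕ using hk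
  rw [twist_coeff, xSer_coeff_natCast K ζ h0, xSer_coeff_natCast K ζ h0', zpow_natCast,
    coe_zetaUnit_pow ζ hζ, vecMul_tMat]
  cases k with
  | zero =>
    simp only [xCoeff, Matrix.cons_val_zero, Matrix.cons_val_one, Nat.cast_zero, zpowZ_zero,
      one_mul]
    by_cases h : v 0 = 0
    · simp [h]
    · simp [h]
  | succ n =>
    simp only [xCoeff, Matrix.cons_val_zero, Matrix.cons_val_one, Finset.mul_sum]
    refine Finset.sum_congr rfl fun kd hkd => ?_
    have hn : ((n + 1 : ℕ) : ZMod M) = (kd.1 : ZMod M) * (kd.2 : ZMod M) := by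
      rw [← Nat.cast_mul, (Nat.mem_divisorsAntidiagonal.1 hkd).1]
    rw [mul_left_comm, mul_add]
    congr 2
    · by_cases h : (kd.2 : ZMod M) = v 0
      · simp only [h, if_true, hn, ← zpowZ_mul ζ hζ, ← mul_add]
      · simp only [h, if_false, mul_zero]
    · by_cases h : (kd.2 : ZMod M) = -v 0
      · simp only [h, if_true, hn, ← zpowZ_mul ζ hζ]
        ring_nf
      · simp only [h, if_false, mul_zero]

theorem twist_ySer (hζ : ζ ^ M = 1) (i : Idx M) :
    twist (zetaUnit ζ hζ) (ySer K ζ i) = ySer K ζ (idxMul i (tMat M)) := by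
  have hu : zetaUnit ζ hζ ^ M = 1 := Units.ext (by simp [zetaUnit])
  have hz : ∀ v : Vec M, Matrix.vecMul v (tMat M) = 0 ↔ v = 0 := by
    intro v
    refine ⟨fun h0 => ?_, fun h0 => by rw [h0, Matrix.zero_vecMul]⟩
    have hg : (tMat M).det = 1 := by simp [tMat, Matrix.det_fin_two]
    have h1 := congrArg (fun w => Matrix.vecMul w (tMat M).adjugate) h0
    simpa [Matrix.vecMul_vecMul, Matrix.mul_adjugate, hg] using h1
  simp only [ySer, idxMul, hz]
  split
  · exact map_zero _
  · simp only [map_mul, map_sub, twist_xSer ζ hζ, wSer, twist_eq_self_of_pow_eq_one hu]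

theorem twist_jSer (hζ : ζ ^ M = 1) : twist (zetaUnit ζ hζ) (jSer M K) = jSer M K :=
  twist_eq_self_of_pow_eq_one (Units.ext (by simp [zetaUnit])) _

/-! The generators separate `SL₂ (ℤ / M) / ±1` -/

/-- **Faithfulness.** -/
theorem eq_one_or_neg_one_of_ySer_eq {ζ : K} (hζ : IsPrimitiveRoot ζ M) (hM : 3 ≤ M)
    (g : Matrix (Fin 2) (Fin 2) (ZMod M)) (hdet : g.det = 1)
    (h : ∀ i : Idx M, ySer K ζ (idxMul i g) = ySer K ζ i) : g = 1 ∨ g = -1 := by
  have : Fact (1 < M) := ⟨by omega⟩
  have hz := hζ.pow_eq_one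
  have hd : g 0 0 * g 1 1 - g 0 1 * g 1 0 = 1 := by rw [← Matrix.det_fin_two]; exact hdet
  have hinj : ∀ {v : Vec M}, v ≠ 0 → Matrix.vecMul v g ≠ 0 := by
    intro v hv h0
    apply hv
    have := congrArg (fun w => Matrix.vecMul w g.adjugate) h0
    simpa [Matrix.vecMul_vecMul, Matrix.mul_adjugate, hdet] using this
  have key : ∀ (v w : Vec M), v ≠ 0 → w ≠ 0 → ∀ n : ℕ,
      xCoeff K ζ (Matrix.vecMul v g) n - xCoeff K ζ (Matrix.vecMul w g) n =
        xCoeff K ζ v n - xCoeff K ζ w n := by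
    intro v w hv hw n
    have e := h (v, w)
    simp only [ySer, idxMul, hinj hv, hinj hw, hv, hw, or_self, if_false] at e
    replace e := mul_right_cancel₀ (wSer_ne_zero K) e
    have e' := congrArg (fun z : LaurentSeries K => z.coeff (n : ℤ)) e
    simp only [HahnSeries.coeff_sub, xSer_coeff_natCast K ζ hv,
      xSer_coeff_natCast K ζ hw, xSer_coeff_natCast K ζ (hinj hv),
      xSer_coeff_natCast K ζ (hinj hw)] at e'
    exact e'
  have hv : ∀ a b : ZMod M, Matrix.vecMul ![b, a] g =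
      ![b * g 0 0 + a * g 1 0, b * g 0 1 + a * g 1 1] := by
    intro a b
    ext j
    fin_cases j <;> simp [Matrix.vecMul, dotProduct, Fin.sum_univ_two]
  have hne : ∀ b a : ZMod M, (b ≠ 0 ∨ a ≠ 0) → (![b, a] : Vec M) ≠ 0 := by
    intro b a hba h0
    rcases hba with hb | ha
    · exact hb (by simpa using congrFun h0 0)
    · exact ha (by simpa using congrFun h0 1)
  have h1 : (1 : ZMod M) ≠ 0 := one_ne_zero
  have h2 : (1 : ZMod M) ≠ -1 := by
    intro e
    have e2 : ((2 : ℕ) : ZMod M) = 0 := by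
      push_cast
      linear_combination e
    rw [ZMod.natCast_eq_zero_iff] at e2
    have := Nat.le_of_dvd (by norm_num) e2
    omega
  have hz1 : zpowZ K ζ (1 : ZMod M) ≠ 1 := fun e => h1 ((zpowZ_eq_one_iff hζ).1 e)
  -- constant coefficients give `c = 0`
  have hc : g 1 0 = 0 := by
    by_contra hc
    have hk : ∀ k : ZMod M, g 0 0 + k * g 1 0 = 0 := by
      intro k
      by_contra hk
      have e := key ![0, 1] ![1, k] (hne _ _ (Or.inr h1)) (hne _ _ (Or.inl h1)) 0
      simp only [xCoeff, hv, Matrix.cons_val_zero, Matrix.cons_val_one, zero_mul, zero_add,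
        one_mul, if_neg hc, if_neg hk, if_true, sub_self] at e
      simp only [h1, if_false, sub_zero] at e
      exact div_ne_zero (zpowZ_ne_zero ζ hz _)
        (pow_ne_zero 2 (sub_ne_zero.2 (Ne.symm hz1))) e.symm
    apply hc
    linear_combination hk 1 - hk 0
  -- coefficients of `t` give `a = ± 1`
  have hab : ∀ n, n = 1 → xCoeff K ζ (Matrix.vecMul ![1, 0] g) n
      - xCoeff K ζ (Matrix.vecMul ![1, 1] g) n = 1 - zpowZ K ζ (1 : ZMod M) := by
    rintro n rfl
    rw [key _ _ (hne _ _ (Or.inl h1)) (hne _ _ (Or.inl h1)) 1]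
    simp [xCoeff_one, if_neg h2]
  have e := hab 1 rfl
  simp only [hv, xCoeff_one, Matrix.cons_val_zero, Matrix.cons_val_one, one_mul, zero_mul,
    add_zero, hc, mul_zero] at e
  rw [hc, mul_zero, sub_zero] at hd
  have ha : g 0 0 = 1 ∨ g 0 0 = -1 := by
    by_contra hcon
    push Not at hcon
    have hn1 : ¬ (1 : ZMod M) = g 0 0 := Ne.symm hcon.1
    have hn2 : ¬ (1 : ZMod M) = -g 0 0 := fun h => hcon.2 (by rw [h, neg_neg])
    simp only [hn1, hn2, if_false, add_zero, sub_zero] at e
    apply hz1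
    linear_combination e
  have hmat : ∀ s : ZMod M, s * s = 1 → g 0 0 = s → g 0 1 = 0 → g = s • 1 := by
    intro s hs h00 h01
    have h11 : g 1 1 = s := by linear_combination s * hd - g 1 1 * hs - s * g 1 1 * h00
    ext i j
    fin_cases i <;> fin_cases j <;> simp [h00, h01, h11, hc]
  rcases ha with ha | ha
  · left
    have h11 : g 1 1 = 1 := by rw [ha, one_mul] at hd; exact hd
    simp only [ha, if_true, if_neg h2, add_zero, h11, zpowZ_mul ζ hz (g 0 1) 1] at e
    have : zpowZ K ζ (g 0 1) = 1 := by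
      apply mul_right_cancel₀ (sub_ne_zero.2 (Ne.symm hz1))
      linear_combination e
    rw [zpowZ_eq_one_iff hζ] at this
    simpa using hmat 1 (one_mul 1) ha this
  · right
    have h11 : g 1 1 = -1 := by rw [ha, neg_one_mul, neg_eq_iff_eq_neg] at hd; exact hd
    simp only [ha, neg_neg, if_true, if_neg h2, zero_add, h11, neg_add, zpowZ_mul ζ hz] at e
    have : zpowZ K ζ (-g 0 1) = 1 := by
      apply mul_right_cancel₀ (sub_ne_zero.2 (Ne.symm hz1))
      linear_combination e
    rw [zpowZ_eq_one_iff hζ, neg_eq_zero] at this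
    simpa using hmat (-1) (by ring) ha this

end Series

/-- In characteristic `p`, `x ^ p` is the Frobenius twist of `x` in the variable `t ^ p`. -/
theorem pow_char_eq {k : Type*} [CommRing k] {p : ℕ} [Fact p.Prime] [CharP k p] [NeZero p]
    (x : LaurentSeries k) : x ^ p = qExpand k p (coeffMap (frobenius k p) x) := by
  obtain ⟨n, f, rfl⟩ : ∃ (n : ℤ) (f : PowerSeries k),
      x = HahnSeries.single n 1 * HahnSeries.ofPowerSeries ℤ k f :=
    ⟨_, _, (LaurentSeries.single_order_mul_powerSeriesPart x).symm⟩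
  rw [mul_pow, map_mul, map_mul, coeffMap_single, qExpand_single,
    HahnSeries.single_pow, one_pow, coeffMap_ofPowerSeries, ← map_pow]
  simp only [map_one]
  congr 1
  have : f ^ p = PowerSeries.expand p (NeZero.ne p) (f.map (frobenius k p)) := by
    rw [← PowerSeries.map_expand]
    exact (MvPowerSeries.map_frobenius_expand p (NeZero.ne p)).symm
  ext m
  by_cases hm : (p : ℤ) ∣ m
  · obtain ⟨i, rfl⟩ := hm
    rw [qExpand_coeff_mul]
    rcases le_or_gt 0 i with hi | hi
    · lift i to ℕ using hi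
      rw [← Nat.cast_mul, HahnSeries.ofPowerSeries_apply_coeff,
        HahnSeries.ofPowerSeries_apply_coeff, this, PowerSeries.coeff_expand_mul]
    · rw [ofPowerSeries_coeff_of_neg _ hi, ofPowerSeries_coeff_of_neg _]
      exact mul_neg_of_pos_of_neg (by exact_mod_cast Nat.pos_of_neZero p) hi
  · rw [qExpand_coeff_of_not_dvd p _ hm]
    rcases le_or_gt 0 m with hi | hi
    · lift m to ℕ using hi
      rw [HahnSeries.ofPowerSeries_apply_coeff, this,
        PowerSeries.coeff_expand_of_not_dvd]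
      exact fun h => hm (Int.natCast_dvd_natCast.2 h)
    · exact ofPowerSeries_coeff_of_neg _ hi

end Fermat.Agent.DeligneSerre.Level

end
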