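import Fermat.Agent.DeligneSerre.RepsSeries
import Fermat.Agent.ModFun.JFun
import Mathlib.Analysis.SpecialFunctions.Elliptic.Weierstrass
import Mathlib.NumberTheory.ModularForms.EisensteinSeries.QExpansion
import Mathlib.NumberTheory.TsumDivisorsAntidiagonal
import Mathlib.NumberTheory.ModularForms.Discriminant

/-!
# The weight zero functions of full level `M` attached to torsion values of `℘`

`yFun i` for `i = (v, w)` is `(℘ (z_v) - ℘ (z_w)) / (2 π i) ^ 2 * E₄ E₆ / Δ`; it is holomorphic on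
the upper half plane, is permuted by `SL₂(ℤ)`, and has expansion `ySer ℂ ζ_M i` everywhere.
-/

set_option autoImplicit false
set_option linter.unusedSectionVars false

noncomputable section

open Complex hiding I
open UpperHalfPlane Filter Function
open scoped Topology Real MatrixGroups Manifold

namespace Fermat.Agent.DeligneSerre.Level

variable {M : ℕ} [NeZero M]

/-- `exp (2 π i / M)`. -/
def zetaC (M : ℕ) : ℂ := cexp (2 * π * Complex.I / M)

theorem isPrimitiveRoot_zetaC : IsPrimitiveRoot (zetaC M) M :=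
  Complex.isPrimitiveRoot_exp M (NeZero.ne M)

theorem indep_latticePair (τ : ℍ) : LinearIndependent ℝ ![(τ : ℂ), 1] := by
  rw [LinearIndependent.pair_iff]
  intro s t h
  have him : s * τ.im = 0 := by simpa using congrArg Complex.im h
  have hs : s = 0 := (mul_eq_zero.1 him).resolve_right τ.im_ne_zero
  subst hs
  simpa using h

/-- The periods `τ`, `1`. -/
def latticePair (τ : ℍ) : PeriodPair := ⟨τ, 1, indep_latticePair τ⟩

theorem mem_latticePair {τ : ℍ} {x : ℂ} :
    x ∈ (latticePair τ).lattice ↔ ∃ m n : ℤ, (m : ℂ) * τ + n = x := by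
  rw [PeriodPair.mem_lattice]
  simp [latticePair]

/-- The torsion point `(b τ + a) / M` of `v = (b, a)`. -/
def torsPt (v : Vec M) (τ : ℂ) : ℂ := ((v 0).val * τ + (v 1).val) / M

/-- `℘` of the torsion point. -/
def wp (v : Vec M) (τ : ℍ) : ℂ := (latticePair τ).weierstrassP (torsPt v τ)

/-- `E₄ E₆ / Δ`. -/
def wFun (τ : ℍ) : ℂ :=
  ModularForm.E₄ τ * ModularForm.E₆ τ / ModularForm.discriminant τ

/-- The generators as functions. -/
def yFun (i : Idx M) (τ : ℍ) : ℂ :=
  if i.1 = 0 ∨ i.2 = 0 then 0 else (wp i.1 τ - wp i.2 τ) / (2 * π * Complex.I) ^ 2 * wFun τ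

/-- Reduction of `γ` modulo `M`. -/
def modM (M : ℕ) (γ : SL(2, ℤ)) : Matrix (Fin 2) (Fin 2) (ZMod M) :=
  (γ : Matrix (Fin 2) (Fin 2) ℤ).map (Int.castRingHom (ZMod M))

@[simp] theorem modM_apply (γ : SL(2, ℤ)) (i j : Fin 2) :
    modM M γ i j = ((γ i j : ℤ) : ZMod M) := rfl

@[simp] theorem modM_one : modM M 1 = 1 := by
  rw [modM, Matrix.SpecialLinearGroup.coe_one]
  exact Matrix.map_one _ (map_zero _) (map_one _)

theorem modM_mul (γ δ : SL(2, ℤ)) : modM M (γ * δ) = modM M γ * modM M δ := by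
  rw [modM, modM, modM, Matrix.SpecialLinearGroup.coe_mul, Matrix.map_mul]

theorem det_modM (γ : SL(2, ℤ)) : (modM M γ).det = 1 := by
  rw [modM, ← RingHom.mapMatrix_apply, ← RingHom.map_det, γ.det_coe, map_one]

theorem vecMul_modM_eq_zero_iff (γ : SL(2, ℤ)) (v : Vec M) :
    Matrix.vecMul v (modM M γ) = 0 ↔ v = 0 := by
  refine ⟨fun h => ?_, fun h => by rw [h, Matrix.zero_vecMul]⟩
  have h1 := congrArg (fun w => Matrix.vecMul w (modM M γ).adjugate) h
  simpa [Matrix.vecMul_vecMul, Matrix.mul_adjugate, det_modM γ] using h1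

/-- Homogeneity of `℘`. -/
theorem weierstrassP_mul {L L' : PeriodPair} {c : ℂ} (hc : c ≠ 0)
    (h : ∀ x, x ∈ L.lattice ↔ c * x ∈ L'.lattice) (z : ℂ) :
    L'.weierstrassP (c * z) = (c ^ 2)⁻¹ * L.weierstrassP z := by
  let e : L.lattice ≃ L'.lattice :=
    { toFun := fun x => ⟨c * x, (h x).1 x.2⟩
      invFun := fun y => ⟨c⁻¹ * y, (h _).2 (by rw [mul_inv_cancel_left₀ hc]; exact y.2)⟩
      left_inv := fun x => Subtype.ext (inv_mul_cancel_left₀ hc _)
      right_inv := fun y => Subtype.ext (mul_inv_cancel_left₀ hc _) }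
  refine (L'.hasSum_weierstrassP (c * z)).unique ?_
  rw [← e.hasSum_iff]
  refine ((L.hasSum_weierstrassP z).mul_left (c ^ 2)⁻¹).congr_fun fun x => ?_
  show 1 / (c * z - c * x) ^ 2 - 1 / (c * x) ^ 2 = _
  rw [← mul_sub c z, mul_pow, mul_pow, one_div, one_div, one_div, one_div, mul_inv, mul_inv,
    mul_sub]

theorem wp_smul (γ : SL(2, ℤ)) (v : Vec M) (τ : ℍ) :
    wp v (γ • τ) = ((γ 1 0 : ℂ) * τ + γ 1 1) ^ 2 * wp (Matrix.vecMul v (modM M γ)) τ := by
  set u : ℂ := (γ 1 0 : ℂ) * τ + γ 1 1 with hu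
  have hu0 : u ≠ 0 := by
    have := UpperHalfPlane.denom_ne_zero (γ : GL (Fin 2) ℝ) τ
    rw [ModularGroup.denom_apply] at this
    exact this
  have hdet : (γ 0 0 : ℂ) * γ 1 1 - γ 0 1 * γ 1 0 = 1 := by
    have h := γ.2
    rw [Matrix.det_fin_two] at h
    exact_mod_cast h
  have hnum : u * ((γ • τ : ℍ) : ℂ) = (γ 0 0 : ℂ) * τ + γ 0 1 := by
    rw [coe_specialLinearGroup_apply]
    simp only [eq_intCast, Complex.ofReal_intCast]
    rw [mul_div_assoc', mul_comm, mul_div_assoc, div_self hu0, mul_one]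
  -- `u` maps the lattice of `γ τ` onto that of `τ`
  have hL : ∀ x, x ∈ (latticePair (γ • τ)).lattice ↔ u * x ∈ (latticePair τ).lattice := by
    intro x
    rw [mem_latticePair, mem_latticePair]
    constructor
    · rintro ⟨m, n, rfl⟩
      refine ⟨m * γ 0 0 + n * γ 1 0, m * γ 0 1 + n * γ 1 1, ?_⟩
      push_cast
      rw [mul_add, mul_left_comm, hnum, hu]
      ring
    · rintro ⟨m, n, hx⟩
      refine ⟨m * γ 1 1 - n * γ 1 0, n * γ 0 0 - m * γ 0 1, ?_⟩
      apply mul_left_cancel₀ hu0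
      push_cast
      rw [← hx, mul_add, mul_left_comm, hnum, hu]
      linear_combination ((m : ℂ) * τ + n) * hdet
  have key := weierstrassP_mul hu0 hL (torsPt v ((γ • τ : ℍ) : ℂ))
  have h2 : (latticePair τ).weierstrassP (u * torsPt v ((γ • τ : ℍ) : ℂ)) =
      wp (Matrix.vecMul v (modM M γ)) τ := by
    obtain ⟨K₀, hK₀⟩ : (M : ℤ) ∣ ((v 0).val : ℤ) * γ 0 0 + ((v 1).val : ℤ) * γ 1 0 -
        ((Matrix.vecMul v (modM M γ) 0).val : ℤ) := by
      rw [← ZMod.intCast_zmod_eq_zero_iff_dvd]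
      push_cast
      simp [Matrix.vecMul, dotProduct, Fin.sum_univ_two]
    obtain ⟨K₁, hK₁⟩ : (M : ℤ) ∣ ((v 0).val : ℤ) * γ 0 1 + ((v 1).val : ℤ) * γ 1 1 -
        ((Matrix.vecMul v (modM M γ) 1).val : ℤ) := by
      rw [← ZMod.intCast_zmod_eq_zero_iff_dvd]
      push_cast
      simp [Matrix.vecMul, dotProduct, Fin.sum_univ_two]
    have hl : (K₀ : ℂ) * τ + K₁ ∈ (latticePair τ).lattice := mem_latticePair.2 ⟨K₀, K₁, rfl⟩
    have hM : (M : ℂ) ≠ 0 := Nat.cast_ne_zero.2 (NeZero.ne M)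
    have e : u * torsPt v ((γ • τ : ℍ) : ℂ) =
        torsPt (Matrix.vecMul v (modM M γ)) τ + ((K₀ : ℂ) * τ + K₁) := by
      have h0 := congrArg (Int.cast : ℤ → ℂ) hK₀
      have h1 := congrArg (Int.cast : ℤ → ℂ) hK₁
      push_cast at h0 h1
      simp only [torsPt]
      rw [mul_div_assoc', mul_add, mul_left_comm, hnum, div_add' _ _ _ hM, hu]
      congr 1
      linear_combination (τ : ℂ) * h0 + h1
    rw [e]
    exact (latticePair τ).weierstrassP_add_coe _ ⟨_, hl⟩
  rw [← h2, key, ← mul_assoc, mul_inv_cancel₀ (pow_ne_zero 2 hu0), one_mul]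
  rfl

theorem wFun_smul (γ : SL(2, ℤ)) (τ : ℍ) :
    wFun (γ • τ) = ((γ 1 0 : ℂ) * τ + γ 1 1) ^ (-2 : ℤ) * wFun τ := by
  have hu0 : (γ 1 0 : ℂ) * τ + γ 1 1 ≠ 0 := by
    have := UpperHalfPlane.denom_ne_zero (γ : GL (Fin 2) ℝ) τ
    rw [ModularGroup.denom_apply] at this
    exact this
  have hmem : (γ : GL (Fin 2) ℝ) ∈ 𝒮ℒ := ⟨γ, rfl⟩
  have h4 := SlashInvariantForm.slash_action_eqn'' ModularForm.E₄ hmem τ
  have h6 := SlashInvariantForm.slash_action_eqn'' ModularForm.E₆ hmem τ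
  have hΔ := SlashInvariantForm.slash_action_eqn'' CuspForm.discriminant hmem τ
  have hd : UpperHalfPlane.denom (γ : GL (Fin 2) ℝ) τ = (γ 1 0 : ℂ) * τ + γ 1 1 :=
    ModularGroup.denom_apply γ τ
  have hs : (γ : GL (Fin 2) ℝ) • τ = γ • τ := rfl
  simp only [hd, hs] at h4 h6 hΔ
  change ModularForm.discriminant (γ • τ) = _ * ModularForm.discriminant τ at hΔ
  rw [wFun, wFun, h4, h6, hΔ]
  have hD := ModularForm.discriminant_ne_zero τ
  simp only [zpow_neg, zpow_ofNat]
  field_simp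

theorem yFun_smul (γ : SL(2, ℤ)) (i : Idx M) (τ : ℍ) :
    yFun i (γ • τ) = yFun (idxMul i (modM M γ)) τ := by
  simp only [yFun, idxMul, vecMul_modM_eq_zero_iff]
  split
  · rfl
  · have hu0 : (γ 1 0 : ℂ) * τ + γ 1 1 ≠ 0 := by
      have := UpperHalfPlane.denom_ne_zero (γ : GL (Fin 2) ℝ) τ
      rw [ModularGroup.denom_apply] at this
      exact this
    rw [wp_smul, wp_smul, wFun_smul, zpow_neg, zpow_ofNat]
    field_simp

section Expansion

/-- `u / (1 - u) ^ 2`. -/
def rFun (u : ℂ) : ℂ := u / (1 - u) ^ 2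

theorem rFun_inv (u : ℂ) : rFun u⁻¹ = rFun u := by
  rcases eq_or_ne u 0 with rfl | hu
  · simp [rFun]
  rcases eq_or_ne u 1 with rfl | h1
  · simp [rFun]
  have h2 : 1 - u ≠ 0 := sub_ne_zero.2 (Ne.symm h1)
  have h3 : 1 - u⁻¹ = -(1 - u) / u := by field_simp; ring
  rw [rFun, rFun, h3, div_pow, neg_sq]
  field_simp

theorem rFun_eq_hasSum {u : ℂ} (hu : ‖u‖ < 1) :
    HasSum (fun k : ℕ+ => ((k : ℕ) : ℂ) * u ^ (k : ℕ)) (rFun u) := by
  have h : HasSum (fun k : ℕ => (k : ℂ) * u ^ k) (rFun u) :=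
    hasSum_coe_mul_geometric_of_norm_lt_one hu
  refine (Function.Injective.hasSum_iff PNat.coe_injective ?_).2 h
  intro x hx
  have : x = 0 := by
    by_contra h0
    exact hx ⟨⟨x, Nat.pos_of_ne_zero h0⟩, rfl⟩
  simp [this]

/-- The row sum `∑ 1 / (w + n) ^ 2`, in the upper half plane. -/
theorem tsum_inv_sq_upper (w : ℂ) (hw : 0 < w.im) :
    ∑' n : ℤ, 1 / (w + n) ^ 2 = (2 * π * Complex.I) ^ 2 * rFun (cexp (2 * π * Complex.I * w)) := by
  have h := EisensteinSeries.qExpansion_identity (k := 1) le_rfl ⟨w, hw⟩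
  have hn : ‖cexp (2 * π * Complex.I * w)‖ < 1 := UpperHalfPlane.norm_exp_two_pi_I_lt_one ⟨w, hw⟩
  simp only [Nat.reduceAdd, Nat.factorial_one, Nat.cast_one, div_one, pow_one] at h
  rw [h, tsum_coe_mul_geometric_of_norm_lt_one hn, rFun]
  ring

theorem continuousWithinAt_tsum_inv_sq {x : ℝ} (hx : ∀ n : ℤ, x + n ≠ 0) :
    ContinuousOn (fun w : ℂ => ∑' n : ℤ, 1 / (w + n) ^ 2) {w | w.re = x} := by
  refine continuousOn_tsum (u := fun n : ℤ => ‖1 / ((x : ℂ) + n) ^ 2‖) (fun n => ?_) ?_ ?_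
  · refine ContinuousOn.div continuousOn_const (by fun_prop) fun w hw h0 => ?_
    have h1 : w.re + n = 0 := by
      simpa using congrArg Complex.re (eq_zero_of_pow_eq_zero h0)
    rw [show w.re = x from hw] at h1
    exact hx n h1
  · have h := (EisensteinSeries.linear_right_summable (x : ℂ) 1 (k := 2) le_rfl).norm
    simpa [one_div] using h
  · intro n w hw
    rw [norm_div, norm_div, norm_pow, norm_pow]
    have h1 : ‖(x : ℂ) + n‖ = |x + n| := by
      rw [show (x : ℂ) + n = ((x + n : ℝ) : ℂ) by push_cast; rfl, Complex.norm_real,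
        Real.norm_eq_abs]
    have h2 : |x + n| ≤ ‖w + n‖ := by
      have := Complex.abs_re_le_norm (w + n)
      rw [Complex.add_re, Complex.intCast_re, show w.re = x from hw] at this
      exact this
    rw [h1]
    gcongr
    exact pow_pos (abs_pos.2 (hx n)) 2

/-- The row sum at any point not an integer. -/
theorem tsum_inv_sq (w : ℂ) (hw : ∀ n : ℤ, w + n ≠ 0) :
    ∑' n : ℤ, 1 / (w + n) ^ 2 = (2 * π * Complex.I) ^ 2 * rFun (cexp (2 * π * Complex.I * w)) := by
  rcases lt_trichotomy w.im 0 with h | h | h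
  · have h' := tsum_inv_sq_upper (-w) (by simpa using h)
    rw [mul_neg, Complex.exp_neg, rFun_inv] at h'
    rw [← h', ← (Equiv.neg ℤ).tsum_eq]
    refine tsum_congr fun n => ?_
    simp only [Equiv.neg_apply, Int.cast_neg]
    rw [show w + -(n : ℂ) = -(-w + n) by ring, neg_sq]
  · obtain ⟨x, rfl⟩ : ∃ x : ℝ, w = x := ⟨w.re, Complex.ext rfl (by simpa using h)⟩
    have hx : ∀ n : ℤ, x + n ≠ 0 := fun n e => hw n (by exact_mod_cast congrArg (Complex.ofReal) e)
    have hl : Tendsto (fun y : ℝ => (x : ℂ) + y * Complex.I) (𝓝[>] 0) (𝓝[{w | w.re = x}] (x : ℂ)) := by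
      refine tendsto_nhdsWithin_iff.2 ⟨?_, Eventually.of_forall fun y => by simp⟩
      have hc : Continuous (fun y : ℝ => (x : ℂ) + y * Complex.I) := by fun_prop
      simpa using (hc.tendsto 0).mono_left nhdsWithin_le_nhds
    have h1 := Tendsto.comp
      ((continuousWithinAt_tsum_inv_sq hx) (x : ℂ) (Complex.ofReal_re x)) hl
    have h2 : Tendsto (fun w : ℂ => (2 * π * Complex.I) ^ 2 * rFun (cexp (2 * π * Complex.I * w))) (𝓝 (x : ℂ))
        (𝓝 ((2 * π * Complex.I) ^ 2 * rFun (cexp (2 * π * Complex.I * x)))) := by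
      refine ContinuousAt.tendsto ?_
      unfold rFun
      refine ContinuousAt.mul continuousAt_const (ContinuousAt.div (by fun_prop) (by fun_prop) ?_)
      refine pow_ne_zero 2 (sub_ne_zero.2 fun e => ?_)
      obtain ⟨n, hn⟩ := Complex.exp_eq_one_iff.1 e.symm
      have hxn : (x : ℂ) = n := by
        apply mul_left_cancel₀ Complex.two_pi_I_ne_zero
        rw [hn]; ring
      exact hw (-n) (by rw [hxn]; push_cast; ring)
    refine tendsto_nhds_unique h1 (((h2.mono_left nhdsWithin_le_nhds).comp hl).congr' ?_)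
    filter_upwards [self_mem_nhdsWithin] with y hy
    exact (tsum_inv_sq_upper _ (by simpa using hy)).symm
  · exact tsum_inv_sq_upper w h

variable (M) in
/-- `exp (2 π i τ / M)`. -/
abbrev tPar (τ : ℍ) : ℂ := Periodic.qParam (M : ℝ) (τ : ℂ)

theorem norm_tPar_lt_one (τ : ℍ) : ‖tPar M τ‖ < 1 :=
  Periodic.norm_qParam_lt_one (Nat.cast_pos.2 (NeZero.pos M)) τ.im_pos

theorem tPar_ne_zero (τ : ℍ) : tPar M τ ≠ 0 := Complex.exp_ne_zero _

theorem norm_zetaC_pow (n : ℕ) : ‖zetaC M ^ n‖ = 1 := by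
  rw [norm_pow, IsPrimitiveRoot.norm'_eq_one isPrimitiveRoot_zetaC (NeZero.ne M), one_pow]

theorem norm_zpowZ_zetaC (a : ZMod M) : ‖zpowZ ℂ (zetaC M) a‖ = 1 := norm_zetaC_pow _

theorem exp_torsPt_add (v : Vec M) (τ : ℍ) (m : ℤ) :
    cexp (2 * π * Complex.I * (torsPt v τ + m * τ)) =
      zpowZ ℂ (zetaC M) (v 1) * tPar M τ ^ ((v 0).val + (M : ℤ) * m) := by
  have hM : (M : ℂ) ≠ 0 := Nat.cast_ne_zero.2 (NeZero.ne M)
  rw [zpowZ, zetaC, ← Complex.exp_nat_mul, tPar, Periodic.qParam, ← Complex.exp_int_mul,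
    ← Complex.exp_add, torsPt]
  congr 1
  push_cast
  field_simp
  ring

/-- The summand of the double series attached to `v`. -/
def term (v : Vec M) (τ : ℍ) (x : ℕ+ × ℕ+) : ℂ :=
  ((x.1 : ℕ) : ℂ) * ((if ((x.2 : ℕ) : ZMod M) = v 0 then zpowZ ℂ (zetaC M) (((x.1 : ℕ) : ZMod M) * v 1) else 0) +
    (if ((x.2 : ℕ) : ZMod M) = -v 0 then zpowZ ℂ (zetaC M) (-(((x.1 : ℕ) : ZMod M) * v 1)) else 0)) *
    tPar M τ ^ ((x.1 : ℕ) * (x.2 : ℕ))

theorem summable_prod_kd (τ : ℍ) :
    Summable fun x : ℕ+ × ℕ+ => ((x.1 : ℕ) : ℝ) * ‖tPar M τ‖ ^ ((x.1 : ℕ) * (x.2 : ℕ)) := by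
  have h := (summable_prod_mul_pow 1 (𝕜 := ℂ) (norm_tPar_lt_one (M := M) τ)).norm
  rw [← (Equiv.prodComm ℕ+ ℕ+).summable_iff] at h
  refine h.congr fun x => ?_
  simp [mul_comm ((x.1 : ℕ)) ((x.2 : ℕ))]

theorem summable_term (v : Vec M) (τ : ℍ) : Summable (term v τ) := by
  refine Summable.of_norm_bounded ((summable_prod_kd (M := M) τ).mul_left 2) fun x => ?_
  rw [term, norm_mul, norm_mul, norm_pow, Complex.norm_natCast]
  have : ‖(if ((x.2 : ℕ) : ZMod M) = v 0 then zpowZ ℂ (zetaC M) (((x.1 : ℕ) : ZMod M) * v 1) else 0) +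
      (if ((x.2 : ℕ) : ZMod M) = -v 0 then zpowZ ℂ (zetaC M) (-(((x.1 : ℕ) : ZMod M) * v 1)) else 0)‖ ≤ 2 := by
    refine (norm_add_le _ _).trans ?_
    have hz : ∀ (P : Prop) [Decidable P] (a : ZMod M),
        ‖if P then zpowZ ℂ (zetaC M) a else 0‖ ≤ 1 := by
      intro P _ a
      split
      · rw [norm_zpowZ_zetaC]
      · simp
    linarith [hz (((x.2 : ℕ) : ZMod M) = v 0) (((x.1 : ℕ) : ZMod M) * v 1),
      hz (((x.2 : ℕ) : ZMod M) = -v 0) (-(((x.1 : ℕ) : ZMod M) * v 1))]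
  calc _ ≤ ((x.1 : ℕ) : ℝ) * 2 * ‖tPar M τ‖ ^ ((x.1 : ℕ) * (x.2 : ℕ)) := by gcongr
    _ = _ := by ring

/-- Summing `term` along the hyperbolas gives the coefficients. -/
theorem hasSum_coeff (v : Vec M) (τ : ℍ) :
    HasSum (fun n : ℕ => xCoeff ℂ (zetaC M) v n * tPar M τ ^ n)
      (xCoeff ℂ (zetaC M) v 0 + ∑' x, term v τ x) := by
  have h := (summable_term v τ).hasSum
  rw [← sigmaAntidiagonalEquivProd.hasSum_iff] at h
  have h1 : HasSum (fun n : ℕ+ => xCoeff ℂ (zetaC M) v (n : ℕ) * tPar M τ ^ (n : ℕ))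
      (∑' x, term v τ x) := by
    refine h.sigma fun n => ?_
    have h2 := hasSum_fintype (fun c : {x // x ∈ (n : ℕ).divisorsAntidiagonal} =>
      (term v τ ∘ sigmaAntidiagonalEquivProd) ⟨n, c⟩)
    convert! h2 using 1
    obtain ⟨m, hm⟩ : ∃ m, (n : ℕ) = m + 1 := ⟨(n : ℕ) - 1, by have := n.pos; omega⟩
    rw [Finset.univ_eq_attach]
    refine Eq.trans ?_ (Finset.sum_attach (n : ℕ).divisorsAntidiagonal fun kd => (kd.1 : ℂ) *
      ((if (kd.2 : ZMod M) = v 0 then zpowZ ℂ (zetaC M) ((kd.1 : ZMod M) * v 1) else 0) +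
        (if (kd.2 : ZMod M) = -v 0 then zpowZ ℂ (zetaC M) (-((kd.1 : ZMod M) * v 1)) else 0)) *
        tPar M τ ^ (kd.1 * kd.2)).symm
    rw [hm, xCoeff, Finset.sum_mul]
    refine Finset.sum_congr rfl fun kd hkd => ?_
    rw [(Nat.mem_divisorsAntidiagonal.1 hkd).1]
  rw [← hasSum_nat_add_iff' 1]
  simp only [Finset.range_one, Finset.sum_singleton, pow_zero, mul_one, add_sub_cancel_left]
  exact (Equiv.pnatEquivNat.symm.hasSum_iff).2 h1 |>.congr_fun fun n => by simp

/-- One of the two halves of `term`. -/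
def halfTerm (c a : ZMod M) (τ : ℍ) (x : ℕ+ × ℕ+) : ℂ :=
  if ((x.2 : ℕ) : ZMod M) = c then
    ((x.1 : ℕ) : ℂ) * zpowZ ℂ (zetaC M) (((x.1 : ℕ) : ZMod M) * a) *
      tPar M τ ^ ((x.1 : ℕ) * (x.2 : ℕ)) else 0

theorem term_eq_halfTerm (v : Vec M) (τ : ℍ) (x : ℕ+ × ℕ+) :
    term v τ x = halfTerm (v 0) (v 1) τ x + halfTerm (-v 0) (-v 1) τ x := by
  simp only [term, halfTerm, mul_neg]
  split <;> split <;> ring

theorem summable_halfTerm (c a : ZMod M) (τ : ℍ) : Summable (halfTerm c a τ) := by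
  refine Summable.of_norm_bounded (summable_prod_kd (M := M) τ) fun x => ?_
  rw [halfTerm]
  split
  · rw [norm_mul, norm_mul, norm_pow, Complex.norm_natCast, norm_zpowZ_zetaC, mul_one]
  · rw [norm_zero]; positivity

/-- The `d`th fibre of `halfTerm`. -/
theorem hasSum_halfTerm_fiber (c a : ZMod M) (τ : ℍ) (d : ℕ+) :
    HasSum (fun k : ℕ+ => halfTerm c a τ (k, d))
      (if ((d : ℕ) : ZMod M) = c then rFun (zpowZ ℂ (zetaC M) a * tPar M τ ^ (d : ℕ)) else 0) := by
  simp only [halfTerm]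
  split
  · have hn : ‖zpowZ ℂ (zetaC M) a * tPar M τ ^ (d : ℕ)‖ < 1 := by
      rw [norm_mul, norm_zpowZ_zetaC, one_mul, norm_pow]
      exact pow_lt_one₀ (norm_nonneg _) (norm_tPar_lt_one τ) d.ne_zero
    refine (rFun_eq_hasSum hn).congr_fun fun k => ?_
    have hz : zpowZ ℂ (zetaC M) a ^ (k : ℕ) = zpowZ ℂ (zetaC M) (((k : ℕ) : ZMod M) * a) := by
      have h := isPrimitiveRoot_zetaC (M := M) |>.pow_eq_one
      rw [zpowZ, zpowZ, ← pow_mul, ZMod.val_mul, ZMod.val_natCast, Nat.mod_mul_mod, mul_comm]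
      exact pow_eq_pow_mod _ h
    rw [mul_pow, hz, ← pow_mul, mul_comm (d : ℕ) (k : ℕ)]
    ring
  · exact hasSum_zero

/-- Sums of `rFun` along an arithmetic progression of positive exponents. -/
theorem hasSum_progression (c a : ZMod M) (τ : ℍ) (e : ℕ → ℕ+) (he : Injective e)
    (hrange : ∀ d : ℕ+, ((d : ℕ) : ZMod M) = c ↔ d ∈ Set.range e) :
    HasSum (fun j : ℕ => rFun (zpowZ ℂ (zetaC M) a * tPar M τ ^ ((e j : ℕ+) : ℕ)))
      (∑' x, halfTerm c a τ x) := by
  have h := (summable_halfTerm c a τ).hasSum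
  rw [← (Equiv.prodComm ℕ+ ℕ+).hasSum_iff] at h
  have h1 := h.prod_fiberwise (fun d => hasSum_halfTerm_fiber c a τ d)
  rw [← he.hasSum_iff (fun d hd => by rw [if_neg (fun h0 => hd ((hrange d).1 h0))])] at h1
  refine h1.congr_fun fun j => ?_
  simp only [Function.comp_apply]
  rw [if_pos ((hrange (e j)).2 ⟨j, rfl⟩)]

/-- The row sums of the lattice series add up to the expansion. -/
theorem hasSum_rows {v : Vec M} (_hv : v ≠ 0) (τ : ℍ) :
    HasSum (fun m : ℤ => rFun (cexp (2 * π * Complex.I * (torsPt v τ + m * τ))))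
      (xCoeff ℂ (zetaC M) v 0 + ∑' x, term v τ x) := by
  rw [funext (term_eq_halfTerm v τ),
    (summable_halfTerm _ _ τ).tsum_add (summable_halfTerm _ _ τ), ← add_assoc]
  have hb : (v 0).val < M := ZMod.val_lt _
  refine HasSum.of_nat_of_neg_add_one ?_ ?_
  · -- non-negative rows
    simp only [exp_torsPt_add]
    by_cases h0 : v 0 = 0
    · have hz : (v 0).val = 0 := by rw [h0, ZMod.val_zero]
      rw [← hasSum_nat_add_iff' 1]
      have := hasSum_progression (v 0) (v 1) τ (fun j => ⟨M * (j + 1), Nat.mul_pos (NeZero.pos M) j.succ_pos⟩)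
        (fun i j hij => by
          have := congrArg (fun x : ℕ+ => (x : ℕ)) hij
          simpa using Nat.eq_of_mul_eq_mul_left (NeZero.pos M) this)
        (fun d => by
          rw [h0, ZMod.natCast_eq_zero_iff]
          constructor
          · rintro ⟨q, hq⟩
            obtain ⟨j, rfl⟩ : ∃ j, q = j + 1 := ⟨q - 1, by
              rcases Nat.eq_zero_or_pos q with rfl | hq0
              · simp at hq
              · omega⟩
            exact ⟨j, PNat.eq hq.symm⟩
          · rintro ⟨j, rfl⟩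
            exact ⟨j + 1, rfl⟩)
      rw [Finset.range_one, Finset.sum_singleton, Nat.cast_zero, hz, Nat.cast_zero, mul_zero,
        add_zero, zpow_zero, mul_one, add_sub_assoc]
      have e : xCoeff ℂ (zetaC M) v 0 = rFun (zpowZ ℂ (zetaC M) (v 1)) := by
        rw [xCoeff, if_pos h0, rFun]
      rw [e, add_sub_cancel]
      refine this.congr_fun fun j => ?_
      rw [PNat.mk_coe, ← zpow_natCast (tPar M τ)]
      push_cast
      rw [zero_add]
    · have hx0 : xCoeff ℂ (zetaC M) v 0 = 0 := by simp [xCoeff, h0]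
      have hpos : 0 < (v 0).val := Nat.pos_of_ne_zero fun h => h0 ((ZMod.val_eq_zero _).1 h)
      rw [hx0, zero_add]
      refine (hasSum_progression (v 0) (v 1) τ (fun j => ⟨(v 0).val + M * j, by omega⟩)
        (fun i j hij => by
          have := congrArg (fun x : ℕ+ => (x : ℕ)) hij
          simpa [NeZero.ne M] using this)
        (fun d => ?_)).congr_fun fun j => ?_
      · constructor
        · intro hd
          have e1 : (d : ℕ) % M = (v 0).val := by rw [← hd, ZMod.val_natCast]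
          refine ⟨(d : ℕ) / M, PNat.eq ?_⟩
          show (v 0).val + M * ((d : ℕ) / M) = d
          rw [← e1]; exact Nat.mod_add_div _ _
        · rintro ⟨j, rfl⟩
          simp
      · rw [← zpow_natCast (tPar M τ)]
        norm_num
  · -- negative rows
    refine (hasSum_progression (-v 0) (-v 1) τ
      (fun j => ⟨M * (j + 1) - (v 0).val, by
        have : M * 1 ≤ M * (j + 1) := Nat.mul_le_mul_left _ (by omega)
        omega⟩)
      (fun i j hij => by
        have e := congrArg (fun x : ℕ+ => (x : ℕ)) hij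
        simp only [PNat.mk_coe] at e
        have h1 : M * 1 ≤ M * (i + 1) := Nat.mul_le_mul_left _ (by omega)
        have h2 : M * 1 ≤ M * (j + 1) := Nat.mul_le_mul_left _ (by omega)
        have : M * (i + 1) = M * (j + 1) := by omega
        simpa using Nat.eq_of_mul_eq_mul_left (NeZero.pos M) this)
      (fun d => ?_)).congr_fun fun j => ?_
    · constructor
      · intro hd
        obtain ⟨q, hq⟩ : M ∣ (d : ℕ) + (v 0).val := by
          rw [← ZMod.natCast_eq_zero_iff]
          simp [hd]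
        obtain ⟨j, rfl⟩ : ∃ j, q = j + 1 := ⟨q - 1, by
          rcases Nat.eq_zero_or_pos q with rfl | hq0
          · simp at hq
          · omega⟩
        exact ⟨j, PNat.eq (by show M * (j + 1) - (v 0).val = d; omega)⟩
      · rintro ⟨j, rfl⟩
        have : M * 1 ≤ M * (j + 1) := Nat.mul_le_mul_left _ (by omega)
        simp [Nat.cast_sub (show (v 0).val ≤ M * (j + 1) by omega)]
    · rw [exp_torsPt_add, ← rFun_inv, mul_inv, ← zpow_neg,
        ← zpowZ_neg _ (isPrimitiveRoot_zetaC (M := M)).pow_eq_one, ← zpow_natCast (tPar M τ)]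
      congr 3
      have : M * 1 ≤ M * (j + 1) := Nat.mul_le_mul_left _ (by omega)
      rw [PNat.mk_coe, Nat.cast_sub (show (v 0).val ≤ M * (j + 1) by omega)]
      push_cast
      ring

theorem torsPt_add_ne_zero {v : Vec M} (hv : v ≠ 0) (τ : ℍ) (m n : ℤ) :
    torsPt v τ + (m * τ + n) ≠ 0 := by
  intro h
  apply hv
  have hM : (M : ℂ) ≠ 0 := Nat.cast_ne_zero.2 (NeZero.ne M)
  rw [torsPt, div_add' _ _ _ hM, div_eq_zero_iff] at h
  replace h := h.resolve_right hM
  have him := congrArg Complex.im h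
  have h1 : (((v 0).val : ℤ) + (M : ℤ) * m : ℤ) = 0 := by
    have e : (((v 0).val : ℤ) + (M : ℤ) * m : ℤ) * τ.im = 0 := by
      push_cast
      simp [-ZMod.natCast_val, -mul_eq_zero, Complex.mul_im, Complex.add_im] at him ⊢
      linear_combination him
    exact_mod_cast (mul_eq_zero.1 e).resolve_right τ.im_ne_zero
  have h2 : (((v 1).val : ℤ) + (M : ℤ) * n : ℤ) = 0 := by
    have h1' : ((v 0).val : ℂ) + (M : ℂ) * m = 0 := by exact_mod_cast congrArg (Int.cast : ℤ → ℂ) h1
    have e : ((v 1).val : ℂ) + (M : ℂ) * n = 0 := by linear_combination h - (τ : ℂ) * h1'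
    exact_mod_cast e
  ext i
  fin_cases i
  · simpa using congrArg (Int.cast : ℤ → ZMod M) h1
  · simpa using congrArg (Int.cast : ℤ → ZMod M) h2

/-- The difference of two torsion values, summed by rows. -/
theorem hasSum_wp_sub {v w : Vec M} (hv : v ≠ 0) (hw : w ≠ 0) (τ : ℍ) :
    HasSum (fun m : ℤ => (2 * π * Complex.I) ^ 2 * (rFun (cexp (2 * π * Complex.I * (torsPt v τ + m * τ))) -
        rFun (cexp (2 * π * Complex.I * (torsPt w τ + m * τ))))) (wp v τ - wp w τ) := by
  let L := latticePair τ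
  have h := (L.hasSum_weierstrassP (torsPt v τ)).sub (L.hasSum_weierstrassP (torsPt w τ))
  let e : ℤ × ℤ ≃ L.lattice :=
    L.latticeEquivProd.symm.toEquiv.trans (Equiv.neg L.lattice)
  rw [← e.hasSum_iff] at h
  have he : ∀ p : ℤ × ℤ, ((e p : L.lattice) : ℂ) = -((p.1 : ℂ) * τ + p.2) := by
    intro p
    show -((L.latticeEquivProd.symm p : L.lattice) : ℂ) = _
    rw [L.latticeEquiv_symm_apply]
    simp [L, latticePair]
  have hs : ∀ (u : Vec M) (m : ℤ), Summable fun n : ℤ => 1 / (torsPt u τ + m * τ + n) ^ 2 := by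
    intro u m
    have := EisensteinSeries.linear_right_summable (torsPt u τ + m * τ) 1 (k := 2) le_rfl
    simpa [one_div] using this
  refine h.prod_fiberwise fun m => ?_
  have hne : ∀ {u : Vec M}, u ≠ 0 → ∀ n : ℤ, torsPt u τ + m * τ + n ≠ 0 := by
    intro u hu n
    rw [add_assoc]
    exact torsPt_add_ne_zero hu τ m n
  have h1 := (hs v m).hasSum.sub (hs w m).hasSum
  rw [tsum_inv_sq _ (hne hv), tsum_inv_sq _ (hne hw), ← mul_sub] at h1
  refine h1.congr_fun fun n => ?_
  simp only [Function.comp_apply, he, sub_neg_eq_add, ← add_assoc]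
  ring

theorem hasSum_xCoeff_sub {v w : Vec M} (hv : v ≠ 0) (hw : w ≠ 0) (τ : ℍ) :
    HasSum (fun n : ℕ => (xCoeff ℂ (zetaC M) v n - xCoeff ℂ (zetaC M) w n) * tPar M τ ^ n)
      ((wp v τ - wp w τ) / (2 * π * Complex.I) ^ 2) := by
  have h : HasSum (fun n : ℕ => (xCoeff ℂ (zetaC M) v n - xCoeff ℂ (zetaC M) w n) * tPar M τ ^ n)
      (xCoeff ℂ (zetaC M) v 0 + ∑' x, term v τ x
        - (xCoeff ℂ (zetaC M) w 0 + ∑' x, term w τ x)) := by
    simpa [sub_mul] using (hasSum_coeff v τ).sub (hasSum_coeff w τ)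
  have h2 := ((hasSum_rows hv τ).sub (hasSum_rows hw τ)).mul_left ((2 * π * Complex.I) ^ 2)
  rw [(hasSum_wp_sub hv hw τ).unique h2, mul_div_cancel_left₀ _ (pow_ne_zero 2 Complex.two_pi_I_ne_zero)]
  exact h

theorem mdifferentiable_of_hasSum {f : ℍ → ℂ} {c : ℕ → ℂ}
    (hf : ∀ τ : ℍ, HasSum (fun n : ℕ => c n * tPar M τ ^ n) (f τ)) : MDiff f := by
  set P := FormalMultilinearSeries.ofScalars ℂ c with hP
  have hhas : ∀ q : ℂ, ‖q‖ < 1 → q ≠ 0 → Summable fun n : ℕ => c n * q ^ n := by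
    intro q hq hq0
    have him := Periodic.im_invQParam_pos_of_norm_lt_one (h := (M : ℝ))
      (Nat.cast_pos.2 (NeZero.pos M)) hq hq0
    have h := (hf ⟨_, him⟩).summable
    have e : tPar M ⟨_, him⟩ = q :=
      Periodic.qParam_right_inv (Nat.cast_ne_zero.2 (NeZero.ne M)) hq0
    rwa [e] at h
  have hrad : 1 ≤ P.radius := by
    refine le_of_forall_lt_imp_le_of_dense fun r hr => ?_
    rcases eq_or_ne r 0 with rfl | hr'
    · simp
    lift r to NNReal using hr.ne_top
    refine FormalMultilinearSeries.le_radius_of_summable _ ?_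
    have := (hhas (r : ℝ) (by simpa using hr) (by simpa using hr')).norm
    simpa [hP, FormalMultilinearSeries.ofScalars_norm] using this
  have hsum : HasFPowerSeriesOnBall P.sum P 0 P.radius :=
    P.hasFPowerSeriesOnBall (lt_of_lt_of_le zero_lt_one hrad)
  have hd : DifferentiableOn ℂ (fun z : ℂ => P.sum (Periodic.qParam (M : ℝ) z))
      upperHalfPlaneSet := by
    intro z hz
    have hlt := Periodic.norm_qParam_lt_one (h := (M : ℝ)) (Nat.cast_pos.2 (NeZero.pos M)) hz
    have hmem : Periodic.qParam (M : ℝ) z ∈ Metric.eball (0 : ℂ) P.radius := by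
      refine Metric.eball_subset_eball hrad ?_
      rw [← ENNReal.coe_one, Metric.eball_coe, NNReal.coe_one, mem_ball_zero_iff]
      exact hlt
    refine ((hsum.analyticAt_of_mem hmem).differentiableAt.comp z ?_).differentiableWithinAt
    exact Periodic.differentiable_qParam z
  rw [UpperHalfPlane.mdifferentiable_iff]
  refine hd.congr fun z hz => ?_
  rw [Function.comp_apply, ofComplex_apply_of_im_pos hz, ← (hf ⟨z, hz⟩).tsum_eq]
  rw [hP, ← FormalMultilinearSeries.ofScalarsSum, FormalMultilinearSeries.ofScalars_sum_eq]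
  simp [tPar, smul_eq_mul]

theorem mdifferentiable_wFun : MDiff wFun :=
  (ModularFormClass.holo ModularForm.E₄).mul (ModularFormClass.holo ModularForm.E₆) |>.div
    (ModularFormClass.holo CuspForm.discriminant) ModularForm.discriminant_ne_zero

theorem mdifferentiable_yFun (i : Idx M) : MDiff (yFun i) := by
  unfold yFun
  split
  · exact mdifferentiable_const
  · next h =>
      push Not at h
      exact (mdifferentiable_of_hasSum (fun τ => hasSum_xCoeff_sub h.1 h.2 τ)).mul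
        mdifferentiable_wFun

theorem qExpansion_E₆ :
    qExpansion 1 ModularForm.E₆ = eisenstein6.map (Int.castRingHom ℂ) := by
  ext m
  rw [PowerSeries.coeff_map, eisenstein6, PowerSeries.coeff_mk,
    EisensteinSeries.E_qExpansion_coeff (by norm_num) ⟨3, rfl⟩]
  split
  · simp
  · rw [show bernoulli 6 = (1 : ℚ) / 42 by decide +kernel]
    rw [ArithmeticFunction.sigma_apply]
    push_cast
    norm_num

theorem hasQExp_wFun : ModFun.HasQExp 1 wFun (wSerQ ℂ) := by
  have hΓ : (1 : ℝ) ∈ (𝒮ℒ : Subgroup (GL (Fin 2) ℝ)).strictPeriods := by simp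
  have hE : ∀ {k : ℤ} (f : ModularForm 𝒮ℒ k),
      ModFun.HasQExp 1 f (HahnSeries.ofPowerSeries ℤ ℂ (qExpansion 1 f)) := by
    intro k f
    have := ModFun.hasQExp_qExpansion (h := 1) (f := f)
      (by simpa using SlashInvariantFormClass.periodic_comp_ofComplex f hΓ)
      (ModularFormClass.holo f) (ModularFormClass.bdd_at_infty f)
    simpa using this
  have hΔ : ModFun.HasQExp 1 ModularForm.discriminant
      (HahnSeries.ofPowerSeries ℤ ℂ (qExpansion 1 ModularForm.discriminant)) := by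
    have := ModFun.hasQExp_qExpansion (h := 1) (f := CuspForm.discriminant)
      (by simpa using SlashInvariantFormClass.periodic_comp_ofComplex CuspForm.discriminant hΓ)
      (ModularFormClass.holo CuspForm.discriminant)
      (ModularFormClass.bdd_at_infty CuspForm.discriminant)
    simpa using this
  refine ((hE ModularForm.E₄).mul (hE ModularForm.E₆)).div hΔ |>.of_eq ?_
  rw [ModFun.qExpansion_E₄, qExpansion_E₆, ModFun.qExpansion_discriminant]
  have hne : HahnSeries.ofPowerSeries ℤ ℂ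
      (PowerSeries.X * ModularCurve.dedekindEtaUnit.map (Int.castRingHom ℂ)) ≠ 0 := by
    intro h
    have := HahnSeries.ofPowerSeries_injective (h.trans (map_zero _).symm)
    have h1 := congrArg (PowerSeries.coeff 1) this
    simp [PowerSeries.coeff_zero_eq_constantCoeff, ModularCurve.constantCoeff_dedekindEtaUnit] at h1
  rw [div_eq_iff hne, wSerQ]
  simp only [map_mul, HahnSeries.ofPowerSeries_X]
  have h2 : HahnSeries.ofPowerSeries ℤ ℂ
        (ModularCurve.dedekindEtaUnitInv.map (Int.castRingHom ℂ)) *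
      HahnSeries.ofPowerSeries ℤ ℂ (ModularCurve.dedekindEtaUnit.map (Int.castRingHom ℂ)) = 1 := by
    rw [← map_mul, ← map_mul, mul_comm, ModularCurve.dedekindEtaUnit_mul_inv, map_one, map_one]
  have h3 : (HahnSeries.single (-1 : ℤ) (1 : ℂ) : LaurentSeries ℂ) * HahnSeries.single 1 1 = 1 := by
    simp
  linear_combination (-(HahnSeries.ofPowerSeries ℤ ℂ (ModularCurve.eisenstein4.map (Int.castRingHom ℂ))) *
      (HahnSeries.ofPowerSeries ℤ ℂ (eisenstein6.map (Int.castRingHom ℂ)))) *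
    ((HahnSeries.single (-1 : ℤ) (1 : ℂ) : LaurentSeries ℂ) * HahnSeries.single 1 1 * h2 + h3)

theorem hasQExp_yFun (i : Idx M) : ModFun.HasQExp M (yFun i) (ySer ℂ (zetaC M) i) := by
  unfold yFun ySer
  split
  · exact ModFun.HasQExp.zero
  · next h =>
      push Not at h
      refine ModFun.HasQExp.mul ?_ ?_
      · refine Filter.Eventually.of_forall fun τ => ?_
        refine (Function.Injective.hasSum_iff Nat.cast_injective (f := fun k : ℤ =>
          (xSer ℂ (zetaC M) i.1 - xSer ℂ (zetaC M) i.2).coeff k * tPar M τ ^ k) ?_).1 ?_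
        · intro k hk
          have hk0 : k < 0 := by
            by_contra h0
            exact hk ⟨k.toNat, by omega⟩
          simp [xSer_coeff_of_neg ℂ (zetaC M) _ hk0]
        · refine (hasSum_xCoeff_sub h.1 h.2 τ).congr_fun fun n => ?_
          simp [xSer_coeff_natCast ℂ (zetaC M) h.1, xSer_coeff_natCast ℂ (zetaC M) h.2]
      · simpa [wSer] using hasQExp_wFun.expand_period M

end Expansion

end Fermat.Agent.DeligneSerre.Level

end
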